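/-
PADIC — interface definitions (architect: helper20).  Plan: report `PADIC`/`plan` of 17:16 UTC.

* `GoodRed A N`       : what PADIC consumes from the reduction layer of ESJ (helper81's draft).
* `FlatClause l V act`: the finite-flat clause of the Prelude (body of `GaloisRepAdic.IsFlatAt`
                        and of the frozen S19), for an arbitrary finite Galois module.
* `HasLocalOrder A V act` : a finite set of `A`-integral, inertia-equivariant functions on `V`
                        separating points and closed under comultiplication (the LOCAL order).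
* `FlatSubgroups l M` : every finite Galois-stable subgroup of `J₀(M)(ℚ̄)` satisfies `FlatClause`.
* `FlatTorsion N l`   : the literal body of the frozen S19 at level `N` and prime `l`.
-/
import Mathlib
import Fermat.Prelude.Def_GaloisRep_Flat
import Fermat.Prelude.Def_ModularCurve_ReductionModL
import Fermat.Prelude.Def_FLTPrelim_Ramification
import Fermat.Prelude.Def_AlgebraicCurve_Repartitions

set_option autoImplicit false

namespace Fermat.Agent.Padic

open ModularCurve AlgebraicCurve

/-- The algebraic closure of `ℚ` used by the Prelude. -/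
abbrev Qb : Type := AlgebraicClosure ℚ

/-- The absolute Galois group of `ℚ`. -/
abbrev GQ : Type := Qb ≃ₐ[ℚ] Qb

set_option synthInstance.maxHeartbeats 400000 in
/-- **GOOD REDUCTION DATA** at a valuation subring `A` of `ℚ̄` for the level `N`: the level is
invertible in the residue field, a place reduction with the Prelude's specification exists,
and the genus is preserved. -/
structure GoodRed (A : ValuationSubring (AlgebraicClosure ℚ)) (N : ℕ) : Prop where
  level : (N : IsLocalRing.ResidueField A) ≠ 0
  inputs : ReductionInputsModL A N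
  genus : genusFF (IsLocalRing.ResidueField A)
      ↥(modularFunctionFieldFullC (IsLocalRing.ResidueField A) N) =
    genusFF (AlgebraicClosure ℚ) ↥(modularFunctionFieldBar N)

/-- **The finite-flat clause** of the Prelude for a Galois module `(V, act)`: `V` is,
equivariantly, the group of `ℚ̄`-points of a finite flat cocommutative Hopf algebra over
`ℤ_(l)`.  This is literally the conclusion of
`Fermat.Agent.Lib.FinFlat.IsHopfOrder.exists_hopfAlgebra`. -/
def FlatClause (l : ℕ) (V : Type) [AddCommGroup V] (act : GQ → V → V) : Prop :=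
  ∃ (H : Type) (_ : CommRing H) (_ : HopfAlgebra (GaloisRep.ratLocalizedAt l) H),
    Module.Finite (GaloisRep.ratLocalizedAt l) H ∧ Module.Flat (GaloisRep.ratLocalizedAt l) H ∧
    Coalgebra.IsCocomm (GaloisRep.ratLocalizedAt l) H ∧
    ∃ e : WithConv (H →ₐ[GaloisRep.ratLocalizedAt l] Qb) ≃ V,
      (∀ f g, e (f * g) = e f + e g) ∧
      ∀ (σ : GQ) (f g : WithConv (H →ₐ[GaloisRep.ratLocalizedAt l] Qb)),
        (∀ h : H, g h = σ (f h)) → e g = act σ (e f)

/-- **A local order** on the Galois module `(V, act)` at the valuation subring `A` of `ℚ̄`: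
finitely many functions `V → ℚ̄` with values in `A`, equivariant for the inertia group of `A`,
separating the points of `V`, such that the comultiplication of each of them is a finite sum
of products of elements of the `A`-algebra they generate. -/
def HasLocalOrder (A : ValuationSubring Qb) (V : Type) [AddCommGroup V] (act : GQ → V → V) :
    Prop :=
  ∃ s : Set (V → Qb), s.Finite ∧
    (∀ f ∈ s, (∀ v, f v ∈ A) ∧ ∀ σ ∈ A.inertiaSubgroupIn ℚ, ∀ v, f (act σ v) = σ (f v)) ∧
    (∀ v w : V, (∀ f ∈ s, f v = f w) → v = w) ∧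
    ∀ f ∈ s, ∃ (n : ℕ) (g h : Fin n → Algebra.adjoin A s), ∀ v w : V,
      f (v + w) = ∑ i, (g i : V → Qb) v * (h i : V → Qb) w

/-- The Galois action on a Galois-stable subgroup of `J₀(M)(ℚ̄)`. -/
noncomputable def subAct {M : ℕ} (V : AddSubgroup (JZero M))
    (hV : ∀ (σ : GQ) (x : JZero M), x ∈ V → σ • x ∈ V) : GQ → V → V :=
  fun σ x => ⟨σ • (x : JZero M), hV σ x x.2⟩

@[simp]
theorem coe_subAct {M : ℕ} (V : AddSubgroup (JZero M))
    (hV : ∀ (σ : GQ) (x : JZero M), x ∈ V → σ • x ∈ V) (σ : GQ) (x : V) :
    ((subAct V hV σ x : V) : JZero M) = σ • (x : JZero M) :=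
  rfl

/-- Every finite Galois-stable subgroup of `J₀(M)(ℚ̄)` has a local order at `A`. -/
def LocalOrders (A : ValuationSubring Qb) (M : ℕ) : Prop :=
  ∀ (V : AddSubgroup (JZero M)) (_ : Finite V)
    (hV : ∀ (σ : GQ) (x : JZero M), x ∈ V → σ • x ∈ V), HasLocalOrder A V (subAct V hV)

/-- Every finite Galois-stable subgroup of `J₀(M)(ℚ̄)` is finite flat at `l`. -/
def FlatSubgroups (l M : ℕ) : Prop :=
  ∀ (V : AddSubgroup (JZero M)) (_ : Finite V)
    (hV : ∀ (σ : GQ) (x : JZero M), x ∈ V → σ • x ∈ V), FlatClause l V (subAct V hV)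

/-- The literal body of the frozen statement S19 at level `N` and prime `l`. -/
def FlatTorsion (N l : ℕ) : Prop :=
  ∀ k : ℕ,
    ∃ (H : Type) (_ : CommRing H) (_ : HopfAlgebra (GaloisRep.ratLocalizedAt l) H),
      Module.Finite (GaloisRep.ratLocalizedAt l) H ∧ Module.Flat (GaloisRep.ratLocalizedAt l) H ∧
      Coalgebra.IsCocomm (GaloisRep.ratLocalizedAt l) H ∧
      ∃ e : WithConv (H →ₐ[GaloisRep.ratLocalizedAt l] AlgebraicClosure ℚ) ≃
          ↥(Submodule.torsionBy ℤ (JZero N) ((l : ℤ) ^ k)),
        (∀ f g, e (f * g) = e f + e g) ∧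
        ∀ (σ : AlgebraicClosure ℚ ≃ₐ[ℚ] AlgebraicClosure ℚ)
          (f g : WithConv (H →ₐ[GaloisRep.ratLocalizedAt l] AlgebraicClosure ℚ)),
          (∀ h : H, g h = σ (f h)) → ((e g : JZero N)) = σ • (e f : JZero N)

/-! ## The four layer statements as `Prop`s -/

/-- **(DL)** descent: a local order at ONE valuation subring over `l` gives the finite-flat
clause (owner: helper48, `Lib/FinFlat/Descent.lean`). -/
def DL : Prop :=
  ∀ (l : ℕ) (_ : Fact l.Prime) (A : ValuationSubring Qb) (_ : A.LiesOverPrime l)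
    (V : Type) (_ : AddCommGroup V) (_ : Finite V) (act : GQ → V → V)
    (_ : ∀ v, act 1 v = v) (_ : ∀ σ τ v, act (σ * τ) v = act σ (act τ v))
    (_ : ∀ σ v w, act σ (v + w) = act σ v + act σ w)
    (_ : ∃ L : IntermediateField ℚ Qb, FiniteDimensional ℚ L ∧
      ∀ σ : GQ, (∀ x ∈ L, σ x = x) → ∀ v, act σ v = v),
    HasLocalOrder A V act → FlatClause l V act

/-- **(LOC)** the local order from good reduction (owner: helper20, `Padic/Local.lean`). -/
def LOC : Prop :=
  ∀ (l : ℕ) (A : ValuationSubring Qb) (M : ℕ) (_ : NeZero M), l.Prime → A.LiesOverPrime l →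
    GoodRed A M → LocalOrders A M

/-- **(GR)** good reduction data exist (from ESJ's reduction layer; `Padic/GoodRedOf.lean`). -/
def GR : Prop :=
  ∀ (N l : ℕ) (_ : NeZero N), l.Prime → ¬ l ∣ N →
    (5 ≤ l ∨ (l = 3 ∧ 2 ∣ N) ∨ (l = 2 ∧ 3 ∣ N)) →
    ∃ A : ValuationSubring Qb, A.LiesOverPrime l ∧ GoodRed A N

/-- **(L23)** the level-`N q` transfer used at `l ∈ {2, 3}` (`Padic/Level23.lean`). -/
def L23 : Prop :=
  ∀ (N q l a : ℕ) (_ : NeZero N), q.Prime → ¬ q ∣ N → l.Prime → q + 1 = l ^ a →
    FlatSubgroups l (N * q) → FlatTorsion N l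

end Fermat.Agent.Padic
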