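import Mathlib
import Fermat.Agent.Lib.Red.KummerInst
import Fermat.Agent.Lib.FF.CharP.ModLInst

/-!
# PADIC / RED: the genus does not grow under reduction

Let `r` be a place reduction in the sense of the Prelude (`r_* div y = div ȳ`).  For every
divisor `B` the lattice `L(B) ∩ O_w` reduces INTO `L~(r_* B)`, and its reduction has dimension
at least `dim L(B)` (a minimal generating set of the lattice has linearly independent
reductions and spans `L(B)`).  Hence `dim L(B) ≤ dim L~(r_* B)` and, by Riemann's theorem in
large degree on both sides, `genus (F~) ≤ genus (F)`.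

* `finrank_rr_le_finrank_rr_mapDomain` : the abstract dimension inequality;
* `genus_le_of_riemann` : the abstract genus inequality `g' ≤ g`;
* `genusFF_le_of_placeReduction` : the modular instance, for ANY place reduction `r`;
* `genusFF_le_of_reductionInputsModL` : the same from the Prelude's `ReductionInputsModL A N`.

Together with the opposite inequality (`Lib.Red.InstGenus.genusFF_le_modular` or
`Lib.Red.GenusGA`) this is the genus EQUALITY of good reduction.
-/

set_option autoImplicit false

namespace Fermat.Agent.Padic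

open AlgebraicCurve WithZero Module

section Abstract

variable {L F k Ft : Type*} [Field L] [Field F] [Field k] [Field Ft] [Algebra L F] [Algebra k Ft]

/-- **Semicontinuity**: `dim L(B) ≤ dim L~(r_* B)`. -/
theorem finrank_rr_le_finrank_rr_mapDomain (A : ValuationSubring L) (O : ValuationSubring F)
    (red : O →+* Ft) (r : Place L F → Place k Ft) (π : A →+* k)
    (hπsurj : Function.Surjective π) (hπ : ∀ a : A, ¬ IsUnit a → π a = 0)
    (hOA : ∀ c : L, algebraMap L F c ∈ O ↔ c ∈ A)
    (hscale : ∀ y : F, y ≠ 0 → ∃ c : L, c ≠ 0 ∧ O.valuation (algebraMap L F c * y) = 1)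
    (hker : ∀ y : O, red y = 0 ↔ O.valuation (y : F) < 1)
    (hredconst : ∀ c : A, red ⟨algebraMap L F (c : L), (hOA _).mpr c.2⟩ = algebraMap k Ft (π c))
    (B : Divisor L F)
    (hredrr : ∀ x : O, (x : F) ∈ riemannRochSpace B →
      red x ∈ riemannRochSpace (Finsupp.mapDomain r B))
    (hlat : ∃ N : Submodule A F, N.FG ∧
      ∀ x : F, x ∈ N ↔ (x ∈ riemannRochSpace B ∧ x ∈ O))
    (hfink : Module.Finite k (riemannRochSpace (Finsupp.mapDomain r B))) :
    finrank L (riemannRochSpace B) ≤ finrank k (riemannRochSpace (Finsupp.mapDomain r B)) := by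
  classical
  obtain ⟨N, hNfg, hN⟩ := hlat
  -- a generating finset of minimal cardinality
  have hex : ∃ n : ℕ, ∃ s : Finset F, s.card = n ∧ Submodule.span A (s : Set F) = N := by
    obtain ⟨s, hs⟩ := hNfg
    exact ⟨s.card, s, rfl, hs⟩
  obtain ⟨s, hscard, hspan⟩ := Nat.find_spec hex
  have hmin : ∀ t : Finset F, Submodule.span A (t : Set F) = N → s.card ≤ t.card := by
    intro t ht
    rw [hscard]
    exact Nat.find_min' hex ⟨t, rfl, ht⟩
  have hsN : ∀ x ∈ s, x ∈ N := fun x hx => by
    rw [← hspan]; exact Submodule.subset_span hx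
  have hsO : ∀ x ∈ s, x ∈ O := fun x hx => ((hN x).mp (hsN x hx)).2
  have hsB : ∀ x ∈ s, x ∈ riemannRochSpace B := fun x hx => ((hN x).mp (hsN x hx)).1
  -- constants as elements of `O`
  set cO : A → O := fun a => ⟨algebraMap L F (a : L), (hOA _).mpr a.2⟩ with hcO
  set gO : s → O := fun i => ⟨(i : F), hsO i i.2⟩ with hgO
  set gb : s → Ft := fun i => red (gO i) with hgb
  -- reduction of an `A`-combination
  have hcomb : ∀ a : s → A,
      ((∑ i, cO (a i) * gO i : O) : F) = ∑ i, a i • (i : F) ∧
      red (∑ i, cO (a i) * gO i) = ∑ i, π (a i) • gb i := by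
    intro a
    constructor
    · rw [AddSubmonoidClass.coe_finsetSum]
      refine Finset.sum_congr rfl fun i _ => ?_
      show algebraMap L F (a i : L) * (i : F) = (a i : L) • (i : F)
      rw [Algebra.smul_def]
    · rw [map_sum]
      refine Finset.sum_congr rfl fun i _ => ?_
      rw [map_mul, hredconst, Algebra.smul_def]
  -- nonunits with zero reduction are divisible by a nonunit constant
  have hdivide : ∀ y : F, y ∈ N → O.valuation y < 1 →
      ∃ (cc : A) (u : F), ¬ IsUnit cc ∧ u ∈ N ∧ y = cc • u := by
    intro y hyN hv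
    rcases eq_or_ne y 0 with h0 | h0
    · exact ⟨0, 0, not_isUnit_zero, N.zero_mem, by rw [h0, smul_zero]⟩
    obtain ⟨c1, hc1, hval⟩ := hscale y h0
    have hvy : O.valuation y ≠ 0 := (Valuation.ne_zero_iff _).mpr h0
    have hvc1 : O.valuation (algebraMap L F c1) = (O.valuation y)⁻¹ := by
      rw [map_mul] at hval
      exact eq_inv_of_mul_eq_one_left hval
    have hcA : c1⁻¹ ∈ A := by
      rw [← hOA, ← O.valuation_le_one_iff, map_inv₀, map_inv₀, hvc1, inv_inv]
      exact hv.le
    have hcm : c1 ∉ A := by
      intro hmem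
      have h1 := (O.valuation_le_one_iff _).mpr ((hOA c1).mpr hmem)
      rw [hvc1] at h1
      have h2 : 1 < (O.valuation y)⁻¹ := (one_lt_inv₀ (zero_lt_iff.mpr hvy)).mpr hv
      exact absurd h1 (not_le.mpr h2)
    refine ⟨⟨c1⁻¹, hcA⟩, algebraMap L F c1 * y, ?_, ?_, ?_⟩
    · intro hu
      have hval1 := (A.valuation_eq_one_iff ⟨c1⁻¹, hcA⟩).mp hu
      apply hcm
      rw [← A.valuation_le_one_iff]
      have : A.valuation c1 = 1 := by
        have h3 : A.valuation (c1⁻¹ : L) = 1 := hval1
        rw [map_inv₀, inv_eq_one] at h3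
        exact h3
      exact this.le
    · rw [hN]
      refine ⟨?_, (O.valuation_le_one_iff _).mp hval.le⟩
      rw [← Algebra.smul_def]
      exact Submodule.smul_mem _ _ ((hN y).mp hyN).1
    · show y = (c1⁻¹ : L) • (algebraMap L F c1 * y)
      rw [Algebra.smul_def, ← mul_assoc, ← map_mul, inv_mul_cancel₀ hc1, map_one, one_mul]
  -- the reductions of a minimal generating set are linearly independent
  have hli : LinearIndependent k gb := by
    by_contra hnot
    obtain ⟨γ, hγsum, i0, hi0⟩ := Fintype.not_linearIndependent_iff.mp hnot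
    choose a ha using fun i => hπsurj (γ i)
    obtain ⟨hyF, hyred⟩ := hcomb a
    set y : O := ∑ i, cO (a i) * gO i with hy
    have hy0 : red y = 0 := by
      rw [hyred]
      simp only [ha]
      exact hγsum
    have hval := (hker y).mp hy0
    have hai0 : IsUnit (a i0) := by
      by_contra h
      exact hi0 (by rw [← ha i0]; exact hπ _ h)
    have hyN : (y : F) ∈ N := by
      rw [hyF]
      exact Submodule.sum_mem _ fun i _ => Submodule.smul_mem _ _ (hsN i i.2)
    obtain ⟨cc, u, hcc, huN, hyu⟩ := hdivide (y : F) hyN hval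
    rw [← hspan] at huN
    have hrange : (s : Set F) = Set.range (fun i : s => (i : F)) := by
      ext x
      simp
    rw [hrange] at huN
    obtain ⟨b, hb⟩ := (Submodule.mem_span_range_iff_exists_fun A).mp huN
    have hrel : ∑ i, (a i - cc * b i) • (i : F) = 0 := by
      simp only [sub_smul, Finset.sum_sub_distrib, mul_smul]
      rw [← Finset.smul_sum, hb, ← hyu, ← hyF, sub_self]
    have hunit : IsUnit (a i0 - cc * b i0) := by
      by_contra h
      have hcb : ¬ IsUnit (cc * b i0) := fun h' => hcc (isUnit_of_mul_isUnit_left h')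
      have := IsLocalRing.nonunits_add h hcb
      rw [sub_add_cancel] at this
      exact this hai0
    obtain ⟨w, hw⟩ := hunit
    -- `i0` is in the span of the others
    have hi0span : (i0 : F) ∈ Submodule.span A ((s.erase (i0 : F) : Finset F) : Set F) := by
      have h1 : (a i0 - cc * b i0) • (i0 : F) =
          - ∑ i ∈ Finset.univ.erase i0, (a i - cc * b i) • (i : F) := by
        rw [eq_neg_iff_add_eq_zero,
          Finset.add_sum_erase Finset.univ (fun i : s => (a i - cc * b i) • (i : F))
            (Finset.mem_univ i0)]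
        exact hrel
      have h3 : (↑w⁻¹ : A) • -(∑ i ∈ Finset.univ.erase i0, (a i - cc * b i) • (i : F)) ∈
          Submodule.span A ((s.erase (i0 : F) : Finset F) : Set F) := by
        refine Submodule.smul_mem _ _ (Submodule.neg_mem _ (Submodule.sum_mem _ fun i hi => ?_))
        refine Submodule.smul_mem _ _ (Submodule.subset_span ?_)
        rw [Finset.mem_coe, Finset.mem_erase]
        exact ⟨fun h => (Finset.mem_erase.mp hi).1 (Subtype.ext h), i.2⟩
      rwa [← h1, smul_smul, ← hw, Units.inv_mul, one_smul] at h3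
    have hspan' : Submodule.span A ((s.erase (i0 : F) : Finset F) : Set F) = N := by
      apply le_antisymm
      · rw [← hspan]
        exact Submodule.span_mono (Finset.coe_subset.mpr (Finset.erase_subset _ _))
      · rw [← hspan, Submodule.span_le]
        intro x hx
        by_cases hx0 : x = (i0 : F)
        · rw [hx0]; exact hi0span
        · exact Submodule.subset_span (Finset.mem_coe.mpr (Finset.mem_erase.mpr ⟨hx0, hx⟩))
    have := hmin _ hspan'
    rw [Finset.card_erase_of_mem i0.2] at this
    have hpos : 0 < s.card := Finset.card_pos.mpr ⟨i0, i0.2⟩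
    omega
  -- the generating set spans `L(B)` over `L`
  have hLspan : riemannRochSpace B ≤ Submodule.span L (s : Set F) := by
    intro y hy
    have hyscale : ∃ c1 : L, c1 ≠ 0 ∧ algebraMap L F c1 * y ∈ O := by
      rcases eq_or_ne y 0 with rfl | h0
      · exact ⟨1, one_ne_zero, by rw [mul_zero]; exact O.zero_mem⟩
      · obtain ⟨c1, hc1, hval⟩ := hscale y h0
        exact ⟨c1, hc1, (O.valuation_le_one_iff _).mp hval.le⟩
    obtain ⟨c1, hc1, hmem⟩ := hyscale
    have hN1 : algebraMap L F c1 * y ∈ N := by
      rw [hN]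
      refine ⟨?_, hmem⟩
      rw [← Algebra.smul_def]
      exact Submodule.smul_mem _ _ hy
    rw [← hspan] at hN1
    have h1 : algebraMap L F c1 * y ∈ Submodule.span L (s : Set F) :=
      Submodule.span_le_restrictScalars A L (s : Set F) hN1
    have h2 : y = c1⁻¹ • (algebraMap L F c1 * y) := by
      rw [Algebra.smul_def, ← mul_assoc, ← map_mul, inv_mul_cancel₀ hc1, map_one, one_mul]
    rw [h2]
    exact Submodule.smul_mem _ _ h1
  have hcardL : finrank L (riemannRochSpace B) ≤ s.card :=
    (Submodule.finrank_mono hLspan).trans (finrank_span_finset_le_card s)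
  -- the reductions lie in `L~(r_* B)`
  have hgbmem : Submodule.span k (Set.range gb) ≤ riemannRochSpace (Finsupp.mapDomain r B) := by
    rw [Submodule.span_le]
    rintro _ ⟨i, rfl⟩
    exact hredrr (gO i) (hsB i i.2)
  have hfr : finrank k (Submodule.span k (Set.range gb)) = s.card := by
    rw [finrank_span_eq_card hli, Fintype.card_coe]
  calc finrank L (riemannRochSpace B) ≤ s.card := hcardL
    _ = finrank k (Submodule.span k (Set.range gb)) := hfr.symm
    _ ≤ finrank k (riemannRochSpace (Finsupp.mapDomain r B)) := Submodule.finrank_mono hgbmem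

/-- **The genus does not grow under reduction** (abstract form): Riemann's theorem in large
degree on both sides, the lattice property and the specification of `r` give `g' ≤ g`. -/
theorem genus_le_of_riemann (A : ValuationSubring L) (O : ValuationSubring F)
    (red : O →+* Ft) (r : Place L F → Place k Ft) (π : A →+* k)
    (hπsurj : Function.Surjective π) (hπ : ∀ a : A, ¬ IsUnit a → π a = 0)
    (hOA : ∀ c : L, algebraMap L F c ∈ O ↔ c ∈ A)
    (hscale : ∀ y : F, y ≠ 0 → ∃ c : L, c ≠ 0 ∧ O.valuation (algebraMap L F c * y) = 1)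
    (hker : ∀ y : O, red y = 0 ↔ O.valuation (y : F) < 1)
    (hredconst : ∀ c : A, red ⟨algebraMap L F (c : L), (hOA _).mpr c.2⟩ = algebraMap k Ft (π c))
    (hredrr : ∀ (B : Divisor L F) (x : O), (x : F) ∈ riemannRochSpace B →
      red x ∈ riemannRochSpace (Finsupp.mapDomain r B))
    (hdegr : ∀ B : Divisor L F, Divisor.degree (Finsupp.mapDomain r B) = Divisor.degree B)
    (hlat : ∀ B : Divisor L F, ∃ N : Submodule A F, N.FG ∧
      ∀ x : F, x ∈ N ↔ (x ∈ riemannRochSpace B ∧ x ∈ O))
    (hfink : ∀ B : Divisor k Ft, Module.Finite k (riemannRochSpace B))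
    (c g : ℤ) (hR : ∀ B : Divisor L F, c ≤ Divisor.degree B →
      (finrank L (riemannRochSpace B) : ℤ) = Divisor.degree B + 1 - g)
    (c' g' : ℤ) (hR' : ∀ B : Divisor k Ft, c' ≤ Divisor.degree B →
      (finrank k (riemannRochSpace B) : ℤ) = Divisor.degree B + 1 - g')
    (P₀ : Place L F) (hP₀ : P₀.deg = 1) : g' ≤ g := by
  set n : ℤ := max c c' with hn
  set B : Divisor L F := Finsupp.single P₀ n with hB
  have hdegB : Divisor.degree B = n := by
    rw [hB, Divisor.degree_single, hP₀, Nat.cast_one, mul_one]
  have h1 := hR B (by rw [hdegB]; exact le_max_left _ _)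
  have h2 := hR' (Finsupp.mapDomain r B) (by rw [hdegr, hdegB]; exact le_max_right _ _)
  rw [hdegr] at h2
  have h3 := finrank_rr_le_finrank_rr_mapDomain A O red r π hπsurj hπ hOA hscale hker hredconst B
    (hredrr B) (hlat B) (hfink _)
  have h4 : (finrank L (riemannRochSpace B) : ℤ) ≤
      (finrank k (riemannRochSpace (Finsupp.mapDomain r B)) : ℤ) := by exact_mod_cast h3
  linarith

end Abstract

section Modular

open ModularCurve Polynomial IntermediateField Fermat.Agent.Lib.FF Fermat.Agent.Lib.Red
  Fermat.Agent.Lib.Red.Kummer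

variable {L : Type*} [Field L] [Algebra ℚ L] {A : ValuationSubring L} {k : Type} [Field k]
  {π : A →+* k} {N : ℕ} [NeZero N] [IsAlgClosed L] [IsAlgClosed k]

/-- **The genus does not grow under reduction** — modular function fields, ANY place reduction
`r` satisfying the Prelude specification. -/
theorem genusFF_le_of_placeReduction (hπ : ∀ a : A, ¬ IsUnit a → π a = 0)
    (hsurj : Function.Surjective π) (hNk : (N : k) ≠ 0)
    (r : Place L ↥(laurentBaseChange L (modularFunctionFieldFull N)) →
      Place k ↥(modularFunctionFieldFullC k N))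
    (hr : IsPlaceReductionAlong A π N r) :
    genusFF k ↥(modularFunctionFieldFullC k N) ≤
      genusFF L ↥(laurentBaseChange L (modularFunctionFieldFull N)) := by
  have hFL := InstGenus.isFF1_xL (A := A) (π := π) hπ hsurj hNk
  have hFk := InstGenus.isFF1_xk (A := A) (π := π) hπ hsurj hNk
  have hpd := hFL.hasPrincipalDivisors
  have hfinD : ∀ f : ↥(laurentBaseChange L (modularFunctionFieldFull N)), f ≠ 0 →
      ∃ D : Divisor L ↥(laurentBaseChange L (modularFunctionFieldFull N)),
        ∀ P, D P = P.ord f := fun f hf => by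
    obtain ⟨D, hD, -⟩ := HasPrincipalDivisors.exists_divisor (K := L) f hf
    exact ⟨D, hD⟩
  obtain ⟨c, hc⟩ := hFL.exists_degree_bound
  obtain ⟨c', hc'⟩ := hFk.exists_degree_bound
  obtain ⟨ι, _, G, -⟩ := exists_goodBasis hπ hsurj hNk
  obtain ⟨P₀⟩ : Nonempty (Place L ↥(laurentBaseChange L (modularFunctionFieldFull N))) := by
    have hinf := hFL.infinite_place
    exact ⟨(exists_pair_ne (Place L ↥(laurentBaseChange L (modularFunctionFieldFull N)))).choose⟩
  have key := genus_le_of_riemann A (Ow A π N hNk) (redF A π N hπ hNk) r π hsurj hπ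
    (fun a => algebraMap_mem_Ow_iff hπ hNk a)
    ?hscale ?hker (fun a => redF_algebraMap hπ hNk a)
    (red_mem_rr_of_spec (fun y hy => HasPrincipalDivisors.exists_divisor (K := L) y hy)
      (fun y hy B hB Q => SpecUnit.mapDomain_eq_ord_redF hπ hNk hfinD r hr y hy B hB Q))
    (degree_mapDomain_eq r hr.1) ?hlat hFk.finite_L
    c (genusFF L _) (fun B hB => (hc B hB).2)
    c' (genusFF k _) (fun B hB => (hc' B hB).2) P₀ (hFL.deg_eq_one P₀)
  case hscale =>
    intro y hy
    obtain ⟨a, ha, hmem, hne⟩ := exists_scaling_Ow hπ hNk y hy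
    refine ⟨a, ha, ?_⟩
    have hu : IsUnit (⟨_, hmem⟩ : Ow A π N hNk) := by
      by_contra hnu
      exact hne ((redF_eq_zero_iff hπ hNk _).mpr hnu)
    exact (ValuationSubring.valuation_eq_one_iff _ ⟨_, hmem⟩).mp hu
  case hker =>
    intro y
    rw [redF_eq_zero_iff hπ hNk, ← ValuationSubring.valuation_lt_one_iff (Ow A π N hNk) y,
      IsLocalRing.mem_maximalIdeal, mem_nonunits_iff]
  case hlat =>
    intro B
    exact lat_of_goodBasis A (Ow A π N hNk) (transcendental_xL N)
      (fun c hc => (algebraMap_mem_Ow_iff hπ hNk c).mpr hc) (xL_mem_Ow hNk)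
      (fun p hp => (aeval_mem_Ow_iff hπ hNk p).mp hp)
      (inv_aeval_mem_Ow_of_coeff hπ hNk)
      (fun i => ((G.b i : Ow A π N hNk) : ↥(laurentBaseChange L (modularFunctionFieldFull N))))
      (fun i => (G.b i).2) G.span
      (fun cf h i => G.compat.coeff_mem G.b G.ind cf h i) (riemannRochSpace B) (hFL.finite_L B)
  exact_mod_cast key

end Modular

section ModL

open ModularCurve Fermat.Agent.Lib.Red

set_option synthInstance.maxHeartbeats 400000 in
set_option maxHeartbeats 1000000 in
/-- **The genus does not grow under reduction mod `ℓ`**: from the Prelude's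
`ReductionInputsModL A N` alone (`N` invertible in the residue field). -/
theorem genusFF_le_of_reductionInputsModL (A : ValuationSubring (AlgebraicClosure ℚ)) (N : ℕ)
    [NeZero N] (hNk : (N : IsLocalRing.ResidueField A) ≠ 0) (h : ReductionInputsModL A N) :
    genusFF (IsLocalRing.ResidueField A)
        ↥(modularFunctionFieldFullC (IsLocalRing.ResidueField A) N) ≤
      genusFF (AlgebraicClosure ℚ) ↥(modularFunctionFieldBar N) := by
  have := Fermat.Agent.Lib.FF.CharP.isAlgClosed_residueField A
  obtain ⟨r, hr, -⟩ := h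
  exact genusFF_le_of_placeReduction
    (fun a ha => (IsLocalRing.residue_eq_zero_iff a).2 ((IsLocalRing.mem_maximalIdeal a).2 ha))
    IsLocalRing.residue_surjective hNk r hr

end ModL

end Fermat.Agent.Padic
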