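import Mathlib
import Fermat.Agent.Padic.GenusGe
import Fermat.Agent.Padic.Defs

/-!
# PADIC (LAT): lattice bases of Riemann–Roch spaces and their reductions

Abstract setting (`RedData`): a valuation ring `A` of the constant field `L`, a valuation ring
`O` of the function field `F` with `O ∩ L = A` and the same value group, a residue map
`red : O → Ft` and `π : A → k`.

* `IsLatBasis h W b` : `b : ι → O` is a *lattice basis* of the `L`-subspace `W ≤ F`: the `b i`
  lie in `W`, span it, and their reductions are `k`-linearly independent.  Consequences: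
  `L`-linear independence, integrality of coordinates of integral elements
  (`IsLatBasis.exists_coeff`), `card ι = dim W`, the reduction of `W ∩ O` is the span of the
  reductions.
* `exists_isLatBasis` : if `W ∩ O` is a finitely generated `A`-module, `W` has a lattice basis.
* `IsLatBasis.mulMatrix`, `IsLatBasis.exists_adapted` : change of basis by a matrix over `A`
  which is invertible modulo the maximal ideal; a lattice basis with PRESCRIBED reductions
  (through any set-theoretic section of `π`).
* `IsLatBasis.exists_mulTable`, `IsLatBasis.exists_inclTable` : multiplication / inclusion tables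
  with entries in `A`, compatible with reduction.
-/

set_option autoImplicit false

namespace Fermat.Agent.Padic

open AlgebraicCurve WithZero Module

section Abstract

variable {L F k Ft : Type*} [Field L] [Field F] [Field k] [Field Ft] [Algebra L F] [Algebra k Ft]

/-- The valuation-theoretic reduction data (same hypotheses as
`finrank_rr_le_finrank_rr_mapDomain`). -/
structure RedData (A : ValuationSubring L) (O : ValuationSubring F) (red : O →+* Ft)
    (π : A →+* k) : Prop where
  hπsurj : Function.Surjective π
  hπ : ∀ a : A, ¬ IsUnit a → π a = 0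
  hOA : ∀ c : L, algebraMap L F c ∈ O ↔ c ∈ A
  hscale : ∀ y : F, y ≠ 0 → ∃ c : L, c ≠ 0 ∧ O.valuation (algebraMap L F c * y) = 1
  hker : ∀ y : O, red y = 0 ↔ O.valuation (y : F) < 1
  hredconst : ∀ c : A, red ⟨algebraMap L F (c : L), (hOA _).mpr c.2⟩ = algebraMap k Ft (π c)

namespace RedData

variable {A : ValuationSubring L} {O : ValuationSubring F} {red : O →+* Ft} {π : A →+* k}

/-- Constants of `A` as elements of `O`. -/
def cO (h : RedData A O red π) (a : A) : O := ⟨algebraMap L F (a : L), (h.hOA _).mpr a.2⟩

theorem coe_cO (h : RedData A O red π) (a : A) : (h.cO a : F) = algebraMap L F (a : L) := rfl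

theorem red_cO (h : RedData A O red π) (a : A) : red (h.cO a) = algebraMap k Ft (π a) :=
  h.hredconst a

/-- The underlying function of an `A`-combination. -/
theorem coe_sum (h : RedData A O red π) {ι : Type*} (s : Finset ι) (a : ι → A) (b : ι → O) :
    ((∑ i ∈ s, h.cO (a i) * b i : O) : F) = ∑ i ∈ s, (a i : L) • (b i : F) := by
  rw [AddSubmonoidClass.coe_finsetSum]
  refine Finset.sum_congr rfl fun i _ => ?_
  show algebraMap L F (a i : L) * (b i : F) = (a i : L) • (b i : F)
  rw [Algebra.smul_def]

/-- The reduction of an `A`-combination. -/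
theorem red_sum (h : RedData A O red π) {ι : Type*} (s : Finset ι) (a : ι → A) (b : ι → O) :
    red (∑ i ∈ s, h.cO (a i) * b i) = ∑ i ∈ s, π (a i) • red (b i) := by
  rw [map_sum]
  refine Finset.sum_congr rfl fun i _ => ?_
  rw [map_mul, h.red_cO, Algebra.smul_def]

/-- `π` kills exactly the nonunits. -/
theorem pi_eq_zero_iff (h : RedData A O red π) (a : A) : π a = 0 ↔ ¬ IsUnit a := by
  constructor
  · intro h0 hu
    have := hu.map π
    rw [h0] at this
    exact not_isUnit_zero this
  · exact h.hπ a

/-- A constant whose inverse is not in `A` has valuation `< 1` in `O`. -/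
theorem val_lt_one_of_inv_notMem (h : RedData A O red π) {c : L} (hc : c⁻¹ ∉ A) :
    O.valuation (algebraMap L F c) < 1 := by
  by_contra hnot
  rw [not_lt] at hnot
  apply hc
  rw [← h.hOA, ← O.valuation_le_one_iff, map_inv₀, map_inv₀]
  exact inv_le_one_of_one_le₀ hnot

/-- Normalisation of a nonzero coefficient vector: divide by a coefficient of maximal
valuation. -/
theorem exists_normalise (A : ValuationSubring L) {ι : Type*} [Fintype ι] (c : ι → L)
    (i₀ : ι) (hi₀ : c i₀ ≠ 0) :
    ∃ j, c j ≠ 0 ∧ A.valuation (c i₀) ≤ A.valuation (c j) ∧ ∀ i, c i / c j ∈ A := by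
  obtain ⟨j, -, hj⟩ := Finset.exists_max_image Finset.univ (fun i : ι => A.valuation (c i))
    ⟨i₀, Finset.mem_univ _⟩
  have hcj : c j ≠ 0 := by
    intro h0
    have h1 := hj i₀ (Finset.mem_univ _)
    rw [h0, map_zero] at h1
    exact hi₀ ((map_eq_zero (A.valuation)).mp (le_antisymm h1 zero_le))
  refine ⟨j, hcj, hj i₀ (Finset.mem_univ _), fun i => ?_⟩
  rw [← A.valuation_le_one_iff, map_div₀]
  exact div_le_one_of_le₀ (hj i (Finset.mem_univ _)) zero_le

/-- **Integrality of coordinates**: if the reductions of the `b i` are linearly independent,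
an `L`-combination of the `b i` which lies in `O` has all its coefficients in `A`. -/
theorem coeff_mem_of_redli (h : RedData A O red π) {ι : Type*} [Fintype ι] (b : ι → O)
    (hb : LinearIndependent k (fun i => red (b i))) (c : ι → L)
    (hc : ∑ i, c i • (b i : F) ∈ O) : ∀ i, c i ∈ A := by
  classical
  by_contra hnot
  push Not at hnot
  obtain ⟨i₀, hi₀⟩ := hnot
  have hi₀0 : c i₀ ≠ 0 := fun h0 => hi₀ (h0 ▸ A.zero_mem)
  obtain ⟨j, hcj, hle, hdiv⟩ := exists_normalise A c i₀ hi₀0
  -- `c j ∉ A`
  have hcjA : c j ∉ A := by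
    intro hmem
    apply hi₀
    rw [← A.valuation_le_one_iff] at hmem ⊢
    exact hle.trans hmem
  have hinv : (c j)⁻¹⁻¹ ∉ A := by rwa [inv_inv]
  have hval : O.valuation (algebraMap L F (c j)⁻¹) < 1 := h.val_lt_one_of_inv_notMem hinv
  set a : ι → A := fun i => ⟨c i / c j, hdiv i⟩ with ha
  set y : O := ∑ i, h.cO (a i) * b i with hy
  have hyF : (y : F) = algebraMap L F (c j)⁻¹ * ∑ i, c i • (b i : F) := by
    rw [hy, h.coe_sum, Finset.mul_sum]
    refine Finset.sum_congr rfl fun i _ => ?_
    show (c i / c j) • (b i : F) = algebraMap L F (c j)⁻¹ * c i • (b i : F)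
    rw [Algebra.smul_def, Algebra.smul_def, ← mul_assoc, ← map_mul, div_eq_inv_mul]
  have hy0 : red y = 0 := by
    rw [h.hker, hyF, map_mul]
    calc O.valuation (algebraMap L F (c j)⁻¹) * O.valuation (∑ i, c i • (b i : F))
        ≤ O.valuation (algebraMap L F (c j)⁻¹) * 1 :=
          mul_le_mul' le_rfl ((O.valuation_le_one_iff _).mpr hc)
      _ = O.valuation (algebraMap L F (c j)⁻¹) := mul_one _
      _ < 1 := hval
  rw [hy, h.red_sum] at hy0
  have h1 := Fintype.linearIndependent_iff.mp hb (fun i => π (a i)) hy0 j
  have h2 : a j = 1 := by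
    apply Subtype.ext
    show c j / c j = 1
    exact div_self hcj
  rw [h2, map_one] at h1
  exact one_ne_zero h1

/-- Independent reductions force `L`-linear independence. -/
theorem li_of_redli (h : RedData A O red π) {ι : Type*} [Fintype ι] (b : ι → O)
    (hb : LinearIndependent k (fun i => red (b i))) :
    LinearIndependent L (fun i => (b i : F)) := by
  classical
  rw [Fintype.linearIndependent_iff]
  intro c hc
  by_contra hnot
  push Not at hnot
  obtain ⟨i₀, hi₀⟩ := hnot
  obtain ⟨j, hcj, -, hdiv⟩ := exists_normalise A c i₀ hi₀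
  set a : ι → A := fun i => ⟨c i / c j, hdiv i⟩ with ha
  have hy : (∑ i, h.cO (a i) * b i : O) = 0 := by
    apply Subtype.ext
    rw [h.coe_sum]
    have h1 : ∑ i, ((a i : A) : L) • (b i : F) = (c j)⁻¹ • ∑ i, c i • (b i : F) := by
      rw [Finset.smul_sum]
      refine Finset.sum_congr rfl fun i _ => ?_
      show (c i / c j) • (b i : F) = (c j)⁻¹ • c i • (b i : F)
      rw [smul_smul, div_eq_inv_mul]
    rw [h1, hc, smul_zero]
    rfl
  have hy0 : red (∑ i, h.cO (a i) * b i) = 0 := by rw [hy, map_zero]
  rw [h.red_sum] at hy0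
  have h1 := Fintype.linearIndependent_iff.mp hb (fun i => π (a i)) hy0 j
  have h2 : a j = 1 := by
    apply Subtype.ext
    show c j / c j = 1
    exact div_self hcj
  rw [h2, map_one] at h1
  exact one_ne_zero h1

end RedData

variable (k) in
/-- A *lattice basis* of the `L`-subspace `W`: elements of `W ∩ O` spanning `W` whose reductions
are linearly independent over the residue field. -/
structure IsLatBasis {O : ValuationSubring F} (red : O →+* Ft) (W : Submodule L F)
    {ι : Type*} (b : ι → O) : Prop where
  mem : ∀ i, (b i : F) ∈ W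
  span : W ≤ Submodule.span L (Set.range fun i => (b i : F))
  redli : LinearIndependent k (fun i => red (b i))

namespace IsLatBasis

variable {A : ValuationSubring L} {O : ValuationSubring F} {red : O →+* Ft} {π : A →+* k}
variable {W : Submodule L F} {ι : Type*} {b : ι → O}

theorem span_eq (hb : IsLatBasis k red W b) :
    Submodule.span L (Set.range fun i => (b i : F)) = W :=
  le_antisymm (Submodule.span_le.2 (by rintro _ ⟨i, rfl⟩; exact hb.mem i)) hb.span

variable [Fintype ι]

/-- A lattice basis is `L`-linearly independent. -/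
theorem li (h : RedData A O red π) (hb : IsLatBasis k red W b) :
    LinearIndependent L (fun i => (b i : F)) :=
  h.li_of_redli b hb.redli

/-- Coordinates over `L`. -/
theorem exists_coeff_L (hb : IsLatBasis k red W b) {f : F} (hf : f ∈ W) :
    ∃ c : ι → L, f = ∑ i, c i • (b i : F) := by
  obtain ⟨c, hc⟩ := (Submodule.mem_span_range_iff_exists_fun L).mp (hb.span hf)
  exact ⟨c, hc.symm⟩

/-- **Integral coordinates**: an element of `W ∩ O` is an `A`-combination of a lattice basis. -/
theorem exists_coeff (h : RedData A O red π) (hb : IsLatBasis k red W b) {f : F} (hf : f ∈ W)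
    (hfO : f ∈ O) : ∃ a : ι → A, f = ∑ i, (a i : L) • (b i : F) := by
  obtain ⟨c, hc⟩ := hb.exists_coeff_L hf
  have hcA := h.coeff_mem_of_redli b hb.redli c (hc ▸ hfO)
  exact ⟨fun i => ⟨c i, hcA i⟩, hc⟩

/-- Integral coordinates, in `O`. -/
theorem exists_coeff_O (h : RedData A O red π) (hb : IsLatBasis k red W b) (y : O)
    (hy : (y : F) ∈ W) : ∃ a : ι → A, y = ∑ i, h.cO (a i) * b i := by
  obtain ⟨a, ha⟩ := hb.exists_coeff h hy y.2
  refine ⟨a, Subtype.ext ?_⟩
  rw [h.coe_sum]
  exact ha

/-- The reduction of `W ∩ O` is spanned by the reductions of a lattice basis. -/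
theorem red_mem_span (h : RedData A O red π) (hb : IsLatBasis k red W b) (y : O)
    (hy : (y : F) ∈ W) : red y ∈ Submodule.span k (Set.range fun i => red (b i)) := by
  obtain ⟨a, ha⟩ := hb.exists_coeff_O h y hy
  rw [ha, h.red_sum]
  exact Submodule.sum_mem _ fun i _ => Submodule.smul_mem _ _ (Submodule.subset_span ⟨i, rfl⟩)

/-- The cardinality of a lattice basis is the dimension. -/
theorem card_eq (h : RedData A O red π) (hb : IsLatBasis k red W b) :
    Fintype.card ι = finrank L W := by
  rw [← hb.span_eq, finrank_span_eq_card (hb.li h)]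

theorem finiteDimensional (hb : IsLatBasis k red W b) : FiniteDimensional L W := by
  rw [← hb.span_eq]
  exact FiniteDimensional.span_of_finite L (Set.finite_range _)

/-- The reductions span a space of the same dimension. -/
theorem finrank_span_red (h : RedData A O red π) (hb : IsLatBasis k red W b) :
    finrank k (Submodule.span k (Set.range fun i => red (b i))) = finrank L W := by
  rw [finrank_span_eq_card hb.redli, hb.card_eq h]

end IsLatBasis

/-- **Existence of lattice bases**: if `W ∩ O` is a finitely generated `A`-module, then `W` has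
a lattice basis (a generating set of minimal cardinality). -/
theorem exists_isLatBasis {A : ValuationSubring L} {O : ValuationSubring F} {red : O →+* Ft}
    {π : A →+* k} (h : RedData A O red π) (W : Submodule L F)
    (hlat : ∃ N : Submodule A F, N.FG ∧ ∀ x : F, x ∈ N ↔ (x ∈ W ∧ x ∈ O)) :
    ∃ (d : ℕ) (b : Fin d → O), IsLatBasis k red W b := by
  classical
  obtain ⟨N, hNfg, hN⟩ := hlat
  -- a generating finset of minimal cardinality
  have hex : ∃ n : ℕ, ∃ s : Finset F, s.card = n ∧ Submodule.span A (s : Set F) = N := by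
    obtain ⟨s, hs⟩ := hNfg
    exact ⟨s.card, s, rfl, hs⟩
  obtain ⟨s, hscard, hspan⟩ := Nat.find_spec hex
  have hmin : ∀ t : Finset F, Submodule.span A (t : Set F) = N → s.card ≤ t.card := by
    intro t ht
    rw [hscard]
    exact Nat.find_min' hex ⟨t, rfl, ht⟩
  have hsN : ∀ x ∈ s, x ∈ N := fun x hx => by
    rw [← hspan]; exact Submodule.subset_span hx
  have hsO : ∀ x ∈ s, x ∈ O := fun x hx => ((hN x).mp (hsN x hx)).2
  have hsW : ∀ x ∈ s, x ∈ W := fun x hx => ((hN x).mp (hsN x hx)).1
  set gO : s → O := fun i => ⟨(i : F), hsO i i.2⟩ with hgO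
  -- nonunits with zero reduction are divisible by a nonunit constant
  have hdivide : ∀ y : F, y ∈ N → O.valuation y < 1 →
      ∃ (cc : A) (u : F), ¬ IsUnit cc ∧ u ∈ N ∧ y = cc • u := by
    intro y hyN hv
    rcases eq_or_ne y 0 with h0 | h0
    · exact ⟨0, 0, not_isUnit_zero, N.zero_mem, by rw [h0, smul_zero]⟩
    obtain ⟨c1, hc1, hval⟩ := h.hscale y h0
    have hvy : O.valuation y ≠ 0 := (Valuation.ne_zero_iff _).mpr h0
    have hvc1 : O.valuation (algebraMap L F c1) = (O.valuation y)⁻¹ := by
      rw [map_mul] at hval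
      exact eq_inv_of_mul_eq_one_left hval
    have hcA : c1⁻¹ ∈ A := by
      rw [← h.hOA, ← O.valuation_le_one_iff, map_inv₀, map_inv₀, hvc1, inv_inv]
      exact hv.le
    have hcm : c1 ∉ A := by
      intro hmem
      have h1 := (O.valuation_le_one_iff _).mpr ((h.hOA c1).mpr hmem)
      rw [hvc1] at h1
      have h2 : 1 < (O.valuation y)⁻¹ := (one_lt_inv₀ (zero_lt_iff.mpr hvy)).mpr hv
      exact absurd h1 (not_le.mpr h2)
    refine ⟨⟨c1⁻¹, hcA⟩, algebraMap L F c1 * y, ?_, ?_, ?_⟩
    · intro hu
      have hval1 := (A.valuation_eq_one_iff ⟨c1⁻¹, hcA⟩).mp hu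
      apply hcm
      rw [← A.valuation_le_one_iff]
      have : A.valuation c1 = 1 := by
        have h3 : A.valuation (c1⁻¹ : L) = 1 := hval1
        rw [map_inv₀, inv_eq_one] at h3
        exact h3
      exact this.le
    · rw [hN]
      refine ⟨?_, (O.valuation_le_one_iff _).mp hval.le⟩
      rw [← Algebra.smul_def]
      exact Submodule.smul_mem _ _ ((hN y).mp hyN).1
    · show y = (c1⁻¹ : L) • (algebraMap L F c1 * y)
      rw [Algebra.smul_def, ← mul_assoc, ← map_mul, inv_mul_cancel₀ hc1, map_one, one_mul]
  -- the reductions of a minimal generating set are linearly independent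
  have hli : LinearIndependent k (fun i => red (gO i)) := by
    by_contra hnot
    obtain ⟨γ, hγsum, i0, hi0⟩ := Fintype.not_linearIndependent_iff.mp hnot
    choose a ha using fun i => h.hπsurj (γ i)
    have hyF := h.coe_sum Finset.univ a gO
    have hyred := h.red_sum Finset.univ a gO
    set y : O := ∑ i, h.cO (a i) * gO i with hy
    have hy0 : red y = 0 := by
      rw [hyred]
      simp only [ha]
      exact hγsum
    have hval := (h.hker y).mp hy0
    have hai0 : IsUnit (a i0) := by
      by_contra hnu
      exact hi0 (by rw [← ha i0]; exact h.hπ _ hnu)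
    have hyN : (y : F) ∈ N := by
      rw [hyF]
      exact Submodule.sum_mem _ fun i _ => Submodule.smul_mem _ _ (hsN i i.2)
    obtain ⟨cc, u, hcc, huN, hyu⟩ := hdivide (y : F) hyN hval
    rw [← hspan] at huN
    have hrange : (s : Set F) = Set.range (fun i : s => (i : F)) := by
      ext x
      simp
    rw [hrange] at huN
    obtain ⟨bb, hbb⟩ := (Submodule.mem_span_range_iff_exists_fun A).mp huN
    have hrel : ∑ i, (a i - cc * bb i) • (i : F) = 0 := by
      simp only [sub_smul, Finset.sum_sub_distrib, mul_smul]
      rw [← Finset.smul_sum, hbb, ← hyu, hyF, sub_eq_zero]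
      rfl
    have hunit : IsUnit (a i0 - cc * bb i0) := by
      by_contra hnu
      have hcb : ¬ IsUnit (cc * bb i0) := fun h' => hcc (isUnit_of_mul_isUnit_left h')
      have := IsLocalRing.nonunits_add hnu hcb
      rw [sub_add_cancel] at this
      exact this hai0
    obtain ⟨w, hw⟩ := hunit
    -- `i0` is in the span of the others
    have hi0span : (i0 : F) ∈ Submodule.span A ((s.erase (i0 : F) : Finset F) : Set F) := by
      have h1 : (a i0 - cc * bb i0) • (i0 : F) =
          - ∑ i ∈ Finset.univ.erase i0, (a i - cc * bb i) • (i : F) := by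
        rw [eq_neg_iff_add_eq_zero,
          Finset.add_sum_erase Finset.univ (fun i : s => (a i - cc * bb i) • (i : F))
            (Finset.mem_univ i0)]
        exact hrel
      have h3 : (↑w⁻¹ : A) • -(∑ i ∈ Finset.univ.erase i0, (a i - cc * bb i) • (i : F)) ∈
          Submodule.span A ((s.erase (i0 : F) : Finset F) : Set F) := by
        refine Submodule.smul_mem _ _ (Submodule.neg_mem _ (Submodule.sum_mem _ fun i hi => ?_))
        refine Submodule.smul_mem _ _ (Submodule.subset_span ?_)
        rw [Finset.mem_coe, Finset.mem_erase]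
        exact ⟨fun h' => (Finset.mem_erase.mp hi).1 (Subtype.ext h'), i.2⟩
      rwa [← h1, smul_smul, ← hw, Units.inv_mul, one_smul] at h3
    have hspan' : Submodule.span A ((s.erase (i0 : F) : Finset F) : Set F) = N := by
      apply le_antisymm
      · rw [← hspan]
        exact Submodule.span_mono (Finset.coe_subset.mpr (Finset.erase_subset _ _))
      · rw [← hspan, Submodule.span_le]
        intro x hx
        by_cases hx0 : x = (i0 : F)
        · rw [hx0]; exact hi0span
        · exact Submodule.subset_span (Finset.mem_coe.mpr (Finset.mem_erase.mpr ⟨hx0, hx⟩))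
    have := hmin _ hspan'
    rw [Finset.card_erase_of_mem i0.2] at this
    have hpos : 0 < s.card := Finset.card_pos.mpr ⟨i0, i0.2⟩
    omega
  -- the generating set spans `W` over `L`
  have hLspan : W ≤ Submodule.span L (s : Set F) := by
    intro y hy
    have hyscale : ∃ c1 : L, c1 ≠ 0 ∧ algebraMap L F c1 * y ∈ O := by
      rcases eq_or_ne y 0 with rfl | h0
      · exact ⟨1, one_ne_zero, by rw [mul_zero]; exact O.zero_mem⟩
      · obtain ⟨c1, hc1, hval⟩ := h.hscale y h0
        exact ⟨c1, hc1, (O.valuation_le_one_iff _).mp hval.le⟩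
    obtain ⟨c1, hc1, hmem⟩ := hyscale
    have hN1 : algebraMap L F c1 * y ∈ N := by
      rw [hN]
      refine ⟨?_, hmem⟩
      rw [← Algebra.smul_def]
      exact Submodule.smul_mem _ _ hy
    rw [← hspan] at hN1
    have h1 : algebraMap L F c1 * y ∈ Submodule.span L (s : Set F) :=
      Submodule.span_le_restrictScalars A L (s : Set F) hN1
    have h2 : y = c1⁻¹ • (algebraMap L F c1 * y) := by
      rw [Algebra.smul_def, ← mul_assoc, ← map_mul, inv_mul_cancel₀ hc1, map_one, one_mul]
    rw [h2]
    exact Submodule.smul_mem _ _ h1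
  -- reindex by `Fin s.card`
  let e : Fin s.card ≃ s := s.equivFin.symm
  refine ⟨s.card, gO ∘ e, ⟨fun i => hsW _ (e i).2, ?_, ?_⟩⟩
  · refine hLspan.trans (Submodule.span_mono ?_)
    intro x hx
    exact ⟨e.symm ⟨x, hx⟩, by simp [hgO]⟩
  · exact hli.comp e e.injective

namespace IsLatBasis

variable {A : ValuationSubring L} {O : ValuationSubring F} {red : O →+* Ft} {π : A →+* k}
variable {W : Submodule L F} {ι : Type*} [Fintype ι] {b : ι → O}

/-- The comparison map over `L` (coordinates ↦ function) is injective with range `W`. -/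
theorem injective_linearCombination (h : RedData A O red π) (hb : IsLatBasis k red W b) :
    Function.Injective (Fintype.linearCombination L (fun i => (b i : F))) :=
  linearIndependent_iff_injective_fintypeLinearCombination.mp (hb.li h)

theorem range_linearCombination (hb : IsLatBasis k red W b) :
    LinearMap.range (Fintype.linearCombination L (fun i => (b i : F))) = W := by
  rw [Fintype.range_linearCombination, hb.span_eq]

/-- The comparison map over `k` is injective. -/
theorem injective_linearCombination_red (hb : IsLatBasis k red W b) :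
    Function.Injective (Fintype.linearCombination k (fun i => red (b i))) :=
  linearIndependent_iff_injective_fintypeLinearCombination.mp hb.redli

variable [DecidableEq ι]

/-- **Change of lattice basis** by a matrix over `A` with a left inverse over `A`. -/
theorem mulMatrix (h : RedData A O red π) (hb : IsLatBasis k red W b) (G H : Matrix ι ι A)
    (hHG : H * G = 1) : IsLatBasis k red W (fun i => ∑ j, h.cO (G i j) * b j) := by
  have hGH : G * H = 1 := mul_eq_one_comm.mp hHG
  refine ⟨fun i => ?_, ?_, ?_⟩
  · rw [h.coe_sum]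
    exact Submodule.sum_mem _ fun j _ => Submodule.smul_mem _ _ (hb.mem j)
  · refine hb.span.trans (Submodule.span_le.2 ?_)
    rintro _ ⟨j, rfl⟩
    -- `b j = ∑ i, H j i • b' i`
    have h1 : (b j : F) = ∑ i, ((H j i : A) : L) •
        ((∑ l, h.cO (G i l) * b l : O) : F) := by
      simp only [h.coe_sum, Finset.smul_sum, smul_smul]
      rw [Finset.sum_comm]
      have h2 : ∀ l, ∑ i, (((H j i : A) : L) * ((G i l : A) : L)) • (b l : F) =
          (((1 : Matrix ι ι A) j l : A) : L) • (b l : F) := by
        intro l
        rw [← Finset.sum_smul, ← hHG, Matrix.mul_apply]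
        congr 1
        push_cast
        rfl
      simp only [h2, Matrix.one_apply]
      rw [Finset.sum_eq_single j]
      · simp
      · intro l _ hl
        rw [if_neg (Ne.symm hl)]
        simp
      · intro hj
        exact absurd (Finset.mem_univ j) hj
    show (b j : F) ∈ _
    rw [h1]
    exact Submodule.sum_mem _ fun i _ => Submodule.smul_mem _ _ (Submodule.subset_span ⟨i, rfl⟩)
  · rw [Fintype.linearIndependent_iff]
    intro γ hγ
    simp only [h.red_sum, Finset.smul_sum, smul_smul] at hγ
    rw [Finset.sum_comm] at hγ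
    simp only [← Finset.sum_smul] at hγ
    have h3 := Fintype.linearIndependent_iff.mp hb.redli _ hγ
    -- `γ ᵥ* π(G) = 0`, and `π(G)` is invertible
    have h4 : Matrix.vecMul γ (G.map π) = 0 := by
      funext j
      exact h3 j
    have h5 : (G.map π) * (H.map π) = 1 := by
      rw [← Matrix.map_mul, hGH, Matrix.map_one _ π.map_zero π.map_one]
    have h6 : Matrix.vecMul (Matrix.vecMul γ (G.map π)) (H.map π) = γ := by
      rw [Matrix.vecMul_vecMul, h5, Matrix.vecMul_one]
    rw [h4, Matrix.zero_vecMul] at h6
    intro i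
    rw [← h6]
    rfl

/-- Change of lattice basis by a matrix over `A` which is invertible modulo the maximal ideal. -/
theorem mulMatrix_of_isUnit_det (h : RedData A O red π) (hb : IsLatBasis k red W b)
    (G : Matrix ι ι A) (hG : IsUnit (G.map π).det) :
    IsLatBasis k red W (fun i => ∑ j, h.cO (G i j) * b j) := by
  have hdet : IsUnit G.det := by
    by_contra hnu
    have h1 : π G.det = 0 := h.hπ _ hnu
    have h2 : (G.map π).det = π G.det := by
      rw [RingHom.map_det, RingHom.mapMatrix_apply]
    rw [h2, h1] at hG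
    exact not_isUnit_zero hG
  exact hb.mulMatrix h G G⁻¹ (Matrix.nonsing_inv_mul G hdet)

/-- **Adapted lattice bases**: for any basis `c` of the span of the reductions and any
set-theoretic section `s` of `π`, the lattice basis `∑ j, s (γ i j) • b j` has reductions `c`,
where `γ` is the matrix of `c` in the reductions of `b`. -/
theorem exists_adapted (h : RedData A O red π) (hb : IsLatBasis k red W b) (s : k → A)
    (hs : ∀ x, π (s x) = x) (c : ι → Ft) (hc : LinearIndependent k c)
    (hcmem : ∀ i, c i ∈ Submodule.span k (Set.range fun i => red (b i))) :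
    ∃ γ : Matrix ι ι k, IsLatBasis k red W (fun i => ∑ j, h.cO (s (γ i j)) * b j) ∧
      ∀ i, red (∑ j, h.cO (s (γ i j)) * b j) = c i := by
  have hex : ∀ i, ∃ g : ι → k, ∑ j, g j • red (b j) = c i := fun i =>
    (Submodule.mem_span_range_iff_exists_fun k).mp (hcmem i)
  choose γ hγ using hex
  have hred : ∀ i, red (∑ j, h.cO (s (γ i j)) * b j) = c i := by
    intro i
    rw [h.red_sum]
    simp only [hs]
    exact hγ i
  refine ⟨Matrix.of γ, ?_, hred⟩
  have hmap : (Matrix.of fun i j => s (γ i j)).map π = Matrix.of γ := by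
    ext i j
    exact hs _
  have hunit : IsUnit ((Matrix.of fun i j => s (γ i j)).map π).det := by
    rw [hmap, ← Matrix.isUnit_iff_isUnit_det, ← Matrix.vecMul_injective_iff_isUnit]
    intro x y hxy
    have h1 : ∀ z : ι → k, ∑ i, z i • c i = ∑ j, (Matrix.vecMul z (Matrix.of γ)) j • red (b j) := by
      intro z
      simp only [← hγ, Finset.smul_sum, smul_smul]
      rw [Finset.sum_comm]
      refine Finset.sum_congr rfl fun j _ => ?_
      rw [← Finset.sum_smul]
      rfl
    have hxy' : Matrix.vecMul x (Matrix.of γ) = Matrix.vecMul y (Matrix.of γ) := hxy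
    have h2 : ∑ i, (x i - y i) • c i = 0 := by
      simp only [sub_smul, Finset.sum_sub_distrib]
      rw [h1 x, h1 y, hxy', sub_self]
    have h3 := Fintype.linearIndependent_iff.mp hc _ h2
    funext i
    exact sub_eq_zero.mp (h3 i)
  exact hb.mulMatrix_of_isUnit_det h (Matrix.of fun i j => s (γ i j)) hunit

end IsLatBasis

/-- **Multiplication tables** with entries in `A`, compatible with reduction. -/
theorem IsLatBasis.exists_mulTable {A : ValuationSubring L} {O : ValuationSubring F}
    {red : O →+* Ft} {π : A →+* k} (h : RedData A O red π) {W W' W'' : Submodule L F}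
    {ι ι' ι'' : Type*} [Fintype ι''] {b : ι → O} {b' : ι' → O} {b'' : ι'' → O}
    (hb : IsLatBasis k red W b) (hb' : IsLatBasis k red W' b') (hb'' : IsLatBasis k red W'' b'')
    (hmul : ∀ x ∈ W, ∀ y ∈ W', x * y ∈ W'') :
    ∃ c : ι → ι' → ι'' → A, (∀ i j, b i * b' j = ∑ l, h.cO (c i j l) * b'' l) ∧
      (∀ i j, (b i : F) * (b' j : F) = ∑ l, (c i j l : L) • (b'' l : F)) ∧
      ∀ i j, red (b i) * red (b' j) = ∑ l, π (c i j l) • red (b'' l) := by
  have hex : ∀ i j, ∃ a : ι'' → A, b i * b' j = ∑ l, h.cO (a l) * b'' l := fun i j =>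
    hb''.exists_coeff_O h (b i * b' j) (hmul _ (hb.mem i) _ (hb'.mem j))
  choose c hc using hex
  refine ⟨c, hc, fun i j => ?_, fun i j => ?_⟩
  · rw [← h.coe_sum, ← hc]
    rfl
  · rw [← map_mul, hc, h.red_sum]

/-- **Inclusion tables** with entries in `A`, compatible with reduction. -/
theorem IsLatBasis.exists_inclTable {A : ValuationSubring L} {O : ValuationSubring F}
    {red : O →+* Ft} {π : A →+* k} (h : RedData A O red π) {W W'' : Submodule L F}
    {ι ι'' : Type*} [Fintype ι''] {b : ι → O} {b'' : ι'' → O}
    (hb : IsLatBasis k red W b) (hb'' : IsLatBasis k red W'' b'') (hle : W ≤ W'') :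
    ∃ c : ι → ι'' → A, (∀ i, b i = ∑ l, h.cO (c i l) * b'' l) ∧
      (∀ i, (b i : F) = ∑ l, (c i l : L) • (b'' l : F)) ∧
      ∀ i, red (b i) = ∑ l, π (c i l) • red (b'' l) := by
  have hex : ∀ i, ∃ a : ι'' → A, b i = ∑ l, h.cO (a l) * b'' l := fun i =>
    hb''.exists_coeff_O h (b i) (hle (hb.mem i))
  choose c hc using hex
  refine ⟨c, hc, fun i => ?_, fun i => ?_⟩
  · rw [← h.coe_sum, ← hc]
  · rw [← h.red_sum, ← hc]

end Abstract

section Modular

open ModularCurve Polynomial IntermediateField Fermat.Agent.Lib.FF Fermat.Agent.Lib.Red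
  Fermat.Agent.Lib.Red.Kummer

variable {L : Type*} [Field L] [Algebra ℚ L] {A : ValuationSubring L} {k : Type} [Field k]
  {π : A →+* k} {N : ℕ} [NeZero N]

/-- The reduction data of the Gauss valuation ring `O_w` of the modular function field. -/
theorem redData_Ow (hπ : ∀ a : A, ¬ IsUnit a → π a = 0) (hsurj : Function.Surjective π)
    (hNk : (N : k) ≠ 0) : RedData A (Ow A π N hNk) (redF A π N hπ hNk) π where
  hπsurj := hsurj
  hπ := hπ
  hOA := fun a => algebraMap_mem_Ow_iff hπ hNk a
  hscale := by
    intro y hy
    obtain ⟨a, ha, hmem, hne⟩ := exists_scaling_Ow hπ hNk y hy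
    refine ⟨a, ha, ?_⟩
    have hu : IsUnit (⟨_, hmem⟩ : Ow A π N hNk) := by
      by_contra hnu
      exact hne ((redF_eq_zero_iff hπ hNk _).mpr hnu)
    exact (ValuationSubring.valuation_eq_one_iff _ ⟨_, hmem⟩).mp hu
  hker := by
    intro y
    rw [redF_eq_zero_iff hπ hNk, ← ValuationSubring.valuation_lt_one_iff (Ow A π N hNk) y,
      IsLocalRing.mem_maximalIdeal, mem_nonunits_iff]
  hredconst := fun a => redF_algebraMap hπ hNk a

variable [IsAlgClosed L] [IsAlgClosed k]

/-- **(LAT1), existence**: every Riemann–Roch space of the modular function field has a lattice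
basis with respect to `O_w`. -/
theorem exists_isLatBasis_rr (hπ : ∀ a : A, ¬ IsUnit a → π a = 0) (hsurj : Function.Surjective π)
    (hNk : (N : k) ≠ 0)
    (B : Divisor L ↥(laurentBaseChange L (modularFunctionFieldFull N))) :
    ∃ (d : ℕ) (b : Fin d → Ow A π N hNk),
      IsLatBasis k (redF A π N hπ hNk) (riemannRochSpace B) b := by
  have hFL := InstGenus.isFF1_xL (A := A) (π := π) hπ hsurj hNk
  obtain ⟨ι, _, G, -⟩ := exists_goodBasis hπ hsurj hNk
  refine exists_isLatBasis (redData_Ow hπ hsurj hNk) _ ?_
  exact lat_of_goodBasis A (Ow A π N hNk) (transcendental_xL N)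
    (fun c hc => (algebraMap_mem_Ow_iff hπ hNk c).mpr hc) (xL_mem_Ow hNk)
    (fun p hp => (aeval_mem_Ow_iff hπ hNk p).mp hp)
    (inv_aeval_mem_Ow_of_coeff hπ hNk)
    (fun i => ((G.b i : Ow A π N hNk) : ↥(laurentBaseChange L (modularFunctionFieldFull N))))
    (fun i => (G.b i).2) G.span
    (fun cf h i => G.compat.coeff_mem G.b G.ind cf h i) (riemannRochSpace B) (hFL.finite_L B)

/-- The reductions of a lattice basis of `L(B)` lie in `L~(r_* B)`. -/
theorem IsLatBasis.span_red_le_rr (hπ : ∀ a : A, ¬ IsUnit a → π a = 0)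
    (hsurj : Function.Surjective π) (hNk : (N : k) ≠ 0)
    (r : Place L ↥(laurentBaseChange L (modularFunctionFieldFull N)) →
      Place k ↥(modularFunctionFieldFullC k N))
    (hr : IsPlaceReductionAlong A π N r)
    {B : Divisor L ↥(laurentBaseChange L (modularFunctionFieldFull N))}
    {ι : Type*} {b : ι → Ow A π N hNk}
    (hb : IsLatBasis k (redF A π N hπ hNk) (riemannRochSpace B) b) :
    Submodule.span k (Set.range fun i => redF A π N hπ hNk (b i)) ≤
      riemannRochSpace (Finsupp.mapDomain r B) := by
  have hFL := InstGenus.isFF1_xL (A := A) (π := π) hπ hsurj hNk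
  have hpd := hFL.hasPrincipalDivisors
  have hfinD : ∀ f : ↥(laurentBaseChange L (modularFunctionFieldFull N)), f ≠ 0 →
      ∃ D : Divisor L ↥(laurentBaseChange L (modularFunctionFieldFull N)),
        ∀ P, D P = P.ord f := fun f hf => by
    obtain ⟨D, hD, -⟩ := HasPrincipalDivisors.exists_divisor (K := L) f hf
    exact ⟨D, hD⟩
  rw [Submodule.span_le]
  rintro _ ⟨i, rfl⟩
  exact red_mem_rr_of_spec (fun y hy => HasPrincipalDivisors.exists_divisor (K := L) y hy)
    (fun y hy B hB Q => SpecUnit.mapDomain_eq_ord_redF hπ hNk hfinD r hr y hy B hB Q) B (b i)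
    (hb.mem i)

/-- **(LAT1)**: if `L(B)` and `L~(r_* B)` have the same dimension (e.g. both non-special, equal
genera), the reductions of a lattice basis of `L(B)` form a basis of `L~(r_* B)`. -/
theorem IsLatBasis.span_red_eq_rr (hπ : ∀ a : A, ¬ IsUnit a → π a = 0)
    (hsurj : Function.Surjective π) (hNk : (N : k) ≠ 0)
    (r : Place L ↥(laurentBaseChange L (modularFunctionFieldFull N)) →
      Place k ↥(modularFunctionFieldFullC k N))
    (hr : IsPlaceReductionAlong A π N r)
    {B : Divisor L ↥(laurentBaseChange L (modularFunctionFieldFull N))}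
    (hdim : finrank k (riemannRochSpace (Finsupp.mapDomain r B)) ≤
      finrank L (riemannRochSpace B))
    {ι : Type*} [Fintype ι] {b : ι → Ow A π N hNk}
    (hb : IsLatBasis k (redF A π N hπ hNk) (riemannRochSpace B) b) :
    Submodule.span k (Set.range fun i => redF A π N hπ hNk (b i)) =
      riemannRochSpace (Finsupp.mapDomain r B) := by
  have hFk := InstGenus.isFF1_xk (A := A) (π := π) hπ hsurj hNk
  have := hFk.finite_L (Finsupp.mapDomain r B)
  apply Submodule.eq_of_le_of_finrank_le (hb.span_red_le_rr hπ hsurj hNk r hr)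
  rw [hb.finrank_span_red (redData_Ow hπ hsurj hNk)]
  exact hdim

/-- **(LAT1), with the bound**: there is `c₀` such that for every divisor `B` of degree `≥ c₀`
every lattice basis of `L(B)` has `deg B + 1 - g` elements and its reductions form a basis of
`L~(r_* B)`, provided the two genera agree. -/
theorem exists_bound_latBasis_rr (hπ : ∀ a : A, ¬ IsUnit a → π a = 0)
    (hsurj : Function.Surjective π) (hNk : (N : k) ≠ 0)
    (r : Place L ↥(laurentBaseChange L (modularFunctionFieldFull N)) →
      Place k ↥(modularFunctionFieldFullC k N))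
    (hr : IsPlaceReductionAlong A π N r)
    (hg : genusFF k ↥(modularFunctionFieldFullC k N) =
      genusFF L ↥(laurentBaseChange L (modularFunctionFieldFull N))) :
    ∃ c₀ : ℤ, ∀ B : Divisor L ↥(laurentBaseChange L (modularFunctionFieldFull N)),
      c₀ ≤ Divisor.degree B →
      ((finrank L (riemannRochSpace B) : ℤ) = Divisor.degree B + 1 -
          genusFF L ↥(laurentBaseChange L (modularFunctionFieldFull N))) ∧
      ((finrank k (riemannRochSpace (Finsupp.mapDomain r B)) : ℤ) = Divisor.degree B + 1 -
          genusFF L ↥(laurentBaseChange L (modularFunctionFieldFull N))) ∧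
      ∀ {ι : Type} [Fintype ι] (b : ι → Ow A π N hNk),
        IsLatBasis k (redF A π N hπ hNk) (riemannRochSpace B) b →
        Submodule.span k (Set.range fun i => redF A π N hπ hNk (b i)) =
          riemannRochSpace (Finsupp.mapDomain r B) ∧
        (Fintype.card ι : ℤ) = Divisor.degree B + 1 -
          genusFF L ↥(laurentBaseChange L (modularFunctionFieldFull N)) := by
  have hFL := InstGenus.isFF1_xL (A := A) (π := π) hπ hsurj hNk
  have hFk := InstGenus.isFF1_xk (A := A) (π := π) hπ hsurj hNk
  obtain ⟨c, hc⟩ := hFL.exists_degree_bound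
  obtain ⟨c', hc'⟩ := hFk.exists_degree_bound
  refine ⟨max c c', fun B hB => ?_⟩
  have h1 := (hc B (le_trans (le_max_left _ _) hB)).2
  have hdeg : Divisor.degree (Finsupp.mapDomain r B) = Divisor.degree B :=
    degree_mapDomain_eq r hr.1 B
  have h2 := (hc' (Finsupp.mapDomain r B) (by rw [hdeg]; exact le_trans (le_max_right _ _) hB)).2
  rw [hdeg, hg] at h2
  refine ⟨h1, h2, fun {ι} _ b hb => ⟨?_, ?_⟩⟩
  · apply hb.span_red_eq_rr hπ hsurj hNk r hr
    have h3 : (finrank k (riemannRochSpace (Finsupp.mapDomain r B)) : ℤ) =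
        (finrank L (riemannRochSpace B) : ℤ) := by rw [h1, h2]
    exact le_of_eq (by exact_mod_cast h3)
  · rw [hb.card_eq (redData_Ow hπ hsurj hNk)]
    exact h1

end Modular

section ModL

open ModularCurve Fermat.Agent.Lib.Red

variable (A : ValuationSubring (AlgebraicClosure ℚ)) (N : ℕ) [NeZero N]

theorem residue_eq_zero_of_not_isUnit (a : A) (ha : ¬ IsUnit a) : IsLocalRing.residue A a = 0 :=
  (IsLocalRing.residue_eq_zero_iff a).2 ((IsLocalRing.mem_maximalIdeal a).2 ha)

set_option synthInstance.maxHeartbeats 400000 in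
/-- The Gauss valuation ring `O_w` of `ℚ̄·F_N` at `A`. -/
noncomputable abbrev OwA (hN : (N : IsLocalRing.ResidueField A) ≠ 0) :
    ValuationSubring ↥(modularFunctionFieldBar N) :=
  Ow A (IsLocalRing.residue A) N hN

set_option synthInstance.maxHeartbeats 400000 in
/-- The residue map of `O_w` onto the function field mod `ℓ`. -/
noncomputable abbrev redA (hN : (N : IsLocalRing.ResidueField A) ≠ 0) :
    OwA A N hN →+* ↥(modularFunctionFieldFullC (IsLocalRing.ResidueField A) N) :=
  redF A (IsLocalRing.residue A) N (residue_eq_zero_of_not_isUnit A) hN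

set_option synthInstance.maxHeartbeats 400000 in
/-- The reduction data at `A`. -/
theorem redData_A (hN : (N : IsLocalRing.ResidueField A) ≠ 0) :
    RedData A (OwA A N hN) (redA A N hN) (IsLocalRing.residue A) :=
  redData_Ow (residue_eq_zero_of_not_isUnit A) IsLocalRing.residue_surjective hN

variable {A N}

set_option synthInstance.maxHeartbeats 400000 in
set_option maxHeartbeats 1000000 in
/-- **(LAT1), existence** at a place of good reduction: every `L(B)` has a lattice basis. -/
theorem GoodRed.exists_latBasis (h : GoodRed A N)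
    (B : AlgebraicCurve.Divisor (AlgebraicClosure ℚ) ↥(modularFunctionFieldBar N)) :
    ∃ (d : ℕ) (b : Fin d → OwA A N h.level),
      IsLatBasis (IsLocalRing.ResidueField A) (redA A N h.level) (riemannRochSpace B) b := by
  have := Fermat.Agent.Lib.FF.CharP.isAlgClosed_residueField A
  exact exists_isLatBasis_rr (residue_eq_zero_of_not_isUnit A) IsLocalRing.residue_surjective
    h.level B

set_option synthInstance.maxHeartbeats 400000 in
set_option maxHeartbeats 1000000 in
/-- **(LAT1), the bound** at a place of good reduction: for `deg B ≥ c₀`, both `L(B)` and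
`L~(r_* B)` have dimension `deg B + 1 - g`, and the reductions of every lattice basis of `L(B)`
form a basis of `L~(r_* B)`. -/
theorem GoodRed.exists_bound (h : GoodRed A N)
    (r : AlgebraicCurve.Place (AlgebraicClosure ℚ) ↥(modularFunctionFieldBar N) →
      AlgebraicCurve.Place (IsLocalRing.ResidueField A)
        ↥(modularFunctionFieldFullC (IsLocalRing.ResidueField A) N))
    (hr : IsPlaceReductionModL A N r) :
    ∃ c₀ : ℤ, ∀ B : AlgebraicCurve.Divisor (AlgebraicClosure ℚ) ↥(modularFunctionFieldBar N),
      c₀ ≤ AlgebraicCurve.Divisor.degree B →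
      ((finrank (AlgebraicClosure ℚ) (riemannRochSpace B) : ℤ) =
        AlgebraicCurve.Divisor.degree B + 1 -
          genusFF (AlgebraicClosure ℚ) ↥(modularFunctionFieldBar N)) ∧
      ((finrank (IsLocalRing.ResidueField A) (riemannRochSpace (Finsupp.mapDomain r B)) : ℤ) =
        AlgebraicCurve.Divisor.degree B + 1 -
          genusFF (AlgebraicClosure ℚ) ↥(modularFunctionFieldBar N)) ∧
      ∀ {ι : Type} [Fintype ι] (b : ι → OwA A N h.level),
        IsLatBasis (IsLocalRing.ResidueField A) (redA A N h.level) (riemannRochSpace B) b →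
        Submodule.span (IsLocalRing.ResidueField A)
            (Set.range fun i => redA A N h.level (b i)) =
          riemannRochSpace (Finsupp.mapDomain r B) ∧
        (Fintype.card ι : ℤ) = AlgebraicCurve.Divisor.degree B + 1 -
          genusFF (AlgebraicClosure ℚ) ↥(modularFunctionFieldBar N) := by
  have := Fermat.Agent.Lib.FF.CharP.isAlgClosed_residueField A
  exact exists_bound_latBasis_rr (residue_eq_zero_of_not_isUnit A) IsLocalRing.residue_surjective
    h.level r hr h.genus

end ModL

end Fermat.Agent.Padic
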