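import Mathlib
import Fermat.Agent.Padic.Lattice
import Fermat.Agent.Lib.Descent.Laurent
import Fermat.Agent.Lib.FF.PlaceInf
import Fermat.Agent.Lib.FF.ModLRed
import Fermat.Agent.Lib.GalQbar
import Fermat.Agent.Lib.TeichLift

/-!
# PADIC (LAT3): Galois-fixed lattice bases

* `coeffMap_mem_gaussRing_bc`, `red_coeffMap_bc` : the Gauss ring and its reduction map are
  compatible with an extension of the constant field (`L₀ ⊆ L`, `A₀ = A ∩ L₀`, `k₀ → k`);
* `coeffMap_indep` : linearly independent Laurent series stay linearly independent after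
  extension of the coefficient field;
* `exists_isLatBasis_of_finiteDimensional` : lattice bases of finite-dimensional subspaces of the
  modular function field over ANY constant field (no algebraic closedness: used for `L = ℚ`);
* `exists_isLatBasis_of_sub` : a finite-dimensional `ℚ̄`-subspace of `ℚ̄·F_N` which is spanned by
  functions coming from `K·F_N` has a lattice basis (w.r.t. `O_w`) consisting of such functions;
* `le_span_subEmb_of_stable` : a Galois-stable finite-dimensional subspace is spanned by
  functions with rational `q`-expansion;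
* `exists_fixed_latBasis_of_stable`, `exists_fixed_latBasis_placeInf`,
  `GoodRed.exists_fixed_latBasis` : **(LAT3)** Galois-fixed lattice bases, in particular of
  `L(n·∞)`;
* `IsLatBasis.exists_adapted_inertia` : **(LAT2) + (LAT3)** inertia-fixed lattice bases with
  prescribed reductions (Teichmüller lifts).
-/

set_option autoImplicit false

namespace Fermat.Agent.Padic

open AlgebraicCurve WithZero Module HahnSeries ModularCurve Fermat.Agent.Lib.Red

/-! ### The Gauss ring under extension of the constant field -/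

section GaussBC

variable {L₀ L : Type*} [Field L₀] [Field L] (φ : L₀ →+* L)
  (A₀ : ValuationSubring L₀) (A : ValuationSubring L)
  {k₀ k : Type*} [Field k₀] [Field k] (π₀ : A₀ →+* k₀) (π : A →+* k) (ι : k₀ →+* k)
  (φA : A₀ →+* A) (hφA : ∀ a : A₀, ((φA a : A) : L) = φ (a : L₀))
  (hπ : ∀ a : A₀, π (φA a) = ι (π₀ a))

include hφA hπ

theorem coeffMap_mem_gaussRing_bc {y : LaurentSeries L₀} (hy : y ∈ gaussRing A₀ π₀) :
    coeffMap φ y ∈ gaussRing A π := by
  obtain ⟨s, P, hs, hsP⟩ := (mem_gaussRing_iff A₀ π₀ _).mp hy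
  have h1 : ∀ t : LaurentSeries A₀, incl A (coeffMap φA t) = coeffMap φ (incl A₀ t) := by
    intro t
    ext n
    exact hφA _
  have h2 : ∀ t : LaurentSeries A₀, rbar A π (coeffMap φA t) = coeffMap ι (rbar A₀ π₀ t) := by
    intro t
    ext n
    exact hπ _
  refine ⟨coeffMap φA s, coeffMap φA P, ?_, ?_⟩
  · rw [h2]
    exact fun h0 => hs (Fermat.Agent.Lib.Descent.coeffMap_injective ι (by rw [h0, map_zero]))
  · rw [h1, h1, ← map_mul, hsP]

theorem red_coeffMap_bc {y : LaurentSeries L₀} (hy : y ∈ gaussRing A₀ π₀)
    (hy' : coeffMap φ y ∈ gaussRing A π) :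
    red A π ⟨coeffMap φ y, hy'⟩ = coeffMap ι (red A₀ π₀ ⟨y, hy⟩) := by
  obtain ⟨s, P, hs, hsP⟩ := (mem_gaussRing_iff A₀ π₀ _).mp hy
  have h1 : ∀ t : LaurentSeries A₀, incl A (coeffMap φA t) = coeffMap φ (incl A₀ t) := by
    intro t
    ext n
    exact hφA _
  have h2 : ∀ t : LaurentSeries A₀, rbar A π (coeffMap φA t) = coeffMap ι (rbar A₀ π₀ t) := by
    intro t
    ext n
    exact hπ _
  have hs' : rbar A π (coeffMap φA s) ≠ 0 := by
    rw [h2]
    exact fun h0 => hs (Fermat.Agent.Lib.Descent.coeffMap_injective ι (by rw [h0, map_zero]))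
  have hsP' : incl A (coeffMap φA s) * coeffMap φ y = incl A (coeffMap φA P) := by
    rw [h1, h1, ← map_mul, hsP]
  rw [red_eq A π ⟨coeffMap φ y, hy'⟩ hs' hsP', red_eq A₀ π₀ ⟨y, hy⟩ hs hsP, h2, h2, map_div₀]

end GaussBC

/-! ### Linear independence under extension of the coefficient field -/

section Indep

variable {K₀ K : Type*} [Field K₀] [Field K] (ι : K₀ →+* K)

/-- Linearly independent Laurent series stay linearly independent after extension of the
coefficient field (raw form, with explicit constants, to avoid module-instance diamonds). -/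
theorem coeffMap_indep {n : Type*} [Fintype n] (v : n → LaurentSeries K₀)
    (hv : ∀ g : n → K₀, ∑ i, HahnSeries.C (g i) * v i = 0 → ∀ i, g i = 0) :
    ∀ γ : n → K, ∑ i, HahnSeries.C (γ i) * coeffMap ι (v i) = 0 → ∀ i, γ i = 0 := by
  classical
  -- the coefficient vectors
  set W : Submodule K₀ (ℤ → K₀) :=
    Submodule.span K₀ (Set.range fun i => fun m : ℤ => (v i).coeff m) with hW
  have hWfin : FiniteDimensional K₀ W := FiniteDimensional.span_of_finite K₀ (Set.finite_range _)
  obtain ⟨S, hinj, -⟩ := Fermat.Agent.Lib.Descent.exists_finset_restrict_bijective W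
  -- the finite coefficient matrix
  set M : Matrix S n K₀ := Matrix.of fun s j => (v j).coeff (s : ℤ) with hM
  have hMinj : Function.Injective M.mulVec := by
    intro g g' hgg'
    have h0 : M.mulVec (g - g') = 0 := by rw [Matrix.mulVec_sub, hgg', sub_self]
    have hx : (∑ j, (g - g') j • (fun m : ℤ => (v j).coeff m)) ∈ W :=
      Submodule.sum_mem _ fun j _ => Submodule.smul_mem _ _ (Submodule.subset_span ⟨j, rfl⟩)
    have hx0 := hinj _ hx (fun i hi => by
      have h1 := congrFun h0 ⟨i, hi⟩
      simp only [Matrix.mulVec, dotProduct, hM, Matrix.of_apply, Pi.zero_apply] at h1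
      simp only [Finset.sum_apply, Pi.smul_apply, smul_eq_mul]
      rw [← h1]
      exact Finset.sum_congr rfl fun j _ => mul_comm _ _)
    have hx2 : ∑ j, HahnSeries.C ((g - g') j) * v j = 0 := by
      ext m
      have h1 := congrFun hx0 m
      simp only [Finset.sum_apply, Pi.smul_apply, smul_eq_mul, Pi.zero_apply] at h1
      rw [HahnSeries.coeff_sum, HahnSeries.coeff_zero, ← h1]
      exact Finset.sum_congr rfl fun j _ => Fermat.Agent.Lib.Descent.coeff_C_mul _ _ _
    have hx3 := hv _ hx2
    funext j
    exact sub_eq_zero.mp (hx3 j)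
  -- a left inverse over `K₀`, hence over `K`
  have hker : LinearMap.ker M.mulVecLin = ⊥ := LinearMap.ker_eq_bot.2 hMinj
  obtain ⟨g, hg⟩ := LinearMap.exists_leftInverse_of_injective _ hker
  have hGM : LinearMap.toMatrix' g * M = 1 := by
    have h1 : LinearMap.toMatrix' (g.comp M.mulVecLin) = 1 := by
      rw [hg, LinearMap.toMatrix'_id]
    rw [LinearMap.toMatrix'_comp, ← Matrix.toLin'_apply', LinearMap.toMatrix'_toLin'] at h1
    exact h1
  have hGM' : (LinearMap.toMatrix' g).map ι * M.map ι = 1 := by
    rw [← Matrix.map_mul, hGM, Matrix.map_one _ ι.map_zero ι.map_one]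
  intro γ hγ
  have h2 : (M.map ι).mulVec γ = 0 := by
    funext s
    have h3 := congrArg (fun x : LaurentSeries K => x.coeff (s : ℤ)) hγ
    simp only [HahnSeries.coeff_sum, Fermat.Agent.Lib.Descent.coeff_C_mul, coeffMap_coeff,
      HahnSeries.coeff_zero] at h3
    simp only [Matrix.mulVec, dotProduct, Matrix.map_apply, hM, Matrix.of_apply, Pi.zero_apply]
    rw [← h3]
    exact Finset.sum_congr rfl fun j _ => mul_comm _ _
  have h4 : ((LinearMap.toMatrix' g).map ι).mulVec ((M.map ι).mulVec γ) = γ := by
    rw [Matrix.mulVec_mulVec, hGM', Matrix.one_mulVec]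
  rw [h2, Matrix.mulVec_zero] at h4
  intro i
  rw [← h4]
  rfl

/-- Linear independence in an intermediate field of `K((q))`, raw form. -/
theorem linearIndependent_iff_raw (S : IntermediateField K (LaurentSeries K)) {m : Type*}
    [Fintype m] (v : m → ↥S) :
    LinearIndependent K v ↔
      ∀ g : m → K, ∑ i, HahnSeries.C (g i) * (v i : LaurentSeries K) = 0 → ∀ i, g i = 0 := by
  have key : ∀ g : m → K, ((∑ i, g i • v i : ↥S) : LaurentSeries K) =
      ∑ i, HahnSeries.C (g i) * (v i : LaurentSeries K) := by
    intro g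
    rw [AddSubmonoidClass.coe_finsetSum]
    refine Finset.sum_congr rfl fun i _ => ?_
    rw [Algebra.smul_def, Fermat.Agent.Lib.Red.C_eq_algebraMap]
    rfl
  rw [Fintype.linearIndependent_iff]
  constructor
  · intro h g hg
    apply h g
    apply Subtype.ext
    rw [key, hg]
    rfl
  · intro h g hg
    apply h g
    rw [← key, hg]
    rfl

end Indep

/-! ### Lattice bases over an arbitrary constant field -/

section ModularGen

open Polynomial IntermediateField Fermat.Agent.Lib.FF Fermat.Agent.Lib.Red.Kummer

variable {L : Type*} [Field L] [Algebra ℚ L] {A : ValuationSubring L} {k : Type} [Field k]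
  {π : A →+* k} {N : ℕ} [NeZero N]

/-- Every finite-dimensional subspace of the modular function field `L·F_N` (ANY constant field
`L ⊇ ℚ`) has a lattice basis with respect to the Gauss valuation ring. -/
theorem exists_isLatBasis_of_finiteDimensional (hπ : ∀ a : A, ¬ IsUnit a → π a = 0)
    (hsurj : Function.Surjective π) (hNk : (N : k) ≠ 0)
    (W : Submodule L ↥(laurentBaseChange L (modularFunctionFieldFull N)))
    (hW : FiniteDimensional L W) :
    ∃ (d : ℕ) (b : Fin d → Ow A π N hNk), IsLatBasis k (redF A π N hπ hNk) W b := by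
  obtain ⟨ι, _, G, -⟩ := exists_goodBasis hπ hsurj hNk
  refine exists_isLatBasis (redData_Ow hπ hsurj hNk) _ ?_
  exact lat_of_goodBasis A (Ow A π N hNk) (transcendental_xL N)
    (fun c hc => (algebraMap_mem_Ow_iff hπ hNk c).mpr hc) (xL_mem_Ow hNk)
    (fun p hp => (aeval_mem_Ow_iff hπ hNk p).mp hp)
    (inv_aeval_mem_Ow_of_coeff hπ hNk)
    (fun i => ((G.b i : Ow A π N hNk) : ↥(laurentBaseChange L (modularFunctionFieldFull N))))
    (fun i => (G.b i).2) G.span
    (fun cf h i => G.compat.coeff_mem G.b G.ind cf h i) W hW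

end ModularGen

/-! ### Subfields of the constants

Everything is done for an arbitrary subfield `K` of `ℚ̄` (given as a field with an algebra
structure) and specialised to `K = ℚ` at the very end; this avoids instance clashes between the
two `ℚ`-algebra structures on `ℚ·F_N`. -/

section Sub

open Fermat.Agent.Lib.Descent

variable (K : Type) [Field K] [Algebra K (AlgebraicClosure ℚ)]
variable (A : ValuationSubring (AlgebraicClosure ℚ)) (N : ℕ) [NeZero N]

/-- `A ∩ K`, a valuation subring of `K`. -/
noncomputable def subVal : ValuationSubring K := A.comap (algebraMap K (AlgebraicClosure ℚ))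

theorem mem_subVal (a : K) : a ∈ subVal K A ↔ algebraMap K (AlgebraicClosure ℚ) a ∈ A := Iff.rfl

/-- The inclusion `A ∩ K → A`. -/
noncomputable def subIncl : subVal K A →+* A where
  toFun a := ⟨algebraMap K (AlgebraicClosure ℚ) (a : K), a.2⟩
  map_one' := Subtype.ext (map_one _)
  map_mul' _ _ := Subtype.ext (map_mul _ _ _)
  map_zero' := Subtype.ext (map_zero _)
  map_add' _ _ := Subtype.ext (map_add _ _ _)

theorem coe_subIncl (a : subVal K A) :
    ((subIncl K A a : A) : AlgebraicClosure ℚ) = algebraMap K (AlgebraicClosure ℚ) (a : K) := rfl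

instance isLocalHom_subIncl : IsLocalHom (subIncl K A) where
  map_nonunit a ha := by
    have ha0 : (a : K) ≠ 0 := by
      intro h0
      have h1 : subIncl K A a = 0 := by
        apply Subtype.ext
        rw [coe_subIncl, h0, map_zero]
        rfl
      rw [h1] at ha
      exact not_isUnit_zero ha
    obtain ⟨u, hu⟩ := ha
    have hinv : (algebraMap K (AlgebraicClosure ℚ) (a : K))⁻¹ ∈ A := by
      have h2 : ((u⁻¹ : Aˣ) : AlgebraicClosure ℚ) =
          (algebraMap K (AlgebraicClosure ℚ) (a : K))⁻¹ := by
        have h3 : ((u : A) : AlgebraicClosure ℚ) * ((u⁻¹ : Aˣ) : AlgebraicClosure ℚ) = 1 :=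
          congrArg (Subtype.val) (Units.mul_inv u)
        rw [hu, coe_subIncl] at h3
        exact eq_inv_of_mul_eq_one_right h3
      rw [← h2]
      exact ((u⁻¹ : Aˣ) : A).2
    have hmem : (a : K)⁻¹ ∈ subVal K A := by
      rw [mem_subVal, map_inv₀]
      exact hinv
    refine IsUnit.of_mul_eq_one (⟨(a : K)⁻¹, hmem⟩ : subVal K A) ?_
    apply Subtype.ext
    exact mul_inv_cancel₀ ha0

/-- The residue field of `A ∩ K` maps to the residue field of `A`. -/
noncomputable def subResidueMap :
    IsLocalRing.ResidueField (subVal K A) →+* IsLocalRing.ResidueField A :=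
  IsLocalRing.ResidueField.map (subIncl K A)

theorem subResidueMap_residue (a : subVal K A) :
    subResidueMap K A (IsLocalRing.residue (subVal K A) a) =
      IsLocalRing.residue A (subIncl K A a) :=
  IsLocalRing.ResidueField.map_residue (subIncl K A) a

omit [NeZero N] in
theorem natCast_subResidue_ne_zero (hN : (N : IsLocalRing.ResidueField A) ≠ 0) :
    (N : IsLocalRing.ResidueField (subVal K A)) ≠ 0 := by
  intro h0
  apply hN
  rw [← map_natCast (subResidueMap K A) N, h0, map_zero]

variable [Algebra ℚ K]

/-- The embedding `K·F_N → ℚ̄·F_N` (coefficientwise). -/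
noncomputable def subEmb :
    ↥(laurentBaseChange K (modularFunctionFieldFull N)) →+* ↥(modularFunctionFieldBar N) where
  toFun y := ⟨coeffMap (algebraMap K (AlgebraicClosure ℚ)) (y : LaurentSeries K),
    coeffMap_mem_laurentBaseChange_of_mem _ y.2⟩
  map_one' := Subtype.ext (map_one _)
  map_mul' _ _ := Subtype.ext (map_mul _ _ _)
  map_zero' := Subtype.ext (map_zero _)
  map_add' _ _ := Subtype.ext (map_add _ _ _)

omit [NeZero N] in
theorem coe_subEmb (y : ↥(laurentBaseChange K (modularFunctionFieldFull N))) :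
    ((subEmb K N y : ↥(modularFunctionFieldBar N)) : LaurentSeries (AlgebraicClosure ℚ)) =
      coeffMap (algebraMap K (AlgebraicClosure ℚ)) (y : LaurentSeries K) := rfl

omit [NeZero N] in
/-- `subEmb` on constants. -/
theorem subEmb_algebraMap (c : K) :
    subEmb K N (algebraMap K ↥(laurentBaseChange K (modularFunctionFieldFull N)) c) =
      algebraMap (AlgebraicClosure ℚ) ↥(modularFunctionFieldBar N)
        (algebraMap K (AlgebraicClosure ℚ) c) := by
  apply Subtype.ext
  show coeffMap (algebraMap K (AlgebraicClosure ℚ))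
      (algebraMap K (LaurentSeries K) c) =
    algebraMap (AlgebraicClosure ℚ) (LaurentSeries (AlgebraicClosure ℚ))
      (algebraMap K (AlgebraicClosure ℚ) c)
  rw [algebraMap_laurentSeries_eq_single, algebraMap_laurentSeries_eq_single, coeffMap_single]

omit [NeZero N] in
/-- `subEmb` is semilinear over `K → ℚ̄`. -/
theorem subEmb_smul (c : K) (y : ↥(laurentBaseChange K (modularFunctionFieldFull N))) :
    subEmb K N (c • y) = algebraMap K (AlgebraicClosure ℚ) c • subEmb K N y := by
  rw [Algebra.smul_def, map_mul, subEmb_algebraMap, Algebra.smul_def]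

set_option synthInstance.maxHeartbeats 400000 in
set_option maxHeartbeats 1000000 in
/-- **Lattice bases defined over a subfield.**  Let `V` be a finite-dimensional `ℚ̄`-subspace of
`ℚ̄·F_N` spanned by functions coming from `K·F_N`.  Then `V` has a lattice basis (with respect
to `O_w`) consisting of functions coming from `K·F_N`. -/
theorem exists_isLatBasis_of_sub (hN : (N : IsLocalRing.ResidueField A) ≠ 0)
    (V : Submodule (AlgebraicClosure ℚ) ↥(modularFunctionFieldBar N))
    (hVfin : FiniteDimensional (AlgebraicClosure ℚ) V)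
    (hV : V ≤ Submodule.span (AlgebraicClosure ℚ)
      {f | f ∈ V ∧ ∃ y : ↥(laurentBaseChange K (modularFunctionFieldFull N)), subEmb K N y = f}) :
    ∃ (d : ℕ) (b₀ : Fin d → ↥(laurentBaseChange K (modularFunctionFieldFull N)))
      (b : Fin d → OwA A N hN),
      (∀ i, ((b i : OwA A N hN) : ↥(modularFunctionFieldBar N)) = subEmb K N (b₀ i)) ∧
      IsLatBasis (IsLocalRing.ResidueField A) (redA A N hN) V b := by
  classical
  have hπ₀ : ∀ a : subVal K A, ¬ IsUnit a → IsLocalRing.residue (subVal K A) a = 0 := fun a ha =>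
    (IsLocalRing.residue_eq_zero_iff a).2 ((IsLocalRing.mem_maximalIdeal a).2 ha)
  have hsurj₀ : Function.Surjective (IsLocalRing.residue (subVal K A)) :=
    IsLocalRing.residue_surjective
  have hN₀ := natCast_subResidue_ne_zero K A N hN
  -- the `K`-subspace of functions of `K·F_N` lying in `V`
  let W₀ : Submodule K ↥(laurentBaseChange K (modularFunctionFieldFull N)) :=
    { carrier := {y | subEmb K N y ∈ V}
      add_mem' := fun {x y} hx hy => by
        show subEmb K N (x + y) ∈ V
        rw [map_add]
        exact V.add_mem hx hy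
      zero_mem' := by
        show subEmb K N 0 ∈ V
        rw [map_zero]
        exact V.zero_mem
      smul_mem' := fun c y hy => by
        show subEmb K N (c • y) ∈ V
        rw [subEmb_smul]
        exact V.smul_mem _ hy }
  have hW₀mem : ∀ y, y ∈ W₀ ↔ subEmb K N y ∈ V := fun y => Iff.rfl
  -- independence transfer
  have htransfer : ∀ {m : Type} [Fintype m]
      (v : m → ↥(laurentBaseChange K (modularFunctionFieldFull N))),
      LinearIndependent K v →
        LinearIndependent (AlgebraicClosure ℚ) (fun i => subEmb K N (v i)) := by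
    intro m _ v hv
    rw [linearIndependent_iff_raw] at hv ⊢
    exact coeffMap_indep (algebraMap K (AlgebraicClosure ℚ)) _ hv
  -- finite-dimensionality of `W₀`
  have hW₀ : FiniteDimensional K W₀ := by
    have hrank : Module.rank K W₀ ≤ (finrank (AlgebraicClosure ℚ) V : ℕ) := by
      apply rank_le
      intro s hs
      have h1 : LinearIndependent K (fun i : s => ((i : W₀) :
          ↥(laurentBaseChange K (modularFunctionFieldFull N)))) :=
        hs.map' W₀.subtype (Submodule.ker_subtype _)
      have h2 := htransfer _ h1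
      have h3 : LinearIndependent (AlgebraicClosure ℚ)
          (fun i : s => (⟨subEmb K N ((i : W₀) : ↥(laurentBaseChange K
            (modularFunctionFieldFull N))), (i : W₀).2⟩ : V)) :=
        LinearIndependent.of_comp V.subtype h2
      have h4 := h3.fintype_card_le_finrank
      rwa [Fintype.card_coe] at h4
    exact Module.rank_lt_aleph0_iff.mp (lt_of_le_of_lt hrank Cardinal.natCast_lt_aleph0)
  obtain ⟨d, b₀, hb₀⟩ := exists_isLatBasis_of_finiteDimensional hπ₀ hsurj₀ hN₀ W₀ hW₀
  -- transfer of integrality
  have hmemO : ∀ y : Ow (subVal K A) (IsLocalRing.residue (subVal K A)) N hN₀,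
      subEmb K N (y : ↥(laurentBaseChange K (modularFunctionFieldFull N))) ∈ OwA A N hN :=
    fun y => coeffMap_mem_gaussRing_bc (algebraMap K (AlgebraicClosure ℚ)) (subVal K A) A
      (IsLocalRing.residue (subVal K A)) (IsLocalRing.residue A) (subResidueMap K A)
      (subIncl K A) (coe_subIncl K A) (fun a => (subResidueMap_residue K A a).symm) y.2
  -- transfer of reductions
  have hred : ∀ y : Ow (subVal K A) (IsLocalRing.residue (subVal K A)) N hN₀,
      ((redA A N hN ⟨subEmb K N (y : ↥(laurentBaseChange K (modularFunctionFieldFull N))),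
        hmemO y⟩ : ↥(modularFunctionFieldFullC (IsLocalRing.ResidueField A) N)) :
        LaurentSeries (IsLocalRing.ResidueField A)) =
      coeffMap (subResidueMap K A)
        ((redF (subVal K A) (IsLocalRing.residue (subVal K A)) N hπ₀ hN₀ y :
          ↥(modularFunctionFieldFullC (IsLocalRing.ResidueField (subVal K A)) N)) :
          LaurentSeries (IsLocalRing.ResidueField (subVal K A))) :=
    fun y => red_coeffMap_bc (algebraMap K (AlgebraicClosure ℚ)) (subVal K A) A
      (IsLocalRing.residue (subVal K A)) (IsLocalRing.residue A) (subResidueMap K A)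
      (subIncl K A) (coe_subIncl K A) (fun a => (subResidueMap_residue K A a).symm) y.2 (hmemO y)
  refine ⟨d, fun i => (b₀ i : ↥(laurentBaseChange K (modularFunctionFieldFull N))),
    fun i => ⟨subEmb K N (b₀ i : ↥(laurentBaseChange K (modularFunctionFieldFull N))),
      hmemO (b₀ i)⟩, fun i => rfl, ⟨fun i => (hW₀mem _).1 (hb₀.mem i), ?_, ?_⟩⟩
  · -- span
    refine hV.trans (Submodule.span_le.2 ?_)
    rintro f ⟨hfV, y, rfl⟩
    have hyW : y ∈ W₀ := (hW₀mem y).2 hfV
    obtain ⟨c, hc⟩ := hb₀.exists_coeff_L hyW
    have h1 : subEmb K N y = ∑ i, algebraMap K (AlgebraicClosure ℚ) (c i) •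
        subEmb K N (b₀ i : ↥(laurentBaseChange K (modularFunctionFieldFull N))) := by
      rw [hc, map_sum]
      exact Finset.sum_congr rfl fun i _ => subEmb_smul K N _ _
    show subEmb K N y ∈ _
    rw [h1]
    exact Submodule.sum_mem _ fun i _ => Submodule.smul_mem _ _ (Submodule.subset_span ⟨i, rfl⟩)
  · -- independent reductions
    have h1 := hb₀.redli
    rw [linearIndependent_iff_raw] at h1 ⊢
    have h2 := coeffMap_indep (subResidueMap K A) _ h1
    intro γ hγ
    apply h2 γ
    rw [← hγ]
    exact Finset.sum_congr rfl fun i _ => by rw [hred (b₀ i)]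

end Sub

/-! ### Galois-stable spaces are spanned by functions with rational `q`-expansion -/

section RatSpan

open Fermat.Agent.Lib.Descent

variable (N : ℕ) [NeZero N]

omit [NeZero N] in
/-- Functions with rational `q`-expansion are fixed by the arithmetic Galois action. -/
theorem arithmeticGalois_smul_subEmb (σ : AlgebraicClosure ℚ ≃ₐ[ℚ] AlgebraicClosure ℚ)
    (y : ↥(laurentBaseChange ℚ (modularFunctionFieldFull N))) :
    arithmeticGalois (modularFunctionFieldFull N) σ • subEmb ℚ N y = subEmb ℚ N y := by
  apply Subtype.ext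
  rw [coe_arithmeticGalois_smul, coe_subEmb, coeffMap_coeffMap]
  exact coeffMap_congr (RingHom.ext fun a => σ.commutes a) _

omit [NeZero N] in
/-- A function all of whose `q`-coefficients are Galois-fixed has rational `q`-expansion. -/
theorem exists_subEmb_eq_of_fixed (f : ↥(modularFunctionFieldBar N))
    (hf : ∀ (σ : AlgebraicClosure ℚ ≃ₐ[ℚ] AlgebraicClosure ℚ) (i : ℤ),
      σ ((f : LaurentSeries (AlgebraicClosure ℚ)).coeff i) =
        (f : LaurentSeries (AlgebraicClosure ℚ)).coeff i) :
    ∃ y : ↥(laurentBaseChange ℚ (modularFunctionFieldFull N)), subEmb ℚ N y = f := by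
  obtain ⟨y, hy⟩ := mem_range_coeffMap_of_coeff (K := ℚ)
    (f : LaurentSeries (AlgebraicClosure ℚ)) (fun i => by
      obtain ⟨q, hq⟩ := Fermat.Agent.Lib.GalQbar.exists_rat_of_fixed _ (fun σ => hf σ i)
      exact ⟨q, hq⟩)
  have hmem : y ∈ laurentBaseChange ℚ (modularFunctionFieldFull N) :=
    mem_laurentBaseChange_of_coeffMap_mem (modularFunctionFieldFull N) (by rw [hy]; exact f.2)
  exact ⟨⟨y, hmem⟩, Subtype.ext hy⟩

omit [NeZero N] in
/-- **Rational spanning.**  A finite-dimensional `ℚ̄`-subspace of `ℚ̄·F_N` which is stable under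
the arithmetic Galois action is spanned by its elements with rational `q`-expansion. -/
theorem le_span_subEmb_of_stable
    (V : Submodule (AlgebraicClosure ℚ) ↥(modularFunctionFieldBar N))
    (hVfin : FiniteDimensional (AlgebraicClosure ℚ) V)
    (hV : ∀ (σ : AlgebraicClosure ℚ ≃ₐ[ℚ] AlgebraicClosure ℚ), ∀ f ∈ V,
      arithmeticGalois (modularFunctionFieldFull N) σ • f ∈ V) :
    V ≤ Submodule.span (AlgebraicClosure ℚ)
      {f | f ∈ V ∧ ∃ y : ↥(laurentBaseChange ℚ (modularFunctionFieldFull N)),
        subEmb ℚ N y = f} := by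
  classical
  -- the coefficient map
  let c : ↥(modularFunctionFieldBar N) →ₗ[AlgebraicClosure ℚ] (ℤ → AlgebraicClosure ℚ) :=
    { toFun := fun f => fun i => (f : LaurentSeries (AlgebraicClosure ℚ)).coeff i
      map_add' := fun f g => by
        funext i
        show ((f + g : ↥(modularFunctionFieldBar N)) :
          LaurentSeries (AlgebraicClosure ℚ)).coeff i = _
        rw [AddMemClass.coe_add, HahnSeries.coeff_add]
        rfl
      map_smul' := fun a f => by
        funext i
        show ((a • f : ↥(modularFunctionFieldBar N)) :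
          LaurentSeries (AlgebraicClosure ℚ)).coeff i =
            a * (f : LaurentSeries (AlgebraicClosure ℚ)).coeff i
        have h1 : ((a • f : ↥(modularFunctionFieldBar N)) :
            LaurentSeries (AlgebraicClosure ℚ)) =
            HahnSeries.C a * (f : LaurentSeries (AlgebraicClosure ℚ)) := by
          rw [Algebra.smul_def, Fermat.Agent.Lib.Red.C_eq_algebraMap]
          rfl
        rw [h1, coeff_C_mul] }
  have hc : ∀ f i, c f i = (f : LaurentSeries (AlgebraicClosure ℚ)).coeff i := fun f i => rfl
  have hcinj : Function.Injective c := by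
    intro f g hfg
    apply Subtype.ext
    ext i
    exact congrFun hfg i
  set W : Submodule (AlgebraicClosure ℚ) (ℤ → AlgebraicClosure ℚ) := V.map c with hW
  have : FiniteDimensional (AlgebraicClosure ℚ) W := by
    rw [hW]
    infer_instance
  let Φ : Set (AlgebraicClosure ℚ →+* AlgebraicClosure ℚ) :=
    Set.range fun σ : AlgebraicClosure ℚ ≃ₐ[ℚ] AlgebraicClosure ℚ =>
      (σ : AlgebraicClosure ℚ →+* AlgebraicClosure ℚ)
  have hΦ : ∀ φ ∈ Φ, ∀ x ∈ W, (fun i => φ (x i)) ∈ W := by
    rintro _ ⟨σ, rfl⟩ x ⟨f, hf, rfl⟩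
    refine ⟨arithmeticGalois (modularFunctionFieldFull N) σ • f, hV σ f hf, ?_⟩
    funext i
    rw [hc, coe_arithmeticGalois_smul, coeffMap_coeff]
    rfl
  have h1 := le_span_fixed W Φ hΦ
  intro f hf
  have h2 : c f ∈ Submodule.span (AlgebraicClosure ℚ)
      {x | x ∈ W ∧ ∀ φ ∈ Φ, ∀ i, φ (x i) = x i} := h1 ⟨f, hf, rfl⟩
  have h3 : Submodule.span (AlgebraicClosure ℚ) {x | x ∈ W ∧ ∀ φ ∈ Φ, ∀ i, φ (x i) = x i} ≤
      (Submodule.span (AlgebraicClosure ℚ)
        {f | f ∈ V ∧ ∃ y : ↥(laurentBaseChange ℚ (modularFunctionFieldFull N)),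
          subEmb ℚ N y = f}).map c := by
    rw [Submodule.span_le]
    rintro x ⟨⟨g, hg, rfl⟩, hfix⟩
    exact ⟨g, Submodule.subset_span
      ⟨hg, exists_subEmb_eq_of_fixed N g (fun σ i => hfix _ ⟨σ, rfl⟩ i)⟩, rfl⟩
  obtain ⟨g, hg, hgf⟩ := h3 h2
  rw [← hcinj hgf]
  exact hg

end RatSpan

/-! ### Semilinear automorphisms and Riemann–Roch spaces -/

section SemilinearRR

variable {K F : Type*} [Field K] [Field F] [Algebra K F]

theorem adicValuation_semilinear_smul (g : SemilinearAut K F) (P : Place K F) (f : F) :
    (g • P).adicValuation (g • f) = P.adicValuation f := by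
  rcases eq_or_ne f 0 with rfl | hf
  · simp
  · have hgf : g • f ≠ 0 := (smul_ne_zero_iff_ne _).mpr hf
    rw [Place.adicValuation_eq_exp_neg_ord _ hgf, Place.adicValuation_eq_exp_neg_ord _ hf,
      SemilinearAut.ord_smul]

theorem adicValuation_semilinear_smul' (g : SemilinearAut K F) (P : Place K F) (f : F) :
    P.adicValuation (g • f) = (g⁻¹ • P).adicValuation f := by
  have h := adicValuation_semilinear_smul g (g⁻¹ • P) f
  rwa [smul_inv_smul] at h

/-- A semilinear automorphism preserving the divisor `D` preserves `L(D)`. -/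
theorem semilinear_smul_mem_rr (g : SemilinearAut K F) {D : Divisor K F}
    (hD : ∀ v : Place K F, D (g⁻¹ • v) = D v) {f : F} (hf : f ∈ riemannRochSpace D) :
    g • f ∈ riemannRochSpace D := by
  intro v
  rw [adicValuation_semilinear_smul', ← hD v]
  exact hf _

/-- A semilinear automorphism fixing the place `P` preserves `L(n·P)`. -/
theorem semilinear_smul_mem_rr_single (g : SemilinearAut K F) {P : Place K F} (hP : g • P = P)
    (n : ℤ) {f : F} (hf : f ∈ riemannRochSpace (Finsupp.single P n)) :
    g • f ∈ riemannRochSpace (Finsupp.single P n) := by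
  classical
  refine semilinear_smul_mem_rr g (fun v => ?_) hf
  have hP' : g⁻¹ • P = P := by rw [inv_smul_eq_iff, hP]
  by_cases hv : P = v
  · subst hv
    rw [hP']
  · have hv' : P ≠ g⁻¹ • v := by
      intro h
      apply hv
      rw [← hP, h, smul_inv_smul]
    rw [Finsupp.single_apply, Finsupp.single_apply, if_neg hv, if_neg hv']

end SemilinearRR

/-! ### Galois-fixed lattice bases -/

section Fixed

open Fermat.Agent.Lib.FF

variable (A : ValuationSubring (AlgebraicClosure ℚ)) (N : ℕ) [NeZero N]

set_option synthInstance.maxHeartbeats 400000 in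
set_option maxHeartbeats 1000000 in
/-- **(LAT3), general form.**  A finite-dimensional `ℚ̄`-subspace `V` of `ℚ̄·F_N` stable under
the arithmetic Galois action has a lattice basis with respect to `O_w` consisting of functions
with rational `q`-expansion; in particular the basis is fixed by the whole Galois group. -/
theorem exists_fixed_latBasis_of_stable (hN : (N : IsLocalRing.ResidueField A) ≠ 0)
    (V : Submodule (AlgebraicClosure ℚ) ↥(modularFunctionFieldBar N))
    (hVfin : FiniteDimensional (AlgebraicClosure ℚ) V)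
    (hV : ∀ (σ : AlgebraicClosure ℚ ≃ₐ[ℚ] AlgebraicClosure ℚ), ∀ f ∈ V,
      arithmeticGalois (modularFunctionFieldFull N) σ • f ∈ V) :
    ∃ (d : ℕ) (b₀ : Fin d → ↥(laurentBaseChange ℚ (modularFunctionFieldFull N)))
      (b : Fin d → OwA A N hN),
      (∀ i, ((b i : OwA A N hN) : ↥(modularFunctionFieldBar N)) = subEmb ℚ N (b₀ i)) ∧
      (∀ (σ : AlgebraicClosure ℚ ≃ₐ[ℚ] AlgebraicClosure ℚ) (i : Fin d),
        arithmeticGalois (modularFunctionFieldFull N) σ •
          ((b i : OwA A N hN) : ↥(modularFunctionFieldBar N)) = b i) ∧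
      IsLatBasis (IsLocalRing.ResidueField A) (redA A N hN) V b := by
  obtain ⟨d, b₀, b, hb₀, hb⟩ := exists_isLatBasis_of_sub ℚ A N hN V hVfin
    (le_span_subEmb_of_stable N V hVfin hV)
  exact ⟨d, b₀, b, hb₀, fun σ i => by rw [hb₀ i, arithmeticGalois_smul_subEmb], hb⟩

set_option synthInstance.maxHeartbeats 400000 in
set_option maxHeartbeats 1000000 in
/-- **(LAT3)**: `L(n·∞)` has a lattice basis with respect to `O_w` consisting of functions with
rational `q`-expansion, fixed by the whole Galois group. -/
theorem exists_fixed_latBasis_placeInf (hN : (N : IsLocalRing.ResidueField A) ≠ 0) (n : ℤ) :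
    ∃ (d : ℕ) (b₀ : Fin d → ↥(laurentBaseChange ℚ (modularFunctionFieldFull N)))
      (b : Fin d → OwA A N hN),
      (∀ i, ((b i : OwA A N hN) : ↥(modularFunctionFieldBar N)) = subEmb ℚ N (b₀ i)) ∧
      (∀ (σ : AlgebraicClosure ℚ ≃ₐ[ℚ] AlgebraicClosure ℚ) (i : Fin d),
        arithmeticGalois (modularFunctionFieldFull N) σ •
          ((b i : OwA A N hN) : ↥(modularFunctionFieldBar N)) = b i) ∧
      IsLatBasis (IsLocalRing.ResidueField A) (redA A N hN)
        (riemannRochSpace (Finsupp.single (PlaceInf.placeInfL (AlgebraicClosure ℚ) N) n)) b := by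
  refine exists_fixed_latBasis_of_stable A N hN _
    ((Fermat.Agent.Lib.FF.isFF1_xL (AlgebraicClosure ℚ) N).finite_L _) (fun σ f hf => ?_)
  exact semilinear_smul_mem_rr_single _
    (PlaceInf.arithmeticGalois_smul_placeInfL (AlgebraicClosure ℚ) N σ) n hf

end Fixed

/-! ### Adapted inertia-fixed lattice bases -/

section Adapted

variable {A : ValuationSubring (AlgebraicClosure ℚ)} {N : ℕ} [NeZero N]

omit [NeZero N] in
/-- The arithmetic Galois action is semilinear over the constants. -/
theorem arithmeticGalois_smul_const_smul (σ : AlgebraicClosure ℚ ≃ₐ[ℚ] AlgebraicClosure ℚ)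
    (a : AlgebraicClosure ℚ) (f : ↥(modularFunctionFieldBar N)) :
    arithmeticGalois (modularFunctionFieldFull N) σ • (a • f) =
      σ a • (arithmeticGalois (modularFunctionFieldFull N) σ • f) := by
  have h1 : a • f = algebraMap (AlgebraicClosure ℚ) ↥(modularFunctionFieldBar N) a * f :=
    Algebra.smul_def a f
  have h2 : σ a • (arithmeticGalois (modularFunctionFieldFull N) σ • f) =
      algebraMap (AlgebraicClosure ℚ) ↥(modularFunctionFieldBar N) (σ a) *
        (arithmeticGalois (modularFunctionFieldFull N) σ • f) := Algebra.smul_def _ _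
  rw [h1, h2, smul_mul', SemilinearAut.smul_algebraMap]
  rfl

set_option synthInstance.maxHeartbeats 400000 in
set_option maxHeartbeats 1000000 in
/-- **(LAT2) + (LAT3)**: from an inertia-fixed lattice basis `b` of `V` and ANY basis `c` of the
span of its reductions we get an inertia-fixed lattice basis `b'` of `V` with reductions exactly
`c` (Teichmüller lifts of the transition matrix). -/
theorem IsLatBasis.exists_adapted_inertia {l : ℕ} (hl : l.Prime) (hA : A.LiesOverPrime l)
    (hN : (N : IsLocalRing.ResidueField A) ≠ 0)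
    {V : Submodule (AlgebraicClosure ℚ) ↥(modularFunctionFieldBar N)}
    {ι : Type*} [Fintype ι] [DecidableEq ι] {b : ι → OwA A N hN}
    (hb : IsLatBasis (IsLocalRing.ResidueField A) (redA A N hN) V b)
    (hfix : ∀ σ ∈ A.inertiaSubgroupIn ℚ, ∀ i,
      arithmeticGalois (modularFunctionFieldFull N) σ •
        ((b i : OwA A N hN) : ↥(modularFunctionFieldBar N)) = b i)
    (c : ι → ↥(modularFunctionFieldFullC (IsLocalRing.ResidueField A) N))
    (hc : LinearIndependent (IsLocalRing.ResidueField A) c)
    (hcmem : ∀ i, c i ∈ Submodule.span (IsLocalRing.ResidueField A)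
      (Set.range fun i => redA A N hN (b i))) :
    ∃ b' : ι → OwA A N hN,
      IsLatBasis (IsLocalRing.ResidueField A) (redA A N hN) V b' ∧
      (∀ i, redA A N hN (b' i) = c i) ∧
      ∀ σ ∈ A.inertiaSubgroupIn ℚ, ∀ i,
        arithmeticGalois (modularFunctionFieldFull N) σ •
          ((b' i : OwA A N hN) : ↥(modularFunctionFieldBar N)) = b' i := by
  classical
  choose s hs hsfix using Fermat.Agent.Lib.TeichLift.exists_inertia_fixed_lift_Qbar A hl hA
  obtain ⟨γ, hγ, hred⟩ := hb.exists_adapted (redData_A A N hN) s hs c hc hcmem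
  refine ⟨_, hγ, hred, fun σ hσ i => ?_⟩
  rw [(redData_A A N hN).coe_sum, Finset.smul_sum]
  refine Finset.sum_congr rfl fun j _ => ?_
  rw [arithmeticGalois_smul_const_smul, hsfix _ σ hσ, hfix σ hσ j]

set_option synthInstance.maxHeartbeats 400000 in
set_option maxHeartbeats 1000000 in
/-- **(LAT3) at a place of good reduction**: a Galois-fixed lattice basis of `L(n·∞)`. -/
theorem GoodRed.exists_fixed_latBasis (h : GoodRed A N) (n : ℤ) :
    ∃ (d : ℕ) (b : Fin d → OwA A N h.level),
      (∀ (σ : AlgebraicClosure ℚ ≃ₐ[ℚ] AlgebraicClosure ℚ) (i : Fin d),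
        arithmeticGalois (modularFunctionFieldFull N) σ •
          ((b i : OwA A N h.level) : ↥(modularFunctionFieldBar N)) = b i) ∧
      IsLatBasis (IsLocalRing.ResidueField A) (redA A N h.level)
        (riemannRochSpace
          (Finsupp.single (Fermat.Agent.Lib.FF.PlaceInf.placeInfL (AlgebraicClosure ℚ) N) n))
        b := by
  obtain ⟨d, -, b, -, hfix, hb⟩ := exists_fixed_latBasis_placeInf A N h.level n
  exact ⟨d, b, hfix, hb⟩

end Adapted

end Fermat.Agent.Padic
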