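/-
PADIC (DL) — the interface between the two halves of the descent (helper68).

* `HasLocalOrderD A V act` : `HasLocalOrder A V act` (Padic/Defs.lean) verbatim, with the
  DECOMPOSITION group `A.decompositionSubgroup ℚ` in place of the inertia group.

(DL-1) `HasLocalOrder → HasLocalOrderD` : `Lib/FinFlat/DescentUnram.lean` (unramified descent);
(DL-2) `HasLocalOrderD → FlatClause`    : `Lib/FinFlat/DescentGlobal.lean`.
-/
import Fermat.Agent.Padic.Defs

set_option autoImplicit false

namespace Fermat.Agent.Padic

/-- **A local order with decomposition-group equivariance** on the Galois module `(V, act)` at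
the valuation subring `A` of `ℚ̄`: finitely many functions `V → ℚ̄` with values in `A`,
equivariant for the DECOMPOSITION group of `A`, separating the points of `V`, such that the
comultiplication of each of them is a finite sum of products of elements of the `A`-algebra they
generate. -/
def HasLocalOrderD (A : ValuationSubring Qb) (V : Type) [AddCommGroup V] (act : GQ → V → V) :
    Prop :=
  ∃ s : Set (V → Qb), s.Finite ∧
    (∀ f ∈ s, (∀ v, f v ∈ A) ∧ ∀ σ ∈ A.decompositionSubgroup ℚ, ∀ v, f (act σ v) = σ (f v)) ∧
    (∀ v w : V, (∀ f ∈ s, f v = f w) → v = w) ∧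
    ∀ f ∈ s, ∃ (n : ℕ) (g h : Fin n → Algebra.adjoin A s), ∀ v w : V,
      f (v + w) = ∑ i, (g i : V → Qb) v * (h i : V → Qb) w

/-- The inertia group is contained in the decomposition group, so a `D`-equivariant local order
is a local order. -/
theorem HasLocalOrderD.hasLocalOrder {A : ValuationSubring Qb} {V : Type} [AddCommGroup V]
    {act : GQ → V → V} (h : HasLocalOrderD A V act) : HasLocalOrder A V act := by
  obtain ⟨s, hfin, hs, hsep, hcomul⟩ := h
  refine ⟨s, hfin, fun f hf => ⟨(hs f hf).1, fun σ hσ v => (hs f hf).2 σ ?_ v⟩, hsep, hcomul⟩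
  obtain ⟨τ, -, rfl⟩ := Subgroup.mem_map.mp hσ
  exact τ.2

end Fermat.Agent.Padic
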