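import Mathlib
import Fermat.Agent.Lib.Red.InstGenusGA
import Fermat.Agent.Lib.FF.WeilCanonical
import Fermat.Agent.Lib.FF.GenPos
import Fermat.Agent.Lib.FF.KMLemmas

/-!
# PADIC (GP), abstract layer: general position and the divisors `D_v`

Two function fields `F/L`, `F̃/k` in the setting `IsFF1`, and a map `r` from the places of `F` to
the places of `F̃` ("place reduction") which maps principal divisors to principal divisors and
satisfies the semicontinuity `dim L(D) ≤ dim L̃(r_* D)`; the genera agree.  `I` is a set of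
semilinear automorphisms of `F/L` with `r (g • P) = r P`.

* `exists_fixed_lifts` (GP1): from a base function `x` whose degree is preserved by reduction,
  all but finitely many places of `F̃` have an `I`-fixed lift;
* `IsGenPos`, `exists_genPos` (GP2, GP3): for a finite `I`-stable subgroup `V` of `Pic⁰(F)` there
  are an `I`-fixed effective divisor `B` of degree `g` and effective divisors `D_v` (`v ∈ V`) of
  degree `g` with `[D_v - B] = v`, unique, `I`-equivariant, with `dim L(D_v) = 1` and
  `dim L̃(r_* D_v) = 1`;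
* `eq_of_L_sub_eq` (GP4): `L(E - D)` determines `D` when `deg (E - D) ≥ 2g`.
-/

set_option autoImplicit false

noncomputable section

namespace Fermat.Agent.Padic.GenPosAbs

open AlgebraicCurve Module KaehlerDifferential Fermat.Agent.Lib.FF Fermat.Agent.Lib.Red

/-! ### divisor classes -/

section Classes

variable {K F : Type*} [Field K] [Field F] [Algebra K F] {x : F}

theorem mk_eq_mk_iff (D D' : Divisor.degZero (K := K) (F := F)) :
    Pic0.mk D = Pic0.mk D' ↔
      (D' : Divisor K F) - (D : Divisor K F) ∈ Divisor.principal (K := K) (F := F) := by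
  unfold Pic0.mk
  rw [QuotientAddGroup.eq, AddSubgroup.mem_addSubgroupOf]
  have h : ((-D + D' : Divisor.degZero (K := K) (F := F)) : Divisor K F) =
      (D' : Divisor K F) - (D : Divisor K F) := by
    push_cast
    abel
  rw [h]

/-- principal divisors have degree zero -/
theorem degree_of_mem_principal [HasPrincipalDivisors K F] {D : Divisor K F}
    (hD : D ∈ Divisor.principal (K := K) (F := F)) : Divisor.degree D = 0 := by
  obtain ⟨f, hf, hDf⟩ := hD
  obtain ⟨E, hE, hEdeg⟩ := HasPrincipalDivisors.exists_divisor (K := K) f hf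
  have : D = E := by
    ext v
    rw [hDf v, hE v]
  rw [this, hEdeg]

/-- the class of the degree-zero divisor `D` is `v` -/
def ClassEq (D : Divisor K F) (v : Pic0 K F) : Prop :=
  ∃ h : D ∈ Divisor.degZero (K := K) (F := F), Pic0.mk ⟨D, h⟩ = v

theorem classEq_iff [HasPrincipalDivisors K F] (D : Divisor K F)
    (X : Divisor.degZero (K := K) (F := F)) :
    ClassEq D (Pic0.mk X) ↔ D - (X : Divisor K F) ∈ Divisor.principal (K := K) (F := F) := by
  constructor
  · rintro ⟨h, hm⟩
    have := (mk_eq_mk_iff ⟨D, h⟩ X).1 hm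
    have h2 := (Divisor.principal (K := K) (F := F)).neg_mem this
    rwa [neg_sub] at h2
  · intro hp
    have hdeg : D ∈ Divisor.degZero (K := K) (F := F) := by
      rw [Divisor.mem_degZero]
      have h1 := degree_of_mem_principal hp
      rw [map_sub, Divisor.mem_degZero.1 X.2, sub_zero] at h1
      exact h1
    refine ⟨hdeg, (mk_eq_mk_iff ⟨D, hdeg⟩ X).2 ?_⟩
    have h2 := (Divisor.principal (K := K) (F := F)).neg_mem hp
    rwa [neg_sub] at h2

theorem ClassEq.smul (g : SemilinearAut K F) {D : Divisor K F} {v : Pic0 K F}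
    (h : ClassEq D v) : ClassEq (g • D) (g • v) := by
  obtain ⟨hd, hm⟩ := h
  refine ⟨SemilinearAut.smul_mem_degZero g hd, ?_⟩
  rw [← hm, SemilinearAut.pic0_smul_mk]
  rfl

theorem ClassEq.sub_mem_principal {D D' : Divisor K F} {v : Pic0 K F} (h : ClassEq D v)
    (h' : ClassEq D' v) : D - D' ∈ Divisor.principal (K := K) (F := F) := by
  obtain ⟨hd, hm⟩ := h
  obtain ⟨hd', hm'⟩ := h'
  exact (mk_eq_mk_iff ⟨D', hd'⟩ ⟨D, hd⟩).1 (hm'.trans hm.symm)

theorem ClassEq.unique {D : Divisor K F} {v v' : Pic0 K F} (h : ClassEq D v)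
    (h' : ClassEq D v') : v = v' := by
  obtain ⟨hd, hm⟩ := h
  obtain ⟨hd', hm'⟩ := h'
  exact hm.symm.trans hm'

theorem ClassEq.of_sub_mem_principal {D D' : Divisor K F} {v : Pic0 K F} (h : ClassEq D v)
    (hp : D' - D ∈ Divisor.principal (K := K) (F := F)) (hdeg : Divisor.degree D' = 0) :
    ClassEq D' v := by
  obtain ⟨hd, hm⟩ := h
  refine ⟨hdeg, ?_⟩
  rw [← hm]
  refine (mk_eq_mk_iff _ _).2 ?_
  have h2 := (Divisor.principal (K := K) (F := F)).neg_mem hp
  rwa [neg_sub] at h2

/-- `dim L` only depends on the linear equivalence class -/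
theorem finrank_L_eq_of_principal {D D' : Divisor K F}
    (h : D' - D ∈ Divisor.principal (K := K) (F := F)) :
    finrank K (riemannRochSpace D') = finrank K (riemannRochSpace D) := by
  obtain ⟨u, hu, hDu⟩ := h
  have h1 := KMLemmas.map_mulLeft_L (K := K) hu hDu D'
  have h2 : D' - (D' - D) = D := by abel
  rw [h2] at h1
  rw [← h1]
  have hinj : Function.Injective (LinearMap.mulLeft K u) := fun a b hab =>
    mul_left_cancel₀ hu hab
  exact (Submodule.equivMapOfInjective (LinearMap.mulLeft K u) hinj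
    (riemannRochSpace D')).finrank_eq

theorem one_mem_L {D : Divisor K F} (hD : 0 ≤ D) : (1 : F) ∈ riemannRochSpace D := by
  rw [mem_riemannRochSpace_iff]
  intro v
  right
  rw [Place.ord_one]
  have := Finsupp.le_def.1 hD v
  simp only [Finsupp.coe_zero, Pi.zero_apply] at this
  omega

/-- **Uniqueness of the effective divisor in a class with `dim L = 1`.** -/
theorem eq_of_effective_of_finrank_one {D D' : Divisor K F} (hD : 0 ≤ D) (hD' : 0 ≤ D')
    (h1 : finrank K (riemannRochSpace D) = 1)
    (hp : D' - D ∈ Divisor.principal (K := K) (F := F)) : D' = D := by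
  obtain ⟨u, hu, hDu⟩ := hp
  have humem : u ∈ riemannRochSpace D := by
    rw [mem_riemannRochSpace_iff]
    intro v
    right
    rw [← hDu v, Finsupp.sub_apply]
    have := Finsupp.le_def.1 hD' v
    simp only [Finsupp.coe_zero, Pi.zero_apply] at this
    omega
  have hone : (⟨1, one_mem_L hD⟩ : riemannRochSpace D) ≠ 0 := fun h0 =>
    one_ne_zero (congrArg Subtype.val h0)
  obtain ⟨c, hc⟩ := (finrank_eq_one_iff_of_nonzero' _ hone).1 h1 ⟨u, humem⟩
  have hu' : u = algebraMap K F c := by
    have := congrArg Subtype.val hc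
    simp only [Submodule.coe_smul] at this
    rw [← this, Algebra.smul_def, mul_one]
  rw [← sub_eq_zero]
  ext v
  rw [hDu v, hu', Fermat.Agent.S24.ord_algebraMap]
  rfl

/-- a base-point free `L(A)` contained in `L(B)` forces `A ≤ B` -/
theorem le_of_bpf_of_L_le {A B : Divisor K F} (hA : BasePoint.Bpf A)
    (hL : riemannRochSpace A ≤ riemannRochSpace B) : A ≤ B := by
  refine Finsupp.le_def.2 fun P => ?_
  obtain ⟨f, hf, hfP⟩ := hA P
  have h1 := hL hf P
  rw [hfP, WithZero.exp_le_exp] at h1
  exact h1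

/-- **(GP4)** `L(E - D)` determines `D` as soon as `deg (E - D) ≥ 2g`. -/
theorem eq_of_L_sub_eq (h : IsFF1 K F x) {E D D' : Divisor K F}
    (hD : 2 * (genusFF K F : ℤ) ≤ Divisor.degree (E - D))
    (hD' : 2 * (genusFF K F : ℤ) ≤ Divisor.degree (E - D'))
    (hL : riemannRochSpace (E - D) = riemannRochSpace (E - D')) : D = D' := by
  have h1 := le_of_bpf_of_L_le (WeilCanonical.bpf_of_two_genus h hD) hL.le
  have h2 := le_of_bpf_of_L_le (WeilCanonical.bpf_of_two_genus h hD') hL.ge
  have h3 : E - D = E - D' := le_antisymm h1 h2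
  have h4 : D = E - (E - D) := by abel
  rw [h4, h3]
  abel

end Classes

/-! ### push-forward of divisors -/

section Push

variable {L F k Ft : Type*} [Field L] [Field F] [Algebra L F] [Field k] [Field Ft] [Algebra k Ft]
  {x : F} {xt : Ft}

theorem degree_mapDomain (hF : IsFF1 L F x) (hFt : IsFF1 k Ft xt) (r : Place L F → Place k Ft)
    (D : Divisor L F) : Divisor.degree (Finsupp.mapDomain r D) = Divisor.degree D := by
  induction D using Finsupp.induction with
  | zero => simp
  | single_add P n D _ _ ih =>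
    rw [Finsupp.mapDomain_add, map_add, map_add, ih, Finsupp.mapDomain_single,
      Divisor.degree_single, Divisor.degree_single, hF.deg_eq_one, hFt.deg_eq_one]

theorem mapDomain_sub' (r : Place L F → Place k Ft) (D E : Divisor L F) :
    Finsupp.mapDomain r (D - E) = Finsupp.mapDomain r D - Finsupp.mapDomain r E :=
  map_sub (Finsupp.mapDomain.addMonoidHom r) D E

theorem mapDomain_smul_of_invariant (r : Place L F → Place k Ft) (g : SemilinearAut L F)
    (hg : ∀ P : Place L F, r (g • P) = r P) (D : Divisor L F) :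
    Finsupp.mapDomain r (g • D) = Finsupp.mapDomain r D := by
  rw [SemilinearAut.divisor_smul_def, ← Finsupp.mapDomain_comp]
  exact congrArg (fun f => Finsupp.mapDomain f D) (funext hg)

theorem smul_nonneg' (g : SemilinearAut L F) {D : Divisor L F} (hD : 0 ≤ D) : 0 ≤ g • D := by
  rw [SemilinearAut.divisor_smul_def]
  exact Finsupp.mapDomain_nonneg hD

end Push

/-! ### (GP1) fixed lifts of places -/

section Lifts

variable {L F k Ft : Type*} [Field L] [Field F] [Algebra L F] [Field k] [Field Ft] [Algebra k Ft]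
  {x : F} {xt : Ft}

/-- **(GP1), abstract form.**  `x` is a base function on `F` whose reduction `xt` has the same
degree, `d xt` spans the differentials, `I` fixes `x` and commutes with `r`, and every constant
`c` of `k` has an `I`-fixed lift `a` with `r_* div (x - a) = div (xt - c)`.  Then all but
finitely many places of `F̃` have an `I`-fixed lift. -/
theorem exists_fixed_lifts (hF : IsFF1 L F x) (hFt : IsFF1 k Ft xt) (r : Place L F → Place k Ft)
    (hdeg : Divisor.degree hF.poleDiv = Divisor.degree hFt.poleDiv)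
    (hsep : Submodule.span Ft {D k Ft xt} = ⊤)
    (I : Set (SemilinearAut L F)) (hIx : ∀ g ∈ I, g • x = x)
    (hIr : ∀ g ∈ I, ∀ P : Place L F, r (g • P) = r P)
    (hlift : ∀ c : k, ∃ a : L, (∀ g ∈ I, SemilinearAut.baseAut g a = a) ∧
      ∀ E : Divisor L F, (∀ P, E P = P.ord (x - algebraMap L F a)) →
        ∀ Q, Finsupp.mapDomain r E Q = Q.ord (xt - algebraMap k Ft c)) :
    ∃ S : Finset (Place k Ft), ∀ Q, Q ∉ S →
      ∃ P : Place L F, r P = Q ∧ ∀ g ∈ I, g • P = P := by
  classical
  have := hF.hasPrincipalDivisors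
  have := hFt.hasPrincipalDivisors
  obtain ⟨S₀, hS₀⟩ := GenusGA.exists_bad_set_of_span hFt xt hsep hFt.poles_le.choose
  refine ⟨S₀, fun Q hQ => ?_⟩
  obtain ⟨hQ0, hQ1⟩ := hS₀ Q hQ
  have hxtc : ∀ c : k, xt ≠ algebraMap k Ft c := fun c h0 =>
    hFt.transcendental (h0 ▸ isAlgebraic_algebraMap c)
  have hxa : ∀ a : L, x ≠ algebraMap L F a := fun a h0 =>
    hF.transcendental (h0 ▸ isAlgebraic_algebraMap a)
  obtain ⟨c, hc⟩ := OneStep.exists_const_sub_pos Q (hFt.resK Q) hQ0
  have hcpos : 0 < Q.ord (xt - algebraMap k Ft c) := hc.resolve_left (hxtc c)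
  have hc1 := hQ1 c hcpos
  obtain ⟨a, haI, hspec⟩ := hlift c
  obtain ⟨E, hE, -⟩ := HasPrincipalDivisors.exists_divisor (K := L) (x - algebraMap L F a)
    (sub_ne_zero.2 (hxa a))
  have hrE := hspec E hE
  set Z : Divisor L F := E + hF.poleDiv with hZ
  have hZnn : ∀ P, 0 ≤ Z P := by
    intro P
    rw [hZ, Finsupp.add_apply, hE P, hF.poleDiv_apply]
    rcases lt_or_ge (P.ord x) 0 with hneg | hnn
    · rw [GenusGA.ord_sub_const_of_neg P hneg a]
      have := le_max_left (-(P.ord x)) 0
      omega
    · have h1 := OneStep.ord_sub_const_nonneg P hnn a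
      have h2 := le_max_right (-(P.ord x)) 0
      omega
  have hpushZ : ∀ Q', 0 ≤ Finsupp.mapDomain r Z Q' := fun Q' =>
    OneStep.mapDomain_nonneg_of r Z Q' fun P _ => hZnn P
  have hpushP : ∀ Q', 0 ≤ Finsupp.mapDomain r hF.poleDiv Q' := fun Q' =>
    OneStep.mapDomain_nonneg_of r hF.poleDiv Q' fun P _ => hF.poleDiv_nonneg P
  have hrel : ∀ Q', Finsupp.mapDomain r Z Q' - Finsupp.mapDomain r hF.poleDiv Q' =
      Q'.ord (xt - algebraMap k Ft c) := by
    intro Q'
    rw [← hrE Q', hZ, Finsupp.mapDomain_add, Finsupp.add_apply]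
    ring
  have hle : ∀ Q', hFt.poleDiv Q' ≤ Finsupp.mapDomain r hF.poleDiv Q' := by
    intro Q'
    rw [hFt.poleDiv_apply]
    rcases lt_or_ge (Q'.ord xt) 0 with hneg | hnn
    · have h1 := GenusGA.ord_sub_const_of_neg Q' hneg c
      have h2 := hrel Q'
      have h3 := hpushZ Q'
      rw [max_eq_left (by omega)]
      omega
    · rw [max_eq_right (by omega)]
      exact hpushP Q'
  have hEq : Finsupp.mapDomain r hF.poleDiv = hFt.poleDiv := by
    have h0 : Finsupp.mapDomain r hF.poleDiv - hFt.poleDiv = 0 := by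
      refine WeilCanonical.eq_zero_of_nonneg_of_degree_le hFt ?_ ?_
      · rw [sub_nonneg]
        exact Finsupp.le_def.2 hle
      · rw [map_sub, degree_mapDomain hF hFt, hdeg, sub_self]
    exact sub_eq_zero.1 h0
  have hPinfQ : Finsupp.mapDomain r hF.poleDiv Q = 0 := by
    rw [hEq, hFt.poleDiv_apply, max_eq_right (by omega)]
  have hZQ : Finsupp.mapDomain r Z Q = 1 := by
    have := hrel Q
    omega
  obtain ⟨P₀, hP₀Q, hZP₀, huniq⟩ :=
    OneStep.exists_of_mapDomain_eq_one r Z Q (fun P _ => hZnn P) hZQ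
  have hPinf0 : ∀ P, r P = Q → hF.poleDiv P = 0 := fun P hP =>
    OneStep.eq_zero_of_mapDomain_eq_zero r hF.poleDiv Q (fun P _ => hF.poleDiv_nonneg P)
      hPinfQ P hP
  have hZord : ∀ P, r P = Q → Z P = P.ord (x - algebraMap L F a) := by
    intro P hP
    rw [hZ, Finsupp.add_apply, hPinf0 P hP, add_zero, hE P]
  refine ⟨P₀, hP₀Q, fun g hg => ?_⟩
  by_contra hne
  have h1 : r (g • P₀) = Q := by rw [hIr g hg, hP₀Q]
  have h2 := huniq (g • P₀) h1 hne
  rw [hZord _ h1] at h2
  have h3 : g • (x - algebraMap L F a) = x - algebraMap L F a := by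
    rw [smul_sub, hIx g hg, SemilinearAut.smul_algebraMap, haI g hg]
  have h4 := SemilinearAut.ord_smul g P₀ (x - algebraMap L F a)
  rw [h3] at h4
  rw [h4, ← hZord P₀ hP₀Q, hZP₀] at h2
  exact one_ne_zero h2

end Lifts

/-! ### (GP2), (GP3): the divisor `B` and the divisors `D_v` -/

section Main

variable {L F k Ft : Type*} [Field L] [Field F] [Algebra L F] [Field k] [Field Ft] [Algebra k Ft]
  {x : F} {xt : Ft}

/-- The general-position package: an effective divisor `B` of degree `g` and effective divisors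
`Dv v` (`v ∈ V`) with `[Dv v - B] = v`. -/
structure IsGenPos (r : Place L F → Place k Ft) (I : Set (SemilinearAut L F))
    (V : AddSubgroup (Pic0 L F)) (B : Divisor L F) (Dv : V → Divisor L F) : Prop where
  B_nonneg : 0 ≤ B
  degree_B : Divisor.degree B = genusFF L F
  smul_B : ∀ g ∈ I, g • B = B
  nonneg : ∀ v, 0 ≤ Dv v
  degree : ∀ v, Divisor.degree (Dv v) = genusFF L F
  cls : ∀ v : V, ClassEq (Dv v - B) (v : Pic0 L F)
  unique : ∀ (v : V) (D' : Divisor L F), 0 ≤ D' → ClassEq (D' - B) (v : Pic0 L F) → D' = Dv v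
  smul : ∀ g ∈ I, ∀ (v : V) (hv : g • (v : Pic0 L F) ∈ V),
    Dv ⟨g • (v : Pic0 L F), hv⟩ = g • Dv v
  finrank_L : ∀ v, Module.finrank L (riemannRochSpace (Dv v)) = 1
  finrank_L_red : ∀ v, Module.finrank k (riemannRochSpace (Finsupp.mapDomain r (Dv v))) = 1
  red_unique : ∀ (v : V) (X : Divisor k Ft), 0 ≤ X →
    X - Finsupp.mapDomain r (Dv v) ∈ Divisor.principal (K := k) (F := Ft) →
    X = Finsupp.mapDomain r (Dv v)
  add : ∀ v w : V, Dv (v + w) - Dv v - Dv w + B ∈ Divisor.principal (K := L) (F := F)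
  add_red : ∀ v w : V, Finsupp.mapDomain r (Dv (v + w)) - Finsupp.mapDomain r (Dv v) -
    Finsupp.mapDomain r (Dv w) + Finsupp.mapDomain r B ∈ Divisor.principal (K := k) (F := Ft)
  red_smul : ∀ g ∈ I, ∀ (v : V) (hv : g • (v : Pic0 L F) ∈ V),
    Finsupp.mapDomain r (Dv ⟨g • (v : Pic0 L F), hv⟩) = Finsupp.mapDomain r (Dv v)

/-- **(GP2) + (GP3), abstract form.** -/
theorem exists_genPos [Infinite k] (hF : IsFF1 L F x) (hFt : IsFF1 k Ft xt)
    (r : Place L F → Place k Ft)
    (hprin : ∀ D : Divisor L F, D ∈ Divisor.principal (K := L) (F := F) →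
      Finsupp.mapDomain r D ∈ Divisor.principal (K := k) (F := Ft))
    (hsemi : ∀ D : Divisor L F, finrank L (riemannRochSpace D) ≤
      finrank k (riemannRochSpace (Finsupp.mapDomain r D)))
    (hgenus : genusFF k Ft = genusFF L F)
    (I : Set (SemilinearAut L F)) (hIr : ∀ g ∈ I, ∀ P : Place L F, r (g • P) = r P)
    (hfix : ∃ S : Finset (Place k Ft), ∀ Q, Q ∉ S →
      ∃ P : Place L F, r P = Q ∧ ∀ g ∈ I, g • P = P)
    (V : AddSubgroup (Pic0 L F)) [Finite V] :
    ∃ (B : Divisor L F) (Dv : V → Divisor L F), IsGenPos r I V B Dv := by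
  classical
  have := hF.hasPrincipalDivisors
  have := hFt.hasPrincipalDivisors
  obtain ⟨S, hS⟩ := hfix
  -- representatives of the classes
  choose X hX using fun v : V => Pic0.mk_surjective (v : Pic0 L F)
  have hXdeg : ∀ v, Divisor.degree (X v : Divisor L F) = 0 := fun v =>
    Divisor.mem_degZero.1 (X v).2
  haveI : Fintype V := Fintype.ofFinite V
  -- general position on the reduction
  obtain ⟨T, hTcard, hTS, hT⟩ := GenPos.exists_general_position hFt S (Finset.univ : Finset V)
    (fun v => Finsupp.mapDomain r (X v : Divisor L F))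
    (fun v _ => by rw [degree_mapDomain hF hFt, hXdeg])
  -- lifts of the places of `T`
  have hlift : ∀ Q ∈ T, ∃ P : Place L F, r P = Q ∧ ∀ g ∈ I, g • P = P := fun Q hQ =>
    hS Q (Finset.disjoint_left.1 hTS hQ)
  haveI : Nonempty (Place L F) := hF.exists_place
  choose! lft hlft using hlift
  set B : Divisor L F := ∑ Q ∈ T, Finsupp.single (lft Q) (1 : ℤ) with hB
  have hrB : Finsupp.mapDomain r B = RR.sumPl T := by
    rw [hB, Finsupp.mapDomain_finsetSum]
    unfold RR.sumPl
    refine Finset.sum_congr rfl fun Q hQ => ?_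
    rw [Finsupp.mapDomain_single, (hlft Q hQ).1]
  have hBnn : 0 ≤ B := Finset.sum_nonneg fun Q _ => Finsupp.single_nonneg.2 zero_le_one
  have hBdeg : Divisor.degree B = genusFF L F := by
    rw [hB, map_sum]
    simp only [Divisor.degree_single, hF.deg_eq_one]
    simp [hTcard, hgenus]
  have hBsmul : ∀ g ∈ I, g • B = B := by
    intro g hg
    rw [hB, Finset.smul_sum]
    refine Finset.sum_congr rfl fun Q hQ => ?_
    rw [SemilinearAut.smul_single, (hlft Q hQ).2 g hg]
  -- the functions `f v` and the divisors `D_v`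
  have hex : ∀ v : V, ∃ f : F, f ≠ 0 ∧
      ∀ P : Place L F, 0 ≤ P.ord f + ((X v : Divisor L F) + B) P := fun v =>
    hF.exists_ne_zero_of_degree_ge _ (by rw [map_add, hBdeg, hXdeg, zero_add])
  choose f hf0 hfnn using hex
  have hdiv : ∀ v : V, ∃ Df : Divisor L F, (∀ P, Df P = P.ord (f v)) ∧ Divisor.degree Df = 0 :=
    fun v => HasPrincipalDivisors.exists_divisor (K := L) (f v) (hf0 v)
  choose Df hDf hDfdeg using hdiv
  have hDfprin : ∀ v, Df v ∈ Divisor.principal (K := L) (F := F) := fun v =>
    ⟨f v, hf0 v, hDf v⟩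
  set Dv : V → Divisor L F := fun v => (X v : Divisor L F) + B + Df v with hDv
  have hnn : ∀ v, 0 ≤ Dv v := by
    intro v
    refine Finsupp.le_def.2 fun P => ?_
    have := hfnn v P
    simp only [hDv, Finsupp.coe_zero, Pi.zero_apply, Finsupp.add_apply, hDf v P] at this ⊢
    omega
  have hdegv : ∀ v, Divisor.degree (Dv v) = genusFF L F := by
    intro v
    simp only [hDv, map_add, hXdeg, hBdeg, hDfdeg]
    ring
  -- the class of `D_v - B`
  have hcls' : ∀ (v : V) (D' : Divisor L F), ClassEq (D' - B) (v : Pic0 L F) ↔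
      D' - B - (X v : Divisor L F) ∈ Divisor.principal (K := L) (F := F) := by
    intro v D'
    rw [← hX v]
    exact classEq_iff _ _
  have hcls : ∀ v : V, ClassEq (Dv v - B) (v : Pic0 L F) := by
    intro v
    rw [hcls']
    have : Dv v - B - (X v : Divisor L F) = Df v := by
      simp only [hDv]
      abel
    rw [this]
    exact hDfprin v
  -- dimensions on the reduction
  have hredprin : ∀ v : V, Finsupp.mapDomain r (Dv v) -
      (Finsupp.mapDomain r (X v : Divisor L F) + RR.sumPl T) ∈
        Divisor.principal (K := k) (F := Ft) := by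
    intro v
    have h1 := hprin _ (hDfprin v)
    have h2 : Finsupp.mapDomain r (Dv v) -
        (Finsupp.mapDomain r (X v : Divisor L F) + RR.sumPl T) = Finsupp.mapDomain r (Df v) := by
      simp only [hDv, Finsupp.mapDomain_add, hrB]
      abel
    rw [h2]
    exact h1
  have hfinred : ∀ v, finrank k (riemannRochSpace (Finsupp.mapDomain r (Dv v))) = 1 := by
    intro v
    rw [finrank_L_eq_of_principal (hredprin v)]
    exact (hT v (Finset.mem_univ v)).2
  have hfin : ∀ v, finrank L (riemannRochSpace (Dv v)) = 1 := by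
    intro v
    refine le_antisymm ((hsemi (Dv v)).trans (hfinred v).le) ?_
    haveI := hF.finite_L (Dv v)
    have hone : (⟨1, one_mem_L (hnn v)⟩ : riemannRochSpace (Dv v)) ≠ 0 := fun h0 =>
      one_ne_zero (congrArg Subtype.val h0)
    exact Nat.succ_le_of_lt (Module.finrank_pos_iff_exists_ne_zero.2 ⟨_, hone⟩)
  have huniq : ∀ (v : V) (D' : Divisor L F), 0 ≤ D' → ClassEq (D' - B) (v : Pic0 L F) →
      D' = Dv v := by
    intro v D' hD' hc
    refine eq_of_effective_of_finrank_one (hnn v) hD' (hfin v) ?_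
    have h1 := (hcls' v D').1 hc
    have h2 := (hcls' v (Dv v)).1 (hcls v)
    have h3 := (Divisor.principal (K := L) (F := F)).sub_mem h1 h2
    have h4 : D' - B - (X v : Divisor L F) - (Dv v - B - (X v : Divisor L F)) = D' - Dv v := by
      abel
    rwa [h4] at h3
  have hrednn : ∀ v, 0 ≤ Finsupp.mapDomain r (Dv v) := fun v => Finsupp.mapDomain_nonneg (hnn v)
  have hsmul : ∀ g ∈ I, ∀ (v : V) (hv : g • (v : Pic0 L F) ∈ V),
      Dv ⟨g • (v : Pic0 L F), hv⟩ = g • Dv v := by
    intro g hg v hv
    refine (huniq ⟨g • (v : Pic0 L F), hv⟩ (g • Dv v) (smul_nonneg' g (hnn v)) ?_).symm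
    have h1 := (hcls v).smul g
    rwa [smul_sub, hBsmul g hg] at h1
  have hadd : ∀ v w : V, Dv (v + w) - Dv v - Dv w + B ∈
      Divisor.principal (K := L) (F := F) := by
    intro v w
    have h1 : Pic0.mk (X (v + w)) = Pic0.mk (X v + X w) := by
      rw [Pic0.mk_add, hX, hX, hX]
      rfl
    have h2 := (mk_eq_mk_iff _ _).1 h1
    have h3 := (Divisor.principal (K := L) (F := F)).neg_mem h2
    have h4 := (Divisor.principal (K := L) (F := F)).add_mem h3
      ((Divisor.principal (K := L) (F := F)).sub_mem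
        ((Divisor.principal (K := L) (F := F)).sub_mem (hDfprin (v + w)) (hDfprin v))
        (hDfprin w))
    have h5 : -(((X v + X w : Divisor.degZero (K := L) (F := F)) : Divisor L F) -
        (X (v + w) : Divisor L F)) + (Df (v + w) - Df v - Df w) =
        Dv (v + w) - Dv v - Dv w + B := by
      simp only [hDv]
      push_cast
      abel
    rwa [h5] at h4
  refine ⟨B, Dv, ⟨hBnn, hBdeg, hBsmul, hnn, hdegv, hcls, huniq, hsmul, hfin, hfinred, ?_, hadd,
    ?_, ?_⟩⟩
  · intro v X' hX' hp
    exact eq_of_effective_of_finrank_one (hrednn v) hX' (hfinred v) hp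
  · intro v w
    have h1 := hprin _ (hadd v w)
    rwa [Finsupp.mapDomain_add, mapDomain_sub', mapDomain_sub'] at h1
  · intro g hg v hv
    rw [hsmul g hg v hv]
    exact mapDomain_smul_of_invariant r g (hIr g hg) (Dv v)

namespace IsGenPos

variable {r : Place L F → Place k Ft} {I : Set (SemilinearAut L F)} {V : AddSubgroup (Pic0 L F)}
  {B : Divisor L F} {Dv : V → Divisor L F}

theorem red_nonneg (h : IsGenPos r I V B Dv) (v : V) : 0 ≤ Finsupp.mapDomain r (Dv v) :=
  Finsupp.mapDomain_nonneg (h.nonneg v)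

theorem red_B_nonneg (h : IsGenPos r I V B Dv) : 0 ≤ Finsupp.mapDomain r B :=
  Finsupp.mapDomain_nonneg h.B_nonneg

theorem degree_red (h : IsGenPos r I V B Dv) (hF : IsFF1 L F x) (hFt : IsFF1 k Ft xt) (v : V) :
    Divisor.degree (Finsupp.mapDomain r (Dv v)) = genusFF L F := by
  rw [degree_mapDomain hF hFt, h.degree]

theorem degree_red_B (h : IsGenPos r I V B Dv) (hF : IsFF1 L F x) (hFt : IsFF1 k Ft xt) :
    Divisor.degree (Finsupp.mapDomain r B) = genusFF L F := by
  rw [degree_mapDomain hF hFt, h.degree_B]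

/-- `v ↦ D_v` is injective. -/
theorem injective (h : IsGenPos r I V B Dv) : Function.Injective Dv := by
  intro v w hvw
  have h1 := h.cls v
  rw [hvw] at h1
  exact Subtype.ext (h1.unique (h.cls w))

/-- **(GP4)** `L(E - D_v)` determines `v` as soon as `deg E ≥ 3g`. -/
theorem eq_of_L_sub_eq (h : IsGenPos r I V B Dv) (hF : IsFF1 L F x) (E : Divisor L F)
    (hE : 3 * (genusFF L F : ℤ) ≤ Divisor.degree E) {v w : V}
    (hL : riemannRochSpace (E - Dv v) = riemannRochSpace (E - Dv w)) : v = w := by
  refine h.injective (GenPosAbs.eq_of_L_sub_eq hF ?_ ?_ hL)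
  · rw [map_sub, h.degree]
    linarith
  · rw [map_sub, h.degree]
    linarith

/-- `dim L(D_v + D_w - B) = 1`. -/
theorem finrank_L_add (h : IsGenPos r I V B Dv) (v w : V) :
    finrank L (riemannRochSpace (Dv v + Dv w - B)) = 1 := by
  rw [← h.finrank_L (v + w)]
  refine (finrank_L_eq_of_principal ?_).symm
  have h1 := h.add v w
  have h2 : Dv (v + w) - (Dv v + Dv w - B) = Dv (v + w) - Dv v - Dv w + B := by abel
  rwa [h2]

/-- `dim L̃(r_* D_v + r_* D_w - r_* B) = 1`. -/
theorem finrank_L_add_red (h : IsGenPos r I V B Dv) (v w : V) :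
    finrank k (riemannRochSpace (Finsupp.mapDomain r (Dv v) + Finsupp.mapDomain r (Dv w) -
      Finsupp.mapDomain r B)) = 1 := by
  rw [← h.finrank_L_red (v + w)]
  refine (finrank_L_eq_of_principal ?_).symm
  have h1 := h.add_red v w
  have h2 : Finsupp.mapDomain r (Dv (v + w)) - (Finsupp.mapDomain r (Dv v) +
      Finsupp.mapDomain r (Dv w) - Finsupp.mapDomain r B) =
      Finsupp.mapDomain r (Dv (v + w)) - Finsupp.mapDomain r (Dv v) -
        Finsupp.mapDomain r (Dv w) + Finsupp.mapDomain r B := by abel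
  rwa [h2]

/-- `r_* D_v` only depends on its linear equivalence class. -/
theorem red_eq_of_principal (h : IsGenPos r I V B Dv) (v w : V)
    (hp : Finsupp.mapDomain r (Dv v) - Finsupp.mapDomain r (Dv w) ∈
      Divisor.principal (K := k) (F := Ft)) :
    Finsupp.mapDomain r (Dv v) = Finsupp.mapDomain r (Dv w) :=
  h.red_unique w _ (h.red_nonneg v) hp

section Red

variable (red : Pic0 L F → Pic0 k Ft)
  (hred : ∀ (D : Divisor L F) (v : Pic0 L F), ClassEq D v →
    ClassEq (Finsupp.mapDomain r D) (red v))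

include hred

/-- the class of `r_* D_v - r_* B` is the reduction of `v` -/
theorem classEq_red (h : IsGenPos r I V B Dv) (v : V) :
    ClassEq (Finsupp.mapDomain r (Dv v) - Finsupp.mapDomain r B) (red (v : Pic0 L F)) := by
  have h1 := hred _ _ (h.cls v)
  rwa [mapDomain_sub'] at h1

/-- **(GP2)** `r_* D_v` is the unique effective divisor `X` with `[X - r_* B] = red v`. -/
theorem eq_of_classEq_red (h : IsGenPos r I V B Dv) (v : V) (X : Divisor k Ft) (hX : 0 ≤ X)
    (hc : ClassEq (X - Finsupp.mapDomain r B) (red (v : Pic0 L F))) :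
    X = Finsupp.mapDomain r (Dv v) := by
  refine h.red_unique v X hX ?_
  have h1 := hc.sub_mem_principal (h.classEq_red red hred v)
  have h2 : X - Finsupp.mapDomain r B - (Finsupp.mapDomain r (Dv v) - Finsupp.mapDomain r B) =
      X - Finsupp.mapDomain r (Dv v) := by abel
  rwa [h2] at h1

/-- `r_* D_v` depends only on the reduction of `v`, and determines it. -/
theorem red_eq_iff (h : IsGenPos r I V B Dv) (v w : V) :
    red (v : Pic0 L F) = red (w : Pic0 L F) ↔
      Finsupp.mapDomain r (Dv v) = Finsupp.mapDomain r (Dv w) := by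
  constructor
  · intro hvw
    have h1 := h.classEq_red red hred v
    rw [hvw] at h1
    exact h.eq_of_classEq_red red hred w _ (h.red_nonneg v) h1
  · intro hvw
    have h1 := h.classEq_red red hred v
    rw [hvw] at h1
    exact h1.unique (h.classEq_red red hred w)

end Red

end IsGenPos

end Main

end Fermat.Agent.Padic.GenPosAbs
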