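import Mathlib
import Fermat.Agent.Padic.GenPosAbs
import Fermat.Agent.Padic.GenusGe
import Fermat.Agent.Padic.Defs
import Fermat.Agent.Lib.FF.ModLSep
import Fermat.Agent.Lib.FF.ModLRed
import Fermat.Agent.Lib.TeichLift
import Fermat.Agent.ESJ.Cong.GaloisRed

/-!
# PADIC (GP): general position for the modular curves

Modular instance of `Padic/GenPosAbs.lean`.  `A` a valuation subring of `ℚ̄` over `l`, `κ` its
residue field, `N` invertible in `κ`, `r` ANY place reduction with the Prelude specification,
the genera of `F = ℚ̄·F_N` and `F̃ = κ(J̄(q^d) : d ∣ N)` equal.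

* `finrank_rr_le_modular` : semicontinuity `dim L(D) ≤ dim L̃(r_* D)` for every divisor `D`;
* `inertiaSet A N`, `r_inertia` : `r (σ • P) = r P` for `σ` in the inertia group;
* `exists_fixed_lifts_modular` (GP1) : all but finitely many places of `F̃` have an inertia-fixed
  lift;
* `exists_genPos` (GP2, GP3) : the package `GenPosAbs.IsGenPos r (inertiaSet A N) V B Dv` for
  every finite subgroup `V` of `J₀(N)`;
* `IsGenPos` consequences in Galois / reduction form (`smul_galois`, `red_eq_of_reduction_eq`,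
  `eq_of_L_sub_eq`, ...).
-/

set_option autoImplicit false
set_option linter.style.haveILetI false

noncomputable section

namespace Fermat.Agent.Padic.GenPos

open AlgebraicCurve ModularCurve Module Polynomial IntermediateField Fermat.Agent.Lib.FF
  Fermat.Agent.Lib.Red Fermat.Agent.Lib.Red.Kummer Fermat.Agent.S28

/-! ### semicontinuity -/

section Semicont

variable {L : Type*} [Field L] [Algebra ℚ L] {A : ValuationSubring L} {k : Type} [Field k]
  {π : A →+* k} {N : ℕ} [NeZero N] [IsAlgClosed L] [IsAlgClosed k]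

/-- **Semicontinuity** `dim L(B) ≤ dim L̃(r_* B)` for the modular function fields and ANY place
reduction `r` with the Prelude specification. -/
theorem finrank_rr_le_modular (hπ : ∀ a : A, ¬ IsUnit a → π a = 0)
    (hsurj : Function.Surjective π) (hNk : (N : k) ≠ 0)
    (r : Place L ↥(laurentBaseChange L (modularFunctionFieldFull N)) →
      Place k ↥(modularFunctionFieldFullC k N))
    (hr : IsPlaceReductionAlong A π N r)
    (B : Divisor L ↥(laurentBaseChange L (modularFunctionFieldFull N))) :
    finrank L (riemannRochSpace B) ≤ finrank k (riemannRochSpace (Finsupp.mapDomain r B)) := by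
  have hFL := InstGenus.isFF1_xL (A := A) (π := π) hπ hsurj hNk
  have hFk := InstGenus.isFF1_xk (A := A) (π := π) hπ hsurj hNk
  have hpd := hFL.hasPrincipalDivisors
  have hfinD : ∀ f : ↥(laurentBaseChange L (modularFunctionFieldFull N)), f ≠ 0 →
      ∃ D : Divisor L ↥(laurentBaseChange L (modularFunctionFieldFull N)),
        ∀ P, D P = P.ord f := fun f hf => by
    obtain ⟨D, hD, -⟩ := HasPrincipalDivisors.exists_divisor (K := L) f hf
    exact ⟨D, hD⟩
  obtain ⟨ι, _, G, -⟩ := exists_goodBasis hπ hsurj hNk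
  refine finrank_rr_le_finrank_rr_mapDomain A (Ow A π N hNk) (redF A π N hπ hNk) r π hsurj hπ
    (fun a => algebraMap_mem_Ow_iff hπ hNk a)
    ?hscale ?hker (fun a => redF_algebraMap hπ hNk a) B
    (red_mem_rr_of_spec (fun y hy => HasPrincipalDivisors.exists_divisor (K := L) y hy)
      (fun y hy B hB Q => SpecUnit.mapDomain_eq_ord_redF hπ hNk hfinD r hr y hy B hB Q) B)
    ?hlat (hFk.finite_L _)
  case hscale =>
    intro y hy
    obtain ⟨a, ha, hmem, hne⟩ := exists_scaling_Ow hπ hNk y hy
    refine ⟨a, ha, ?_⟩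
    have hu : IsUnit (⟨_, hmem⟩ : Ow A π N hNk) := by
      by_contra hnu
      exact hne ((redF_eq_zero_iff hπ hNk _).mpr hnu)
    exact (ValuationSubring.valuation_eq_one_iff _ ⟨_, hmem⟩).mp hu
  case hker =>
    intro y
    rw [redF_eq_zero_iff hπ hNk, ← ValuationSubring.valuation_lt_one_iff (Ow A π N hNk) y,
      IsLocalRing.mem_maximalIdeal, mem_nonunits_iff]
  case hlat =>
    exact lat_of_goodBasis A (Ow A π N hNk) (transcendental_xL N)
      (fun c hc => (algebraMap_mem_Ow_iff hπ hNk c).mpr hc) (xL_mem_Ow hNk)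
      (fun p hp => (aeval_mem_Ow_iff hπ hNk p).mp hp)
      (inv_aeval_mem_Ow_of_coeff hπ hNk)
      (fun i => ((G.b i : Ow A π N hNk) : ↥(laurentBaseChange L (modularFunctionFieldFull N))))
      (fun i => (G.b i).2) G.span
      (fun cf h i => G.compat.coeff_mem G.b G.ind cf h i) (riemannRochSpace B) (hFL.finite_L B)

end Semicont

/-! ### the inertia group -/

section Qbar

set_option synthInstance.maxHeartbeats 400000

variable (A : ValuationSubring (AlgebraicClosure ℚ)) (N : ℕ) [NeZero N]

/-- The image of the inertia group of `A` in the semilinear automorphisms of `ℚ̄·F_N`. -/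
def inertiaSet : Set (SemilinearAut (AlgebraicClosure ℚ) ↥(modularFunctionFieldBar N)) :=
  {g | ∃ σ : AlgebraicClosure ℚ ≃ₐ[ℚ] AlgebraicClosure ℚ, σ ∈ A.inertiaSubgroupIn ℚ ∧
    g = arithmeticGalois (modularFunctionFieldFull N) σ}

variable {A N}

theorem mem_inertiaSet {σ : AlgebraicClosure ℚ ≃ₐ[ℚ] AlgebraicClosure ℚ}
    (hσ : σ ∈ A.inertiaSubgroupIn ℚ) :
    arithmeticGalois (modularFunctionFieldFull N) σ ∈ inertiaSet A N :=
  ⟨σ, hσ, rfl⟩

theorem residue_nonunit (a : A) (ha : ¬ IsUnit a) : IsLocalRing.residue A a = 0 :=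
  (IsLocalRing.residue_eq_zero_iff a).2 ((IsLocalRing.mem_maximalIdeal a).2 ha)

/-- **A place reduction is invariant under the inertia group.** -/
theorem r_inertia
    {r : Place (AlgebraicClosure ℚ) ↥(modularFunctionFieldBar N) →
      Place (IsLocalRing.ResidueField A)
        ↥(modularFunctionFieldFullC (IsLocalRing.ResidueField A) N)}
    (hr : IsPlaceReductionModL A N r)
    (hgen : PrincipalGeneratedByIntegral A (IsLocalRing.residue A) N)
    {σ : AlgebraicClosure ℚ ≃ₐ[ℚ] AlgebraicClosure ℚ} (hσ : σ ∈ A.inertiaSubgroupIn ℚ)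
    (P : Place (AlgebraicClosure ℚ) ↥(modularFunctionFieldBar N)) :
    r (arithmeticGalois (modularFunctionFieldFull N) σ • P) = r P := by
  have hFL := Fermat.Agent.Lib.FF.isFF1_xL (AlgebraicClosure ℚ) N
  haveI := hFL.hasPrincipalDivisors
  obtain ⟨hd, h1⟩ := Fermat.Agent.ESJ.Cong.resAut_eq_one_of_mem_inertia A hσ
  have h := Fermat.Agent.ESJ.Cong.placeReductionAlong_galois A N hFL.deg_eq_one hFL.rrLite hr hgen
    ⟨σ, hd⟩ P
  rw [h1, map_one, one_smul] at h
  exact h

/-- **(GP1)** All but finitely many places of the reduction have an inertia-fixed lift. -/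
theorem exists_fixed_lifts_modular {l : ℕ} (hl : l.Prime) (hA : A.LiesOverPrime l)
    (hNk : (N : IsLocalRing.ResidueField A) ≠ 0)
    (r : Place (AlgebraicClosure ℚ) ↥(modularFunctionFieldBar N) →
      Place (IsLocalRing.ResidueField A)
        ↥(modularFunctionFieldFullC (IsLocalRing.ResidueField A) N))
    (hr : IsPlaceReductionModL A N r)
    (hgen : PrincipalGeneratedByIntegral A (IsLocalRing.residue A) N) :
    ∃ S : Finset (Place (IsLocalRing.ResidueField A)
        ↥(modularFunctionFieldFullC (IsLocalRing.ResidueField A) N)),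
      ∀ Q, Q ∉ S → ∃ P : Place (AlgebraicClosure ℚ) ↥(modularFunctionFieldBar N),
        r P = Q ∧ ∀ g ∈ inertiaSet A N, g • P = P := by
  haveI := Fermat.Agent.Lib.FF.CharP.isAlgClosed_residueField A
  have hπ : ∀ a : A, ¬ IsUnit a → IsLocalRing.residue A a = 0 := residue_nonunit
  have hsurj : Function.Surjective (IsLocalRing.residue A) := IsLocalRing.residue_surjective
  have hFL := InstGenus.isFF1_xL (A := A) (π := IsLocalRing.residue A) hπ hsurj hNk
  have hFk := InstGenus.isFF1_xk (A := A) (π := IsLocalRing.residue A) hπ hsurj hNk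
  haveI := hFL.hasPrincipalDivisors
  haveI : Algebra.IsSeparable
      (IsLocalRing.ResidueField A)⟮xk (IsLocalRing.ResidueField A) N⟯
      ↥(modularFunctionFieldFullC (IsLocalRing.ResidueField A) N) :=
    ModL.isSeparable_xk (k := IsLocalRing.ResidueField A) N hNk
  refine GenPosAbs.exists_fixed_lifts hFL hFk r ?hdeg
    (GenusGA.span_D_eq_top_of_isSeparable (xk (IsLocalRing.ResidueField A) N))
    (inertiaSet A N) ?hIx ?hIr ?hlift
  case hdeg =>
    exact degree_poleDiv_xL_eq_xk A (IsLocalRing.residue A) N hπ hsurj hNk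
  case hIx =>
    rintro g ⟨σ, hσ, rfl⟩
    apply Subtype.ext
    rw [coe_arithmeticGalois_smul, coe_xL, TD.coeffMap_Jd]
  case hIr =>
    rintro g ⟨σ, hσ, rfl⟩ P
    exact r_inertia hr hgen hσ P
  case hlift =>
    intro c
    obtain ⟨a, hac, hafix⟩ := Fermat.Agent.Lib.TeichLift.exists_inertia_fixed_lift_Qbar A hl hA c
    refine ⟨(a : AlgebraicClosure ℚ), ?_, ?_⟩
    · rintro g ⟨σ, hσ, rfl⟩
      rw [baseAut_arithmeticGalois]
      exact hafix σ hσ
    · intro E hE Q
      have hne : redF A (IsLocalRing.residue A) N hπ hNk ⟨xL (AlgebraicClosure ℚ) N, xL_mem_Ow hNk⟩ ≠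
          algebraMap (IsLocalRing.ResidueField A)
            ↥(modularFunctionFieldFullC (IsLocalRing.ResidueField A) N)
            (IsLocalRing.residue A a) := by
        rw [InstGenus.redF_xL hπ hNk]
        intro h0
        exact hFk.transcendental (h0 ▸ isAlgebraic_algebraMap _)
      have h := GenusGA.mapDomain_sub_const hπ hNk
        (⟨xL (AlgebraicClosure ℚ) N, xL_mem_Ow hNk⟩ : Ow A (IsLocalRing.residue A) N hNk)
        r hr a hne E hE Q
      rw [InstGenus.redF_xL hπ hNk, hac] at h
      exact h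

/-- **(GP2) + (GP3)** for the modular curves: the general-position package for a finite subgroup
`V` of `J₀(N)`. -/
theorem exists_genPos {l : ℕ} (hl : l.Prime) (hA : A.LiesOverPrime l)
    (hNk : (N : IsLocalRing.ResidueField A) ≠ 0)
    (hgenus : genusFF (IsLocalRing.ResidueField A)
        ↥(modularFunctionFieldFullC (IsLocalRing.ResidueField A) N) =
      genusFF (AlgebraicClosure ℚ) ↥(modularFunctionFieldBar N))
    (r : Place (AlgebraicClosure ℚ) ↥(modularFunctionFieldBar N) →
      Place (IsLocalRing.ResidueField A)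
        ↥(modularFunctionFieldFullC (IsLocalRing.ResidueField A) N))
    (hr : IsPlaceReductionModL A N r)
    (hgen : PrincipalGeneratedByIntegral A (IsLocalRing.residue A) N)
    (V : AddSubgroup (JZero N)) [Finite V] :
    ∃ (B : Divisor (AlgebraicClosure ℚ) ↥(modularFunctionFieldBar N))
      (Dv : V → Divisor (AlgebraicClosure ℚ) ↥(modularFunctionFieldBar N)),
      GenPosAbs.IsGenPos r (inertiaSet A N) V B Dv := by
  haveI := Fermat.Agent.Lib.FF.CharP.isAlgClosed_residueField A
  have hπ : ∀ a : A, ¬ IsUnit a → IsLocalRing.residue A a = 0 := residue_nonunit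
  have hsurj : Function.Surjective (IsLocalRing.residue A) := IsLocalRing.residue_surjective
  have hFL := InstGenus.isFF1_xL (A := A) (π := IsLocalRing.residue A) hπ hsurj hNk
  have hFk := InstGenus.isFF1_xk (A := A) (π := IsLocalRing.residue A) hπ hsurj hNk
  refine GenPosAbs.exists_genPos hFL hFk r (fun D hD => hr.mapDomain_mem_principal hgen hD)
    (finrank_rr_le_modular hπ hsurj hNk r hr) hgenus (inertiaSet A N) ?_
    (exists_fixed_lifts_modular hl hA hNk r hr hgen) V
  rintro g ⟨σ, hσ, rfl⟩ P
  exact r_inertia hr hgen hσ P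

/-! ### reduction of classes -/

/-- `r_*` computes the reduction map on classes (any place reduction `r`). -/
theorem classEq_reductionPic0Along
    {r : Place (AlgebraicClosure ℚ) ↥(modularFunctionFieldBar N) →
      Place (IsLocalRing.ResidueField A)
        ↥(modularFunctionFieldFullC (IsLocalRing.ResidueField A) N)}
    (hr : IsPlaceReductionModL A N r)
    (hgen : PrincipalGeneratedByIntegral A (IsLocalRing.residue A) N)
    (D : Divisor (AlgebraicClosure ℚ) ↥(modularFunctionFieldBar N)) (v : JZero N)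
    (h : GenPosAbs.ClassEq D v) :
    GenPosAbs.ClassEq (Finsupp.mapDomain r D) (reductionPic0Along r hr hgen v) := by
  obtain ⟨hd, hm⟩ := h
  refine ⟨(reductionDegZeroAlong r hr.1 ⟨D, hd⟩).2, ?_⟩
  rw [← hm]
  rfl

/-- `r_*` computes the Prelude's reduction map `reductionModL` on classes. -/
theorem classEq_reductionModL (hin : ReductionInputsModL A N)
    (D : Divisor (AlgebraicClosure ℚ) ↥(modularFunctionFieldBar N)) (v : JZero N)
    (h : GenPosAbs.ClassEq D v) :
    GenPosAbs.ClassEq (Finsupp.mapDomain (placeReductionModL hin) D) (reductionModL A N v) := by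
  obtain ⟨hd, hm⟩ := h
  refine ⟨(reductionDegZeroAlong (placeReductionModL hin)
    (isPlaceReductionModL_placeReductionModL hin).1 ⟨D, hd⟩).2, ?_⟩
  rw [← hm, reductionModL_mk hin]
  rfl

/-- **(GP2) + (GP3) from `GoodRed A N`**, for the Prelude's place reduction. -/
theorem exists_genPos_goodRed {l : ℕ} (hl : l.Prime) (hA : A.LiesOverPrime l)
    (h : GoodRed A N) (V : AddSubgroup (JZero N)) [Finite V] :
    ∃ (B : Divisor (AlgebraicClosure ℚ) ↥(modularFunctionFieldBar N))
      (Dv : V → Divisor (AlgebraicClosure ℚ) ↥(modularFunctionFieldBar N)),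
      GenPosAbs.IsGenPos (placeReductionModL h.inputs) (inertiaSet A N) V B Dv :=
  exists_genPos hl hA h.level h.genus (placeReductionModL h.inputs)
    (isPlaceReductionModL_placeReductionModL h.inputs) h.inputs.choose_spec.2 V

/-- `IsFF1` for `ℚ̄·F_N`. -/
theorem isFF1_bar : IsFF1 (AlgebraicClosure ℚ) ↥(modularFunctionFieldBar N)
    (xL (AlgebraicClosure ℚ) N) :=
  Fermat.Agent.Lib.FF.isFF1_xL (AlgebraicClosure ℚ) N

/-- `IsFF1` for the reduction. -/
theorem isFF1_res (hNk : (N : IsLocalRing.ResidueField A) ≠ 0) :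
    IsFF1 (IsLocalRing.ResidueField A)
      ↥(modularFunctionFieldFullC (IsLocalRing.ResidueField A) N)
      (xk (IsLocalRing.ResidueField A) N) := by
  haveI := Fermat.Agent.Lib.FF.CharP.isAlgClosed_residueField A
  exact InstGenus.isFF1_xk (A := A) (π := IsLocalRing.residue A) residue_nonunit
    IsLocalRing.residue_surjective hNk

section Consequences

variable {r : Place (AlgebraicClosure ℚ) ↥(modularFunctionFieldBar N) →
    Place (IsLocalRing.ResidueField A)
      ↥(modularFunctionFieldFullC (IsLocalRing.ResidueField A) N)}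
  {V : AddSubgroup (JZero N)}
  {B : Divisor (AlgebraicClosure ℚ) ↥(modularFunctionFieldBar N)}
  {Dv : V → Divisor (AlgebraicClosure ℚ) ↥(modularFunctionFieldBar N)}

/-- `B` is fixed by the inertia group. -/
theorem smul_B_galois (h : GenPosAbs.IsGenPos r (inertiaSet A N) V B Dv)
    {σ : AlgebraicClosure ℚ ≃ₐ[ℚ] AlgebraicClosure ℚ} (hσ : σ ∈ A.inertiaSubgroupIn ℚ) :
    arithmeticGalois (modularFunctionFieldFull N) σ • B = B :=
  h.smul_B _ (mem_inertiaSet hσ)

/-- `D_(σ v) = σ D_v` for `σ` in the inertia group. -/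
theorem smul_galois (h : GenPosAbs.IsGenPos r (inertiaSet A N) V B Dv)
    {σ : AlgebraicClosure ℚ ≃ₐ[ℚ] AlgebraicClosure ℚ} (hσ : σ ∈ A.inertiaSubgroupIn ℚ)
    (v : V) (hv : σ • (v : JZero N) ∈ V) :
    Dv ⟨σ • (v : JZero N), hv⟩ = arithmeticGalois (modularFunctionFieldFull N) σ • Dv v :=
  h.smul _ (mem_inertiaSet hσ) v hv

/-- `r_* D_(σ v) = r_* D_v` for `σ` in the inertia group. -/
theorem red_smul_galois (h : GenPosAbs.IsGenPos r (inertiaSet A N) V B Dv)
    {σ : AlgebraicClosure ℚ ≃ₐ[ℚ] AlgebraicClosure ℚ} (hσ : σ ∈ A.inertiaSubgroupIn ℚ)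
    (v : V) (hv : σ • (v : JZero N) ∈ V) :
    Finsupp.mapDomain r (Dv ⟨σ • (v : JZero N), hv⟩) = Finsupp.mapDomain r (Dv v) :=
  h.red_smul _ (mem_inertiaSet hσ) v hv

/-- `r_* D_v` depends exactly on the reduction of `v` (any place reduction `r`). -/
theorem red_eq_iff_reductionPic0Along (h : GenPosAbs.IsGenPos r (inertiaSet A N) V B Dv)
    (hr : IsPlaceReductionModL A N r)
    (hgen : PrincipalGeneratedByIntegral A (IsLocalRing.residue A) N) (v w : V) :
    reductionPic0Along r hr hgen (v : JZero N) = reductionPic0Along r hr hgen (w : JZero N) ↔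
      Finsupp.mapDomain r (Dv v) = Finsupp.mapDomain r (Dv w) :=
  h.red_eq_iff (reductionPic0Along r hr hgen) (classEq_reductionPic0Along hr hgen) v w

end Consequences

/-- `r_* D_v` depends exactly on `reductionModL A N v` (the Prelude's reduction). -/
theorem red_eq_iff_reductionModL (hin : ReductionInputsModL A N) {V : AddSubgroup (JZero N)}
    {B : Divisor (AlgebraicClosure ℚ) ↥(modularFunctionFieldBar N)}
    {Dv : V → Divisor (AlgebraicClosure ℚ) ↥(modularFunctionFieldBar N)}
    (h : GenPosAbs.IsGenPos (placeReductionModL hin) (inertiaSet A N) V B Dv) (v w : V) :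
    reductionModL A N (v : JZero N) = reductionModL A N (w : JZero N) ↔
      Finsupp.mapDomain (placeReductionModL hin) (Dv v) =
        Finsupp.mapDomain (placeReductionModL hin) (Dv w) :=
  h.red_eq_iff (reductionModL A N) (classEq_reductionModL hin) v w

/-- **(GP2)** `r_* D_v` is the unique effective divisor `X` with `[X - r_* B] = red v`. -/
theorem eq_of_classEq_reductionModL (hin : ReductionInputsModL A N)
    {V : AddSubgroup (JZero N)}
    {B : Divisor (AlgebraicClosure ℚ) ↥(modularFunctionFieldBar N)}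
    {Dv : V → Divisor (AlgebraicClosure ℚ) ↥(modularFunctionFieldBar N)}
    (h : GenPosAbs.IsGenPos (placeReductionModL hin) (inertiaSet A N) V B Dv) (v : V)
    (X : Divisor (IsLocalRing.ResidueField A)
      ↥(modularFunctionFieldFullC (IsLocalRing.ResidueField A) N)) (hX : 0 ≤ X)
    (hc : GenPosAbs.ClassEq (X - Finsupp.mapDomain (placeReductionModL hin) B)
      (reductionModL A N (v : JZero N))) :
    X = Finsupp.mapDomain (placeReductionModL hin) (Dv v) :=
  h.eq_of_classEq_red (reductionModL A N) (classEq_reductionModL hin) v X hX hc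

end Qbar

end Fermat.Agent.Padic.GenPos
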