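/-
`Fermat.Agent.Padic.KMAdd` (helper16, PADIC task 301): Khuri-Makdisi's addition of divisor
classes as a statement about FAMILIES of subspaces over a local ring.
-/
import Mathlib
import Fermat.Agent.Lib.LinAlg.Family
import Fermat.Agent.Lib.FF.KMLemmas
import Fermat.Agent.Lib.FF.WeilCanonical

set_option autoImplicit false

noncomputable section

namespace Fermat.Agent.Padic.KMAdd

open AlgebraicCurve Module
open Fermat.Agent.Lib.LinAlg.Family Fermat.Agent.Lib.LinAlg.ConstRank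
open Fermat.Agent.Lib.FF Fermat.Agent.Lib.FF.KMLemmas Fermat.Agent.Lib.FF.BasePoint
  Fermat.Agent.Lib.FF.WeilCanonical

/-- Coordinates on ONE fibre: a function field `F / K` with divisors `E`, `B`, coordinate spaces
`I₁` (for `L(E)`), `I₂` (products of two elements of `L(E)`), `J₁` (for `L(E - B)`), `J₂`
(for `L(2E - B)`), `J₄` (products `L(2E - B) · L(E) · L(E)`), and the three multiplication
tables `a`, `b`, `c` in these coordinates. -/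
structure KMCoord (K F : Type*) [Field K] [Field F] [Algebra K F] (E B : Divisor K F)
    {I₁ I₂ J₁ J₂ J₄ : Type*} [Fintype I₁] [Fintype I₂] [Fintype J₁] [Fintype J₂] [Fintype J₄]
    (a : I₂ → I₁ → I₁ → K) (b : J₂ → I₁ → J₁ → K) (c : J₄ → J₂ → I₂ → K) where
  /-- coordinates of `L(E)` -/
  φ₁ : (I₁ → K) →ₗ[K] F
  /-- coordinates of (a space containing) `L(E) · L(E)` -/
  φ₂ : (I₂ → K) →ₗ[K] F
  /-- coordinates of `L(E - B)` -/
  ψ₁ : (J₁ → K) →ₗ[K] F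
  /-- coordinates of `L(2E - B)` -/
  ψ₂ : (J₂ → K) →ₗ[K] F
  /-- coordinates of (a space containing) `L(2E - B) · L(E) · L(E)` -/
  ψ₄ : (J₄ → K) →ₗ[K] F
  inj_φ₁ : Function.Injective φ₁
  inj_φ₂ : Function.Injective φ₂
  inj_ψ₂ : Function.Injective ψ₂
  inj_ψ₄ : Function.Injective ψ₄
  range_φ₁ : LinearMap.range φ₁ = riemannRochSpace E
  range_ψ₁ : LinearMap.range ψ₁ = riemannRochSpace (E - B)
  range_ψ₂ : LinearMap.range ψ₂ = riemannRochSpace (2 • E - B)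
  mul_a : ∀ v w, φ₂ (mulTab a v w) = φ₁ v * φ₁ w
  mul_b : ∀ v y, ψ₂ (mulTab b v y) = φ₁ v * ψ₁ y
  mul_c : ∀ y u, ψ₄ (mulTab c y u) = ψ₂ y * φ₂ u

/-- The divisor-level hypotheses on ONE fibre: `D₁`, `D₂` of degree `g`, `D₃ ≥ 0` linearly
equivalent to `D₁ + D₂ - B` and non-special (`l(D₃) = 1`). -/
structure KMTriple (K F : Type*) [Field K] [Field F] [Algebra K F]
    (B D₁ D₂ D₃ : Divisor K F) : Prop where
  deg₁ : Divisor.degree D₁ = genusFF K F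
  deg₂ : Divisor.degree D₂ = genusFF K F
  nonneg₃ : 0 ≤ D₃
  equiv : ∃ s : F, s ≠ 0 ∧ ∀ v : Place K F, (D₃ - D₁ - D₂ + B) v = v.ord s
  finrank₃ : finrank K (riemannRochSpace D₃) = 1


/-! ### Closed point given by an arbitrary local homomorphism to a field -/

section Bridge

variable {R : Type*} [CommRing R] [IsLocalRing R]

/-- The rank of a matrix over a field is invariant under field extension. -/
theorem rank_map_field {k₀ k : Type*} [Field k₀] [Field k] {m n : Type*} [Fintype m] [Fintype n]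
    (M : Matrix m n k₀) (ι : k₀ →+* k) : (M.map ι).rank = M.rank := by
  obtain ⟨h⟩ := exists_rankFact M (fun _ : Unit => IsLocalRing.residue k₀)
    (fun r hr => by
      have h0 := hr ()
      rw [IsLocalRing.residue_eq_zero_iff, IsLocalRing.mem_maximalIdeal, mem_nonunits_iff,
        isUnit_iff_ne_zero, not_not] at h0
      exact h0) (fun _ => le_rfl)
  rw [h.rank_map_eq ι, h.rank_eq]

/-- The rank at a closed point `ρ : R →+* k` (a local homomorphism to a field) is the rank at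
the residue field. -/
theorem rank_map_localHom {k : Type*} [Field k] {m n : Type*} [Fintype m] [Fintype n]
    (A : Matrix m n R) (ρ : R →+* k) [IsLocalHom ρ] :
    (A.map ρ).rank = (A.map (IsLocalRing.residue R)).rank := by
  have e : A.map ρ = (A.map (IsLocalRing.residue R)).map (IsLocalRing.ResidueField.lift ρ) := by
    ext i j
    simp [Matrix.map_apply]
  rw [e, rank_map_field]

variable {ι : Type*} [Fintype ι] {κ : Type*} [Fintype κ] {ι' : Type*} [Fintype ι']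
variable {Pt : Type*} {K : Pt → Type*} [∀ i, Field (K i)] (χ : ∀ i, R →+* K i)
  (hχ : ∀ r : R, (∀ i, χ i r = 0) → r = 0) {k : Type*} [Field k] (ρ : R →+* k) [IsLocalHom ρ]

include hχ

/-- `Fam.exists_rankFact_image` with the closed point given by a local homomorphism. -/
theorem exists_rankFact_image' (W : Fam R ι) (M : Matrix κ ι R) (r : ℕ)
    (hr : finrank k ((W.fib ρ).map (M.map ρ).mulVecLin) = r)
    (hrank : ∀ i, finrank (K i) ((W.fib (χ i)).map (M.map (χ i)).mulVecLin) ≤ r) :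
    Nonempty (RankFact (M * W.P) r) := by
  refine Fam.exists_rankFact_image W M χ hχ r ?_ hrank
  rw [← Fam.rank_image_matrix, ← rank_map_localHom _ ρ, Fam.rank_image_matrix]
  exact hr

/-- `Fam.exists_rankFact_preimage` with the closed point given by a local homomorphism. -/
theorem exists_rankFact_preimage' [DecidableEq κ] (W : Fam R ι) (Q : Fam R κ) (M : Matrix κ ι R)
    (hrank : ∀ i, finrank k
        (W.fib ρ ⊓ (Q.fib ρ).comap (M.map ρ).mulVecLin : Submodule k (ι → k)) ≤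
      finrank (K i) (W.fib (χ i) ⊓ (Q.fib (χ i)).comap (M.map (χ i)).mulVecLin :
        Submodule (K i) (ι → K i))) :
    ∃ r : ℕ, Nonempty (RankFact ((1 - Q.P) * M * W.P) r) := by
  refine Fam.exists_rankFact_preimage W Q M χ hχ fun i => ?_
  have h1 := Fam.rank_preimage_matrix_map W Q M ρ
  have h2 := Fam.rank_preimage_matrix_map W Q M (IsLocalRing.residue R)
  have h3 := rank_map_localHom ((1 - Q.P) * M * W.P) ρ
  have h4 := hrank i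
  omega

/-- `Fam.exists_rankFact_mul` with the closed point given by a local homomorphism. -/
theorem exists_rankFact_mul' (W : Fam R ι) (W' : Fam R ι') (c : κ → ι → ι' → R) (r : ℕ)
    (hr : finrank k (prodSpan (Fam.mapTab ρ c) (W.fib ρ) (W'.fib ρ)) = r)
    (hrank : ∀ i, finrank (K i)
      (prodSpan (Fam.mapTab (χ i) c) (W.fib (χ i)) (W'.fib (χ i))) ≤ r) :
    Nonempty (RankFact (tabMatrix c * (W.kron W').P) r) := by
  apply exists_rankFact_image' χ hχ ρ (W.kron W') (tabMatrix c) r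
  · rw [Fam.map_tab_fib_kron]; exact hr
  · intro i
    rw [Fam.map_tab_fib_kron]; exact hrank i

/-- `Fam.exists_rankFact_transporter` with the closed point given by a local homomorphism. -/
theorem exists_rankFact_transporter' [DecidableEq ι'] [DecidableEq κ]
    (Pf : Fam R ι) (U : Fam R ι') (Q : Fam R κ) (c : κ → ι → ι' → R)
    (hrank : ∀ i, finrank k
        (transp (Fam.mapTab ρ c) (Pf.fib ρ) (U.fib ρ) (Q.fib ρ)) ≤
      finrank (K i) (transp (Fam.mapTab (χ i) c) (Pf.fib (χ i)) (U.fib (χ i)) (Q.fib (χ i)))) :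
    ∃ r : ℕ, Nonempty
      (RankFact ((1 - (Q.kron (Fam.top R ι')).P) * Fam.transpMatrix c U.P * Pf.P) r) := by
  apply exists_rankFact_preimage' χ hχ ρ Pf (Q.kron (Fam.top R ι')) (Fam.transpMatrix c U.P)
  intro i
  rw [Fam.fib_transp_eq, Fam.fib_transp_eq]
  exact hrank i

end Bridge


/-! ### The chain on one fibre: definitions (over any commutative ring) -/

section FibreDefs

variable {S : Type*} [CommRing S]
  {I₁ I₂ J₁ J₂ J₄ : Type*} [Fintype I₁] [Fintype I₂] [Fintype J₁] [Fintype J₂] [Fintype J₄]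

/-- `Q`: the products `y · u₀`, for `y` any vector of `J₂`-coordinates. -/
def Qs (c : J₄ → J₂ → I₂ → S) (u₀ : I₂ → S) : Submodule S (J₄ → S) :=
  (⊤ : Submodule S (J₂ → S)).map (Fam.rightMulMatrix c u₀).mulVecLin

/-- The line `N = {v | v · U ⊆ Q}`. -/
def Ns (c : J₄ → J₂ → I₂ → S) (U : Submodule S (I₂ → S)) (u₀ : I₂ → S) :
    Submodule S (J₂ → S) :=
  transp c ⊤ U (Qs c u₀)

/-- `T = v₀ · U`. -/
def Ts (c : J₄ → J₂ → I₂ → S) (U : Submodule S (I₂ → S)) (v₀ : J₂ → S) :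
    Submodule S (J₄ → S) :=
  U.map (Fam.leftMulMatrix c v₀).mulVecLin

/-- `W' = {f | f · u₀ ∈ T}`. -/
def Ws (c : J₄ → J₂ → I₂ → S) (U : Submodule S (I₂ → S)) (u₀ : I₂ → S) (v₀ : J₂ → S) :
    Submodule S (J₂ → S) :=
  ⊤ ⊓ (Ts c U v₀).comap (Fam.rightMulMatrix c u₀).mulVecLin

/-- `W₃ = {f | f · (all `J₁`-coordinates) ⊆ W'}`. -/
def W3s (b : J₂ → I₁ → J₁ → S) (c : J₄ → J₂ → I₂ → S) (U : Submodule S (I₂ → S))
    (u₀ : I₂ → S) (v₀ : J₂ → S) : Submodule S (I₁ → S) :=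
  transp b ⊤ (⊤ : Submodule S (J₁ → S)) (Ws c U u₀ v₀)

omit [Fintype J₄] in
theorem mem_Qs {c : J₄ → J₂ → I₂ → S} {u₀ : I₂ → S} {y : J₄ → S} :
    y ∈ Qs c u₀ ↔ ∃ v : J₂ → S, mulTab c v u₀ = y := by
  simp only [Qs, Submodule.mem_map, Submodule.mem_top, true_and, Matrix.mulVecLin_apply,
    Fam.rightMulMatrix_mulVec]

omit [Fintype J₄] in
theorem mem_Ns {c : J₄ → J₂ → I₂ → S} {U : Submodule S (I₂ → S)} {u₀ : I₂ → S} {v : J₂ → S} :
    v ∈ Ns c U u₀ ↔ ∀ u ∈ U, ∃ y : J₂ → S, mulTab c y u₀ = mulTab c v u := by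
  simp only [Ns, mem_transp, Submodule.mem_top, true_and, mem_Qs]

omit [Fintype J₄] in
theorem mem_Ts {c : J₄ → J₂ → I₂ → S} {U : Submodule S (I₂ → S)} {v₀ : J₂ → S} {y : J₄ → S} :
    y ∈ Ts c U v₀ ↔ ∃ u ∈ U, mulTab c v₀ u = y := by
  simp only [Ts, Submodule.mem_map, Matrix.mulVecLin_apply, Fam.leftMulMatrix_mulVec]

omit [Fintype J₄] in
theorem mem_Ws {c : J₄ → J₂ → I₂ → S} {U : Submodule S (I₂ → S)} {u₀ : I₂ → S} {v₀ : J₂ → S}
    {f : J₂ → S} : f ∈ Ws c U u₀ v₀ ↔ ∃ u ∈ U, mulTab c v₀ u = mulTab c f u₀ := by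
  simp only [Ws, Submodule.mem_inf, Submodule.mem_top, true_and, Submodule.mem_comap,
    Matrix.mulVecLin_apply, Fam.rightMulMatrix_mulVec, mem_Ts]

omit [Fintype J₄] in
theorem mem_W3s {b : J₂ → I₁ → J₁ → S} {c : J₄ → J₂ → I₂ → S} {U : Submodule S (I₂ → S)}
    {u₀ : I₂ → S} {v₀ : J₂ → S} {f : I₁ → S} :
    f ∈ W3s b c U u₀ v₀ ↔ ∀ y : J₁ → S, mulTab b f y ∈ Ws c U u₀ v₀ := by
  simp only [W3s, mem_transp, Submodule.mem_top, true_and, forall_const]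

end FibreDefs

/-! ### The chain on one fibre: identification with Riemann–Roch spaces -/

/-- The numerical setting on one fibre. -/
structure KMSetting (K F : Type*) [Field K] [Field F] [Algebra K F] (x : F)
    (E B : Divisor K F) (n : ℤ) : Prop where
  ff : IsFF1 K F x
  hn : 5 * (genusFF K F : ℤ) + 1 ≤ n
  degE : Divisor.degree E = n
  degB : Divisor.degree B = genusFF K F

section Fibre

variable {K F : Type*} [Field K] [Field F] [Algebra K F] {x : F} {E B : Divisor K F} {n : ℤ}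
  {I₁ I₂ J₁ J₂ J₄ : Type*} [Fintype I₁] [Fintype I₂] [Fintype J₁] [Fintype J₂] [Fintype J₄]
  {a : I₂ → I₁ → I₁ → K} {b : J₂ → I₁ → J₁ → K} {c : J₄ → J₂ → I₂ → K}
  {D₁ D₂ D₃ : Divisor K F}

theorem finrank_map_inj {V V' : Type*} [AddCommGroup V] [Module K V] [AddCommGroup V']
    [Module K V'] (f : V →ₗ[K] V') (hf : Function.Injective f) (U : Submodule K V) :
    finrank K (U.map f) = finrank K U :=
  (Submodule.equivMapOfInjective f hf U).finrank_eq.symm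

theorem map_eq_of_forall_mem_iff {V V' : Type*} [AddCommGroup V] [Module K V] [AddCommGroup V']
    [Module K V'] (f : V →ₗ[K] V') (U : Submodule K V) (M : Submodule K V')
    (hM : M ≤ LinearMap.range f) (h : ∀ v, v ∈ U ↔ f v ∈ M) : U.map f = M := by
  ext y
  constructor
  · rintro ⟨v, hv, rfl⟩
    exact (h v).1 hv
  · intro hy
    obtain ⟨v, rfl⟩ := hM hy
    exact ⟨v, (h v).2 hy, rfl⟩

theorem mulLeft_inj {u : F} (hu : u ≠ 0) : Function.Injective (LinearMap.mulLeft K u) :=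
  fun _ _ h => mul_right_injective₀ hu h

theorem one_mem_L {D : Divisor K F} (hD : 0 ≤ D) : (1 : F) ∈ riemannRochSpace D := by
  have h0 : (1 : F) ∈ riemannRochSpace (0 : Divisor K F) := by
    intro v
    rw [map_one]
    simp
  exact L_mono hD h0

theorem KMTriple.deg₃ (hD : KMTriple K F B D₁ D₂ D₃) (S : KMSetting K F x E B n) :
    Divisor.degree D₃ = genusFF K F := by
  obtain ⟨s, hs, hdiv⟩ := hD.equiv
  obtain ⟨Ds, hDs, hdeg⟩ := S.ff.hasPrincipalDivisors.exists_divisor s hs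
  have e : D₃ - D₁ - D₂ + B = Ds := Finsupp.ext fun v => by rw [hdiv v, hDs v]
  have h := congrArg Divisor.degree e
  rw [map_add, map_sub, map_sub, hD.deg₁, hD.deg₂, S.degB, hdeg] at h
  linarith

theorem KMTriple.deg_G (hD : KMTriple K F B D₁ D₂ D₃) (S : KMSetting K F x E B n) :
    Divisor.degree (E - D₁ + (E - D₂)) = 2 * n - 2 * genusFF K F := by
  rw [map_add, map_sub, map_sub, hD.deg₁, hD.deg₂, S.degE]
  ring

/-- `L(D₁ + D₂ - B) = s · L(D₃)`. -/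
theorem map_mulLeft_D₃ {s : F} (hs : s ≠ 0)
    (hdiv : ∀ v : Place K F, (D₃ - D₁ - D₂ + B) v = v.ord s) :
    (riemannRochSpace D₃).map (LinearMap.mulLeft K s) = riemannRochSpace (D₁ + D₂ - B) := by
  rw [map_mulLeft_L hs hdiv D₃]
  congr 1
  abel

namespace KMCoord

variable (C : KMCoord K F E B a b c)

theorem map_prodSpan (W₁ W₂ : Submodule K (I₁ → K)) :
    (prodSpan a W₁ W₂).map C.φ₂ = W₁.map C.φ₁ * W₂.map C.φ₁ := by
  apply le_antisymm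
  · rw [prodSpan, Submodule.map_span, Submodule.span_le]
    rintro _ ⟨_, ⟨v, hv, w, hw, rfl⟩, rfl⟩
    rw [SetLike.mem_coe, C.mul_a]
    exact Submodule.mul_mem_mul (Submodule.mem_map_of_mem hv) (Submodule.mem_map_of_mem hw)
  · rw [Submodule.mul_le]
    rintro _ ⟨v, hv, rfl⟩ _ ⟨w, hw, rfl⟩
    rw [← C.mul_a]
    exact Submodule.mem_map_of_mem (Submodule.subset_span ⟨v, hv, w, hw, rfl⟩)

theorem φ₂_ne_zero {u : I₂ → K} (hu : u ≠ 0) : C.φ₂ u ≠ 0 :=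
  fun h => hu (C.inj_φ₂ (h.trans (map_zero _).symm))

theorem ψ₂_ne_zero {v : J₂ → K} (hv : v ≠ 0) : C.ψ₂ v ≠ 0 :=
  fun h => hv (C.inj_ψ₂ (h.trans (map_zero _).symm))

theorem φ₁_mem (f : I₁ → K) : C.φ₁ f ∈ riemannRochSpace E := by
  rw [← C.range_φ₁]; exact ⟨f, rfl⟩

theorem ψ₁_mem (y : J₁ → K) : C.ψ₁ y ∈ riemannRochSpace (E - B) := by
  rw [← C.range_ψ₁]; exact ⟨y, rfl⟩

theorem ψ₂_mem (y : J₂ → K) : C.ψ₂ y ∈ riemannRochSpace (2 • E - B) := by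
  rw [← C.range_ψ₂]; exact ⟨y, rfl⟩

include C in
/-- `y ↦ y · u₀` is injective for `u₀ ≠ 0`. -/
theorem rightMul_injective {u₀ : I₂ → K} (hu₀ : u₀ ≠ 0) :
    Function.Injective (Fam.rightMulMatrix c u₀).mulVecLin := by
  rw [injective_iff_map_eq_zero]
  intro v hv
  rw [Matrix.mulVecLin_apply, Fam.rightMulMatrix_mulVec] at hv
  have h1 := C.mul_c v u₀
  rw [hv, map_zero] at h1
  rcases mul_eq_zero.1 h1.symm with h | h
  · exact C.inj_ψ₂ (h.trans (map_zero _).symm)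
  · exact absurd h (C.φ₂_ne_zero hu₀)

include C in
/-- `u ↦ v₀ · u` is injective for `v₀ ≠ 0`. -/
theorem leftMul_injective {v₀ : J₂ → K} (hv₀ : v₀ ≠ 0) :
    Function.Injective (Fam.leftMulMatrix c v₀).mulVecLin := by
  rw [injective_iff_map_eq_zero]
  intro u hu
  rw [Matrix.mulVecLin_apply, Fam.leftMulMatrix_mulVec] at hu
  have h1 := C.mul_c v₀ u
  rw [hu, map_zero] at h1
  rcases mul_eq_zero.1 h1.symm with h | h
  · exact absurd h (C.ψ₂_ne_zero hv₀)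
  · exact C.inj_φ₂ (h.trans (map_zero _).symm)

include C in
theorem finrank_Qs {u₀ : I₂ → K} (hu₀ : u₀ ≠ 0) : finrank K (Qs c u₀) = Fintype.card J₂ := by
  rw [Qs, finrank_map_inj _ (C.rightMul_injective hu₀), finrank_top,
    Module.finrank_fintype_fun_eq_card]

include C in
theorem finrank_Ts {v₀ : J₂ → K} (hv₀ : v₀ ≠ 0) (U : Submodule K (I₂ → K)) :
    finrank K (Ts c U v₀) = finrank K U := by
  rw [Ts, finrank_map_inj _ (C.leftMul_injective hv₀)]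

end KMCoord

end Fibre


section FibreChain

variable {K F : Type*} [Field K] [Field F] [Algebra K F] {x : F} {E B : Divisor K F} {n : ℤ}
  {I₁ I₂ J₁ J₂ J₄ : Type*} [Fintype I₁] [Fintype I₂] [Fintype J₁] [Fintype J₂] [Fintype J₄]
  {a : I₂ → I₁ → I₁ → K} {b : J₂ → I₁ → J₁ → K} {c : J₄ → J₂ → I₂ → K}
  {D₁ D₂ D₃ : Divisor K F} [Infinite K]
  (S : KMSetting K F x E B n) (C : KMCoord K F E B a b c) (hD : KMTriple K F B D₁ D₂ D₃)
  {W₁ W₂ : Submodule K (I₁ → K)}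
  (h₁ : W₁.map C.φ₁ = riemannRochSpace (E - D₁)) (h₂ : W₂.map C.φ₁ = riemannRochSpace (E - D₂))

include S hD h₁ h₂

/-- `U = W₁ · W₂` is `L(2E - D₁ - D₂)`. -/
theorem map_U : (prodSpan a W₁ W₂).map C.φ₂ = riemannRochSpace (E - D₁ + (E - D₂)) := by
  rw [C.map_prodSpan, h₁, h₂]
  have hn := S.hn
  refine mul_eq_sharp S.ff _ ?_ _ ?_
  · rw [map_sub, S.degE, hD.deg₁]; linarith
  · rw [map_sub, S.degE, hD.deg₂]; linarith

theorem finrank_U : (finrank K (prodSpan a W₁ W₂) : ℤ) = 2 * n - 3 * genusFF K F + 1 := by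
  have hn := S.hn
  rw [← finrank_map_inj C.φ₂ C.inj_φ₂, map_U S C hD h₁ h₂,
    finrank_L_of_degree S.ff (by rw [hD.deg_G S]; linarith), hD.deg_G S]
  ring

variable {u₀ : I₂ → K} (hu₀ : u₀ ∈ prodSpan a W₁ W₂) (hu₀0 : u₀ ≠ 0)

include hu₀ hu₀0

omit hu₀ in
/-- The line: `v ∈ N` iff `v = u₀ · h` with `h ∈ L(D₁ + D₂ - B)`. -/
theorem mem_Ns_iff (v : J₂ → K) :
    v ∈ Ns c (prodSpan a W₁ W₂) u₀ ↔
      ∃ h ∈ riemannRochSpace (D₁ + D₂ - B), C.ψ₂ v = C.φ₂ u₀ * h := by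
  have hn := S.hn
  have hU := map_U S C hD h₁ h₂
  have hG : IsBPF (E - D₁ + (E - D₂)) :=
    bpf_of_two_genus S.ff (by rw [hD.deg_G S]; linarith)
  have hYG : 2 • E - B - (E - D₁ + (E - D₂)) = D₁ + D₂ - B := by rw [two_nsmul]; abel
  rw [mem_Ns, ← hYG, ← km_line hG (C.φ₂_ne_zero hu₀0) (C.ψ₂ v)]
  constructor
  · intro h u' hu'
    rw [← hU] at hu'
    obtain ⟨u, hu, rfl⟩ := hu'
    obtain ⟨y, hy⟩ := h u hu
    refine ⟨C.ψ₂ y, C.ψ₂_mem y, ?_⟩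
    have h4 := congrArg C.ψ₄ hy
    rw [C.mul_c, C.mul_c] at h4
    rw [← h4]; ring
  · intro h u hu
    obtain ⟨y', hy', e⟩ := h (C.φ₂ u) (by rw [← hU]; exact ⟨u, hu, rfl⟩)
    rw [← C.range_ψ₂] at hy'
    obtain ⟨y, rfl⟩ := hy'
    refine ⟨y, C.inj_ψ₄ ?_⟩
    rw [C.mul_c, C.mul_c, e]; ring

theorem map_Ns :
    (Ns c (prodSpan a W₁ W₂) u₀).map C.ψ₂ =
      (riemannRochSpace (D₁ + D₂ - B)).map (LinearMap.mulLeft K (C.φ₂ u₀)) := by
  have hU := map_U S C hD h₁ h₂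
  ext f
  constructor
  · rintro ⟨v, hv, rfl⟩
    obtain ⟨h, hh, e⟩ := (mem_Ns_iff S C hD h₁ h₂ hu₀0 v).1 hv
    exact ⟨h, hh, e.symm⟩
  · rintro ⟨h, hh, rfl⟩
    have hmem : C.φ₂ u₀ * h ∈ riemannRochSpace (2 • E - B) := by
      have h1 : C.φ₂ u₀ ∈ riemannRochSpace (E - D₁ + (E - D₂)) := by
        rw [← hU]; exact ⟨u₀, hu₀, rfl⟩
      have h2 := mul_mem_L h1 hh
      have e : E - D₁ + (E - D₂) + (D₁ + D₂ - B) = 2 • E - B := by rw [two_nsmul]; abel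
      rwa [e] at h2
    rw [← C.range_ψ₂] at hmem
    obtain ⟨v, hv⟩ := hmem
    exact ⟨v, (mem_Ns_iff S C hD h₁ h₂ hu₀0 v).2 ⟨h, hh, hv⟩, hv⟩

/-- The line has dimension one. -/
theorem finrank_Ns : finrank K (Ns c (prodSpan a W₁ W₂) u₀) = 1 := by
  obtain ⟨s, hs, hdiv⟩ := hD.equiv
  rw [← finrank_map_inj C.ψ₂ C.inj_ψ₂, map_Ns S C hD h₁ h₂ hu₀ hu₀0,
    finrank_map_inj _ (mulLeft_inj (C.φ₂_ne_zero hu₀0)),
    ← map_mulLeft_D₃ hs hdiv, finrank_map_inj _ (mulLeft_inj hs), hD.finrank₃]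

omit hu₀

variable {v₀ : J₂ → K} (hv₀ : v₀ ∈ Ns c (prodSpan a W₁ W₂) u₀) (hv₀0 : v₀ ≠ 0)

include hv₀ hv₀0

/-- A nonzero element of the line is `u₀ · (l • s)`, `l ≠ 0`, for any `s` with
`div s = D₃ - D₁ - D₂ + B`. -/
theorem exists_smul_of_mem_Ns {s : F} (hs : s ≠ 0)
    (hdiv : ∀ v : Place K F, (D₃ - D₁ - D₂ + B) v = v.ord s) :
    ∃ l : K, l ≠ 0 ∧ C.ψ₂ v₀ = C.φ₂ u₀ * (l • s) := by
  obtain ⟨h, hh, e⟩ := (mem_Ns_iff S C hD h₁ h₂ hu₀0 v₀).1 hv₀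
  rw [← map_mulLeft_D₃ hs hdiv] at hh
  obtain ⟨t, ht, rfl⟩ := hh
  have h1 : (⟨1, one_mem_L hD.nonneg₃⟩ : riemannRochSpace D₃) ≠ 0 := by
    intro h0
    exact one_ne_zero (congrArg Subtype.val h0)
  obtain ⟨l, hl⟩ := (finrank_eq_one_iff_of_nonzero' _ h1).1 hD.finrank₃ ⟨t, ht⟩
  have hl' : l • (1 : F) = t := congrArg Subtype.val hl
  refine ⟨l, ?_, ?_⟩
  · rintro rfl
    rw [zero_smul] at hl'
    rw [← hl', LinearMap.mulLeft_apply, mul_zero, mul_zero] at e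
    exact C.ψ₂_ne_zero hv₀0 e
  · rw [e, LinearMap.mulLeft_apply, ← hl', mul_smul_comm, mul_one]

/-- `W' = {f | f · u₀ ∈ v₀ · U}` is `L(2E - B - D₃)`. -/
theorem mem_Ws_iff (f : J₂ → K) :
    f ∈ Ws c (prodSpan a W₁ W₂) u₀ v₀ ↔ C.ψ₂ f ∈ riemannRochSpace (2 • E - B - D₃) := by
  have hU := map_U S C hD h₁ h₂
  obtain ⟨s, hs, hdiv⟩ := hD.equiv
  obtain ⟨l, hl, e⟩ := exists_smul_of_mem_Ns S C hD h₁ h₂ hu₀0 hv₀ hv₀0 hs hdiv
  have hGD : E - D₁ + (E - D₂) - (D₃ - D₁ - D₂ + B) = 2 • E - B - D₃ := by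
    rw [two_nsmul]; abel
  rw [mem_Ws, ← hGD, ← km_Wprime (C.φ₂_ne_zero hu₀0) hs hdiv (C.ψ₂ f)]
  constructor
  · rintro ⟨u, hu, hmul⟩
    have h4 := congrArg C.ψ₄ hmul
    rw [C.mul_c, C.mul_c, e] at h4
    refine ⟨l • C.φ₂ u, Submodule.smul_mem _ _ (by rw [← hU]; exact ⟨u, hu, rfl⟩), ?_⟩
    rw [← h4, mul_smul_comm, smul_mul_assoc, mul_smul_comm]
  · rintro ⟨u', hu', hmul⟩
    rw [← hU] at hu'
    obtain ⟨u, hu, rfl⟩ := hu'
    refine ⟨l⁻¹ • u, Submodule.smul_mem _ _ hu, C.inj_ψ₄ ?_⟩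
    rw [C.mul_c, C.mul_c, e, map_smul, hmul]
    simp only [mul_smul_comm, smul_mul_assoc, smul_smul, inv_mul_cancel₀ hl, one_smul]

theorem map_Ws :
    (Ws c (prodSpan a W₁ W₂) u₀ v₀).map C.ψ₂ = riemannRochSpace (2 • E - B - D₃) := by
  refine map_eq_of_forall_mem_iff _ _ _ ?_ (mem_Ws_iff S C hD h₁ h₂ hu₀0 hv₀ hv₀0)
  rw [C.range_ψ₂]
  exact L_mono (sub_le_self _ hD.nonneg₃)

theorem finrank_Ws :
    (finrank K (Ws c (prodSpan a W₁ W₂) u₀ v₀) : ℤ) = 2 * n - 3 * genusFF K F + 1 := by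
  have hn := S.hn
  have hdeg : Divisor.degree (2 • E - B - D₃) = 2 * n - 2 * genusFF K F := by
    rw [map_sub, map_sub, map_nsmul, S.degE, S.degB, hD.deg₃ S]
    simp only [nsmul_eq_mul, Nat.cast_ofNat]
    ring
  rw [← finrank_map_inj C.ψ₂ C.inj_ψ₂, map_Ws S C hD h₁ h₂ hu₀0 hv₀ hv₀0,
    finrank_L_of_degree S.ff (by rw [hdeg]; linarith), hdeg]
  ring

/-- `W₃ = {f | f · L(E - B) ⊆ W'}` is `L(E - D₃)`. -/
theorem mem_W3s_iff (f : I₁ → K) :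
    f ∈ W3s b c (prodSpan a W₁ W₂) u₀ v₀ ↔ C.φ₁ f ∈ riemannRochSpace (E - D₃) := by
  have hn := S.hn
  have hbpf : IsBPF (E - B) :=
    bpf_of_two_genus S.ff (by rw [map_sub, S.degE, S.degB]; linarith)
  rw [mem_W3s, ← km_W3 (E := E) (E' := E) (B := B) (D₃ := D₃) hbpf hD.nonneg₃ (C.φ₁ f)]
  constructor
  · intro h
    refine ⟨C.φ₁_mem f, fun y' hy' => ?_⟩
    rw [← C.range_ψ₁] at hy'
    obtain ⟨y, rfl⟩ := hy'
    have h3 := (mem_Ws_iff S C hD h₁ h₂ hu₀0 hv₀ hv₀0 _).1 (h y)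
    rwa [C.mul_b, two_nsmul] at h3
  · rintro ⟨-, h⟩ y
    rw [mem_Ws_iff S C hD h₁ h₂ hu₀0 hv₀ hv₀0, C.mul_b, two_nsmul]
    exact h _ (C.ψ₁_mem y)

theorem map_W3s :
    (W3s b c (prodSpan a W₁ W₂) u₀ v₀).map C.φ₁ = riemannRochSpace (E - D₃) := by
  refine map_eq_of_forall_mem_iff _ _ _ ?_ (mem_W3s_iff S C hD h₁ h₂ hu₀0 hv₀ hv₀0)
  rw [C.range_φ₁]
  exact L_mono (sub_le_self _ hD.nonneg₃)

theorem finrank_W3s :
    (finrank K (W3s b c (prodSpan a W₁ W₂) u₀ v₀) : ℤ) = n - 2 * genusFF K F + 1 := by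
  have hn := S.hn
  have hdeg : Divisor.degree (E - D₃) = n - genusFF K F := by
    rw [map_sub, S.degE, hD.deg₃ S]
  rw [← finrank_map_inj C.φ₁ C.inj_φ₁, map_W3s S C hD h₁ h₂ hu₀0 hv₀ hv₀0,
    finrank_L_of_degree S.ff (by rw [hdeg]; linarith), hdeg]
  ring

end FibreChain


/-! ### Fibres of the families of the chain -/

section Global

variable {𝓡 : Type*} [CommRing 𝓡]
  {I₁ I₂ J₁ J₂ J₄ : Type*} [Fintype I₁] [Fintype I₂] [Fintype J₁] [Fintype J₂] [Fintype J₄]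
  [DecidableEq I₁] [DecidableEq I₂] [DecidableEq J₁] [DecidableEq J₂] [DecidableEq J₄]
  {S : Type*} [CommRing S] (θ : 𝓡 →+* S)

omit [DecidableEq I₁] [DecidableEq I₂] [DecidableEq J₁] [DecidableEq J₄] [Fintype I₁]
  [Fintype J₁] [Fintype J₄] in
theorem map_top_rightMul (c : J₄ → J₂ → I₂ → 𝓡) (u₀ : I₂ → 𝓡) :
    ((Fam.top 𝓡 J₂).fib θ).map ((Fam.rightMulMatrix c u₀).map θ).mulVecLin =
      Qs (Fam.mapTab θ c) (fun j => θ (u₀ j)) := by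
  rw [Fam.fib_top, Fam.rightMulMatrix_map]
  rfl

omit [DecidableEq I₁] [DecidableEq I₂] [DecidableEq J₁] [DecidableEq J₄] [Fintype I₁]
  [Fintype J₁] in
theorem transp_eq_Ns (c : J₄ → J₂ → I₂ → 𝓡) (u₀ : I₂ → 𝓡) (U : Fam 𝓡 I₂) (Q : Fam 𝓡 J₄)
    (hQ : Q.fib θ = Qs (Fam.mapTab θ c) (fun j => θ (u₀ j))) :
    transp (Fam.mapTab θ c) ((Fam.top 𝓡 J₂).fib θ) (U.fib θ) (Q.fib θ) =
      Ns (Fam.mapTab θ c) (U.fib θ) (fun j => θ (u₀ j)) := by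
  rw [Fam.fib_top, hQ]
  rfl

omit [DecidableEq I₁] [DecidableEq I₂] [DecidableEq J₁] [DecidableEq J₂] [DecidableEq J₄]
  [Fintype I₁] [Fintype J₁] [Fintype J₄] in
theorem map_leftMul (c : J₄ → J₂ → I₂ → 𝓡) (v₀ : J₂ → 𝓡) (U : Fam 𝓡 I₂) :
    (U.fib θ).map ((Fam.leftMulMatrix c v₀).map θ).mulVecLin =
      Ts (Fam.mapTab θ c) (U.fib θ) (fun j => θ (v₀ j)) := by
  rw [Fam.leftMulMatrix_map]
  rfl

omit [DecidableEq I₁] [DecidableEq I₂] [DecidableEq J₁] [DecidableEq J₄] [Fintype I₁]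
  [Fintype J₁] in
theorem inf_comap_eq_Ws (c : J₄ → J₂ → I₂ → 𝓡) (u₀ : I₂ → 𝓡) (v₀ : J₂ → 𝓡)
    (U : Submodule S (I₂ → S)) (T : Fam 𝓡 J₄)
    (hT : T.fib θ = Ts (Fam.mapTab θ c) U (fun j => θ (v₀ j))) :
    (Fam.top 𝓡 J₂).fib θ ⊓ (T.fib θ).comap ((Fam.rightMulMatrix c u₀).map θ).mulVecLin =
      Ws (Fam.mapTab θ c) U (fun j => θ (u₀ j)) (fun j => θ (v₀ j)) := by
  rw [Fam.fib_top, hT, Fam.rightMulMatrix_map]
  rfl

omit [DecidableEq I₂] [DecidableEq J₂] [DecidableEq J₄] [Fintype J₄] in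
theorem transp_eq_W3s (b : J₂ → I₁ → J₁ → 𝓡) (c : J₄ → J₂ → I₂ → 𝓡) (u₀ : I₂ → 𝓡)
    (v₀ : J₂ → 𝓡) (U : Submodule S (I₂ → S)) (W' : Fam 𝓡 J₂)
    (hW' : W'.fib θ = Ws (Fam.mapTab θ c) U (fun j => θ (u₀ j)) (fun j => θ (v₀ j))) :
    transp (Fam.mapTab θ b) ((Fam.top 𝓡 I₁).fib θ) ((Fam.top 𝓡 J₁).fib θ) (W'.fib θ) =
      W3s (Fam.mapTab θ b) (Fam.mapTab θ c) U (fun j => θ (u₀ j)) (fun j => θ (v₀ j)) := by
  rw [Fam.fib_top, Fam.fib_top, hW']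
  rfl

end Global

/-- **Khuri-Makdisi addition in families.** -/
theorem exists_fam_add
    {𝓡 : Type*} [CommRing 𝓡] [IsLocalRing 𝓡]
    {K : Type*} [Field K] [Infinite K] {F : Type*} [Field F] [Algebra K F]
    {k : Type*} [Field k] [Infinite k] {F' : Type*} [Field F'] [Algebra k F']
    {P : Type*} (χ : P → 𝓡 →+* K) (hχ : ∀ r : 𝓡, (∀ p, χ p r = 0) → r = 0)
    (ρ : 𝓡 →+* k) (hρ : IsLocalHom ρ)
    {x : F} (hF : IsFF1 K F x) {x' : F'} (hF' : IsFF1 k F' x')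
    (hg : genusFF k F' = genusFF K F)
    (E B : Divisor K F) (E' B' : Divisor k F')
    (n : ℤ) (hn : 5 * (genusFF K F : ℤ) + 1 ≤ n)
    (hE : Divisor.degree E = n) (hE' : Divisor.degree E' = n)
    (hB : Divisor.degree B = genusFF K F) (hB' : Divisor.degree B' = genusFF k F')
    {I₁ I₂ J₁ J₂ J₄ : Type*} [Fintype I₁] [Fintype I₂] [Fintype J₁] [Fintype J₂] [Fintype J₄]
    (a : I₂ → I₁ → I₁ → 𝓡) (b : J₂ → I₁ → J₁ → 𝓡) (c : J₄ → J₂ → I₂ → 𝓡)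
    (C : ∀ p, KMCoord K F E B (Fam.mapTab (χ p) a) (Fam.mapTab (χ p) b) (Fam.mapTab (χ p) c))
    (C' : KMCoord k F' E' B' (Fam.mapTab ρ a) (Fam.mapTab ρ b) (Fam.mapTab ρ c))
    (W₁ W₂ : Fam 𝓡 I₁)
    (D₁ D₂ D₃ : P → Divisor K F) (D₁' D₂' D₃' : Divisor k F')
    (h₁ : ∀ p, (W₁.fib (χ p)).map (C p).φ₁ = riemannRochSpace (E - D₁ p))
    (h₂ : ∀ p, (W₂.fib (χ p)).map (C p).φ₁ = riemannRochSpace (E - D₂ p))
    (h₁' : (W₁.fib ρ).map C'.φ₁ = riemannRochSpace (E' - D₁'))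
    (h₂' : (W₂.fib ρ).map C'.φ₁ = riemannRochSpace (E' - D₂'))
    (hD : ∀ p, KMTriple K F B (D₁ p) (D₂ p) (D₃ p))
    (hD' : KMTriple k F' B' D₁' D₂' D₃') :
    ∃ W₃ : Fam 𝓡 I₁,
      (∀ p, (W₃.fib (χ p)).map (C p).φ₁ = riemannRochSpace (E - D₃ p)) ∧
      (W₃.fib ρ).map C'.φ₁ = riemannRochSpace (E' - D₃') := by
  classical
  have : IsLocalHom ρ := hρ
  have S : KMSetting K F x E B n := ⟨hF, hn, hE, hB⟩
  have S' : KMSetting k F' x' E' B' n := ⟨hF', by rw [hg]; exact hn, hE', hB'⟩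
  -- Step 1: the product family `U = W₁ · W₂`
  have hUr : ∀ p, (finrank K (prodSpan (Fam.mapTab (χ p) a) (W₁.fib (χ p)) (W₂.fib (χ p))) : ℤ)
      = 2 * n - 3 * genusFF K F + 1 := fun p => finrank_U S (C p) (hD p) (h₁ p) (h₂ p)
  have hUr' : (finrank k (prodSpan (Fam.mapTab ρ a) (W₁.fib ρ) (W₂.fib ρ)) : ℤ)
      = 2 * n - 3 * genusFF K F + 1 := by
    rw [← hg]; exact finrank_U S' C' hD' h₁' h₂'
  obtain ⟨U, hU, hU'⟩ : ∃ U : Fam 𝓡 I₂,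
      (∀ p, U.fib (χ p) = prodSpan (Fam.mapTab (χ p) a) (W₁.fib (χ p)) (W₂.fib (χ p))) ∧
      U.fib ρ = prodSpan (Fam.mapTab ρ a) (W₁.fib ρ) (W₂.fib ρ) := by
    obtain ⟨hUf⟩ := exists_rankFact_mul' χ hχ ρ W₁ W₂ a _ rfl
      (fun p => by have := hUr p; omega)
    exact ⟨W₁.mul W₂ a hUf, fun p => Fam.fib_mul _ _ _ _ _, Fam.fib_mul _ _ _ _ _⟩
  -- Step 2: a unimodular element `u₀` of `U`
  obtain ⟨u₀, hu₀, hu₀', hu₀n, hu₀n'⟩ : ∃ u₀ : I₂ → 𝓡,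
      (∀ p, (fun j => χ p (u₀ j)) ∈ U.fib (χ p)) ∧ (fun j => ρ (u₀ j)) ∈ U.fib ρ ∧
      (∀ p, (fun j => χ p (u₀ j)) ≠ 0) ∧ (fun j => ρ (u₀ j)) ≠ 0 := by
    obtain ⟨ν, ⟨hν⟩⟩ := U.exists_rankFact
    have hνeq : finrank k (U.fib ρ) = ν := hν.rank_map_eq ρ
    have hνpos : 0 < ν := by
      rw [hU'] at hνeq
      omega
    exact ⟨fun i => hν.B i ⟨0, hνpos⟩, fun p => Fam.col_B_mem_fib U hν (χ p) _,
      Fam.col_B_mem_fib U hν ρ _, fun p => Fam.col_B_ne_zero U hν (χ p) _,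
      Fam.col_B_ne_zero U hν ρ _⟩
  -- Step 3: `Q = (all of J₂) · u₀`
  obtain ⟨Q, hQ, hQ'⟩ : ∃ Q : Fam 𝓡 J₄,
      (∀ p, Q.fib (χ p) = Qs (Fam.mapTab (χ p) c) (fun j => χ p (u₀ j))) ∧
      Q.fib ρ = Qs (Fam.mapTab ρ c) (fun j => ρ (u₀ j)) := by
    obtain ⟨hQf⟩ := exists_rankFact_image' χ hχ ρ (Fam.top 𝓡 J₂) (Fam.rightMulMatrix c u₀)
      (Fintype.card J₂) (by rw [map_top_rightMul]; exact C'.finrank_Qs hu₀n')
      (fun p => by rw [map_top_rightMul]; exact ((C p).finrank_Qs (hu₀n p)).le)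
    refine ⟨(Fam.top 𝓡 J₂).image (Fam.rightMulMatrix c u₀) hQf, fun p => ?_, ?_⟩
    · rw [Fam.fib_image, map_top_rightMul]
    · rw [Fam.fib_image, map_top_rightMul]
  -- Step 4: the line `N = {v | v · U ⊆ Q}` and its generator `v₀`
  have hu₀m : ∀ p, (fun j => χ p (u₀ j)) ∈
      prodSpan (Fam.mapTab (χ p) a) (W₁.fib (χ p)) (W₂.fib (χ p)) := fun p => hU p ▸ hu₀ p
  have hu₀m' : (fun j => ρ (u₀ j)) ∈ prodSpan (Fam.mapTab ρ a) (W₁.fib ρ) (W₂.fib ρ) :=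
    hU' ▸ hu₀'
  have hNr : ∀ p, finrank K (Ns (Fam.mapTab (χ p) c) (U.fib (χ p)) (fun j => χ p (u₀ j))) = 1 :=
    fun p => by rw [hU p]; exact finrank_Ns S (C p) (hD p) (h₁ p) (h₂ p) (hu₀m p) (hu₀n p)
  have hNr' : finrank k (Ns (Fam.mapTab ρ c) (U.fib ρ) (fun j => ρ (u₀ j))) = 1 := by
    rw [hU']; exact finrank_Ns S' C' hD' h₁' h₂' hu₀m' hu₀n'
  obtain ⟨N, hN, hN'⟩ : ∃ N : Fam 𝓡 J₂,
      (∀ p, N.fib (χ p) = Ns (Fam.mapTab (χ p) c) (U.fib (χ p)) (fun j => χ p (u₀ j))) ∧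
      N.fib ρ = Ns (Fam.mapTab ρ c) (U.fib ρ) (fun j => ρ (u₀ j)) := by
    obtain ⟨rN, ⟨hNf⟩⟩ := exists_rankFact_transporter' χ hχ ρ (Fam.top 𝓡 J₂) U Q c
      (fun p => by
        rw [transp_eq_Ns ρ c u₀ U Q hQ', transp_eq_Ns (χ p) c u₀ U Q (hQ p), hNr', hNr p])
    refine ⟨(Fam.top 𝓡 J₂).transporter U Q c hNf, fun p => ?_, ?_⟩
    · rw [Fam.fib_transporter, transp_eq_Ns (χ p) c u₀ U Q (hQ p)]
    · rw [Fam.fib_transporter, transp_eq_Ns ρ c u₀ U Q hQ']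
  obtain ⟨v₀, hv₀, hv₀', hv₀n, hv₀n'⟩ : ∃ v₀ : J₂ → 𝓡,
      (∀ p, (fun j => χ p (v₀ j)) ∈ N.fib (χ p)) ∧ (fun j => ρ (v₀ j)) ∈ N.fib ρ ∧
      (∀ p, (fun j => χ p (v₀ j)) ≠ 0) ∧ (fun j => ρ (v₀ j)) ≠ 0 := by
    obtain ⟨ν, ⟨hν⟩⟩ := N.exists_rankFact
    have hνeq : finrank k (N.fib ρ) = ν := hν.rank_map_eq ρ
    have hνpos : 0 < ν := by
      rw [hN', hNr'] at hνeq
      omega
    exact ⟨fun i => hν.B i ⟨0, hνpos⟩, fun p => Fam.col_B_mem_fib N hν (χ p) _,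
      Fam.col_B_mem_fib N hν ρ _, fun p => Fam.col_B_ne_zero N hν (χ p) _,
      Fam.col_B_ne_zero N hν ρ _⟩
  have hv₀m : ∀ p, (fun j => χ p (v₀ j)) ∈ Ns (Fam.mapTab (χ p) c)
      (prodSpan (Fam.mapTab (χ p) a) (W₁.fib (χ p)) (W₂.fib (χ p))) (fun j => χ p (u₀ j)) :=
    fun p => by have h := hv₀ p; rwa [hN p, hU p] at h
  have hv₀m' : (fun j => ρ (v₀ j)) ∈ Ns (Fam.mapTab ρ c)
      (prodSpan (Fam.mapTab ρ a) (W₁.fib ρ) (W₂.fib ρ)) (fun j => ρ (u₀ j)) := by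
    have h := hv₀'; rwa [hN', hU'] at h
  -- Step 5: `T = v₀ · U`
  obtain ⟨T, hT, hT'⟩ : ∃ T : Fam 𝓡 J₄,
      (∀ p, T.fib (χ p) = Ts (Fam.mapTab (χ p) c) (U.fib (χ p)) (fun j => χ p (v₀ j))) ∧
      T.fib ρ = Ts (Fam.mapTab ρ c) (U.fib ρ) (fun j => ρ (v₀ j)) := by
    obtain ⟨hTf⟩ := exists_rankFact_image' χ hχ ρ U (Fam.leftMulMatrix c v₀)
      (finrank k (U.fib ρ)) (by rw [map_leftMul]; exact C'.finrank_Ts hv₀n' _)
      (fun p => by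
        rw [map_leftMul, (C p).finrank_Ts (hv₀n p), hU p, hU']
        have := hUr p; omega)
    refine ⟨U.image (Fam.leftMulMatrix c v₀) hTf, fun p => ?_, ?_⟩
    · rw [Fam.fib_image, map_leftMul]
    · rw [Fam.fib_image, map_leftMul]
  -- Step 6: `W' = {f | f · u₀ ∈ T}`
  obtain ⟨W', hW, hW'⟩ : ∃ W' : Fam 𝓡 J₂,
      (∀ p, W'.fib (χ p) = Ws (Fam.mapTab (χ p) c)
        (prodSpan (Fam.mapTab (χ p) a) (W₁.fib (χ p)) (W₂.fib (χ p)))
        (fun j => χ p (u₀ j)) (fun j => χ p (v₀ j))) ∧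
      W'.fib ρ = Ws (Fam.mapTab ρ c) (prodSpan (Fam.mapTab ρ a) (W₁.fib ρ) (W₂.fib ρ))
        (fun j => ρ (u₀ j)) (fun j => ρ (v₀ j)) := by
    have e : ∀ p, (Fam.top 𝓡 J₂).fib (χ p) ⊓
        (T.fib (χ p)).comap ((Fam.rightMulMatrix c u₀).map (χ p)).mulVecLin =
        Ws (Fam.mapTab (χ p) c) (prodSpan (Fam.mapTab (χ p) a) (W₁.fib (χ p)) (W₂.fib (χ p)))
          (fun j => χ p (u₀ j)) (fun j => χ p (v₀ j)) :=
      fun p => inf_comap_eq_Ws (χ p) c u₀ v₀ _ T (by rw [hT p, hU p])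
    have e' : (Fam.top 𝓡 J₂).fib ρ ⊓
        (T.fib ρ).comap ((Fam.rightMulMatrix c u₀).map ρ).mulVecLin =
        Ws (Fam.mapTab ρ c) (prodSpan (Fam.mapTab ρ a) (W₁.fib ρ) (W₂.fib ρ))
          (fun j => ρ (u₀ j)) (fun j => ρ (v₀ j)) :=
      inf_comap_eq_Ws ρ c u₀ v₀ _ T (by rw [hT', hU'])
    obtain ⟨rW, ⟨hWf⟩⟩ := exists_rankFact_preimage' χ hχ ρ (Fam.top 𝓡 J₂) T
      (Fam.rightMulMatrix c u₀) (fun p => by
        rw [e p, e']
        have h1 := finrank_Ws S (C p) (hD p) (h₁ p) (h₂ p) (hu₀n p) (hv₀m p) (hv₀n p)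
        have h2 := finrank_Ws S' C' hD' h₁' h₂' hu₀n' hv₀m' hv₀n'
        rw [hg] at h2
        omega)
    refine ⟨(Fam.top 𝓡 J₂).preimage T (Fam.rightMulMatrix c u₀) hWf, fun p => ?_, ?_⟩
    · rw [Fam.fib_preimage, e p]
    · rw [Fam.fib_preimage, e']
  -- Step 7: `W₃ = {f | f · (all of J₁) ⊆ W'}`
  have e₃ : ∀ p, transp (Fam.mapTab (χ p) b) ((Fam.top 𝓡 I₁).fib (χ p))
      ((Fam.top 𝓡 J₁).fib (χ p)) (W'.fib (χ p)) =
      W3s (Fam.mapTab (χ p) b) (Fam.mapTab (χ p) c)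
        (prodSpan (Fam.mapTab (χ p) a) (W₁.fib (χ p)) (W₂.fib (χ p)))
        (fun j => χ p (u₀ j)) (fun j => χ p (v₀ j)) :=
    fun p => transp_eq_W3s (χ p) b c u₀ v₀ _ W' (hW p)
  have e₃' : transp (Fam.mapTab ρ b) ((Fam.top 𝓡 I₁).fib ρ) ((Fam.top 𝓡 J₁).fib ρ) (W'.fib ρ) =
      W3s (Fam.mapTab ρ b) (Fam.mapTab ρ c) (prodSpan (Fam.mapTab ρ a) (W₁.fib ρ) (W₂.fib ρ))
        (fun j => ρ (u₀ j)) (fun j => ρ (v₀ j)) :=
    transp_eq_W3s ρ b c u₀ v₀ _ W' hW'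
  obtain ⟨r₃, ⟨h₃f⟩⟩ := exists_rankFact_transporter' χ hχ ρ (Fam.top 𝓡 I₁) (Fam.top 𝓡 J₁) W' b
    (fun p => by
      rw [e₃ p, e₃']
      have h1 := finrank_W3s (b := Fam.mapTab (χ p) b) S (C p) (hD p) (h₁ p) (h₂ p)
        (hu₀n p) (hv₀m p) (hv₀n p)
      have h2 := finrank_W3s (b := Fam.mapTab ρ b) S' C' hD' h₁' h₂' hu₀n' hv₀m' hv₀n'
      rw [hg] at h2
      omega)
  refine ⟨(Fam.top 𝓡 I₁).transporter (Fam.top 𝓡 J₁) W' b h₃f, fun p => ?_, ?_⟩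
  · rw [Fam.fib_transporter, e₃ p]
    exact map_W3s S (C p) (hD p) (h₁ p) (h₂ p) (hu₀n p) (hv₀m p) (hv₀n p)
  · rw [Fam.fib_transporter, e₃']
    exact map_W3s S' C' hD' h₁' h₂' hu₀n' hv₀m' hv₀n'

end Fermat.Agent.Padic.KMAdd
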