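import Mathlib
import Fermat.Agent.Padic.GenPos
import Fermat.Agent.Padic.KMAdd

/-!
# PADIC (GP): the general-position package in the shape consumed by the local assembly

From `GenPosAbs.IsGenPos` (file `Padic/GenPosAbs.lean`, modular instance `Padic/GenPos.lean`):

* `kmTriple`, `kmTriple_red` : the divisor hypotheses `KMAdd.KMTriple` of Khuri-Makdisi addition
  at the points `(v, w)` and at the closed point;
* `smul_mem_rr`, `smul_mem_rr_iff`, `smul_sum_smul` : a semilinear automorphism acts on
  Riemann–Roch spaces and on coordinates;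
* `comap_smul_mem` (abstract) / `heqv` (modular) : equivariance of the coordinate subspaces
  `W_v = φ⁻¹ L(E - D_v)` for coordinates `φ w = ∑ w i • e i` with inertia-fixed `e i`;
* `eq_of_comap_eq` / `hsep` : the coordinate subspace `W_v` determines `v`;
* `reductionModL_smul_inertia`, `hr_red`, `hadd_red` : the disc map (either
  `v ↦ reductionModL A N v` or `v ↦ r_* D_v`) is additive and invariant under inertia.
-/

set_option autoImplicit false
set_option linter.style.haveILetI false

noncomputable section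

namespace Fermat.Agent.Padic.GenPosGlue

open AlgebraicCurve ModularCurve Module Fermat.Agent.Lib.FF Fermat.Agent.Padic.GenPosAbs
  Fermat.Agent.Padic.KMAdd

/-! ### abstract part -/

section Abstract

variable {L F k Ft : Type*} [Field L] [Field F] [Algebra L F] [Field k] [Field Ft] [Algebra k Ft]
  {x : F} {xt : Ft}
  {r : Place L F → Place k Ft} {I : Set (SemilinearAut L F)} {V : AddSubgroup (Pic0 L F)}
  {B : Divisor L F} {Dv : V → Divisor L F}

/-- The divisor hypotheses of Khuri-Makdisi addition at the point `(v, w)`. -/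
theorem kmTriple (h : IsGenPos r I V B Dv) (v w : V) :
    KMTriple L F B (Dv v) (Dv w) (Dv (v + w)) :=
  ⟨h.degree v, h.degree w, h.nonneg (v + w), h.add v w, h.finrank_L (v + w)⟩

/-- The divisor hypotheses of Khuri-Makdisi addition at the closed point. -/
theorem kmTriple_red (h : IsGenPos r I V B Dv) (hF : IsFF1 L F x) (hFt : IsFF1 k Ft xt)
    (hg : genusFF k Ft = genusFF L F) (v w : V) :
    KMTriple k Ft (Finsupp.mapDomain r B) (Finsupp.mapDomain r (Dv v))
      (Finsupp.mapDomain r (Dv w)) (Finsupp.mapDomain r (Dv (v + w))) :=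
  ⟨by rw [h.degree_red hF hFt, hg], by rw [h.degree_red hF hFt, hg], h.red_nonneg (v + w),
    h.add_red v w, h.finrank_L_red (v + w)⟩

/-- A semilinear automorphism maps `L(D)` into `L(g • D)`. -/
theorem smul_mem_rr (g : SemilinearAut L F) {D : Divisor L F} {f : F}
    (hf : f ∈ riemannRochSpace D) : g • f ∈ riemannRochSpace (g • D) := by
  rw [mem_riemannRochSpace_iff] at hf ⊢
  intro w
  rcases hf (g⁻¹ • w) with h0 | h
  · left
    rw [h0, smul_zero]
  · right
    rw [SemilinearAut.divisor_smul_apply]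
    have h1 := SemilinearAut.ord_smul g (g⁻¹ • w) f
    rw [smul_inv_smul] at h1
    rw [h1]
    exact h

theorem smul_mem_rr_iff (g : SemilinearAut L F) {D : Divisor L F} {f : F} :
    g • f ∈ riemannRochSpace (g • D) ↔ f ∈ riemannRochSpace D :=
  ⟨fun h => by
    have h1 := smul_mem_rr g⁻¹ h
    rwa [inv_smul_smul, inv_smul_smul] at h1, smul_mem_rr g⟩

/-- A semilinear automorphism on a linear combination. -/
theorem smul_sum_smul (g : SemilinearAut L F) {ι : Type*} (s : Finset ι) (w : ι → L)
    (e : ι → F) :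
    g • (∑ i ∈ s, w i • e i) = ∑ i ∈ s, SemilinearAut.baseAut g (w i) • (g • e i) := by
  rw [Finset.smul_sum]
  refine Finset.sum_congr rfl fun i _ => ?_
  rw [Algebra.smul_def, smul_mul', SemilinearAut.smul_algebraMap, ← Algebra.smul_def]

/-- **Equivariance of the coordinate subspaces** (abstract form): for coordinates
`φ w = ∑ w i • e i` with `g`-fixed `e i` and `g • E = E`, the semilinear coordinate map
`w ↦ g ∘ w` sends `φ⁻¹ L(E - D_v)` into `φ⁻¹ L(E - D_(g v))`. -/
theorem comap_smul_mem (h : IsGenPos r I V B Dv) {ι : Type*} [Fintype ι] (e : ι → F)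
    (φ : (ι → L) →ₗ[L] F) (hφ : ∀ w, φ w = ∑ i, w i • e i)
    {g : SemilinearAut L F} (hg : g ∈ I) (he : ∀ i, g • e i = e i) {E : Divisor L F}
    (hE : g • E = E) (v : V) (hv : g • (v : Pic0 L F) ∈ V) {w : ι → L}
    (hw : w ∈ (riemannRochSpace (E - Dv v)).comap φ) :
    (fun i => SemilinearAut.baseAut g (w i)) ∈
      (riemannRochSpace (E - Dv ⟨g • (v : Pic0 L F), hv⟩)).comap φ := by
  rw [Submodule.mem_comap] at hw ⊢
  rw [h.smul g hg v hv, hφ]
  have h1 := smul_mem_rr g hw
  rw [hφ, smul_sum_smul, smul_sub, hE] at h1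
  simpa only [he] using h1

/-- `L(E - D) ≤ L(E)` for `D ≥ 0`. -/
theorem rr_sub_le {E D : Divisor L F} (hD : 0 ≤ D) :
    riemannRochSpace (E - D) ≤ riemannRochSpace E := by
  intro f hf
  rw [mem_riemannRochSpace_iff] at hf ⊢
  intro w
  rcases hf w with h0 | h
  · exact Or.inl h0
  · right
    have h2 : 0 ≤ D w := Finsupp.le_def.1 hD w
    simp only [Finsupp.coe_sub, Pi.sub_apply] at h
    omega

/-- The image of the coordinate subspace is the Riemann–Roch space. -/
theorem map_comap_rr {ι : Type*} (φ : (ι → L) →ₗ[L] F) {E D : Divisor L F}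
    (hrange : riemannRochSpace E ≤ LinearMap.range φ) (hD : 0 ≤ D) :
    ((riemannRochSpace (E - D)).comap φ).map φ = riemannRochSpace (E - D) := by
  rw [Submodule.map_comap_eq, inf_eq_right]
  exact (rr_sub_le hD).trans hrange

/-- **Separation** (abstract form): the coordinate subspace `φ⁻¹ L(E - D_v)` determines `v`. -/
theorem eq_of_comap_eq (h : IsGenPos r I V B Dv) (hF : IsFF1 L F x) {ι : Type*}
    (φ : (ι → L) →ₗ[L] F) {E : Divisor L F}
    (hrange : riemannRochSpace E ≤ LinearMap.range φ)
    (hE : 3 * (genusFF L F : ℤ) ≤ Divisor.degree E) {v w : V}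
    (hvw : (riemannRochSpace (E - Dv v)).comap φ = (riemannRochSpace (E - Dv w)).comap φ) :
    v = w := by
  refine h.eq_of_L_sub_eq hF E hE ?_
  rw [← map_comap_rr φ hrange (h.nonneg v), ← map_comap_rr φ hrange (h.nonneg w), hvw]

end Abstract

/-! ### the modular instance -/

section Qbar

set_option synthInstance.maxHeartbeats 400000

variable {A : ValuationSubring (AlgebraicClosure ℚ)} {N : ℕ} [NeZero N]

/-- **The reduction map is invariant under the inertia group.** -/
theorem reductionModL_smul_inertia (hin : ReductionInputsModL A N)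
    {σ : AlgebraicClosure ℚ ≃ₐ[ℚ] AlgebraicClosure ℚ} (hσ : σ ∈ A.inertiaSubgroupIn ℚ)
    (x : JZero N) : reductionModL A N (σ • x) = reductionModL A N x := by
  have hFL := Fermat.Agent.Lib.FF.isFF1_xL (AlgebraicClosure ℚ) N
  haveI := hFL.hasPrincipalDivisors
  obtain ⟨hd, h1⟩ := Fermat.Agent.ESJ.Cong.resAut_eq_one_of_mem_inertia A hσ
  have h := Fermat.Agent.ESJ.Cong.reductionModL_galois A N hFL.deg_eq_one hFL.rrLite hin σ hd x
  rw [h1, map_one, one_smul] at h
  exact h

variable {V : AddSubgroup (JZero N)}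
  {B : Divisor (AlgebraicClosure ℚ) ↥(modularFunctionFieldBar N)}
  {Dv : V → Divisor (AlgebraicClosure ℚ) ↥(modularFunctionFieldBar N)}

/-- **hr**, class form: `reductionModL` is constant on inertia orbits of `V`. -/
theorem hr_cls (hin : ReductionInputsModL A N)
    (hV : ∀ (σ : GQ) (x : JZero N), x ∈ V → σ • x ∈ V) :
    ∀ σ ∈ A.inertiaSubgroupIn ℚ, ∀ v : V,
      reductionModL A N ((subAct V hV σ v : V) : JZero N) = reductionModL A N (v : JZero N) :=
  fun _ hσ v => reductionModL_smul_inertia hin hσ (v : JZero N)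

section AnyR

variable {r : Place (AlgebraicClosure ℚ) ↥(modularFunctionFieldBar N) →
    Place (IsLocalRing.ResidueField A)
      ↥(modularFunctionFieldFullC (IsLocalRing.ResidueField A) N)}

/-- **hr**, divisor form: `v ↦ r_* D_v` is constant on inertia orbits of `V`. -/
theorem hr_red (h : IsGenPos r (GenPos.inertiaSet A N) V B Dv)
    (hV : ∀ (σ : GQ) (x : JZero N), x ∈ V → σ • x ∈ V) :
    ∀ σ ∈ A.inertiaSubgroupIn ℚ, ∀ v : V,
      Finsupp.mapDomain r (Dv (subAct V hV σ v)) = Finsupp.mapDomain r (Dv v) :=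
  fun σ hσ v => GenPos.red_smul_galois h hσ v (hV σ v v.2)

/-- **heqv**: equivariance of the coordinate subspaces `W_v = φ⁻¹ L(E - D_v)` under the inertia
group, for coordinates `φ w = ∑ w i • e i` with inertia-fixed `e i` and inertia-fixed `E`. -/
theorem heqv (h : IsGenPos r (GenPos.inertiaSet A N) V B Dv)
    (hV : ∀ (σ : GQ) (x : JZero N), x ∈ V → σ • x ∈ V)
    {ι : Type*} [Fintype ι] (e : ι → ↥(modularFunctionFieldBar N))
    (φ : (ι → AlgebraicClosure ℚ) →ₗ[AlgebraicClosure ℚ] ↥(modularFunctionFieldBar N))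
    (hφ : ∀ w, φ w = ∑ i, w i • e i)
    (he : ∀ σ ∈ A.inertiaSubgroupIn ℚ, ∀ i,
      arithmeticGalois (modularFunctionFieldFull N) σ • e i = e i)
    {E : Divisor (AlgebraicClosure ℚ) ↥(modularFunctionFieldBar N)}
    (hE : ∀ σ ∈ A.inertiaSubgroupIn ℚ,
      arithmeticGalois (modularFunctionFieldFull N) σ • E = E) :
    ∀ σ ∈ A.inertiaSubgroupIn ℚ, ∀ v : V, ∀ w ∈ (riemannRochSpace (E - Dv v)).comap φ,
      (fun i => σ (w i)) ∈ (riemannRochSpace (E - Dv (subAct V hV σ v))).comap φ :=
  fun σ hσ v _ hw =>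
    comap_smul_mem h e φ hφ (GenPos.mem_inertiaSet hσ) (he σ hσ) (hE σ hσ) v (hV σ v v.2) hw

/-- **hsep**: the coordinate subspace `W_v = φ⁻¹ L(E - D_v)` determines `v`
(for `deg E ≥ 3g` and `L(E) ⊆ range φ`). -/
theorem hsep (h : IsGenPos r (GenPos.inertiaSet A N) V B Dv) {ι : Type*}
    (φ : (ι → AlgebraicClosure ℚ) →ₗ[AlgebraicClosure ℚ] ↥(modularFunctionFieldBar N))
    {E : Divisor (AlgebraicClosure ℚ) ↥(modularFunctionFieldBar N)}
    (hrange : riemannRochSpace E ≤ LinearMap.range φ)
    (hE : 3 * (genusFF (AlgebraicClosure ℚ) ↥(modularFunctionFieldBar N) : ℤ) ≤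
      Divisor.degree E) :
    ∀ v w : V, (riemannRochSpace (E - Dv v)).comap φ = (riemannRochSpace (E - Dv w)).comap φ →
      v = w :=
  fun _ _ hvw => eq_of_comap_eq h GenPos.isFF1_bar φ hrange hE hvw

end AnyR

/-- **hadd**, divisor form: `v ↦ r_* D_v` is "additive" (its fibres are the cosets of the kernel
of reduction). -/
theorem hadd_red (hin : ReductionInputsModL A N)
    (h : IsGenPos (placeReductionModL hin) (GenPos.inertiaSet A N) V B Dv) (v v' w w' : V)
    (h1 : Finsupp.mapDomain (placeReductionModL hin) (Dv v) =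
      Finsupp.mapDomain (placeReductionModL hin) (Dv v'))
    (h2 : Finsupp.mapDomain (placeReductionModL hin) (Dv w) =
      Finsupp.mapDomain (placeReductionModL hin) (Dv w')) :
    Finsupp.mapDomain (placeReductionModL hin) (Dv (v + w)) =
      Finsupp.mapDomain (placeReductionModL hin) (Dv (v' + w')) := by
  rw [← GenPos.red_eq_iff_reductionModL hin h] at h1 h2 ⊢
  rw [AddSubgroup.coe_add, AddSubgroup.coe_add, map_add, map_add, h1, h2]

/-- The two KM triples for a place of good reduction. -/
theorem kmTriple_goodRed (hgr : GoodRed A N)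
    (h : IsGenPos (placeReductionModL hgr.inputs) (GenPos.inertiaSet A N) V B Dv) (v w : V) :
    KMTriple (AlgebraicClosure ℚ) ↥(modularFunctionFieldBar N) B (Dv v) (Dv w) (Dv (v + w)) ∧
    KMTriple (IsLocalRing.ResidueField A)
      ↥(modularFunctionFieldFullC (IsLocalRing.ResidueField A) N)
      (Finsupp.mapDomain (placeReductionModL hgr.inputs) B)
      (Finsupp.mapDomain (placeReductionModL hgr.inputs) (Dv v))
      (Finsupp.mapDomain (placeReductionModL hgr.inputs) (Dv w))
      (Finsupp.mapDomain (placeReductionModL hgr.inputs) (Dv (v + w))) :=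
  ⟨kmTriple h v w, kmTriple_red h GenPos.isFF1_bar (GenPos.isFF1_res hgr.level) hgr.genus v w⟩

end Qbar

end Fermat.Agent.Padic.GenPosGlue
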