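/-
PADIC — **(DL)**: the descent layer of S19 is a theorem.

`dl : DL` (`DL` of `Padic/Defs.lean`, verbatim) is the composition of
* (DL-1) `Lib/FinFlat/DescentUnram.hasLocalOrderD_of_hasLocalOrder` (helper44): unramified
  descent from inertia-equivariant to decomposition-equivariant generators;
* (DL-2) `Lib/FinFlat/DescentGlobal.flatClause_of_hasLocalOrderD` (helper68): global descent
  from the decomposition group to the absolute Galois group (approximation + Nakayama).
-/
import Fermat.Agent.Padic.Defs
import Fermat.Agent.Lib.FinFlat.DescentUnram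
import Fermat.Agent.Lib.FinFlat.DescentGlobal

set_option autoImplicit false

namespace Fermat.Agent.Padic

/-- **(DL)** a local order at ONE valuation subring over `l` gives the finite-flat clause. -/
theorem flatClause_of_hasLocalOrder (l : ℕ) [Fact l.Prime] (A : ValuationSubring Qb)
    (hA : A.LiesOverPrime l) {V : Type} [AddCommGroup V] [Finite V] (act : GQ → V → V)
    (h1 : ∀ v, act 1 v = v) (hmul : ∀ σ τ v, act (σ * τ) v = act σ (act τ v))
    (hadd : ∀ σ v w, act σ (v + w) = act σ v + act σ w)
    (hlev : ∃ L : IntermediateField ℚ Qb, FiniteDimensional ℚ L ∧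
      ∀ σ : GQ, (∀ x ∈ L, σ x = x) → ∀ v, act σ v = v)
    (h : HasLocalOrder A V act) : FlatClause l V act :=
  Fermat.Agent.Lib.FinFlat.DescentGlobal.flatClause_of_hasLocalOrderD l A hA act h1 hmul hadd
    hlev
    (Fermat.Agent.Lib.FinFlat.DescentUnram.hasLocalOrderD_of_hasLocalOrder l A hA act h1 hmul
      hadd hlev h)

/-- **(DL)** is a theorem. -/
theorem dl : DL := fun l _ A hA _ _ _ act h1 hmul hadd hlev h =>
  flatClause_of_hasLocalOrder l A hA act h1 hmul hadd hlev h

end Fermat.Agent.Padic
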