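/-
`Fermat.Agent.Padic.FunRing` (helper5, PADIC): the function ring generated over a valuation ring
by finitely many "small" functions on a finite set.

Let `A` be a valuation subring of a field `K`, `X` a finite type and `Φ` a set of functions
`X → K` all of whose values lie in the maximal ideal of `A`.  Then `𝓡 := Algebra.adjoin A Φ`
(inside `X → K`) has values in `A`, all values of an element are congruent modulo the maximal
ideal, an element with a unit value is a unit, `𝓡` is a LOCAL ring whose residue field is that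
of `A`, and the evaluations are jointly injective.  For two such rings the elements of the ring
generated on the product are finite sums of products `g(x) * h(y)`.

These are exactly the hypotheses on the base ring used by `Lib/LinAlg/ConstRank` and
`Lib/LinAlg/Family`.
-/
import Mathlib

set_option autoImplicit false

namespace Fermat.Agent.Padic.FunRing

open Polynomial

variable {K : Type*} [Field K] (A : ValuationSubring K) {X : Type*}

/-- The function ring generated over `A` by a set of functions. -/
abbrev funRing (Φ : Set (X → K)) : Subalgebra A (X → K) := Algebra.adjoin A Φ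

variable {A}

/-- Values of elements of the function ring lie in `A`. -/
theorem valuation_apply_le_one {Φ : Set (X → K)} (hΦ : ∀ φ ∈ Φ, ∀ x, A.valuation (φ x) < 1)
    {f : X → K} (hf : f ∈ funRing A Φ) (x : X) : A.valuation (f x) ≤ 1 := by
  induction hf using Algebra.adjoin_induction with
  | mem φ hφ => exact (hΦ φ hφ x).le
  | algebraMap a => exact A.valuation_le_one a
  | add f g _ _ hf hg =>
    exact (Valuation.map_add _ _ _).trans (max_le hf hg)
  | mul f g _ _ hf hg =>
    rw [Pi.mul_apply, map_mul]
    exact mul_le_one' hf hg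

theorem apply_mem {Φ : Set (X → K)} (hΦ : ∀ φ ∈ Φ, ∀ x, A.valuation (φ x) < 1)
    {f : X → K} (hf : f ∈ funRing A Φ) (x : X) : f x ∈ A :=
  (A.valuation_le_one_iff _).1 (valuation_apply_le_one hΦ hf x)

/-- All values of an element of the function ring are congruent modulo the maximal ideal. -/
theorem valuation_sub_lt_one {Φ : Set (X → K)} (hΦ : ∀ φ ∈ Φ, ∀ x, A.valuation (φ x) < 1)
    {f : X → K} (hf : f ∈ funRing A Φ) (x y : X) : A.valuation (f x - f y) < 1 := by
  induction hf using Algebra.adjoin_induction with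
  | mem φ hφ =>
    exact lt_of_le_of_lt (Valuation.map_sub _ _ _) (max_lt (hΦ φ hφ x) (hΦ φ hφ y))
  | algebraMap a =>
    show A.valuation ((algebraMap A (X → K) a) x - (algebraMap A (X → K) a) y) < 1
    simp
  | add f g hf' hg' hf hg =>
    have : (f + g) x - (f + g) y = (f x - f y) + (g x - g y) := by
      simp only [Pi.add_apply]; ring
    rw [this]
    exact lt_of_le_of_lt (Valuation.map_add _ _ _) (max_lt hf hg)
  | mul f g hf' hg' hf hg =>
    have : (f * g) x - (f * g) y = f x * (g x - g y) + (f x - f y) * g y := by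
      simp only [Pi.mul_apply]; ring
    rw [this]
    refine lt_of_le_of_lt (Valuation.map_add _ _ _) (max_lt ?_ ?_)
    · rw [map_mul]
      exact mul_lt_one_of_nonneg_of_lt_one_right (valuation_apply_le_one hΦ hf' x) zero_le hg
    · rw [map_mul]
      exact mul_lt_one_of_nonneg_of_lt_one_left zero_le hf (valuation_apply_le_one hΦ hg' y)

/-- If one value is a unit, all are. -/
theorem valuation_apply_eq_one {Φ : Set (X → K)} (hΦ : ∀ φ ∈ Φ, ∀ x, A.valuation (φ x) < 1)
    {f : X → K} (hf : f ∈ funRing A Φ) {x₀ : X} (h0 : A.valuation (f x₀) = 1) (x : X) :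
    A.valuation (f x) = 1 := by
  have h1 := valuation_sub_lt_one hΦ hf x x₀
  have h2 : f x = f x₀ + (f x - f x₀) := by ring
  rw [h2, Valuation.map_add_eq_of_lt_left _ (by rw [h0]; exact h1), h0]

/-! ### Units and locality -/

section Unit

variable [Fintype X]

/-- An element of the function ring all of whose values are units of `A` is invertible in the
function ring (the inverse is a polynomial in the element). -/
theorem exists_mul_eq_one {Φ : Set (X → K)} (hΦ : ∀ φ ∈ Φ, ∀ x, A.valuation (φ x) < 1)
    {f : X → K} (hf : f ∈ funRing A Φ) (hu : ∀ x, A.valuation (f x) = 1) :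
    ∃ g ∈ funRing A Φ, f * g = 1 := by
  classical
  -- the values as elements of `A`
  let a : X → A := fun x => ⟨f x, apply_mem hΦ hf x⟩
  let p : A[X] := ∏ x : X, (Polynomial.X - Polynomial.C (a x))
  have hp0 : Polynomial.aeval f p = 0 := by
    funext y
    have h1 : (Polynomial.aeval f p) y = Polynomial.aeval (f y) p := by
      have := Polynomial.aeval_algHom_apply (Pi.evalAlgHom A (fun _ : X => K) y) f p
      simpa using this.symm
    rw [h1, Pi.zero_apply]
    show Polynomial.aeval (f y) (∏ x : X, (Polynomial.X - Polynomial.C (a x))) = 0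
    rw [map_prod]
    refine Finset.prod_eq_zero (Finset.mem_univ y) ?_
    simp only [map_sub, Polynomial.aeval_X, Polynomial.aeval_C]
    show f y - (algebraMap A K) (a y) = 0
    simp [a]
  have hc : IsUnit (p.coeff 0) := by
    rw [Polynomial.coeff_zero_eq_eval_zero]
    show IsUnit (Polynomial.eval 0 (∏ x : X, (Polynomial.X - Polynomial.C (a x))))
    rw [Polynomial.eval_prod]
    simp only [Polynomial.eval_sub, Polynomial.eval_X, Polynomial.eval_C, zero_sub]
    rw [Finset.prod_neg, ]
    refine IsUnit.mul ?_ ?_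
    · exact (IsUnit.neg isUnit_one).pow _
    · rw [IsUnit.prod_univ_iff]
      intro x
      rw [A.valuation_eq_one_iff]
      exact hu x
  obtain ⟨c, hc⟩ := hc
  have hdec := Polynomial.divX_mul_X_add p
  have h2 : Polynomial.aeval f p.divX * f + algebraMap A (X → K) (p.coeff 0) = 0 := by
    have := congrArg (Polynomial.aeval f) hdec
    rw [hp0] at this
    simpa using this
  have hmem : Polynomial.aeval f p.divX ∈ funRing A Φ := by
    have := Polynomial.aeval_subalgebra_coe p.divX (funRing A Φ) ⟨f, hf⟩
    rw [← this]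
    exact Subtype.mem _
  refine ⟨-(algebraMap A (X → K) (↑c⁻¹ : A)) * Polynomial.aeval f p.divX, ?_, ?_⟩
  · exact Subalgebra.mul_mem _ (Subalgebra.neg_mem _ (Subalgebra.algebraMap_mem _ _)) hmem
  · have h3 : Polynomial.aeval f p.divX * f = -algebraMap A (X → K) (p.coeff 0) :=
      eq_neg_of_add_eq_zero_left h2
    calc f * (-(algebraMap A (X → K) (↑c⁻¹ : A)) * Polynomial.aeval f p.divX)
        = -(algebraMap A (X → K) (↑c⁻¹ : A)) * (Polynomial.aeval f p.divX * f) := by ring
      _ = algebraMap A (X → K) (↑c⁻¹ : A) * algebraMap A (X → K) (p.coeff 0) := by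
          rw [h3]; ring
      _ = 1 := by
          rw [← map_mul, ← hc, Units.inv_mul, map_one]

end Unit

/-! ### The function ring is local, with the residue field of `A` -/

section Local

variable [Fintype X]

/-- Evaluation at a point, as a ring homomorphism from the function ring to `A`. -/
def evalA {Φ : Set (X → K)} (hΦ : ∀ φ ∈ Φ, ∀ x, A.valuation (φ x) < 1) (x₀ : X) :
    funRing A Φ →+* A where
  toFun f := ⟨f.1 x₀, apply_mem hΦ f.2 x₀⟩
  map_one' := rfl
  map_mul' _ _ := rfl
  map_zero' := rfl
  map_add' _ _ := rfl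

/-- The closed point of the function ring: evaluate at a point, then reduce. -/
noncomputable def closedPoint {Φ : Set (X → K)} (hΦ : ∀ φ ∈ Φ, ∀ x, A.valuation (φ x) < 1) (x₀ : X) :
    funRing A Φ →+* IsLocalRing.ResidueField A :=
  (IsLocalRing.residue A).comp (evalA hΦ x₀)

omit [Fintype X] in
theorem closedPoint_apply {Φ : Set (X → K)} (hΦ : ∀ φ ∈ Φ, ∀ x, A.valuation (φ x) < 1) (x₀ : X)
    (f : funRing A Φ) :
    closedPoint hΦ x₀ f = IsLocalRing.residue A ⟨f.1 x₀, apply_mem hΦ f.2 x₀⟩ := rfl

omit [Fintype X] in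
/-- The closed point does not depend on the evaluation point. -/
theorem closedPoint_eq {Φ : Set (X → K)} (hΦ : ∀ φ ∈ Φ, ∀ x, A.valuation (φ x) < 1) (x₀ x₁ : X) :
    closedPoint hΦ x₀ = closedPoint hΦ x₁ := by
  ext f
  rw [closedPoint_apply, closedPoint_apply, ← sub_eq_zero, ← map_sub,
    IsLocalRing.residue_eq_zero_iff, A.valuation_lt_one_iff]
  exact valuation_sub_lt_one hΦ f.2 x₀ x₁

omit [Fintype X] in
/-- The closed point kills the generators. -/
theorem closedPoint_gen {Φ : Set (X → K)} (hΦ : ∀ φ ∈ Φ, ∀ x, A.valuation (φ x) < 1) (x₀ : X)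
    {φ : X → K} (hφ : φ ∈ Φ) :
    closedPoint hΦ x₀ ⟨φ, Algebra.subset_adjoin hφ⟩ = 0 := by
  rw [closedPoint_apply, IsLocalRing.residue_eq_zero_iff, A.valuation_lt_one_iff]
  exact hΦ φ hφ x₀

omit [Fintype X] in
/-- On constants the closed point is the residue map of `A`. -/
theorem closedPoint_algebraMap {Φ : Set (X → K)} (hΦ : ∀ φ ∈ Φ, ∀ x, A.valuation (φ x) < 1)
    (x₀ : X) (a : A) :
    closedPoint hΦ x₀ (algebraMap A (funRing A Φ) a) = IsLocalRing.residue A a := rfl

omit [Fintype X] in
theorem closedPoint_surjective {Φ : Set (X → K)} (hΦ : ∀ φ ∈ Φ, ∀ x, A.valuation (φ x) < 1)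
    (x₀ : X) : Function.Surjective (closedPoint hΦ x₀) := by
  intro y
  obtain ⟨a, rfl⟩ := IsLocalRing.residue_surjective y
  exact ⟨algebraMap A (funRing A Φ) a, rfl⟩

/-- An element not killed by the closed point is a unit. -/
theorem isUnit_of_closedPoint_ne_zero {Φ : Set (X → K)}
    (hΦ : ∀ φ ∈ Φ, ∀ x, A.valuation (φ x) < 1) (x₀ : X) {f : funRing A Φ}
    (hf : closedPoint hΦ x₀ f ≠ 0) : IsUnit f := by
  have h1 : A.valuation (f.1 x₀) = 1 := by
    rw [closedPoint_apply, Ne, IsLocalRing.residue_eq_zero_iff, A.valuation_lt_one_iff] at hf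
    exact le_antisymm (valuation_apply_le_one hΦ f.2 x₀) (not_lt.mp hf)
  obtain ⟨g, hg, hfg⟩ := exists_mul_eq_one hΦ f.2 (valuation_apply_eq_one hΦ f.2 h1)
  exact IsUnit.of_mul_eq_one (⟨g, hg⟩ : funRing A Φ) (Subtype.ext hfg)

instance isLocalHom_closedPoint {Φ : Set (X → K)} (hΦ : ∀ φ ∈ Φ, ∀ x, A.valuation (φ x) < 1)
    (x₀ : X) : IsLocalHom (closedPoint hΦ x₀) where
  map_nonunit _ hf := isUnit_of_closedPoint_ne_zero hΦ x₀ hf.ne_zero

/-- **The function ring is local.** -/
theorem isLocalRing {Φ : Set (X → K)} (hΦ : ∀ φ ∈ Φ, ∀ x, A.valuation (φ x) < 1) [Nonempty X] :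
    IsLocalRing (funRing A Φ) :=
  (closedPoint hΦ (Classical.arbitrary X)).domain_isLocalRing

/-- The kernel of the closed point is the set of non-units. -/
theorem closedPoint_eq_zero_iff {Φ : Set (X → K)} (hΦ : ∀ φ ∈ Φ, ∀ x, A.valuation (φ x) < 1)
    (x₀ : X) (f : funRing A Φ) : closedPoint hΦ x₀ f = 0 ↔ ¬ IsUnit f := by
  constructor
  · intro h hu
    have := hu.map (closedPoint hΦ x₀)
    rw [h] at this
    exact not_isUnit_zero this
  · intro h
    by_contra hne
    exact h (isUnit_of_closedPoint_ne_zero hΦ x₀ hne)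

omit [Fintype X] in
/-- The evaluations are jointly injective (the `hχ` of `ConstRank`/`Family`). -/
theorem eval_jointly_injective {Φ : Set (X → K)} (f : funRing A Φ)
    (h : ∀ x : X, ((Pi.evalRingHom (fun _ : X => K) x).comp (funRing A Φ).val.toRingHom) f = 0) :
    f = 0 := by
  apply Subtype.ext
  funext x
  exact h x

end Local

/-! ### Product form on a product of two finite sets -/

section Prod

variable {Y : Type*}

/-- Every element of the function ring on `X × Y` generated by functions of the first variable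
(from `Φ`) and of the second variable (from `Ψ`) is a finite sum of products `g(x) * h(y)` with
`g`, `h` in the function rings of `Φ`, `Ψ`. -/
theorem exists_sum_mul {Φ : Set (X → K)} {Ψ : Set (Y → K)} {f : X × Y → K}
    (hf : f ∈ funRing A ((fun φ : X → K => fun p : X × Y => φ p.1) '' Φ ∪
      (fun ψ : Y → K => fun p : X × Y => ψ p.2) '' Ψ)) :
    ∃ (n : ℕ) (g : Fin n → funRing A Φ) (h : Fin n → funRing A Ψ),
      ∀ x y, f (x, y) = ∑ i, (g i).1 x * (h i).1 y := by
  classical
  -- work with an arbitrary finite index type first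
  have key : ∃ (ι : Type) (_ : Fintype ι) (g : ι → funRing A Φ) (h : ι → funRing A Ψ),
      ∀ x y, f (x, y) = ∑ i, (g i).1 x * (h i).1 y := by
    induction hf using Algebra.adjoin_induction with
    | mem u hu =>
      rcases hu with ⟨φ, hφ, rfl⟩ | ⟨ψ, hψ, rfl⟩
      · exact ⟨Unit, inferInstance, fun _ => ⟨φ, Algebra.subset_adjoin hφ⟩, fun _ => 1,
          fun x y => by simp⟩
      · exact ⟨Unit, inferInstance, fun _ => 1, fun _ => ⟨ψ, Algebra.subset_adjoin hψ⟩,
          fun x y => by simp⟩
    | algebraMap a =>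
      exact ⟨Unit, inferInstance, fun _ => algebraMap A _ a, fun _ => 1, fun x y => by
        simp only [Finset.univ_unique, Finset.sum_singleton]
        show (algebraMap A (X × Y → K) a) (x, y) = (algebraMap A (X → K) a) x * 1
        simp [Algebra.algebraMap_eq_smul_one]⟩
    | add u v _ _ hu hv =>
      obtain ⟨ι, _, g, h, hgh⟩ := hu
      obtain ⟨ι', _, g', h', hgh'⟩ := hv
      refine ⟨ι ⊕ ι', inferInstance, Sum.elim g g', Sum.elim h h', fun x y => ?_⟩
      rw [Pi.add_apply, hgh, hgh', Fintype.sum_sum_type]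
      rfl
    | mul u v _ _ hu hv =>
      obtain ⟨ι, _, g, h, hgh⟩ := hu
      obtain ⟨ι', _, g', h', hgh'⟩ := hv
      refine ⟨ι × ι', inferInstance, fun p => g p.1 * g' p.2, fun p => h p.1 * h' p.2,
        fun x y => ?_⟩
      rw [Pi.mul_apply, hgh, hgh', Finset.sum_mul_sum, Fintype.sum_prod_type]
      refine Finset.sum_congr rfl fun i _ => Finset.sum_congr rfl fun j _ => ?_
      show (g i).1 x * (h i).1 y * ((g' j).1 x * (h' j).1 y) =
        ((g i).1 x * (g' j).1 x) * ((h i).1 y * (h' j).1 y)
      ring
  obtain ⟨ι, _, g, h, hgh⟩ := key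
  let e := Fintype.equivFin ι
  refine ⟨Fintype.card ι, fun i => g (e.symm i), fun i => h (e.symm i), fun x y => ?_⟩
  rw [hgh]
  exact (Equiv.sum_comp e.symm (fun i => (g i).1 x * (h i).1 y)).symm

end Prod

end Fermat.Agent.Padic.FunRing
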