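/-
PADIC — (LOC), abstract glue (helper5): `HasLocalOrder` from disc-wise data.

Let `V` be a finite Galois module, `r : V → X` a "reduction" map compatible with addition, and
`γ i : V → ℚ̄` finitely many `A`-valued, inertia-equivariant coordinate functions separating the
points of each disc `S_x = r⁻¹(x)`.  If for all discs `S_x, S_y` the function
`(v, w) ↦ γ i (v + w)` on `S_x × S_y` lies in the function ring generated over `A` by the
coordinates of the two factors, then `V` has a local order at `A`:

* `Disc r x`, `discCoords`, `discGens₁`, `discGens` : the discs and the (centred) generators;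
* `discGens_small` : the centred generators are small (the hypothesis `hΦ` of `Padic/FunRing`);
* `coord_fst_mem`, `coord_snd_mem` : the coordinates of both factors lie in the function ring;
* `hasLocalOrder_of_discs_gen`, `hasLocalOrder_of_discs` : the glue.

The generators of the order are the indicator functions of the discs and the `γ i`; the
comultiplication is glued from the discs by extension by zero.
-/
import Mathlib
import Fermat.Agent.Padic.Defs
import Fermat.Agent.Padic.FunRing

set_option autoImplicit false

namespace Fermat.Agent.Padic.LocalGlue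

open Fermat.Agent.Padic Fermat.Agent.Padic.FunRing

variable {V : Type} {X : Type*} {ι : Type*}

/-- The disc (fibre of the reduction map `r`) over `x`. -/
abbrev Disc (r : V → X) (x : X) : Type := {v : V // r v = x}

/-- The restrictions of the coordinate functions to a disc. -/
def discCoords (r : V → X) (γ : ι → V → Qb) (x : X) : Set (Disc r x → Qb) :=
  Set.range fun (j : ι) (p : Disc r x) => γ j p.1

/-- The centred coordinate functions on a disc: all differences `γ j − γ j (q)`. -/
def discGens₁ (r : V → X) (γ : ι → V → Qb) (x : X) : Set (Disc r x → Qb) :=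
  {φ | ∃ (j : ι) (q : Disc r x), φ = fun p => γ j p.1 - γ j q.1}

/-- The centred coordinate functions of both factors on a product of two discs. -/
def discGens (r : V → X) (γ : ι → V → Qb) (x y : X) : Set (Disc r x × Disc r y → Qb) :=
  (fun (φ : Disc r x → Qb) (p : Disc r x × Disc r y) => φ p.1) '' discGens₁ r γ x ∪
    (fun (ψ : Disc r y → Qb) (p : Disc r x × Disc r y) => ψ p.2) '' discGens₁ r γ y

section Gens

variable (A : ValuationSubring Qb) {r : V → X} {γ : ι → V → Qb}

theorem discGens₁_small (hsmall : ∀ i v w, r v = r w → A.valuation (γ i v - γ i w) < 1)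
    (x : X) : ∀ φ ∈ discGens₁ r γ x, ∀ p, A.valuation (φ p) < 1 := by
  rintro φ ⟨j, q, rfl⟩ p
  exact hsmall j p.1 q.1 (p.2.trans q.2.symm)

/-- The centred generators on a product of two discs are small: the hypothesis `hΦ` of
`Padic/FunRing`, so `funRing A (discGens r γ x y)` is a local ring with residue field that of
`A`. -/
theorem discGens_small (hsmall : ∀ i v w, r v = r w → A.valuation (γ i v - γ i w) < 1)
    (x y : X) : ∀ φ ∈ discGens r γ x y, ∀ p, A.valuation (φ p) < 1 := by
  rintro φ (⟨φ₁, hφ₁, rfl⟩ | ⟨φ₂, hφ₂, rfl⟩) p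
  · exact discGens₁_small A hsmall x φ₁ hφ₁ p.1
  · exact discGens₁_small A hsmall y φ₂ hφ₂ p.2

theorem const_mem_adjoin {Y : Type*} (s : Set (Y → Qb)) {a : Qb} (ha : a ∈ A) :
    (fun _ : Y => a) ∈ Algebra.adjoin A s := by
  have h : (fun _ : Y => a) = algebraMap A (Y → Qb) ⟨a, ha⟩ := by
    funext y
    rfl
  rw [h]
  exact Subalgebra.algebraMap_mem _ _

theorem discGens₁_subset (hint : ∀ i v, γ i v ∈ A) (x : X) :
    discGens₁ r γ x ⊆ Algebra.adjoin A (discCoords r γ x) := by
  rintro φ ⟨j, q, rfl⟩
  have h1 : (fun p : Disc r x => γ j p.1) ∈ Algebra.adjoin A (discCoords r γ x) :=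
    Algebra.subset_adjoin ⟨j, rfl⟩
  have h2 : (fun _ : Disc r x => γ j q.1) ∈ Algebra.adjoin A (discCoords r γ x) :=
    const_mem_adjoin A _ (hint j q.1)
  exact sub_mem h1 h2

/-- The coordinates lie in the ring generated by the centred coordinates (one disc). -/
theorem coord_mem₁ (hint : ∀ i v, γ i v ∈ A) (x : X) (j : ι) :
    (fun p : Disc r x => γ j p.1) ∈ funRing A (discGens₁ r γ x) := by
  rcases isEmpty_or_nonempty (Disc r x) with h | ⟨⟨q⟩⟩
  · have : (fun p : Disc r x => γ j p.1) = 0 := by
      funext p
      exact isEmptyElim p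
    rw [this]
    exact zero_mem _
  · have h1 : (fun p : Disc r x => γ j p.1 - γ j q.1) ∈ funRing A (discGens₁ r γ x) :=
      Algebra.subset_adjoin ⟨j, q, rfl⟩
    have h2 : (fun _ : Disc r x => γ j q.1) ∈ funRing A (discGens₁ r γ x) :=
      const_mem_adjoin A _ (hint j q.1)
    have h3 := add_mem h1 h2
    have h4 : ((fun p : Disc r x => γ j p.1 - γ j q.1) + fun _ : Disc r x => γ j q.1) =
        fun p : Disc r x => γ j p.1 := by
      funext p
      simp
    rw [h4] at h3
    exact h3

/-- The coordinates of the first factor lie in the function ring of a product of two discs. -/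
theorem coord_fst_mem (hint : ∀ i v, γ i v ∈ A) (x y : X) (j : ι) :
    (fun p : Disc r x × Disc r y => γ j p.1.1) ∈ funRing A (discGens r γ x y) := by
  rcases isEmpty_or_nonempty (Disc r x) with h | ⟨⟨q⟩⟩
  · have : (fun p : Disc r x × Disc r y => γ j p.1.1) = 0 := by
      funext p
      exact isEmptyElim p.1
    rw [this]
    exact zero_mem _
  · have h1 : (fun p : Disc r x × Disc r y => γ j p.1.1 - γ j q.1) ∈
        funRing A (discGens r γ x y) :=
      Algebra.subset_adjoin (Or.inl ⟨fun p => γ j p.1 - γ j q.1, ⟨j, q, rfl⟩, rfl⟩)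
    have h2 : (fun _ : Disc r x × Disc r y => γ j q.1) ∈ funRing A (discGens r γ x y) :=
      const_mem_adjoin A _ (hint j q.1)
    have h3 := add_mem h1 h2
    have h4 : ((fun p : Disc r x × Disc r y => γ j p.1.1 - γ j q.1) +
        fun _ : Disc r x × Disc r y => γ j q.1) = fun p : Disc r x × Disc r y => γ j p.1.1 := by
      funext p
      simp
    rw [h4] at h3
    exact h3

/-- The coordinates of the second factor lie in the function ring of a product of two discs. -/
theorem coord_snd_mem (hint : ∀ i v, γ i v ∈ A) (x y : X) (j : ι) :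
    (fun p : Disc r x × Disc r y => γ j p.2.1) ∈ funRing A (discGens r γ x y) := by
  rcases isEmpty_or_nonempty (Disc r y) with h | ⟨⟨q⟩⟩
  · have : (fun p : Disc r x × Disc r y => γ j p.2.1) = 0 := by
      funext p
      exact isEmptyElim p.2
    rw [this]
    exact zero_mem _
  · have h1 : (fun p : Disc r x × Disc r y => γ j p.2.1 - γ j q.1) ∈
        funRing A (discGens r γ x y) :=
      Algebra.subset_adjoin (Or.inr ⟨fun p => γ j p.1 - γ j q.1, ⟨j, q, rfl⟩, rfl⟩)
    have h2 : (fun _ : Disc r x × Disc r y => γ j q.1) ∈ funRing A (discGens r γ x y) :=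
      const_mem_adjoin A _ (hint j q.1)
    have h3 := add_mem h1 h2
    have h4 : ((fun p : Disc r x × Disc r y => γ j p.2.1 - γ j q.1) +
        fun _ : Disc r x × Disc r y => γ j q.1) = fun p : Disc r x × Disc r y => γ j p.2.1 := by
      funext p
      simp
    rw [h4] at h3
    exact h3

end Gens

/-! ## Indicators and extension by zero -/

open Classical in
/-- The indicator function of the disc over `x`. -/
noncomputable def indic (r : V → X) (x : X) : V → Qb := fun v => if r v = x then 1 else 0

open Classical in
/-- Extension by zero of a function on a disc. -/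
noncomputable def extZero (r : V → X) (x : X) (G : Disc r x → Qb) : V → Qb :=
  fun v => if h : r v = x then G ⟨v, h⟩ else 0

theorem indic_of_eq {r : V → X} {x : X} {v : V} (h : r v = x) : indic r x v = 1 := by
  simp [indic, h]

theorem indic_of_ne {r : V → X} {x : X} {v : V} (h : r v ≠ x) : indic r x v = 0 := by
  simp [indic, h]

theorem extZero_of_eq {r : V → X} {x : X} (G : Disc r x → Qb) {v : V} (h : r v = x) :
    extZero r x G v = G ⟨v, h⟩ := by
  simp [extZero, h]

theorem extZero_of_ne {r : V → X} {x : X} (G : Disc r x → Qb) {v : V} (h : r v ≠ x) :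
    extZero r x G v = 0 := by
  simp [extZero, h]

theorem extZero_add (r : V → X) (x : X) (G G' : Disc r x → Qb) :
    extZero r x (G + G') = extZero r x G + extZero r x G' := by
  funext v
  by_cases h : r v = x
  · simp [extZero, h]
  · simp [extZero, h]

theorem extZero_mul (r : V → X) (x : X) (G G' : Disc r x → Qb) :
    extZero r x (G * G') = extZero r x G * extZero r x G' := by
  funext v
  by_cases h : r v = x
  · simp [extZero, h]
  · simp [extZero, h]

/-- The generators of the local order: the indicators of the discs and the coordinates. -/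
def gens (r : V → X) (γ : ι → V → Qb) : Set (V → Qb) :=
  indic r '' Set.range r ∪ Set.range γ

theorem indic_mem_gens (r : V → X) (γ : ι → V → Qb) (v₀ : V) : indic r (r v₀) ∈ gens r γ :=
  Or.inl ⟨_, ⟨v₀, rfl⟩, rfl⟩

theorem coord_mem_gens (r : V → X) (γ : ι → V → Qb) (i : ι) : γ i ∈ gens r γ :=
  Or.inr ⟨i, rfl⟩

/-- Extension by zero maps the algebra generated by the coordinates of a (non-empty) disc into
the algebra generated by the indicators and the coordinates. -/
theorem extZero_mem (A : ValuationSubring Qb) (r : V → X) (γ : ι → V → Qb) (v₀ : V)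
    {G : Disc r (r v₀) → Qb} (hG : G ∈ Algebra.adjoin A (discCoords r γ (r v₀))) :
    extZero r (r v₀) G ∈ Algebra.adjoin A (gens r γ) := by
  induction hG using Algebra.adjoin_induction with
  | mem u hu =>
    obtain ⟨j, rfl⟩ := hu
    have h : extZero r (r v₀) (fun p : Disc r (r v₀) => γ j p.1) = indic r (r v₀) * γ j := by
      funext v
      by_cases hv : r v = r v₀
      · simp [extZero, indic, hv]
      · simp [extZero, indic, hv]
    rw [h]
    exact mul_mem (Algebra.subset_adjoin (indic_mem_gens r γ v₀))
      (Algebra.subset_adjoin (coord_mem_gens r γ j))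
  | algebraMap a =>
    have h : extZero r (r v₀) (algebraMap A (Disc r (r v₀) → Qb) a) = a • indic r (r v₀) := by
      funext v
      by_cases hv : r v = r v₀
      · rw [extZero_of_eq _ hv, Pi.smul_apply, indic_of_eq hv]
        show (algebraMap A Qb a) = a • (1 : Qb)
        rw [Algebra.smul_def, mul_one]
      · rw [extZero_of_ne _ hv, Pi.smul_apply, indic_of_ne hv, smul_zero]
    rw [h]
    exact Subalgebra.smul_mem _ (Algebra.subset_adjoin (indic_mem_gens r γ v₀)) a
  | add u v _ _ hu hv =>
    rw [extZero_add]
    exact add_mem hu hv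
  | mul u v _ _ hu hv =>
    rw [extZero_mul]
    exact mul_mem hu hv

/-! ## Decomposable functions of two variables -/

/-- `F` is a finite sum of products `g(v) h(w)` with `g, h` in the `A`-algebra generated by
`s` (arbitrary finite index type). -/
def Decomp (A : ValuationSubring Qb) (s : Set (V → Qb)) (F : V → V → Qb) : Prop :=
  ∃ (κ : Type) (_ : Fintype κ) (g h : κ → Algebra.adjoin A s),
    ∀ v w, F v w = ∑ k, (g k : V → Qb) v * (h k : V → Qb) w

theorem decomp_zero (A : ValuationSubring Qb) (s : Set (V → Qb)) :
    Decomp A s (fun _ _ => 0) :=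
  ⟨Empty, inferInstance, fun k => k.elim, fun k => k.elim, fun v w => by simp⟩

theorem decomp_single (A : ValuationSubring Qb) (s : Set (V → Qb)) {g h : V → Qb}
    (hg : g ∈ Algebra.adjoin A s) (hh : h ∈ Algebra.adjoin A s) :
    Decomp A s (fun v w => g v * h w) :=
  ⟨Unit, inferInstance, fun _ => ⟨g, hg⟩, fun _ => ⟨h, hh⟩, fun v w => by simp⟩

theorem decomp_add (A : ValuationSubring Qb) (s : Set (V → Qb)) {F F' : V → V → Qb}
    (hF : Decomp A s F) (hF' : Decomp A s F') : Decomp A s (fun v w => F v w + F' v w) := by
  obtain ⟨κ, _, g, h, hgh⟩ := hF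
  obtain ⟨κ', _, g', h', hgh'⟩ := hF'
  refine ⟨κ ⊕ κ', inferInstance, Sum.elim g g', Sum.elim h h', fun v w => ?_⟩
  show F v w + F' v w = _
  rw [hgh, hgh', Fintype.sum_sum_type]
  rfl

theorem decomp_sum (A : ValuationSubring Qb) (s : Set (V → Qb)) {T : Type*} (S : Finset T)
    (Fs : T → V → V → Qb) (h : ∀ t ∈ S, Decomp A s (Fs t)) :
    Decomp A s (fun v w => ∑ t ∈ S, Fs t v w) := by
  classical
  induction S using Finset.induction_on with
  | empty =>
    simpa using decomp_zero A s
  | insert a S ha ih =>
    have h1 : (fun v w => ∑ t ∈ insert a S, Fs t v w) =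
        fun v w => Fs a v w + ∑ t ∈ S, Fs t v w := by
      funext v w
      rw [Finset.sum_insert ha]
    rw [h1]
    exact decomp_add A s (h a (Finset.mem_insert_self a S))
      (ih fun t ht => h t (Finset.mem_insert_of_mem ht))

theorem decomp_fin (A : ValuationSubring Qb) (s : Set (V → Qb)) {F : V → V → Qb}
    (hF : Decomp A s F) :
    ∃ (n : ℕ) (g h : Fin n → Algebra.adjoin A s),
      ∀ v w, F v w = ∑ i, (g i : V → Qb) v * (h i : V → Qb) w := by
  obtain ⟨κ, _, g, h, hgh⟩ := hF
  let e := Fintype.equivFin κ
  refine ⟨Fintype.card κ, fun i => g (e.symm i), fun i => h (e.symm i), fun v w => ?_⟩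
  rw [hgh]
  exact (Equiv.sum_comp e.symm (fun k => (g k : V → Qb) v * (h k : V → Qb) w)).symm

/-- A function of two variables is decomposable as soon as all its cut-offs to products of two
discs are. -/
theorem decomp_of_discs (A : ValuationSubring Qb) [Fintype V] (r : V → X) (s : Set (V → Qb))
    (F : V → V → Qb)
    (h : ∀ v₀ w₀ : V,
      Decomp A s (fun v w => indic r (r v₀) v * indic r (r w₀) w * F v w)) :
    Decomp A s F := by
  classical
  have key : F = fun v w => ∑ x ∈ Finset.univ.image r, ∑ y ∈ Finset.univ.image r,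
      indic r x v * indic r y w * F v w := by
    funext v w
    rw [Finset.sum_eq_single (r v), Finset.sum_eq_single (r w)]
    · rw [indic_of_eq rfl, indic_of_eq rfl, one_mul, one_mul]
    · intro y _ hy
      rw [indic_of_ne (Ne.symm hy), mul_zero, zero_mul]
    · intro hw
      exact absurd (Finset.mem_image_of_mem r (Finset.mem_univ w)) hw
    · intro x _ hx
      refine Finset.sum_eq_zero fun y _ => ?_
      rw [indic_of_ne (Ne.symm hx), zero_mul, zero_mul]
    · intro hv
      exact absurd (Finset.mem_image_of_mem r (Finset.mem_univ v)) hv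
  rw [key]
  refine decomp_sum A s _ _ fun x hx => decomp_sum A s _ _ fun y hy => ?_
  obtain ⟨v₀, _, rfl⟩ := Finset.mem_image.1 hx
  obtain ⟨w₀, _, rfl⟩ := Finset.mem_image.1 hy
  exact h v₀ w₀

/-! ## The glue -/

/-- **Glue, general generators.**  `Φ x` is any set of functions on the disc over `x` contained
in the `A`-algebra generated by the coordinates; the comultiplication hypothesis is asked in the
ring generated by `Φ x ∘ pr₁` and `Φ y ∘ pr₂` on each product of two discs. -/
theorem hasLocalOrder_of_discs_gen (A : ValuationSubring Qb) {V : Type} [AddCommGroup V]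
    [Finite V] (act : GQ → V → V) {X : Type*} (r : V → X)
    (hadd : ∀ v v' w w' : V, r v = r v' → r w = r w' → r (v + w) = r (v' + w'))
    {ι : Type*} [Finite ι] (γ : ι → V → Qb)
    (hint : ∀ i v, γ i v ∈ A)
    (hr : ∀ σ ∈ A.inertiaSubgroupIn ℚ, ∀ v, r (act σ v) = r v)
    (hγ : ∀ σ ∈ A.inertiaSubgroupIn ℚ, ∀ i v, γ i (act σ v) = σ (γ i v))
    (hsep : ∀ v w, r v = r w → (∀ i, γ i v = γ i w) → v = w)
    (Φ : ∀ x : X, Set (Disc r x → Qb))
    (hΦ : ∀ x, Φ x ⊆ Algebra.adjoin A (discCoords r γ x))
    (hcomul : ∀ (v₀ w₀ : V) (i : ι), ∃ F ∈ funRing A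
        ((fun (φ : Disc r (r v₀) → Qb) (p : Disc r (r v₀) × Disc r (r w₀)) => φ p.1) ''
            Φ (r v₀) ∪
          (fun (ψ : Disc r (r w₀) → Qb) (p : Disc r (r v₀) × Disc r (r w₀)) => ψ p.2) ''
            Φ (r w₀)),
        ∀ p : Disc r (r v₀) × Disc r (r w₀), F p = γ i (p.1.1 + p.2.1)) :
    HasLocalOrder A V act := by
  classical
  have := Fintype.ofFinite V
  refine ⟨gens r γ, ((Set.finite_range r).image _).union (Set.finite_range γ), ?_, ?_, ?_⟩
  · -- integrality and equivariance
    rintro f (⟨x, ⟨u, rfl⟩, rfl⟩ | ⟨i, rfl⟩)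
    · refine ⟨fun v => ?_, fun σ hσ v => ?_⟩
      · by_cases hv : r v = r u
        · rw [indic_of_eq hv]
          exact A.one_mem
        · rw [indic_of_ne hv]
          exact A.zero_mem
      · by_cases hv : r v = r u
        · rw [indic_of_eq hv, indic_of_eq ((hr σ hσ v).trans hv), map_one]
        · rw [indic_of_ne hv, indic_of_ne (fun h => hv ((hr σ hσ v).symm.trans h)), map_zero]
    · exact ⟨hint i, fun σ hσ v => hγ σ hσ i v⟩
  · -- separation
    intro v w h
    have h1 : r w = r v := by
      by_contra hne
      have h2 := h (indic r (r v)) (indic_mem_gens r γ v)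
      rw [indic_of_eq rfl, indic_of_ne hne] at h2
      exact one_ne_zero h2
    exact hsep v w h1.symm fun i => h (γ i) (coord_mem_gens r γ i)
  · -- comultiplication
    rintro f (⟨z, ⟨u, rfl⟩, rfl⟩ | ⟨i, rfl⟩)
    · apply decomp_fin
      apply decomp_of_discs A r
      intro v₀ w₀
      by_cases hz : r (v₀ + w₀) = r u
      · have h1 : (fun v w => indic r (r v₀) v * indic r (r w₀) w * indic r (r u) (v + w)) =
            fun v w => indic r (r v₀) v * indic r (r w₀) w := by
          funext v w
          by_cases hv : r v = r v₀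
          · by_cases hw : r w = r w₀
            · rw [indic_of_eq ((hadd v v₀ w w₀ hv hw).trans hz), mul_one]
            · rw [indic_of_ne hw, mul_zero, zero_mul]
          · rw [indic_of_ne hv, zero_mul, zero_mul]
        rw [h1]
        exact decomp_single A _ (Algebra.subset_adjoin (indic_mem_gens r γ v₀))
          (Algebra.subset_adjoin (indic_mem_gens r γ w₀))
      · have h1 : (fun v w => indic r (r v₀) v * indic r (r w₀) w * indic r (r u) (v + w)) =
            fun _ _ => 0 := by
          funext v w
          by_cases hv : r v = r v₀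
          · by_cases hw : r w = r w₀
            · rw [indic_of_ne (fun h => hz ((hadd v v₀ w w₀ hv hw).symm.trans h)), mul_zero]
            · rw [indic_of_ne hw, mul_zero, zero_mul]
          · rw [indic_of_ne hv, zero_mul, zero_mul]
        rw [h1]
        exact decomp_zero A _
    · apply decomp_fin
      apply decomp_of_discs A r
      intro v₀ w₀
      obtain ⟨F, hF, hFp⟩ := hcomul v₀ w₀ i
      obtain ⟨n, G, H, hGH⟩ := exists_sum_mul hF
      refine ⟨Fin n, inferInstance,
        fun k => ⟨extZero r (r v₀) (G k).1,
          extZero_mem A r γ v₀ (Algebra.adjoin_le (hΦ (r v₀)) (G k).2)⟩,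
        fun k => ⟨extZero r (r w₀) (H k).1,
          extZero_mem A r γ w₀ (Algebra.adjoin_le (hΦ (r w₀)) (H k).2)⟩, fun v w => ?_⟩
      show indic r (r v₀) v * indic r (r w₀) w * γ i (v + w) =
        ∑ k, extZero r (r v₀) (G k).1 v * extZero r (r w₀) (H k).1 w
      by_cases hv : r v = r v₀
      · by_cases hw : r w = r w₀
        · rw [indic_of_eq hv, indic_of_eq hw, one_mul, one_mul]
          have h2 := hFp (⟨v, hv⟩, ⟨w, hw⟩)
          rw [hGH] at h2
          rw [← h2]
          refine Finset.sum_congr rfl fun k _ => ?_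
          rw [extZero_of_eq _ hv, extZero_of_eq _ hw]
        · rw [indic_of_ne hw, mul_zero, zero_mul]
          refine (Finset.sum_eq_zero fun k _ => ?_).symm
          rw [extZero_of_ne _ hw, mul_zero]
      · rw [indic_of_ne hv, zero_mul, zero_mul]
        refine (Finset.sum_eq_zero fun k _ => ?_).symm
        rw [extZero_of_ne _ hv, zero_mul]

/-- **Glue (LOC).**  A finite Galois module `V` with a reduction map `r` compatible with
addition and finitely many `A`-valued, inertia-equivariant coordinates `γ i` separating the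
points of each disc has a local order at `A`, provided that for all discs `S_x`, `S_y` the
function `(v, w) ↦ γ i (v + w)` on `S_x × S_y` lies in the function ring
`funRing A (discGens r γ x y)` (a local ring when the coordinates are constant modulo the
maximal ideal on each disc, see `discGens_small`). -/
theorem hasLocalOrder_of_discs (A : ValuationSubring Qb) {V : Type} [AddCommGroup V]
    [Finite V] (act : GQ → V → V) {X : Type*} (r : V → X)
    (hadd : ∀ v v' w w' : V, r v = r v' → r w = r w' → r (v + w) = r (v' + w'))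
    {ι : Type*} [Finite ι] (γ : ι → V → Qb)
    (hint : ∀ i v, γ i v ∈ A)
    (hr : ∀ σ ∈ A.inertiaSubgroupIn ℚ, ∀ v, r (act σ v) = r v)
    (hγ : ∀ σ ∈ A.inertiaSubgroupIn ℚ, ∀ i v, γ i (act σ v) = σ (γ i v))
    (hsep : ∀ v w, r v = r w → (∀ i, γ i v = γ i w) → v = w)
    (hcomul : ∀ (v₀ w₀ : V) (i : ι), ∃ F ∈ funRing A (discGens r γ (r v₀) (r w₀)),
        ∀ p : Disc r (r v₀) × Disc r (r w₀), F p = γ i (p.1.1 + p.2.1)) :
    HasLocalOrder A V act :=
  hasLocalOrder_of_discs_gen A act r hadd γ hint hr hγ hsep (discGens₁ r γ)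
    (discGens₁_subset A hint) hcomul

end Fermat.Agent.Padic.LocalGlue
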