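/-
PADIC — (LOC-ASM), abstract assembly (helper5): `HasLocalOrder` from families of subspaces.

Input (no curves): a finite Galois module `V` with a reduction map `r : V → X`, for every `v` a
subspace `Wgen v ⊆ ℚ̄^I` (in the application the coordinates of `L(E − D_v)` in a fixed basis of
`L(E)`), for every class `x` a subspace `Wsp x ⊆ κ^I` over the residue field, such that

* (`hpt`)  each `Wgen v` is the generic fibre of a family over `A` with special fibre `Wsp (r v)`;
* (`heqv`) inertia acts compatibly;  (`hsep`) `Wgen` separates the points of each disc;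
* (`hKM`)  ADDITION IN FAMILIES: over every local ring with points and a closed point, two
  families with fibres `Wgen (vv p)`, `Wgen (ww p)` / `Wsp (r v₀)`, `Wsp (r w₀)` have a "sum"
  family with fibres `Wgen (vv p + ww p)` / `Wsp (r (v₀ + w₀))` (Khuri-Makdisi, `Padic/KMAdd`).

Output: `HasLocalOrder A V act`.

The coordinates are the entries of the projector onto `Wgen v` along the non-pivot coordinates,
the pivots being chosen from the special fibre `Wsp (r v)` (so they only depend on the disc).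
-/
import Mathlib
import Fermat.Agent.Lib.LinAlg.FamilyMore
import Fermat.Agent.Padic.LocalGlue

set_option autoImplicit false

open Matrix Module

namespace Fermat.Agent.Padic.LocalAsm

open Fermat.Agent.Lib.LinAlg.ConstRank Fermat.Agent.Lib.LinAlg.Family
open Fermat.Agent.Padic Fermat.Agent.Padic.FunRing Fermat.Agent.Padic.LocalGlue

/-! ## Projectors along coordinates -/

section ProjAlong

variable {S : Type*} [CommRing S] {ι : Type*} [Fintype ι] {α : Type*}

/-- `P` is the projector onto `W` along the vectors with vanishing `p`-coordinates. -/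
structure IsProjAlong (P : Matrix ι ι S) (W : Submodule S (ι → S)) (p : α → ι) : Prop where
  mem : ∀ w, P *ᵥ w ∈ W
  comp : ∀ w, (P *ᵥ w) ∘ p = w ∘ p
  inj : ∀ w ∈ W, w ∘ p = 0 → w = 0

namespace IsProjAlong

variable {P P' : Matrix ι ι S} {W : Submodule S (ι → S)} {p : α → ι}

theorem apply_of_mem (h : IsProjAlong P W p) {w : ι → S} (hw : w ∈ W) : P *ᵥ w = w := by
  have h1 : P *ᵥ w - w ∈ W := W.sub_mem (h.mem w) hw
  have h2 : (P *ᵥ w - w) ∘ p = 0 := by
    funext a
    have e1 := congrFun (h.comp w) a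
    simp only [Function.comp_apply] at e1
    simp only [Function.comp_apply, Pi.sub_apply, Pi.zero_apply]
    rw [e1, sub_self]
  exact sub_eq_zero.1 (h.inj _ h1 h2)

theorem range_eq (h : IsProjAlong P W p) : LinearMap.range P.mulVecLin = W := by
  apply le_antisymm
  · rintro _ ⟨w, rfl⟩
    exact h.mem w
  · intro w hw
    exact ⟨w, h.apply_of_mem hw⟩

theorem mulVec_eq (h : IsProjAlong P W p) (h' : IsProjAlong P' W p) (w : ι → S) :
    P *ᵥ w = P' *ᵥ w := by
  have h1 : P *ᵥ w - P' *ᵥ w ∈ W := W.sub_mem (h.mem w) (h'.mem w)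
  have h2 : (P *ᵥ w - P' *ᵥ w) ∘ p = 0 := by
    funext a
    have e1 := congrFun (h.comp w) a
    have e2 := congrFun (h'.comp w) a
    simp only [Function.comp_apply] at e1 e2
    simp only [Function.comp_apply, Pi.sub_apply, Pi.zero_apply]
    rw [e1, e2, sub_self]
  exact sub_eq_zero.1 (h.inj _ h1 h2)

/-- **Uniqueness** of the projector with given image and given pivot coordinates. -/
theorem unique [DecidableEq ι] (h : IsProjAlong P W p) (h' : IsProjAlong P' W p) : P = P' := by
  ext i j
  have h1 := congrFun (h.mulVec_eq h' (Pi.single j 1)) i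
  rw [Matrix.mulVec_single_one, Matrix.mulVec_single_one] at h1
  exact h1

theorem idem [DecidableEq ι] (h : IsProjAlong P W p) : P * P = P := by
  ext i j
  have h1 := congrFun (h.apply_of_mem (h.mem (Pi.single j 1))) i
  rw [Matrix.mulVec_mulVec, Matrix.mulVec_single_one, Matrix.mulVec_single_one] at h1
  exact h1

end IsProjAlong

end ProjAlong

/-! ## The projector of a graph form -/

section ProjOf

variable {R : Type*} [CommRing R] {ι : Type*} [Fintype ι] [DecidableEq ι]
  {κ : Type*} [Fintype κ] [DecidableEq κ] {α : Type*} [Fintype α] [DecidableEq α] {γ : Type*}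

/-- The projector onto the column space of `M` along the vectors with vanishing
`p`-coordinates, from a graph form. -/
def projOf {M : Matrix ι κ R} {p : α → ι} {q : γ → ι} (g : GraphFact M p q) : Matrix ι ι R :=
  g.E * (1 : Matrix ι ι R).submatrix p id

theorem projOf_mulVec {M : Matrix ι κ R} {p : α → ι} {q : γ → ι} (g : GraphFact M p q)
    (w : ι → R) : projOf g *ᵥ w = g.E *ᵥ (w ∘ p) := by
  rw [projOf, ← Matrix.mulVec_mulVec]
  congr 1
  funext a
  simp [Matrix.mulVec, dotProduct, Matrix.one_apply]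

theorem isProjAlong_projOf {M : Matrix ι κ R} {p : α → ι} {q : γ → ι} (g : GraphFact M p q) :
    IsProjAlong (projOf g) (LinearMap.range M.mulVecLin) p where
  mem w := by
    rw [projOf_mulVec, ← g.range_E]
    exact ⟨_, rfl⟩
  comp w := by
    rw [projOf_mulVec]
    exact g.E_mulVec_comp_p _
  inj w hw h0 := by
    rw [g.eq_E_mulVec_of_mem hw, h0, Matrix.mulVec_zero]

omit [Fintype ι] in
theorem projOf_map {S : Type*} [CommRing S] {M : Matrix ι κ R} {p : α → ι} {q : γ → ι}
    (g : GraphFact M p q) (θ : R →+* S) : projOf (g.map θ) = (projOf g).map θ := by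
  rw [projOf, projOf, GraphFact.map_E, Matrix.map_mul]
  congr 1
  ext i j
  simp only [Matrix.submatrix_apply, Matrix.map_apply, id_eq, Matrix.one_apply]
  split_ifs <;> simp

end ProjOf

/-! ## Existence of the projector for a family over a local ring -/

section Exists

universe uS

variable {R : Type*} [CommRing R] [IsLocalRing R] {k : Type*} [Field k] (ε : R →+* k)
  [IsLocalHom ε] {ι : Type*} [Fintype ι] [DecidableEq ι] {α : Type*} [Fintype α] [DecidableEq α]

/-- Over a local ring with closed point `ε`, a family whose closed fibre projects bijectively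
onto the `p`-coordinates has a projector matrix along `p`, valid on every fibre. -/
theorem exists_projAlong (W : Fam R ι) (p : α → ι)
    (hproj : Function.Bijective (fun w : W.fib ε => (w : ι → k) ∘ p)) :
    ∃ P : Matrix ι ι R, ∀ (S : Type uS) [CommRing S] (θ : R →+* S),
      IsProjAlong (P.map θ) (W.fib θ) p := by
  obtain ⟨ν, ⟨h⟩⟩ := W.exists_rankFact
  have hg : Nonempty (GraphFact h.B p (id : ι → ι)) := by
    apply Fermat.Agent.Lib.LinAlg.ConstRank.exists_graphFact
    have h1 : ((h.B.submatrix p id).map ε).mulVec =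
        (fun w : LinearMap.range (W.P.map ε).mulVecLin => (w : ι → k) ∘ p) ∘
          (h.map ε).rangeEquiv := by
      funext x
      rfl
    have h2 : Function.Bijective ((h.B.submatrix p id).map ε).mulVec := by
      rw [h1]
      exact Function.Bijective.comp hproj (h.map ε).rangeEquiv.bijective
    have h3 : (h.B.submatrix p id).map ε =
        ((h.B.submatrix p id).map (IsLocalRing.residue R)).map
          (IsLocalRing.ResidueField.lift ε) := by
      ext i j
      simp [IsLocalRing.ResidueField.lift_residue_apply]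
    rw [h3] at h2
    exact bijective_mulVec_of_map _ _ h2
  obtain ⟨g⟩ := hg
  refine ⟨projOf g, fun S _ θ => ?_⟩
  rw [← projOf_map, Fam.fib_def, (h.map θ).range_eq]
  exact isProjAlong_projOf (g.map θ)

end Exists

/-! ## Pivot coordinates of a subspace over a field -/

section Pivots

variable {k : Type*} [Field k] {ι : Type*} [Fintype ι]

/-- Every subspace of `k^ι` projects bijectively onto suitable coordinates. -/
theorem exists_pivots (U : Submodule k (ι → k)) :
    ∃ (d : ℕ) (p : Fin d → ι), Function.Bijective (fun w : U => (w : ι → k) ∘ p) := by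
  classical
  set d := finrank k U with hd
  let b : Basis (Fin d) k U := Module.finBasis k U
  let B : Matrix ι (Fin d) k := fun i j => (b j : ι → k) i
  have hcol : B.col = fun j => (b j : ι → k) := by
    funext j
    rfl
  have hli : LinearIndependent k B.col := by
    rw [hcol]
    exact b.linearIndependent.map' U.subtype (Submodule.ker_subtype U)
  have hrank : B.rank = d := by
    rw [Matrix.rank_eq_finrank_span_cols, finrank_span_eq_card hli, Fintype.card_fin]
  have hrankT : Bᵀ.rank = d := by rw [Matrix.rank_transpose, hrank]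
  obtain ⟨r, hr⟩ := exists_cols_linearIndependent Bᵀ d hrankT
  have hunit : IsUnit (B.submatrix r id) := by
    rw [← Matrix.linearIndependent_rows_iff_isUnit]
    exact hr
  refine ⟨d, r, ?_⟩
  have hcomp : (fun w : U => (w : ι → k) ∘ r) =
      (B.submatrix r id).mulVec ∘ b.equivFun := by
    funext w
    funext a
    have hw : (w : ι → k) = ∑ j, b.equivFun w j • (b j : ι → k) := by
      have h1 := b.sum_equivFun w
      have h2 := congrArg (U.subtype) h1
      rw [map_sum] at h2
      simp only [map_smul, Submodule.subtype_apply] at h2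
      exact h2.symm
    show (w : ι → k) (r a) = ∑ j, B (r a) j * b.equivFun w j
    rw [hw, Finset.sum_apply]
    refine Finset.sum_congr rfl fun j _ => ?_
    rw [Pi.smul_apply, smul_eq_mul, mul_comm]
  rw [hcomp]
  exact Function.Bijective.comp
    ⟨Matrix.mulVec_injective_iff_isUnit.2 hunit, Matrix.mulVec_surjective_iff_isUnit.2 hunit⟩
    b.equivFun.bijective

end Pivots

/-! ## The assembly -/

section Assembly

/-- The coordinate functions attached to a family of projector matrices: their entries. -/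
def coordOf {A : ValuationSubring Qb} {V : Type} {I : Type} (P : V → Matrix I I A) :
    I × I → V → Qb :=
  fun ij v => ((P v ij.1 ij.2 : A) : Qb)

/-- The assembly, with the projectors as data. -/
theorem hasLocalOrder_of_projectors (A : ValuationSubring Qb) {V : Type} [AddCommGroup V]
    [Finite V] (act : GQ → V → V) {X : Type*} (r : V → X)
    (hadd : ∀ v v' w w' : V, r v = r v' → r w = r w' → r (v + w) = r (v' + w'))
    (hr : ∀ σ ∈ A.inertiaSubgroupIn ℚ, ∀ v, r (act σ v) = r v)
    {I : Type} [Fintype I] [DecidableEq I]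
    (Wgen : V → Submodule Qb (I → Qb))
    (Wsp : X → Submodule (IsLocalRing.ResidueField A) (I → IsLocalRing.ResidueField A))
    (d : X → ℕ) (p : ∀ x, Fin (d x) → I)
    (hp : ∀ x, Function.Bijective
      (fun w : Wsp x => (w : I → IsLocalRing.ResidueField A) ∘ p x))
    (P : V → Matrix I I A)
    (hPgen : ∀ v, IsProjAlong ((P v).map A.subtype) (Wgen v) (p (r v)))
    (hPsp : ∀ v, IsProjAlong ((P v).map (IsLocalRing.residue A)) (Wsp (r v)) (p (r v)))
    (heqv : ∀ σ ∈ A.inertiaSubgroupIn ℚ, ∀ v, ∀ w ∈ Wgen v,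
      (fun i => σ (w i)) ∈ Wgen (act σ v))
    (hsep : ∀ v w, r v = r w → Wgen v = Wgen w → v = w)
    (hKM : ∀ (𝓡 : Type) [CommRing 𝓡] [IsLocalRing 𝓡] (j : A →+* 𝓡) (Pt : Type)
        (χ : Pt → 𝓡 →+* Qb) (ρ : 𝓡 →+* IsLocalRing.ResidueField A) [IsLocalHom ρ],
        (∀ f : 𝓡, (∀ q, χ q f = 0) → f = 0) → (∀ q a, χ q (j a) = a) →
        (∀ a, ρ (j a) = IsLocalRing.residue A a) →
        ∀ (vv ww : Pt → V) (v₀ w₀ : V), (∀ q, r (vv q) = r v₀) → (∀ q, r (ww q) = r w₀) →
        ∀ W₁ W₂ : Fam 𝓡 I,
        (∀ q, W₁.fib (χ q) = Wgen (vv q)) → (∀ q, W₂.fib (χ q) = Wgen (ww q)) →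
        W₁.fib ρ = Wsp (r v₀) → W₂.fib ρ = Wsp (r w₀) →
        ∃ W₃ : Fam 𝓡 I, (∀ q, W₃.fib (χ q) = Wgen (vv q + ww q)) ∧
          W₃.fib ρ = Wsp (r (v₀ + w₀))) :
    HasLocalOrder A V act := by
  classical
  -- transport of the characterisations along `r v = x`
  have hPgen' : ∀ v x, r v = x → IsProjAlong ((P v).map A.subtype) (Wgen v) (p x) := by
    rintro v x rfl
    exact hPgen v
  have hPsp' : ∀ v x, r v = x →
      IsProjAlong ((P v).map (IsLocalRing.residue A)) (Wsp x) (p x) := by
    rintro v x rfl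
    exact hPsp v
  have hint : ∀ i v, coordOf P i v ∈ A := fun i v => (P v i.1 i.2).2
  have hred : ∀ v w, r v = r w →
      (P v).map (IsLocalRing.residue A) = (P w).map (IsLocalRing.residue A) := by
    intro v w hvw
    exact (hPsp' v (r w) hvw).unique (hPsp w)
  have hsmall : ∀ i v w, r v = r w → A.valuation (coordOf P i v - coordOf P i w) < 1 := by
    intro i v w hvw
    have h1 : IsLocalRing.residue A (P v i.1 i.2) = IsLocalRing.residue A (P w i.1 i.2) :=
      congrFun (congrFun (hred v w hvw) i.1) i.2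
    have h2 : IsLocalRing.residue A (P v i.1 i.2 - P w i.1 i.2) = 0 := by
      rw [map_sub, sub_eq_zero]
      exact h1
    rw [IsLocalRing.residue_eq_zero_iff, A.valuation_lt_one_iff] at h2
    exact h2
  have hγ : ∀ σ ∈ A.inertiaSubgroupIn ℚ, ∀ i v, coordOf P i (act σ v) = σ (coordOf P i v) := by
    intro σ hσ i v
    have h2 := hPgen' (act σ v) (r v) (hr σ hσ v)
    have e : ∀ w : I → Qb, (((P v).map A.subtype).map σ) *ᵥ w =
        fun a => σ ((((P v).map A.subtype) *ᵥ fun b => σ.symm (w b)) a) := by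
      intro w
      funext a
      simp only [Matrix.mulVec, dotProduct, Matrix.map_apply, map_sum, map_mul,
        AlgEquiv.apply_symm_apply]
    have h1 : IsProjAlong (((P v).map A.subtype).map σ) (Wgen (act σ v)) (p (r v)) := by
      refine ⟨fun w => ?_, fun w => ?_, h2.inj⟩
      · rw [e]
        exact heqv σ hσ v _ ((hPgen v).mem _)
      · rw [e]
        funext a
        have h3 := congrFun ((hPgen v).comp (fun b => σ.symm (w b))) a
        simp only [Function.comp_apply] at h3 ⊢
        rw [h3, AlgEquiv.apply_symm_apply]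
    have h3 := h2.unique h1
    exact congrFun (congrFun h3 i.1) i.2
  have hsep' : ∀ v w, r v = r w → (∀ i, coordOf P i v = coordOf P i w) → v = w := by
    intro v w hvw h
    apply hsep v w hvw
    have h1 : (P v).map A.subtype = (P w).map A.subtype := by
      ext a b
      exact h (a, b)
    rw [← (hPgen v).range_eq, ← (hPgen w).range_eq, h1]
  refine hasLocalOrder_of_discs A act r hadd (coordOf P) hint hr hγ hsep' ?_
  intro v₀ w₀ ij
  -- the function ring of the product of the two discs
  have hΦ := discGens_small A hsmall (r v₀) (r w₀)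
  have : Fintype (Disc r (r v₀) × Disc r (r w₀)) := Fintype.ofFinite _
  have : Nonempty (Disc r (r v₀) × Disc r (r w₀)) := ⟨(⟨v₀, rfl⟩, ⟨w₀, rfl⟩)⟩
  have hloc : IsLocalRing (funRing A (discGens r (coordOf P) (r v₀) (r w₀))) := isLocalRing hΦ
  have hχinj : ∀ f : funRing A (discGens r (coordOf P) (r v₀) (r w₀)),
      (∀ q, ((Pi.evalRingHom (fun _ : Disc r (r v₀) × Disc r (r w₀) => Qb) q).comp
        (funRing A (discGens r (coordOf P) (r v₀) (r w₀))).val.toRingHom) f = 0) → f = 0 :=
    fun f hf => eval_jointly_injective f hf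
  -- the two families of projectors
  let M₁ : Matrix I I (funRing A (discGens r (coordOf P) (r v₀) (r w₀))) := fun a b =>
    ⟨fun q => coordOf P (a, b) q.1.1, coord_fst_mem A hint (r v₀) (r w₀) (a, b)⟩
  let M₂ : Matrix I I (funRing A (discGens r (coordOf P) (r v₀) (r w₀))) := fun a b =>
    ⟨fun q => coordOf P (a, b) q.2.1, coord_snd_mem A hint (r v₀) (r w₀) (a, b)⟩
  have hM₁χ : ∀ q : Disc r (r v₀) × Disc r (r w₀),
      M₁.map ((Pi.evalRingHom (fun _ : Disc r (r v₀) × Disc r (r w₀) => Qb) q).comp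
        (funRing A (discGens r (coordOf P) (r v₀) (r w₀))).val.toRingHom) =
        (P q.1.1).map A.subtype := fun q => by
    ext a b
    rfl
  have hM₂χ : ∀ q : Disc r (r v₀) × Disc r (r w₀),
      M₂.map ((Pi.evalRingHom (fun _ : Disc r (r v₀) × Disc r (r w₀) => Qb) q).comp
        (funRing A (discGens r (coordOf P) (r v₀) (r w₀))).val.toRingHom) =
        (P q.2.1).map A.subtype := fun q => by
    ext a b
    rfl
  have hM₁ρ : M₁.map (closedPoint hΦ (⟨v₀, rfl⟩, ⟨w₀, rfl⟩)) =
      (P v₀).map (IsLocalRing.residue A) := by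
    ext a b
    rfl
  have hM₂ρ : M₂.map (closedPoint hΦ (⟨v₀, rfl⟩, ⟨w₀, rfl⟩)) =
      (P w₀).map (IsLocalRing.residue A) := by
    ext a b
    rfl
  have hidem₁ : M₁ * M₁ = M₁ := by
    refine Matrix.ext fun a b => ?_
    refine sub_eq_zero.1 (hχinj _ fun q => ?_)
    rw [map_sub, sub_eq_zero]
    have h1 : ((Pi.evalRingHom (fun _ : Disc r (r v₀) × Disc r (r w₀) => Qb) q).comp
        (funRing A (discGens r (coordOf P) (r v₀) (r w₀))).val.toRingHom) ((M₁ * M₁) a b) =
        ((M₁ * M₁).map ((Pi.evalRingHom (fun _ : Disc r (r v₀) × Disc r (r w₀) => Qb) q).comp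
        (funRing A (discGens r (coordOf P) (r v₀) (r w₀))).val.toRingHom)) a b := rfl
    rw [h1, Matrix.map_mul, hM₁χ, (hPgen _).idem]
    rfl
  have hidem₂ : M₂ * M₂ = M₂ := by
    refine Matrix.ext fun a b => ?_
    refine sub_eq_zero.1 (hχinj _ fun q => ?_)
    rw [map_sub, sub_eq_zero]
    have h1 : ((Pi.evalRingHom (fun _ : Disc r (r v₀) × Disc r (r w₀) => Qb) q).comp
        (funRing A (discGens r (coordOf P) (r v₀) (r w₀))).val.toRingHom) ((M₂ * M₂) a b) =
        ((M₂ * M₂).map ((Pi.evalRingHom (fun _ : Disc r (r v₀) × Disc r (r w₀) => Qb) q).comp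
        (funRing A (discGens r (coordOf P) (r v₀) (r w₀))).val.toRingHom)) a b := rfl
    rw [h1, Matrix.map_mul, hM₂χ, (hPgen _).idem]
    rfl
  obtain ⟨W₃, hW₃χ, hW₃ρ⟩ := hKM (funRing A (discGens r (coordOf P) (r v₀) (r w₀)))
    (algebraMap A (funRing A (discGens r (coordOf P) (r v₀) (r w₀))))
    (Disc r (r v₀) × Disc r (r w₀))
    (fun q => (Pi.evalRingHom (fun _ : Disc r (r v₀) × Disc r (r w₀) => Qb) q).comp
        (funRing A (discGens r (coordOf P) (r v₀) (r w₀))).val.toRingHom)
    (closedPoint hΦ (⟨v₀, rfl⟩, ⟨w₀, rfl⟩)) hχinj (fun q a => rfl) (fun a => rfl)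
    (fun q => q.1.1) (fun q => q.2.1) v₀ w₀ (fun q => q.1.2) (fun q => q.2.2)
    ⟨M₁, hidem₁⟩ ⟨M₂, hidem₂⟩
    (fun q => by
      rw [Fam.fib_def, hM₁χ]
      exact (hPgen _).range_eq)
    (fun q => by
      rw [Fam.fib_def, hM₂χ]
      exact (hPgen _).range_eq)
    (by
      rw [Fam.fib_def, hM₁ρ]
      exact (hPsp _).range_eq)
    (by
      rw [Fam.fib_def, hM₂ρ]
      exact (hPsp _).range_eq)
  -- the projector of the sum family
  have hproj₃ : Function.Bijective
      (fun w : W₃.fib (closedPoint hΦ (⟨v₀, rfl⟩, ⟨w₀, rfl⟩)) =>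
        (w : I → IsLocalRing.ResidueField A) ∘ p (r (v₀ + w₀))) := by
    rw [hW₃ρ]
    exact hp _
  obtain ⟨P₃, hP₃⟩ := exists_projAlong.{0} (closedPoint hΦ (⟨v₀, rfl⟩, ⟨w₀, rfl⟩)) W₃
    (p (r (v₀ + w₀))) hproj₃
  refine ⟨(P₃ ij.1 ij.2).1, (P₃ ij.1 ij.2).2, fun q => ?_⟩
  have h1 : IsProjAlong (P₃.map ((Pi.evalRingHom (fun _ : Disc r (r v₀) × Disc r (r w₀) => Qb)
      q).comp (funRing A (discGens r (coordOf P) (r v₀) (r w₀))).val.toRingHom))
      (Wgen (q.1.1 + q.2.1)) (p (r (v₀ + w₀))) := by
    rw [← hW₃χ q]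
    exact hP₃ Qb _
  have h2 := hPgen' (q.1.1 + q.2.1) (r (v₀ + w₀)) (hadd _ _ _ _ q.1.2 q.2.2)
  have h3 := h1.unique h2
  exact congrFun (congrFun h3 ij.1) ij.2

/-- **(LOC-ASM), abstract form.**  A finite Galois module `V` with a reduction map `r`, subspaces
`Wgen v ⊆ ℚ̄^I` and `Wsp x ⊆ κ^I` such that every `Wgen v` is the generic fibre of a family over
`A` with special fibre `Wsp (r v)`, compatible with inertia, separating the points of the discs,
and with addition in families (`hKM`), has a local order at `A`. -/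
theorem hasLocalOrder_of_families (A : ValuationSubring Qb) {V : Type} [AddCommGroup V]
    [Finite V] (act : GQ → V → V) {X : Type*} (r : V → X)
    (hadd : ∀ v v' w w' : V, r v = r v' → r w = r w' → r (v + w) = r (v' + w'))
    (hr : ∀ σ ∈ A.inertiaSubgroupIn ℚ, ∀ v, r (act σ v) = r v)
    {I : Type} [Fintype I] [DecidableEq I]
    (Wgen : V → Submodule Qb (I → Qb))
    (Wsp : X → Submodule (IsLocalRing.ResidueField A) (I → IsLocalRing.ResidueField A))
    (hpt : ∀ v, ∃ W : Fam A I, W.fib A.subtype = Wgen v ∧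
      W.fib (IsLocalRing.residue A) = Wsp (r v))
    (heqv : ∀ σ ∈ A.inertiaSubgroupIn ℚ, ∀ v, ∀ w ∈ Wgen v,
      (fun i => σ (w i)) ∈ Wgen (act σ v))
    (hsep : ∀ v w, r v = r w → Wgen v = Wgen w → v = w)
    (hKM : ∀ (𝓡 : Type) [CommRing 𝓡] [IsLocalRing 𝓡] (j : A →+* 𝓡) (Pt : Type)
        (χ : Pt → 𝓡 →+* Qb) (ρ : 𝓡 →+* IsLocalRing.ResidueField A) [IsLocalHom ρ],
        (∀ f : 𝓡, (∀ q, χ q f = 0) → f = 0) → (∀ q a, χ q (j a) = a) →
        (∀ a, ρ (j a) = IsLocalRing.residue A a) →
        ∀ (vv ww : Pt → V) (v₀ w₀ : V), (∀ q, r (vv q) = r v₀) → (∀ q, r (ww q) = r w₀) →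
        ∀ W₁ W₂ : Fam 𝓡 I,
        (∀ q, W₁.fib (χ q) = Wgen (vv q)) → (∀ q, W₂.fib (χ q) = Wgen (ww q)) →
        W₁.fib ρ = Wsp (r v₀) → W₂.fib ρ = Wsp (r w₀) →
        ∃ W₃ : Fam 𝓡 I, (∀ q, W₃.fib (χ q) = Wgen (vv q + ww q)) ∧
          W₃.fib ρ = Wsp (r (v₀ + w₀))) :
    HasLocalOrder A V act := by
  classical
  choose d p hp using fun x => exists_pivots (Wsp x)
  have hP : ∀ v, ∃ P : Matrix I I A, IsProjAlong (P.map A.subtype) (Wgen v) (p (r v)) ∧
      IsProjAlong (P.map (IsLocalRing.residue A)) (Wsp (r v)) (p (r v)) := by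
    intro v
    obtain ⟨W, hW1, hW2⟩ := hpt v
    have hproj : Function.Bijective (fun w : W.fib (IsLocalRing.residue A) =>
        (w : I → IsLocalRing.ResidueField A) ∘ p (r v)) := by
      rw [hW2]
      exact hp (r v)
    obtain ⟨P, hPθ⟩ := exists_projAlong.{0} (IsLocalRing.residue A) W (p (r v)) hproj
    refine ⟨P, ?_, ?_⟩
    · rw [← hW1]
      exact hPθ Qb A.subtype
    · rw [← hW2]
      exact hPθ _ (IsLocalRing.residue A)
  choose P hPgen hPsp using hP
  exact hasLocalOrder_of_projectors A act r hadd hr Wgen Wsp d p hp P hPgen hPsp heqv hsep hKM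

/-- A producer for `hpt`: the column space of a matrix over `A` whose generic and special
column spaces have the same dimension is a family over `A`. -/
theorem exists_fam_of_matrix (A : ValuationSubring Qb) {I : Type} [Fintype I] [DecidableEq I]
    {d : ℕ} (M : Matrix I (Fin d) A) (Wg : Submodule Qb (I → Qb))
    (Ws : Submodule (IsLocalRing.ResidueField A) (I → IsLocalRing.ResidueField A))
    (hg : LinearMap.range (M.map A.subtype).mulVecLin = Wg)
    (hs : LinearMap.range (M.map (IsLocalRing.residue A)).mulVecLin = Ws)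
    (hrank : finrank Qb Wg ≤ finrank (IsLocalRing.ResidueField A) Ws) :
    ∃ W : Fam A I, W.fib A.subtype = Wg ∧ W.fib (IsLocalRing.residue A) = Ws := by
  have hχ : ∀ a : A, (∀ _ : Unit, A.subtype a = 0) → a = 0 := fun a ha =>
    Subtype.ext (ha ())
  obtain ⟨h⟩ := Fam.exists_rankFact_image' (IsLocalRing.residue A) (Fam.top A (Fin d)) M
    (fun _ : Unit => A.subtype) hχ (finrank (IsLocalRing.ResidueField A) Ws)
    (by rw [Fam.fib_top, Submodule.map_top, hs])
    (fun _ => by rw [Fam.fib_top, Submodule.map_top, hg]; exact hrank)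
  refine ⟨(Fam.top A (Fin d)).image M h, ?_, ?_⟩
  · rw [Fam.fib_image, Fam.fib_top, Submodule.map_top]
    exact hg
  · rw [Fam.fib_image, Fam.fib_top, Submodule.map_top]
    exact hs

end Assembly

end Fermat.Agent.Padic.LocalAsm
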