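import Mathlib
import Fermat.Agent.Padic.Lattice
import Fermat.Agent.Padic.LocalAsm
import Fermat.Agent.Padic.GenPosGlue
import Fermat.Agent.Lib.FF.WeilCanonical

/-!
# PADIC (LOC): the point families `hpt` from lattice bases

`hpt` of `LocalAsm.hasLocalOrder_of_families`: for a lattice basis `b` of `W = L(E)` (index `I`)
and a sublattice `W' = L(E - D)`, the coordinate subspace `φ⁻¹ W' ⊆ ℚ̄^I` is the generic fibre of
a family over `A` whose special fibre is the coordinate subspace of the reduction of `W'`.

* `exists_fam_of_latBasis` : abstract form (`RedData`, two lattice bases, `W' ≤ W`);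
* `exists_fam_rr` : modular form at a place of good reduction, `W' = L(E - D)`,
  special fibre `= φ'⁻¹ L̃(r_* E - r_* D)` (for `deg (E - D) ≥ 2g - 1`).
-/

set_option autoImplicit false
set_option linter.style.haveILetI false

noncomputable section

namespace Fermat.Agent.Padic.FamOfLattice

open AlgebraicCurve Module Matrix
open Fermat.Agent.Lib.LinAlg.Family Fermat.Agent.Padic.LocalAsm

/-! ### abstract form -/

section Abstract

variable {F Ft : Type*} [Field F] [Field Ft] [Algebra Qb F] {A : ValuationSubring Qb}
  [Algebra (IsLocalRing.ResidueField A) Ft] {O : ValuationSubring F} {red : O →+* Ft}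

/-- **The point family from two lattice bases**: `b` a lattice basis of `W`, `f` a lattice basis
of `W' ≤ W`; the coordinates (in `b`) of `W'` are the generic fibre of a family over `A` whose
special fibre consists of the coordinates (in `red ∘ b`) of the span of `red ∘ f`. -/
theorem exists_fam_of_latBasis (h : RedData A O red (IsLocalRing.residue A))
    {I : Type} [Fintype I] [DecidableEq I] {b : I → O} {W : Submodule Qb F}
    (hb : IsLatBasis (IsLocalRing.ResidueField A) red W b)
    {d : ℕ} {f : Fin d → O} {W' : Submodule Qb F}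
    (hf : IsLatBasis (IsLocalRing.ResidueField A) red W' f) (hle : W' ≤ W)
    (φ : (I → Qb) →ₗ[Qb] F) (hφ : ∀ w, φ w = ∑ i, w i • (b i : F))
    (φ' : (I → IsLocalRing.ResidueField A) →ₗ[IsLocalRing.ResidueField A] Ft)
    (hφ' : ∀ w, φ' w = ∑ i, w i • red (b i)) :
    ∃ Fm : Fam A I, Fm.fib A.subtype = W'.comap φ ∧
      Fm.fib (IsLocalRing.residue A) =
        (Submodule.span (IsLocalRing.ResidueField A) (Set.range fun j => red (f j))).comap φ' := by
  classical
  obtain ⟨c, -, hcF, hcred⟩ := hf.exists_inclTable h hb hle
  set M : Matrix I (Fin d) A := fun i j => c j i with hM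
  -- injectivity of the coordinate maps
  have hφinj : Function.Injective φ := by
    have h1 := hb.injective_linearCombination h
    have h2 : φ = Fintype.linearCombination Qb (fun i => (b i : F)) :=
      LinearMap.ext fun w => by rw [hφ, Fintype.linearCombination_apply]
    rw [h2]
    exact h1
  have hφ'inj : Function.Injective φ' := by
    have h1 := hb.injective_linearCombination_red
    have h2 : φ' = Fintype.linearCombination (IsLocalRing.ResidueField A) (fun i => red (b i)) :=
      LinearMap.ext fun w => by rw [hφ', Fintype.linearCombination_apply]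
    rw [h2]
    exact h1
  -- the two key computations
  have key1 : ∀ u : Fin d → Qb, φ ((M.map A.subtype).mulVecLin u) = ∑ j, u j • (f j : F) := by
    intro u
    rw [hφ]
    simp only [Matrix.mulVecLin_apply, Matrix.mulVec, dotProduct, Matrix.map_apply, hM,
      Finset.sum_smul]
    rw [Finset.sum_comm]
    refine Finset.sum_congr rfl fun j _ => ?_
    rw [hcF j, Finset.smul_sum]
    refine Finset.sum_congr rfl fun i _ => ?_
    rw [smul_smul, mul_comm]
    rfl
  have key2 : ∀ u : Fin d → IsLocalRing.ResidueField A,
      φ' ((M.map (IsLocalRing.residue A)).mulVecLin u) = ∑ j, u j • red (f j) := by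
    intro u
    rw [hφ']
    simp only [Matrix.mulVecLin_apply, Matrix.mulVec, dotProduct, Matrix.map_apply, hM,
      Finset.sum_smul]
    rw [Finset.sum_comm]
    refine Finset.sum_congr rfl fun j _ => ?_
    rw [hcred j, Finset.smul_sum]
    refine Finset.sum_congr rfl fun i _ => ?_
    rw [smul_smul, mul_comm]
  have hg : LinearMap.range (M.map A.subtype).mulVecLin = W'.comap φ := by
    ext w
    constructor
    · rintro ⟨u, rfl⟩
      rw [Submodule.mem_comap, key1]
      exact Submodule.sum_mem _ fun j _ => Submodule.smul_mem _ _ (hf.mem j)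
    · intro hw
      obtain ⟨u, hu⟩ := hf.exists_coeff_L (Submodule.mem_comap.1 hw)
      exact ⟨u, hφinj (by rw [key1, hu])⟩
  have hs : LinearMap.range (M.map (IsLocalRing.residue A)).mulVecLin =
      (Submodule.span (IsLocalRing.ResidueField A) (Set.range fun j => red (f j))).comap φ' := by
    ext w
    constructor
    · rintro ⟨u, rfl⟩
      rw [Submodule.mem_comap, key2]
      exact Submodule.sum_mem _ fun j _ =>
        Submodule.smul_mem _ _ (Submodule.subset_span ⟨j, rfl⟩)
    · intro hw
      obtain ⟨u, hu⟩ := (Submodule.mem_span_range_iff_exists_fun _).1 (Submodule.mem_comap.1 hw)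
      exact ⟨u, hφ'inj (by rw [key2, hu])⟩
  have hinj : Function.Injective (M.map (IsLocalRing.residue A)).mulVecLin := by
    intro u u' huu
    have h1 := congrArg φ' huu
    rw [key2, key2] at h1
    have h2 := linearIndependent_iff_injective_fintypeLinearCombination.1 hf.redli
    exact h2 (by simpa only [Fintype.linearCombination_apply] using h1)
  refine exists_fam_of_matrix A M _ _ hg hs ?_
  rw [← hg, ← hs, LinearMap.finrank_range_of_inj hinj]
  refine (LinearMap.finrank_range_le _).trans ?_
  rw [Module.finrank_fin_fun, Module.finrank_fin_fun]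

end Abstract

/-! ### the modular form -/

section Qbar

open ModularCurve Fermat.Agent.Lib.Red Fermat.Agent.Lib.FF

set_option synthInstance.maxHeartbeats 400000

variable {A : ValuationSubring (AlgebraicClosure ℚ)} {N : ℕ} [NeZero N]

set_option maxHeartbeats 1000000 in
/-- **(LAT1) with the sharp bound**: at a place of good reduction, for `deg B ≥ 2g - 1` the
reductions of ANY lattice basis of `L(B)` span `L̃(r_* B)`. -/
theorem span_red_eq_rr_of_degree (hgr : GoodRed A N)
    (r : Place (AlgebraicClosure ℚ) ↥(modularFunctionFieldBar N) →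
      Place (IsLocalRing.ResidueField A)
        ↥(modularFunctionFieldFullC (IsLocalRing.ResidueField A) N))
    (hr : IsPlaceReductionModL A N r)
    {B : Divisor (AlgebraicClosure ℚ) ↥(modularFunctionFieldBar N)}
    (hdeg : 2 * (genusFF (AlgebraicClosure ℚ) ↥(modularFunctionFieldBar N) : ℤ) - 1 ≤
      Divisor.degree B)
    {ι : Type*} [Fintype ι] {b : ι → OwA A N hgr.level}
    (hb : IsLatBasis (IsLocalRing.ResidueField A) (redA A N hgr.level) (riemannRochSpace B) b) :
    Submodule.span (IsLocalRing.ResidueField A) (Set.range fun i => redA A N hgr.level (b i)) =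
      riemannRochSpace (Finsupp.mapDomain r B) := by
  haveI := Fermat.Agent.Lib.FF.CharP.isAlgClosed_residueField A
  have hFL := GenPos.isFF1_bar (N := N)
  have hFk := GenPos.isFF1_res (A := A) (N := N) hgr.level
  have hdegr : Divisor.degree (Finsupp.mapDomain r B) = Divisor.degree B :=
    GenPosAbs.degree_mapDomain hFL hFk r B
  have h1 := WeilCanonical.finrank_L_of_degree hFL hdeg
  have h2 := WeilCanonical.finrank_L_of_degree hFk (D := Finsupp.mapDomain r B)
    (by rw [hdegr, hgr.genus]; exact hdeg)
  rw [hdegr, hgr.genus] at h2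
  have hdim : finrank (IsLocalRing.ResidueField A)
      (riemannRochSpace (Finsupp.mapDomain r B)) ≤
      finrank (AlgebraicClosure ℚ) (riemannRochSpace B) := by
    have h3 : (finrank (IsLocalRing.ResidueField A)
        (riemannRochSpace (Finsupp.mapDomain r B)) : ℤ) =
        (finrank (AlgebraicClosure ℚ) (riemannRochSpace B) : ℤ) := by rw [h1, h2]
    exact le_of_eq (by exact_mod_cast h3)
  exact hb.span_red_eq_rr (residue_eq_zero_of_not_isUnit A) IsLocalRing.residue_surjective
    hgr.level r hr hdim

/-- The cardinality of a lattice basis of `L(B)`, `deg B ≥ 2g - 1`. -/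
theorem card_latBasis_of_degree (hgr : GoodRed A N)
    {B : Divisor (AlgebraicClosure ℚ) ↥(modularFunctionFieldBar N)}
    (hdeg : 2 * (genusFF (AlgebraicClosure ℚ) ↥(modularFunctionFieldBar N) : ℤ) - 1 ≤
      Divisor.degree B)
    {ι : Type*} [Fintype ι] {b : ι → OwA A N hgr.level}
    (hb : IsLatBasis (IsLocalRing.ResidueField A) (redA A N hgr.level) (riemannRochSpace B) b) :
    (Fintype.card ι : ℤ) = Divisor.degree B + 1 -
      genusFF (AlgebraicClosure ℚ) ↥(modularFunctionFieldBar N) := by
  rw [hb.card_eq (redData_A A N hgr.level)]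
  exact WeilCanonical.finrank_L_of_degree (GenPos.isFF1_bar (N := N)) hdeg

set_option maxHeartbeats 1000000 in
/-- **`hpt` at a place of good reduction**: for a lattice basis `b` of `L(E)` and an effective
divisor `D` with `deg (E - D) ≥ 2g - 1`, the coordinates of `L(E - D)` are the generic fibre of a
family over `A` with special fibre the coordinates of `L̃(r_* E - r_* D)`. -/
theorem exists_fam_rr (hgr : GoodRed A N)
    (r : Place (AlgebraicClosure ℚ) ↥(modularFunctionFieldBar N) →
      Place (IsLocalRing.ResidueField A)
        ↥(modularFunctionFieldFullC (IsLocalRing.ResidueField A) N))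
    (hr : IsPlaceReductionModL A N r)
    {I : Type} [Fintype I] [DecidableEq I] {b : I → OwA A N hgr.level}
    {E : Divisor (AlgebraicClosure ℚ) ↥(modularFunctionFieldBar N)}
    (hb : IsLatBasis (IsLocalRing.ResidueField A) (redA A N hgr.level) (riemannRochSpace E) b)
    (φ : (I → Qb) →ₗ[Qb] ↥(modularFunctionFieldBar N))
    (hφ : ∀ w, φ w = ∑ i, w i • ((b i : OwA A N hgr.level) : ↥(modularFunctionFieldBar N)))
    (φ' : (I → IsLocalRing.ResidueField A) →ₗ[IsLocalRing.ResidueField A]
      ↥(modularFunctionFieldFullC (IsLocalRing.ResidueField A) N))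
    (hφ' : ∀ w, φ' w = ∑ i, w i • redA A N hgr.level (b i))
    (D : Divisor (AlgebraicClosure ℚ) ↥(modularFunctionFieldBar N)) (hD : 0 ≤ D)
    (hdeg : 2 * (genusFF (AlgebraicClosure ℚ) ↥(modularFunctionFieldBar N) : ℤ) - 1 ≤
      Divisor.degree (E - D)) :
    ∃ W : Fam A I, W.fib A.subtype = (riemannRochSpace (E - D)).comap φ ∧
      W.fib (IsLocalRing.residue A) =
        (riemannRochSpace (Finsupp.mapDomain r E - Finsupp.mapDomain r D)).comap φ' := by
  obtain ⟨d, f, hf⟩ := hgr.exists_latBasis (E - D)
  have hsp := span_red_eq_rr_of_degree hgr r hr hdeg hf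
  obtain ⟨W, hW1, hW2⟩ := exists_fam_of_latBasis (redData_A A N hgr.level) hb hf
    (GenPosGlue.rr_sub_le hD) φ hφ φ' hφ'
  refine ⟨W, hW1, ?_⟩
  rw [hW2, ← GenPosAbs.mapDomain_sub']
  exact congrArg (fun S => Submodule.comap φ' S) hsp

end Qbar

end Fermat.Agent.Padic.FamOfLattice
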