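import Fermat.Agent.Padic.Defs
import Fermat.Agent.Lib.FinFlat.Quotient

/-!
# Closure properties of the finite-flat clause

`FlatClause l V act` (the body of `GaloisRepAdic.IsFlatAt` and of the frozen S19) is equivalent
to the existence of a Hopf order (`Fermat.Agent.Lib.FinFlat.HasHopfOrder`), hence it is stable
under equivariant isomorphisms, Galois submodules, Galois quotients and finite products.
-/

set_option autoImplicit false

namespace Fermat.Agent.Padic

open Fermat.Agent.Lib.FinFlat

variable {l : ℕ} {V W Q : Type} [AddCommGroup V] [AddCommGroup W] [AddCommGroup Q]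

/-- The finite-flat clause gives a Hopf order (the image of the Hopf algebra in the functions
on `V`). -/
theorem FlatClause.hasHopfOrder {act : GQ → V → V} (h : FlatClause l V act) :
    HasHopfOrder l act :=
  hasHopfOrder_of_hopfAlgebra h

/-- A Hopf order gives the finite-flat clause. -/
theorem flatClause_of_hasHopfOrder [Fact l.Prime] [Finite V] {act : GQ → V → V}
    (h : HasHopfOrder l act) : FlatClause l V act :=
  h.exists_hopfAlgebra

/-- A Hopf order gives the finite-flat clause. -/
theorem flatClause_of_isHopfOrder [Fact l.Prime] [Finite V] {act : GQ → V → V}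
    {B : Subalgebra (Rp l) (V → Qbar)} (h : IsHopfOrder l act B) : FlatClause l V act :=
  h.exists_hopfAlgebra

theorem flatClause_iff_hasHopfOrder [Fact l.Prime] [Finite V] {act : GQ → V → V} :
    FlatClause l V act ↔ HasHopfOrder l act :=
  ⟨FlatClause.hasHopfOrder, flatClause_of_hasHopfOrder⟩

/-- The finite-flat clause passes to Galois submodules: pull-back along an injective
equivariant additive map. -/
theorem FlatClause.subgroup [Fact l.Prime] [Finite V] {act : GQ → V → V} {actW : GQ → W → W}
    (h : FlatClause l V act) (ι : W →+ V) (hι : Function.Injective ι)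
    (hι' : ∀ (σ : GQ) (w : W), ι (actW σ w) = act σ (ι w)) : FlatClause l W actW :=
  have : Finite W := Finite.of_injective ι hι
  flatClause_of_hasHopfOrder (h.hasHopfOrder.of_injective ι hι hι')

/-- The finite-flat clause is invariant under equivariant additive equivalences. -/
theorem FlatClause.of_equiv [Fact l.Prime] [Finite V] {act : GQ → V → V} {actW : GQ → W → W}
    (h : FlatClause l V act) (e : V ≃+ W)
    (he : ∀ (σ : GQ) (v : V), e (act σ v) = actW σ (e v)) : FlatClause l W actW := by
  refine h.subgroup e.symm.toAddMonoidHom e.symm.injective fun σ w => ?_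
  apply e.injective
  show e (e.symm (actW σ w)) = e (act σ (e.symm w))
  rw [he, AddEquiv.apply_symm_apply, AddEquiv.apply_symm_apply]

/-- The finite-flat clause passes to Galois quotients. -/
theorem FlatClause.quotient [Fact l.Prime] [Finite V] {act : GQ → V → V} {actQ : GQ → Q → Q}
    (h : FlatClause l V act) (π : V →+ Q) (hπ : Function.Surjective π)
    (hπ' : ∀ (σ : GQ) (v : V), π (act σ v) = actQ σ (π v)) : FlatClause l Q actQ :=
  have : Finite Q := Finite.of_surjective π hπ
  flatClause_of_hasHopfOrder (h.hasHopfOrder.of_surjective π hπ hπ')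

/-- The finite-flat clause passes to products. -/
theorem FlatClause.prod [Fact l.Prime] [Finite V] [Finite W] {act : GQ → V → V}
    {actW : GQ → W → W} (h : FlatClause l V act) (h' : FlatClause l W actW) :
    FlatClause l (V × W) (fun σ x => (act σ x.1, actW σ x.2)) :=
  flatClause_of_hasHopfOrder (h.hasHopfOrder.prod h'.hasHopfOrder)

/-- The finite-flat clause passes to finite powers. -/
theorem FlatClause.pi [Fact l.Prime] [Finite V] {act : GQ → V → V} (h : FlatClause l V act)
    (n : ℕ) : FlatClause l (Fin n → V) (fun σ x i => act σ (x i)) :=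
  flatClause_of_hasHopfOrder (h.hasHopfOrder.pi n)

/-- The finite-flat clause passes to Galois subquotients. -/
theorem FlatClause.subquotient [Fact l.Prime] [Finite V] {act : GQ → V → V}
    {actW : GQ → W → W} {actQ : GQ → Q → Q} (h : FlatClause l V act)
    (ι : W →+ V) (hι : Function.Injective ι)
    (hι' : ∀ (σ : GQ) (w : W), ι (actW σ w) = act σ (ι w))
    (π : W →+ Q) (hπ : Function.Surjective π)
    (hπ' : ∀ (σ : GQ) (w : W), π (actW σ w) = actQ σ (π w)) : FlatClause l Q actQ :=
  have : Finite W := Finite.of_injective ι hι
  (h.subgroup ι hι hι').quotient π hπ hπ'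

/-- The finite-flat clause passes to Galois subquotients of finite powers. -/
theorem FlatClause.subquotient_pi [Fact l.Prime] [Finite V] {act : GQ → V → V}
    {actW : GQ → W → W} {actQ : GQ → Q → Q} (h : FlatClause l V act) (n : ℕ)
    (ι : W →+ (Fin n → V)) (hι : Function.Injective ι)
    (hι' : ∀ (σ : GQ) (w : W) (i : Fin n), ι (actW σ w) i = act σ (ι w i))
    (π : W →+ Q) (hπ : Function.Surjective π)
    (hπ' : ∀ (σ : GQ) (w : W), π (actW σ w) = actQ σ (π w)) : FlatClause l Q actQ :=
  (h.pi n).subquotient ι hι (fun σ w => funext fun i => hι' σ w i) π hπ hπ'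

/-- A trivial module satisfies the finite-flat clause. -/
theorem flatClause_of_subsingleton [Fact l.Prime] [Subsingleton V] (act : GQ → V → V) :
    FlatClause l V act :=
  have : Finite V := Finite.of_subsingleton
  flatClause_of_hasHopfOrder (hasHopfOrder_of_subsingleton act)

end Fermat.Agent.Padic
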