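import Mathlib
import Fermat.Agent.Padic.GenusGe
import Fermat.Agent.Lib.Red.InstGenusGAJN
import Fermat.Agent.ESJ.Red.R1Haupt

/-!
# PADIC (GR): the genus is preserved under reduction, in all good cases

From the Prelude's `ReductionInputsModL A N` alone (a place reduction `r` with the Prelude
specification), for a valuation ring `A` of `ℚ̄` over a prime `ℓ ∤ N`:

`genusFF κ F̃_N = genusFF ℚ̄ (ℚ̄·F_N)`   (`κ` the residue field of `A`)

whenever a good base function exists at the level `N` itself, i.e. `ℓ ≥ 5` (base `J(q^N)`),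
or `ℓ = 3` and `2 ∣ N` (Hauptmodul of level `2`), or `ℓ = 2` and `3 ∣ N` (Hauptmodul of level `3`).

* `≤` : `Padic.genusFF_le_of_reductionInputsModL` (semicontinuity of `l(D)`);
* `≥` : route G-A (`GenusGA.genusFF_le_of_five_le`, `R1Haupt.genusFF_le_haupt2/3`): the different
  can only grow under `r`.
-/

set_option autoImplicit false
set_option linter.style.haveILetI false

namespace Fermat.Agent.Padic

open ModularCurve AlgebraicCurve Fermat.Agent.Lib.Red

set_option synthInstance.maxHeartbeats 400000 in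
set_option maxHeartbeats 1000000 in
/-- The genus inequality `g ≤ g̃` (route G-A) in all good cases, for every place reduction. -/
theorem genusFF_le_of_good (N ℓ : ℕ) [NeZero N] (hℓ : ℓ.Prime) (hℓN : ¬ ℓ ∣ N)
    (hgood : 5 ≤ ℓ ∨ (ℓ = 3 ∧ 2 ∣ N) ∨ (ℓ = 2 ∧ 3 ∣ N))
    (A : ValuationSubring (AlgebraicClosure ℚ)) (hA : A.LiesOverPrime ℓ)
    (r : Place (AlgebraicClosure ℚ) ↥(modularFunctionFieldBar N) →
      Place (IsLocalRing.ResidueField A)
        ↥(modularFunctionFieldFullC (IsLocalRing.ResidueField A) N))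
    (hr : IsPlaceReductionModL A N r) :
    genusFF (AlgebraicClosure ℚ) ↥(modularFunctionFieldBar N) ≤
      genusFF (IsLocalRing.ResidueField A)
        ↥(modularFunctionFieldFullC (IsLocalRing.ResidueField A) N) := by
  rcases hgood with h5 | ⟨rfl, h2⟩ | ⟨rfl, h3⟩
  · exact GenusGA.genusFF_le_of_five_le N ℓ hℓ hℓN h5 A hA r hr
  · obtain ⟨m, hm⟩ := h2
    have hM : N = m * 2 := by omega
    haveI : NeZero m := ⟨by
      rintro rfl
      exact NeZero.ne N (by simpa using hM)⟩
    exact R1Haupt.genusFF_le_haupt2 A N m hM hA hℓN r hr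
  · obtain ⟨m, hm⟩ := h3
    have hM : N = m * 3 := by omega
    haveI : NeZero m := ⟨by
      rintro rfl
      exact NeZero.ne N (by simpa using hM)⟩
    exact R1Haupt.genusFF_le_haupt3 A N m hM hA hℓN r hr

/-- `N` is invertible in the residue field of a valuation ring over `ℓ ∤ N`. -/
theorem natCast_residue_ne_zero (N ℓ : ℕ) (hℓ : ℓ.Prime) (hℓN : ¬ ℓ ∣ N)
    (A : ValuationSubring (AlgebraicClosure ℚ)) (hA : A.LiesOverPrime ℓ) :
    (N : IsLocalRing.ResidueField A) ≠ 0 :=
  R1Haupt.natCast_residue_ne_zero_of_not_dvd A hℓ hA hℓN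

set_option synthInstance.maxHeartbeats 400000 in
set_option maxHeartbeats 1000000 in
/-- **The genus is preserved under reduction** in all good cases, from the Prelude's
`ReductionInputsModL A N` alone. -/
theorem genusFF_eq_of_good (N ℓ : ℕ) [NeZero N] (hℓ : ℓ.Prime) (hℓN : ¬ ℓ ∣ N)
    (hgood : 5 ≤ ℓ ∨ (ℓ = 3 ∧ 2 ∣ N) ∨ (ℓ = 2 ∧ 3 ∣ N))
    (A : ValuationSubring (AlgebraicClosure ℚ)) (hA : A.LiesOverPrime ℓ)
    (h : ReductionInputsModL A N) :
    genusFF (IsLocalRing.ResidueField A)
        ↥(modularFunctionFieldFullC (IsLocalRing.ResidueField A) N) =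
      genusFF (AlgebraicClosure ℚ) ↥(modularFunctionFieldBar N) := by
  refine le_antisymm
    (genusFF_le_of_reductionInputsModL A N (natCast_residue_ne_zero N ℓ hℓ hℓN A hA) h) ?_
  obtain ⟨r, hr, -⟩ := h
  exact genusFF_le_of_good N ℓ hℓ hℓN hgood A hA r hr

end Fermat.Agent.Padic
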