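import Mathlib
import Fermat.Agent.Padic.Defs
import Fermat.Agent.Padic.GenusEq
import Fermat.Agent.Lib.FrobeniusExists

/-!
# PADIC (GR): good reduction data from a place reduction

`GoodRed A N` (level invertible, `ReductionInputsModL A N`, genus preserved) follows from
`ReductionInputsModL A N` alone in all good cases (`ℓ ≥ 5`, or `ℓ = 3` and `2 ∣ N`, or `ℓ = 2`
and `3 ∣ N`): the genus equality is `Padic.genusFF_eq_of_good`.

* `goodRed_of_inputs` : `ReductionInputsModL A N → GoodRed A N` in the good cases;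
* `gr_of_reductionInputs` : the layer statement `GR` from the existence of place reductions
  (ESJ's R2) in the good cases.
-/

set_option autoImplicit false

namespace Fermat.Agent.Padic

open ModularCurve AlgebraicCurve

/-- **Good reduction data from a place reduction**, in all good cases. -/
theorem goodRed_of_inputs (N ℓ : ℕ) [NeZero N] (hℓ : ℓ.Prime) (hℓN : ¬ ℓ ∣ N)
    (hgood : 5 ≤ ℓ ∨ (ℓ = 3 ∧ 2 ∣ N) ∨ (ℓ = 2 ∧ 3 ∣ N))
    (A : ValuationSubring (AlgebraicClosure ℚ)) (hA : A.LiesOverPrime ℓ)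
    (h : ReductionInputsModL A N) : GoodRed A N :=
  ⟨natCast_residue_ne_zero N ℓ hℓ hℓN A hA, h, genusFF_eq_of_good N ℓ hℓ hℓN hgood A hA h⟩

/-- **(GR)** from the existence of place reductions (R2) in the good cases, for ONE valuation
subring over each prime. -/
theorem gr_of_reductionInputs_exists
    (hR2 : ∀ (N ℓ : ℕ) (_ : NeZero N), ℓ.Prime → ¬ ℓ ∣ N →
      (5 ≤ ℓ ∨ (ℓ = 3 ∧ 2 ∣ N) ∨ (ℓ = 2 ∧ 3 ∣ N)) →
      ∃ A : ValuationSubring (AlgebraicClosure ℚ), A.LiesOverPrime ℓ ∧ ReductionInputsModL A N) :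
    GR := by
  intro N ℓ _ hℓ hℓN hgood
  obtain ⟨A, hA, h⟩ := hR2 N ℓ inferInstance hℓ hℓN hgood
  exact ⟨A, hA, goodRed_of_inputs N ℓ hℓ hℓN hgood A hA h⟩

/-- **(GR)** from the existence of place reductions (R2) in the good cases, for ALL valuation
subrings over the prime. -/
theorem gr_of_reductionInputs
    (hR2 : ∀ (N ℓ : ℕ) (_ : NeZero N), ℓ.Prime → ¬ ℓ ∣ N →
      (5 ≤ ℓ ∨ (ℓ = 3 ∧ 2 ∣ N) ∨ (ℓ = 2 ∧ 3 ∣ N)) →
      ∀ A : ValuationSubring (AlgebraicClosure ℚ), A.LiesOverPrime ℓ → ReductionInputsModL A N) :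
    GR := by
  refine gr_of_reductionInputs_exists fun N ℓ _ hℓ hℓN hgood => ?_
  obtain ⟨A, hA⟩ := Fermat.Agent.Lib.FrobeniusExists.exists_liesOverPrime hℓ
  exact ⟨A, hA, hR2 N ℓ inferInstance hℓ hℓN hgood A hA⟩

end Fermat.Agent.Padic
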