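import Mathlib
import Fermat.Agent.Padic.GoodRedOf
import Fermat.Agent.ESJ.Red.R2Good

/-!
# PADIC (GR): good reduction data exist at every good pair — unconditional

`GoodRed A N` for every valuation subring `A` of `ℚ̄` over a prime `ℓ ∤ N` with `ℓ ≥ 5`, or
`ℓ = 3` and `2 ∣ N`, or `ℓ = 2` and `3 ∣ N`:

* `inputs` : `ESJ.reductionInputsModL_good` (R2: PLACE + DISC);
* `genus`  : `Padic.genusFF_eq_of_good` (GenusGe + route G-A).

`gr : GR` is the layer statement of `Padic/Defs.lean`.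
-/

set_option autoImplicit false

namespace Fermat.Agent.Padic

open ModularCurve AlgebraicCurve

/-- **Good reduction data at every good pair**, for every valuation subring over `ℓ`. -/
theorem goodRed_good (N ℓ : ℕ) [NeZero N] (hℓ : ℓ.Prime) (hℓN : ¬ ℓ ∣ N)
    (hgood : 5 ≤ ℓ ∨ (ℓ = 3 ∧ 2 ∣ N) ∨ (ℓ = 2 ∧ 3 ∣ N))
    (A : ValuationSubring (AlgebraicClosure ℚ)) (hA : A.LiesOverPrime ℓ) : GoodRed A N :=
  goodRed_of_inputs N ℓ hℓ hℓN hgood A hA
    (Fermat.Agent.ESJ.reductionInputsModL_good N ℓ hℓ hℓN hgood A hA)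

set_option synthInstance.maxHeartbeats 400000 in
/-- **The genus of `X₀(N)` is preserved under reduction** at every good pair. -/
theorem genusFF_eq_good (N ℓ : ℕ) [NeZero N] (hℓ : ℓ.Prime) (hℓN : ¬ ℓ ∣ N)
    (hgood : 5 ≤ ℓ ∨ (ℓ = 3 ∧ 2 ∣ N) ∨ (ℓ = 2 ∧ 3 ∣ N))
    (A : ValuationSubring (AlgebraicClosure ℚ)) (hA : A.LiesOverPrime ℓ) :
    genusFF (IsLocalRing.ResidueField A)
        ↥(modularFunctionFieldFullC (IsLocalRing.ResidueField A) N) =
      genusFF (AlgebraicClosure ℚ) ↥(modularFunctionFieldBar N) :=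
  (goodRed_good N ℓ hℓ hℓN hgood A hA).genus

/-- **(GR)**: the layer statement of the PADIC build, unconditionally. -/
theorem gr : GR :=
  gr_of_reductionInputs fun N ℓ _ hℓ hℓN hgood A hA =>
    Fermat.Agent.ESJ.reductionInputsModL_good N ℓ hℓ hℓN hgood A hA

end Fermat.Agent.Padic
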