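import Mathlib
import Fermat.Agent.Padic.GoodRedFinal

/-!
# PADIC (GR), unconditional — alias file

The unconditional statements live in `Fermat/Agent/Padic/GoodRedFinal.lean`
(`Padic.goodRed_good`, `Padic.genusFF_eq_good`, `Padic.gr`).  This file only keeps the alias
`gr_main` (same statement as `Padic.gr`), so that both file names can be imported together.
-/

set_option autoImplicit false

namespace Fermat.Agent.Padic

/-- **(GR)**, unconditionally (alias of `Padic.gr`). -/
theorem gr_main : GR := gr

end Fermat.Agent.Padic
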