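import Fermat.Agent.Padic.Defs

/-!
# PADIC — `GoodRed A N`

The structure `Fermat.Agent.Padic.GoodRed` (fields `level`, `inputs`, `genus`) is declared in
`Fermat/Agent/Padic/Defs.lean` (the interface file of the PADIC build).  This file only
re-exports it, so that `import Fermat.Agent.Padic.GoodRed` and `import Fermat.Agent.Padic.Defs`
give the same declaration (no duplicate name).

* `level`   : `N` is invertible in the residue field of `A`  (`ℓ ∤ N`);
* `inputs`  : the Prelude's `ReductionInputsModL A N`  (RED's R2);
* `genus`   : `genusFF (F~) = genusFF (F)` — RED's GEN (`g ≤ g~`) together with
              `Padic/GenusGe.lean` (`g~ ≤ g`, a theorem from `inputs`).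

Everything else the PADIC build needs from the reduction layer (the Gauss valuation ring `Ow`,
its residue map `redF` onto `F~`, the spec for all of `Ow`, surjectivity and uniqueness of `r`,
equivariance under the decomposition group, `IsFF1`/Riemann–Roch on both sides, lattices) is a
theorem on main.
-/
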