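/-
`Fermat.Agent.Padic.KMCoordOfBases` (helper16, PADIC): the coordinate data `KMCoord` of
`Padic/KMAdd.lean` from bases and structure constants.
-/
import Mathlib
import Fermat.Agent.Padic.KMAdd

set_option autoImplicit false

noncomputable section

namespace Fermat.Agent.Padic.KMAdd

open AlgebraicCurve Module
open Fermat.Agent.Lib.LinAlg.Family

variable {K F : Type*} [Field K] [Field F] [Algebra K F]

/-- Structure constants give multiplicativity of the coordinate maps `v ↦ ∑ i, v i • e i`. -/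
theorem linearCombination_mulTab {ι ι' κ : Type*} [Fintype ι] [Fintype ι'] [Fintype κ]
    (c : κ → ι → ι' → K) (e : ι → F) (e' : ι' → F) (e'' : κ → F)
    (h : ∀ i j, e i * e' j = ∑ k, c k i j • e'' k) (v : ι → K) (w : ι' → K) :
    Fintype.linearCombination K e'' (mulTab c v w) =
      Fintype.linearCombination K e v * Fintype.linearCombination K e' w := by
  simp only [Fintype.linearCombination_apply, mulTab, Finset.sum_mul, Finset.mul_sum,
    smul_mul_smul_comm, h, Finset.smul_sum, Finset.sum_smul, smul_smul]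
  rw [Finset.sum_comm]
  conv_rhs => rw [Finset.sum_comm]
  refine Finset.sum_congr rfl fun i _ => ?_
  rw [Finset.sum_comm]
  refine Finset.sum_congr rfl fun j _ => Finset.sum_congr rfl fun k _ => ?_
  congr 1
  ring

/-- **Coordinates from bases and structure constants** (the form produced by lattice bases):
families `e₁` (basis of `L(E)`), `e₂` (independent, containing the products `e₁ i * e₁ j`),
`f₁` (spanning `L(E - B)`), `f₂` (basis of `L(2E - B)`), `f₄` (independent, containing the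
products `f₂ i * e₂ j`), with structure constants `a`, `b`, `c`. -/
def KMCoord.ofBases (E B : Divisor K F)
    {I₁ I₂ J₁ J₂ J₄ : Type*} [Fintype I₁] [Fintype I₂] [Fintype J₁] [Fintype J₂] [Fintype J₄]
    (a : I₂ → I₁ → I₁ → K) (b : J₂ → I₁ → J₁ → K) (c : J₄ → J₂ → I₂ → K)
    (e₁ : I₁ → F) (e₂ : I₂ → F) (f₁ : J₁ → F) (f₂ : J₂ → F) (f₄ : J₄ → F)
    (he₁ : LinearIndependent K e₁) (he₂ : LinearIndependent K e₂)
    (hf₂ : LinearIndependent K f₂) (hf₄ : LinearIndependent K f₄)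
    (hs₁ : Submodule.span K (Set.range e₁) = riemannRochSpace E)
    (ht₁ : Submodule.span K (Set.range f₁) = riemannRochSpace (E - B))
    (ht₂ : Submodule.span K (Set.range f₂) = riemannRochSpace (2 • E - B))
    (ha : ∀ i j, e₁ i * e₁ j = ∑ k, a k i j • e₂ k)
    (hb : ∀ i j, e₁ i * f₁ j = ∑ k, b k i j • f₂ k)
    (hc : ∀ i j, f₂ i * e₂ j = ∑ k, c k i j • f₄ k) :
    KMCoord K F E B a b c where
  φ₁ := Fintype.linearCombination K e₁
  φ₂ := Fintype.linearCombination K e₂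
  ψ₁ := Fintype.linearCombination K f₁
  ψ₂ := Fintype.linearCombination K f₂
  ψ₄ := Fintype.linearCombination K f₄
  inj_φ₁ := linearIndependent_iff_injective_fintypeLinearCombination.1 he₁
  inj_φ₂ := linearIndependent_iff_injective_fintypeLinearCombination.1 he₂
  inj_ψ₂ := linearIndependent_iff_injective_fintypeLinearCombination.1 hf₂
  inj_ψ₄ := linearIndependent_iff_injective_fintypeLinearCombination.1 hf₄
  range_φ₁ := by rw [Fintype.range_linearCombination, hs₁]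
  range_ψ₁ := by rw [Fintype.range_linearCombination, ht₁]
  range_ψ₂ := by rw [Fintype.range_linearCombination, ht₂]
  mul_a := linearCombination_mulTab a e₁ e₁ e₂ ha
  mul_b := linearCombination_mulTab b e₁ f₁ f₂ hb
  mul_c := linearCombination_mulTab c f₂ e₂ f₄ hc

section Apply

variable {E B : Divisor K F}
  {I₁ I₂ J₁ J₂ J₄ : Type*} [Fintype I₁] [Fintype I₂] [Fintype J₁] [Fintype J₂] [Fintype J₄]
  {a : I₂ → I₁ → I₁ → K} {b : J₂ → I₁ → J₁ → K} {c : J₄ → J₂ → I₂ → K}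
  {e₁ : I₁ → F} {e₂ : I₂ → F} {f₁ : J₁ → F} {f₂ : J₂ → F} {f₄ : J₄ → F}
  (he₁ : LinearIndependent K e₁) (he₂ : LinearIndependent K e₂)
  (hf₂ : LinearIndependent K f₂) (hf₄ : LinearIndependent K f₄)
  (hs₁ : Submodule.span K (Set.range e₁) = riemannRochSpace E)
  (ht₁ : Submodule.span K (Set.range f₁) = riemannRochSpace (E - B))
  (ht₂ : Submodule.span K (Set.range f₂) = riemannRochSpace (2 • E - B))
  (ha : ∀ i j, e₁ i * e₁ j = ∑ k, a k i j • e₂ k)
  (hb : ∀ i j, e₁ i * f₁ j = ∑ k, b k i j • f₂ k)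
  (hc : ∀ i j, f₂ i * e₂ j = ∑ k, c k i j • f₄ k)

@[simp] theorem KMCoord.ofBases_φ₁ (v : I₁ → K) :
    (KMCoord.ofBases E B a b c e₁ e₂ f₁ f₂ f₄ he₁ he₂ hf₂ hf₄ hs₁ ht₁ ht₂ ha hb hc).φ₁ v =
      ∑ i, v i • e₁ i := rfl

end Apply


/-! ### Constant tables -/

section Const

variable {E B : Divisor K F}
  {I₁ I₂ J₁ J₂ J₄ : Type*} [Fintype I₁] [Fintype I₂] [Fintype J₁] [Fintype J₂] [Fintype J₄]
  {a a' : I₂ → I₁ → I₁ → K} {b b' : J₂ → I₁ → J₁ → K} {c c' : J₄ → J₂ → I₂ → K}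

/-- Transport of coordinate data along equalities of the tables. -/
def KMCoord.castTab (C : KMCoord K F E B a b c) (ha : a = a') (hb : b = b') (hc : c = c') :
    KMCoord K F E B a' b' c' :=
  ha ▸ hb ▸ hc ▸ C

@[simp] theorem KMCoord.castTab_φ₁ (C : KMCoord K F E B a b c) (ha : a = a') (hb : b = b')
    (hc : c = c') : (C.castTab ha hb hc).φ₁ = C.φ₁ := by
  subst ha hb hc
  rfl

end Const

open Fermat.Agent.Lib.FF in
/-- **Khuri-Makdisi addition in families, constant-table form**: the tables over `𝓡` specialise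
to FIXED tables `aK, bK, cK` at every point and `ak, bk, ck` at the closed point, and the
coordinate data are given for these fixed tables. -/
theorem exists_fam_add_const
    {𝓡 : Type*} [CommRing 𝓡] [IsLocalRing 𝓡]
    {K : Type*} [Field K] [Infinite K] {F : Type*} [Field F] [Algebra K F]
    {k : Type*} [Field k] [Infinite k] {F' : Type*} [Field F'] [Algebra k F']
    {P : Type*} (χ : P → 𝓡 →+* K) (hχ : ∀ r : 𝓡, (∀ p, χ p r = 0) → r = 0)
    (ρ : 𝓡 →+* k) (hρ : IsLocalHom ρ)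
    {x : F} (hF : IsFF1 K F x) {x' : F'} (hF' : IsFF1 k F' x')
    (hg : genusFF k F' = genusFF K F)
    (E B : Divisor K F) (E' B' : Divisor k F')
    (n : ℤ) (hn : 5 * (genusFF K F : ℤ) + 1 ≤ n)
    (hE : Divisor.degree E = n) (hE' : Divisor.degree E' = n)
    (hB : Divisor.degree B = genusFF K F) (hB' : Divisor.degree B' = genusFF k F')
    {I₁ I₂ J₁ J₂ J₄ : Type*} [Fintype I₁] [Fintype I₂] [Fintype J₁] [Fintype J₂] [Fintype J₄]
    (a : I₂ → I₁ → I₁ → 𝓡) (b : J₂ → I₁ → J₁ → 𝓡) (c : J₄ → J₂ → I₂ → 𝓡)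
    {aK : I₂ → I₁ → I₁ → K} {bK : J₂ → I₁ → J₁ → K} {cK : J₄ → J₂ → I₂ → K}
    (haK : ∀ p, Fam.mapTab (χ p) a = aK) (hbK : ∀ p, Fam.mapTab (χ p) b = bK)
    (hcK : ∀ p, Fam.mapTab (χ p) c = cK)
    {ak : I₂ → I₁ → I₁ → k} {bk : J₂ → I₁ → J₁ → k} {ck : J₄ → J₂ → I₂ → k}
    (hak : Fam.mapTab ρ a = ak) (hbk : Fam.mapTab ρ b = bk) (hck : Fam.mapTab ρ c = ck)
    (C : KMCoord K F E B aK bK cK) (C' : KMCoord k F' E' B' ak bk ck)
    (W₁ W₂ : Fam 𝓡 I₁)
    (D₁ D₂ D₃ : P → Divisor K F) (D₁' D₂' D₃' : Divisor k F')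
    (h₁ : ∀ p, (W₁.fib (χ p)).map C.φ₁ = riemannRochSpace (E - D₁ p))
    (h₂ : ∀ p, (W₂.fib (χ p)).map C.φ₁ = riemannRochSpace (E - D₂ p))
    (h₁' : (W₁.fib ρ).map C'.φ₁ = riemannRochSpace (E' - D₁'))
    (h₂' : (W₂.fib ρ).map C'.φ₁ = riemannRochSpace (E' - D₂'))
    (hD : ∀ p, KMTriple K F B (D₁ p) (D₂ p) (D₃ p))
    (hD' : KMTriple k F' B' D₁' D₂' D₃') :
    ∃ W₃ : Fam 𝓡 I₁,
      (∀ p, (W₃.fib (χ p)).map C.φ₁ = riemannRochSpace (E - D₃ p)) ∧
      (W₃.fib ρ).map C'.φ₁ = riemannRochSpace (E' - D₃') := by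
  obtain ⟨W₃, h3, h3'⟩ := exists_fam_add χ hχ ρ hρ hF hF' hg E B E' B' n hn hE hE' hB hB' a b c
    (fun p => C.castTab (haK p).symm (hbK p).symm (hcK p).symm)
    (C'.castTab hak.symm hbk.symm hck.symm) W₁ W₂ D₁ D₂ D₃ D₁' D₂' D₃'
    (fun p => by rw [KMCoord.castTab_φ₁]; exact h₁ p)
    (fun p => by rw [KMCoord.castTab_φ₁]; exact h₂ p)
    (by rw [KMCoord.castTab_φ₁]; exact h₁') (by rw [KMCoord.castTab_φ₁]; exact h₂') hD hD'
  refine ⟨W₃, fun p => ?_, ?_⟩
  · have h := h3 p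
    rwa [KMCoord.castTab_φ₁] at h
  · rwa [KMCoord.castTab_φ₁] at h3'

end Fermat.Agent.Padic.KMAdd
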