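/-
`Fermat.Agent.Padic.KMData` (helper16, PADIC): the one-call producer of the coordinate data of
`Padic/KMAdd.lean` (`KMCoord` on the generic and on the special fibre, with multiplication tables
with entries in the valuation ring) from lattice bases (`Padic/Lattice.lean`).
-/
import Mathlib
import Fermat.Agent.Padic.Lattice
import Fermat.Agent.Padic.KMCoordOfBases

set_option autoImplicit false

noncomputable section

namespace Fermat.Agent.Padic.KMAdd

open AlgebraicCurve Module Matrix
open Fermat.Agent.Lib.LinAlg.Family Fermat.Agent.Lib.FF.KMLemmas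

section Abstract

variable {L F k Ft : Type*} [Field L] [Field F] [Field k] [Field Ft] [Algebra L F] [Algebra k Ft]
  {A : ValuationSubring L} {O : ValuationSubring F} {red : O →+* Ft} {π : A →+* k}

/-- **The KMADD coordinate data on both fibres from five lattice bases.**  The tables have
entries in `A`; the generic table is their image in `L`, the special one their reduction. -/
theorem exists_kmCoord (h : RedData A O red π) {E B : Divisor L F} {E' B' : Divisor k Ft}
    {I₁ I₂ J₁ J₂ J₄ : Type*} [Fintype I₁] [Fintype I₂] [Fintype J₁] [Fintype J₂] [Fintype J₄]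
    {b₁ : I₁ → O} {b₂ : I₂ → O} {f₁ : J₁ → O} {f₂ : J₂ → O} {f₄ : J₄ → O}
    (hb₁ : IsLatBasis k red (riemannRochSpace E) b₁)
    (hb₂ : IsLatBasis k red (riemannRochSpace (2 • E)) b₂)
    (hf₁ : IsLatBasis k red (riemannRochSpace (E - B)) f₁)
    (hf₂ : IsLatBasis k red (riemannRochSpace (2 • E - B)) f₂)
    (hf₄ : IsLatBasis k red (riemannRochSpace (4 • E - B)) f₄)
    (hs₁ : Submodule.span k (Set.range fun i => red (b₁ i)) = riemannRochSpace E')
    (ht₁ : Submodule.span k (Set.range fun i => red (f₁ i)) = riemannRochSpace (E' - B'))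
    (ht₂ : Submodule.span k (Set.range fun i => red (f₂ i)) = riemannRochSpace (2 • E' - B')) :
    ∃ (a : I₂ → I₁ → I₁ → A) (b : J₂ → I₁ → J₁ → A) (c : J₄ → J₂ → I₂ → A)
      (C : KMCoord L F E B (fun k i j => (a k i j : L)) (fun k i j => (b k i j : L))
        (fun k i j => (c k i j : L)))
      (C' : KMCoord k Ft E' B' (fun k i j => π (a k i j)) (fun k i j => π (b k i j))
        (fun k i j => π (c k i j))),
      (∀ v, C.φ₁ v = ∑ i, v i • (b₁ i : F)) ∧ (∀ v, C'.φ₁ v = ∑ i, v i • red (b₁ i)) := by
  obtain ⟨a, -, haL, hak⟩ := IsLatBasis.exists_mulTable h hb₁ hb₁ hb₂ (fun x hx y hy => by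
    have := mul_mem_L hx hy
    rwa [← two_nsmul] at this)
  obtain ⟨b, -, hbL, hbk⟩ := IsLatBasis.exists_mulTable h hb₁ hf₁ hf₂ (fun x hx y hy => by
    have := mul_mem_L hx hy
    have e : E + (E - B) = 2 • E - B := by rw [two_nsmul]; abel
    rwa [e] at this)
  obtain ⟨c, -, hcL, hck⟩ := IsLatBasis.exists_mulTable h hf₂ hb₂ hf₄ (fun x hx y hy => by
    have := mul_mem_L hx hy
    have e : 2 • E - B + 2 • E = 4 • E - B := by
      rw [show (4 : ℕ) = 2 + 2 from rfl, add_nsmul]; abel
    rwa [e] at this)
  refine ⟨fun k i j => a i j k, fun k i j => b i j k, fun k i j => c i j k,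
    KMCoord.ofBases E B _ _ _ (fun i => (b₁ i : F)) (fun i => (b₂ i : F)) (fun i => (f₁ i : F))
      (fun i => (f₂ i : F)) (fun i => (f₄ i : F)) (hb₁.li h) (hb₂.li h) (hf₂.li h) (hf₄.li h)
      hb₁.span_eq hf₁.span_eq hf₂.span_eq haL hbL hcL,
    KMCoord.ofBases E' B' _ _ _ (fun i => red (b₁ i)) (fun i => red (b₂ i))
      (fun i => red (f₁ i)) (fun i => red (f₂ i)) (fun i => red (f₄ i)) hb₁.redli hb₂.redli
      hf₂.redli hf₄.redli hs₁ ht₁ ht₂ hak hbk hck, fun v => rfl, fun v => rfl⟩

/-- **Inclusion matrix** of a lattice basis `b` of `W ≤ W₁` in a lattice basis `b₁` of `W₁`: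
a matrix over `A` whose columns span, over `L`, the coordinates of `W` and, over `k`, the
coordinates of the span of the reductions; both base changes have full column rank. -/
theorem exists_inclMatrix (h : RedData A O red π) {W₁ W : Submodule L F}
    {I₁ ι : Type*} [Fintype I₁] [Fintype ι] {b₁ : I₁ → O} {b : ι → O}
    (hb₁ : IsLatBasis k red W₁ b₁) (hb : IsLatBasis k red W b) (hle : W ≤ W₁) :
    ∃ M : Matrix I₁ ι A,
      LinearMap.range (M.map A.subtype).mulVecLin =
        W.comap (Fintype.linearCombination L (fun i => (b₁ i : F))) ∧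
      LinearMap.range (M.map π).mulVecLin =
        (Submodule.span k (Set.range fun i => red (b i))).comap
          (Fintype.linearCombination k (fun i => red (b₁ i))) ∧
      Function.Injective (M.map A.subtype).mulVecLin ∧
      Function.Injective (M.map π).mulVecLin := by
  obtain ⟨c, -, hcL, hck⟩ := IsLatBasis.exists_inclTable h hb hb₁ hle
  -- the two coordinate identities
  have keyL : ∀ x : ι → L, Fintype.linearCombination L (fun i => (b₁ i : F))
      ((Matrix.of fun l i => ((c i l : A) : L)) *ᵥ x) =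
      Fintype.linearCombination L (fun i => (b i : F)) x := by
    intro x
    simp only [Fintype.linearCombination_apply, Matrix.mulVec, dotProduct, Matrix.of_apply,
      Finset.sum_smul]
    rw [Finset.sum_comm]
    refine Finset.sum_congr rfl fun i _ => ?_
    rw [hcL i, Finset.smul_sum]
    refine Finset.sum_congr rfl fun l _ => ?_
    rw [smul_smul, mul_comm]
  have keyk : ∀ x : ι → k, Fintype.linearCombination k (fun i => red (b₁ i))
      ((Matrix.of fun l i => π (c i l)) *ᵥ x) =
      Fintype.linearCombination k (fun i => red (b i)) x := by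
    intro x
    simp only [Fintype.linearCombination_apply, Matrix.mulVec, dotProduct, Matrix.of_apply,
      Finset.sum_smul]
    rw [Finset.sum_comm]
    refine Finset.sum_congr rfl fun i _ => ?_
    rw [hck i, Finset.smul_sum]
    refine Finset.sum_congr rfl fun l _ => ?_
    rw [smul_smul, mul_comm]
  have hinjL := hb₁.injective_linearCombination h
  have hinjk := hb₁.injective_linearCombination_red
  have hML : (Matrix.of fun l i => c i l : Matrix I₁ ι A).map A.subtype =
      Matrix.of fun l i => ((c i l : A) : L) := rfl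
  have hMk : (Matrix.of fun l i => c i l : Matrix I₁ ι A).map π =
      Matrix.of fun l i => π (c i l) := rfl
  refine ⟨Matrix.of fun l i => c i l, ?_, ?_, ?_, ?_⟩
  · rw [hML]
    ext y
    rw [Submodule.mem_comap, ← hb.range_linearCombination]
    constructor
    · rintro ⟨x, rfl⟩
      exact ⟨x, (keyL x).symm⟩
    · rintro ⟨x, hx⟩
      exact ⟨x, hinjL ((keyL x).trans hx)⟩
  · rw [hMk]
    ext y
    rw [Submodule.mem_comap, ← Fintype.range_linearCombination]
    constructor
    · rintro ⟨x, rfl⟩
      exact ⟨x, (keyk x).symm⟩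
    · rintro ⟨x, hx⟩
      exact ⟨x, hinjk ((keyk x).trans hx)⟩
  · rw [hML]
    intro x y hxy
    apply hb.injective_linearCombination h
    rw [← keyL x, ← keyL y]
    exact congrArg _ hxy
  · rw [hMk]
    intro x y hxy
    apply hb.injective_linearCombination_red
    rw [← keyk x, ← keyk y]
    exact congrArg _ hxy

end Abstract


section Comap

variable {K F : Type*} [Field K] [Field F] [Algebra K F] {E B : Divisor K F}
  {I₁ I₂ J₁ J₂ J₄ : Type*} [Fintype I₁] [Fintype I₂] [Fintype J₁] [Fintype J₂] [Fintype J₄]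
  {a : I₂ → I₁ → I₁ → K} {b : J₂ → I₁ → J₁ → K} {c : J₄ → J₂ → I₂ → K}

/-- The coordinates of `L(E - D)`, `D ≥ 0`: the preimage under `φ₁` maps onto `L(E - D)`. -/
theorem KMCoord.map_comap_φ₁ (C : KMCoord K F E B a b c) {D : Divisor K F} (hD : 0 ≤ D) :
    ((riemannRochSpace (E - D)).comap C.φ₁).map C.φ₁ = riemannRochSpace (E - D) := by
  rw [Submodule.map_comap_eq_of_le]
  rw [C.range_φ₁]
  exact L_mono (sub_le_self _ hD)

/-- The coordinates of a subspace of `L(E)`. -/
theorem KMCoord.map_comap_φ₁_of_le (C : KMCoord K F E B a b c) {M : Submodule K F}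
    (hM : M ≤ riemannRochSpace E) : (M.comap C.φ₁).map C.φ₁ = M := by
  rw [Submodule.map_comap_eq_of_le]
  rw [C.range_φ₁]
  exact hM

end Comap

section ModL

open ModularCurve Fermat.Agent.Lib.Red

variable {A : ValuationSubring (AlgebraicClosure ℚ)} {N : ℕ} [NeZero N]

set_option synthInstance.maxHeartbeats 400000 in
set_option maxHeartbeats 1000000 in
/-- **The KMADD coordinate data at a place of good reduction**, for a GIVEN lattice basis `b₁`
of `L(E)` (the other four lattice bases are chosen): there is a bound `c₀` (the one of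
`GoodRed.exists_bound`, whose conclusions are repeated) such that for `deg (E - B) ≥ c₀`,
`deg E ≥ 0`, `deg B ≥ 0` the tables with entries in `A` and both `KMCoord`s exist, with
`φ₁` the coordinate maps of `b₁` and of its reduction. -/
theorem GoodRed.exists_kmData (h : GoodRed A N)
    (r : AlgebraicCurve.Place (AlgebraicClosure ℚ) ↥(modularFunctionFieldBar N) →
      AlgebraicCurve.Place (IsLocalRing.ResidueField A)
        ↥(modularFunctionFieldFullC (IsLocalRing.ResidueField A) N))
    (hr : IsPlaceReductionModL A N r) :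
    ∃ c₀ : ℤ,
      (∀ B : AlgebraicCurve.Divisor (AlgebraicClosure ℚ) ↥(modularFunctionFieldBar N),
        c₀ ≤ AlgebraicCurve.Divisor.degree B →
        ((finrank (AlgebraicClosure ℚ) (riemannRochSpace B) : ℤ) =
          AlgebraicCurve.Divisor.degree B + 1 -
            genusFF (AlgebraicClosure ℚ) ↥(modularFunctionFieldBar N)) ∧
        ((finrank (IsLocalRing.ResidueField A) (riemannRochSpace (Finsupp.mapDomain r B)) : ℤ) =
          AlgebraicCurve.Divisor.degree B + 1 -
            genusFF (AlgebraicClosure ℚ) ↥(modularFunctionFieldBar N)) ∧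
        ∀ {ι : Type} [Fintype ι] (b : ι → OwA A N h.level),
          IsLatBasis (IsLocalRing.ResidueField A) (redA A N h.level) (riemannRochSpace B) b →
          Submodule.span (IsLocalRing.ResidueField A)
              (Set.range fun i => redA A N h.level (b i)) =
            riemannRochSpace (Finsupp.mapDomain r B) ∧
          (Fintype.card ι : ℤ) = AlgebraicCurve.Divisor.degree B + 1 -
            genusFF (AlgebraicClosure ℚ) ↥(modularFunctionFieldBar N)) ∧
      ∀ E B : AlgebraicCurve.Divisor (AlgebraicClosure ℚ) ↥(modularFunctionFieldBar N),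
        c₀ ≤ AlgebraicCurve.Divisor.degree (E - B) → 0 ≤ AlgebraicCurve.Divisor.degree B →
        0 ≤ AlgebraicCurve.Divisor.degree E →
        ∀ {I₁ : Type} [Fintype I₁] (b₁ : I₁ → OwA A N h.level),
          IsLatBasis (IsLocalRing.ResidueField A) (redA A N h.level) (riemannRochSpace E) b₁ →
          ∃ (d₂ e₁ e₂ e₄ : ℕ) (a : Fin d₂ → I₁ → I₁ → A) (b : Fin e₂ → I₁ → Fin e₁ → A)
            (c : Fin e₄ → Fin e₂ → Fin d₂ → A)
            (C : KMCoord (AlgebraicClosure ℚ) ↥(modularFunctionFieldBar N) E B
              (fun k i j => (a k i j : AlgebraicClosure ℚ))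
              (fun k i j => (b k i j : AlgebraicClosure ℚ))
              (fun k i j => (c k i j : AlgebraicClosure ℚ)))
            (C' : KMCoord (IsLocalRing.ResidueField A)
              ↥(modularFunctionFieldFullC (IsLocalRing.ResidueField A) N)
              (Finsupp.mapDomain r E) (Finsupp.mapDomain r B)
              (fun k i j => IsLocalRing.residue A (a k i j))
              (fun k i j => IsLocalRing.residue A (b k i j))
              (fun k i j => IsLocalRing.residue A (c k i j))),
            (∀ v, C.φ₁ v = ∑ i, v i • ((b₁ i : ↥(modularFunctionFieldBar N)))) ∧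
            (∀ v, C'.φ₁ v = ∑ i, v i • redA A N h.level (b₁ i)) := by
  obtain ⟨c₀, hc₀⟩ := h.exists_bound r hr
  refine ⟨c₀, hc₀, fun E B hEB hB hE I₁ _ b₁ hb₁ => ?_⟩
  have hdE : AlgebraicCurve.Divisor.degree (E - B) =
      AlgebraicCurve.Divisor.degree E - AlgebraicCurve.Divisor.degree B := map_sub _ _ _
  have hd2 : AlgebraicCurve.Divisor.degree (2 • E) = 2 * AlgebraicCurve.Divisor.degree E := by
    rw [map_nsmul]; simp
  have hd2B : AlgebraicCurve.Divisor.degree (2 • E - B) =
      2 * AlgebraicCurve.Divisor.degree E - AlgebraicCurve.Divisor.degree B := by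
    rw [map_sub, hd2]
  obtain ⟨d₂, b₂, hb₂⟩ := h.exists_latBasis (2 • E)
  obtain ⟨e₁, f₁, hf₁⟩ := h.exists_latBasis (E - B)
  obtain ⟨e₂, f₂, hf₂⟩ := h.exists_latBasis (2 • E - B)
  obtain ⟨e₄, f₄, hf₄⟩ := h.exists_latBasis (4 • E - B)
  have hs₁ := ((hc₀ E (by omega)).2.2 b₁ hb₁).1
  have ht₁ := ((hc₀ (E - B) hEB).2.2 f₁ hf₁).1
  have ht₂ := ((hc₀ (2 • E - B) (by omega)).2.2 f₂ hf₂).1
  have em₁ : Finsupp.mapDomain r (E - B) = Finsupp.mapDomain r E - Finsupp.mapDomain r B :=
    map_sub (Finsupp.mapDomain.addMonoidHom r) E B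
  have em₂ : Finsupp.mapDomain r (2 • E - B) =
      2 • Finsupp.mapDomain r E - Finsupp.mapDomain r B := by
    have e1 := map_sub (Finsupp.mapDomain.addMonoidHom r) (2 • E) B
    have e2 := map_nsmul (Finsupp.mapDomain.addMonoidHom r) 2 E
    simp only [Finsupp.mapDomain.addMonoidHom_apply] at e1 e2
    rw [e1, e2]
  rw [em₁] at ht₁
  rw [em₂] at ht₂
  obtain ⟨a, b, c, C, C', hC, hC'⟩ :=
    exists_kmCoord (redData_A A N h.level) hb₁ hb₂ hf₁ hf₂ hf₄ hs₁ ht₁ ht₂
  exact ⟨d₂, e₁, e₂, e₄, a, b, c, C, C', hC, hC'⟩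

end ModL

end Fermat.Agent.Padic.KMAdd
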