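import Mathlib
import Fermat.Agent.ESJ.Cong.LevelPull
import Fermat.Agent.ESJ.Jac.Main
import Fermat.Agent.ESJ.Rep.TateLevel

/-!
# PADIC P-23 (core): `J₀(N)[lᵏ]` as an equivariant quotient of a finite stable subgroup of
`J₀(N q)` when `q + 1 = lᵃ`

For a prime `q ∤ N` with `q + 1 = l ^ a`, the pull-back `π : J₀(N) → J₀(N q)` has kernel killed
by `l ^ a` (`ESJ.Cong.LevelPull.levelPullback_mul_prime`), and the `l`-power torsion of `J₀(N)` is
divisible (level maps of the Kummer model).  Hence `J₀(N)[lᵏ]` is the image of the finite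
Galois-stable subgroup `V := π (J₀(N)[l^(k+a)]) ≤ J₀(N q)` under the equivariant additive map
`π u ↦ l ^ a • u`.

* `exists_div_torsion` : divisibility of the `l`-power torsion of `J₀(N)`;
* `exists_quotient_data` : the subgroup `V`, the map `φ : V →+ J₀(N)` and its properties.
-/

set_option autoImplicit false

namespace Fermat.Agent.Padic.Level23

open ModularCurve AlgebraicCurve

local notation "GQ" => (AlgebraicClosure ℚ ≃ₐ[ℚ] AlgebraicClosure ℚ)

/-- The Galois action on `J₀(N)` commutes with multiplication by a natural number. -/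
theorem galois_smul_nsmul (N : ℕ) (σ : GQ) (n : ℕ) (x : JZero N) :
    σ • (n • x) = n • (σ • x) :=
  map_nsmul (DistribSMul.toAddMonoidHom (JZero N) σ) n x

/-- The Galois action on `J₀(N)` fixes `0`. -/
theorem galois_smul_zero (N : ℕ) (σ : GQ) : σ • (0 : JZero N) = 0 :=
  map_zero (DistribSMul.toAddMonoidHom (JZero N) σ)

/-- **Divisibility of the `l`-power torsion of `J₀(N)`**: every point killed by `l ^ k` is
`l ^ a` times a point killed by `l ^ (k + a)`. -/
theorem exists_div_torsion (N l : ℕ) [NeZero N] [Fact l.Prime] (k a : ℕ) (x : JZero N)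
    (hx : l ^ k • x = 0) : ∃ y : JZero N, l ^ (k + a) • y = 0 ∧ l ^ a • y = x := by
  obtain ⟨π, hK, hS, hC, -⟩ := Fermat.Agent.ESJ.Rep.TateLevel.exists_levelMaps_of_kummerCmp
    (Fermat.Agent.ESJ.kummerCmp N l (Fact.out : l.Prime).pos)
  obtain ⟨t, rfl⟩ := hS k x hx
  have hCa : ∀ (b n : ℕ) (s : _), l ^ b • π (n + b) s = π n s := by
    intro b
    induction b with
    | zero => intro n s; simp
    | succ b ih =>
      intro n s
      rw [pow_succ, mul_nsmul', ← add_assoc, hC, ih]
  refine ⟨π (k + a) t, ?_, hCa a k t⟩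
  rw [← map_nsmul]
  refine (hK (k + a) _).mpr ⟨t, ?_⟩
  rw [← Nat.cast_smul_eq_nsmul ℤ_[l]]
  push_cast
  rfl

set_option synthInstance.maxHeartbeats 400000 in
set_option maxHeartbeats 1000000 in
/-- **P-23 core.** For a prime `q ∤ N` with `q + 1 = l ^ a`: a finite Galois-stable subgroup
`V ≤ J₀(N q)` and an equivariant additive map `φ : V →+ J₀(N)` with image exactly the
`l ^ k`-torsion of `J₀(N)`. -/
theorem exists_quotient_data (N q l a : ℕ) [NeZero N] [NeZero (N * q)] (hq : q.Prime)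
    (hqN : ¬ q ∣ N) [Fact l.Prime] (hql : q + 1 = l ^ a) (k : ℕ) :
    ∃ (V : AddSubgroup (JZero (N * q)))
      (hV : ∀ (σ : GQ) (x : JZero (N * q)), x ∈ V → σ • x ∈ V) (φ : V →+ JZero N),
      Finite V ∧ (∀ v : V, l ^ k • φ v = 0) ∧
      (∀ x : JZero N, l ^ k • x = 0 → ∃ v : V, φ v = x) ∧
      (∀ (σ : GQ) (v : V), φ ⟨σ • (v : JZero (N * q)), hV σ v v.2⟩ = σ • φ v) := by
  have hl : l.Prime := Fact.out
  obtain ⟨π, hπG, -, hπker⟩ := Fermat.Agent.ESJ.Cong.levelPullback_mul_prime N q hq hqN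
  -- `π u = π u'` implies `l ^ a • u = l ^ a • u'`
  have hwd : ∀ u u' : JZero N, π u = π u' → l ^ a • u = l ^ a • u' := by
    intro u u' h
    have h0 : π (u - u') = 0 := by rw [map_sub, h, sub_self]
    have h1 := hπker _ h0
    rw [hql, nsmul_sub, sub_eq_zero] at h1
    exact h1
  -- the torsion subgroup upstairs
  set T : AddSubgroup (JZero N) :=
    Pic0.torsion (AlgebraicClosure ℚ) (modularFunctionFieldBar N) (l ^ (k + a)) with hT
  have hmemT : ∀ u : JZero N, u ∈ T ↔ l ^ (k + a) • u = 0 := by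
    intro u
    rw [hT, Pic0.mem_torsion, natCast_zsmul]
  have hTfin : (T : Set (JZero N)).Finite :=
    Fermat.Agent.ESJ.torsionFinite N (l ^ (k + a)) (pow_pos hl.pos _)
  have hTG : ∀ (σ : GQ) (u : JZero N), u ∈ T → σ • u ∈ T := by
    intro σ u hu
    rw [hmemT] at hu ⊢
    rw [← galois_smul_nsmul, hu]
    exact galois_smul_zero N σ
  set V : AddSubgroup (JZero (N * q)) := T.map π with hVdef
  have hV : ∀ (σ : GQ) (x : JZero (N * q)), x ∈ V → σ • x ∈ V := by
    rintro σ x ⟨u, hu, rfl⟩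
    exact ⟨σ • u, hTG σ u hu, hπG σ u⟩
  have hVfin : Finite V := by
    have h1 : ((V : AddSubgroup (JZero (N * q))) : Set (JZero (N * q))) = π '' (T : Set (JZero N)) :=
      rfl
    have h2 : ((V : AddSubgroup (JZero (N * q))) : Set (JZero (N * q))).Finite := by
      rw [h1]
      exact hTfin.image _
    exact h2.to_subtype
  -- choice of preimages
  have hex : ∀ v : V, ∃ u : JZero N, u ∈ T ∧ π u = (v : JZero (N * q)) := fun v => v.2
  choose u hu hπu using hex
  have hφadd : ∀ v w : V, l ^ a • u (v + w) = l ^ a • u v + l ^ a • u w := by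
    intro v w
    rw [← nsmul_add]
    apply hwd
    rw [map_add, hπu, hπu, hπu]
    rfl
  refine ⟨V, hV, AddMonoidHom.mk' (fun v => l ^ a • u v) hφadd, hVfin, ?_, ?_, ?_⟩
  · intro v
    show l ^ k • l ^ a • u v = 0
    rw [← mul_nsmul', ← pow_add]
    exact (hmemT _).mp (hu v)
  · intro x hx
    obtain ⟨y, hy1, hy2⟩ := exists_div_torsion N l k a x hx
    refine ⟨⟨π y, y, (hmemT y).mpr hy1, rfl⟩, ?_⟩
    show l ^ a • u _ = x
    rw [← hy2]
    apply hwd
    rw [hπu]
  · intro σ v
    show l ^ a • u _ = σ • (l ^ a • u v)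
    rw [galois_smul_nsmul]
    apply hwd
    rw [hπu, hπG, hπu]

end Fermat.Agent.Padic.Level23
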