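import Mathlib
import Fermat.Agent.Padic.Defs
import Fermat.Agent.Padic.Level23Core
import Fermat.Agent.Lib.FinFlat.Quotient

/-!
# PADIC P-23: S19 at `l ∈ {2, 3}` — the level-`N q` transfer

`FlatSubgroups l (N q) ⟹ FlatTorsion N l` for a prime `q ∤ N` with `q + 1 = l ^ a`
(VARIANT B of the task row: no new geometry).  `J₀(N)[lᵏ]` is an equivariant quotient of the
finite Galois-stable subgroup `π (J₀(N)[l^(k+a)]) ≤ J₀(N q)` (`Level23Core.exists_quotient_data`),
and having a Hopf order passes to equivariant quotients (`QuotientClosure`, the statement of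
`Lib.FinFlat.HasHopfOrder.of_surjective`).

* `QuotientClosure` : the quotient closure of Hopf orders, as a `Prop`;
* `flatTorsion_of_flatSubgroups_mul` : the transfer, given `QuotientClosure`;
* `l23_of_quotientClosure : QuotientClosure → L23`;
* `quotientClosure : QuotientClosure` (from `Lib/FinFlat/Quotient.lean`) and `l23 : L23`.
-/

set_option autoImplicit false

namespace Fermat.Agent.Padic

open ModularCurve AlgebraicCurve Fermat.Agent.Lib.FinFlat

/-- **Quotient closure of Hopf orders** (the statement of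
`Lib.FinFlat.HasHopfOrder.of_surjective`): an equivariant quotient of a finite Galois module with
a Hopf order has a Hopf order. -/
def QuotientClosure : Prop :=
  ∀ (p : ℕ) (_ : Fact p.Prime) (V Q : Type) (_ : AddCommGroup V) (_ : AddCommGroup Q)
    (_ : Finite V) (act : GQ → V → V) (actQ : GQ → Q → Q) (π : V →+ Q),
    Function.Surjective π → (∀ (σ : GQ) (v : V), π (act σ v) = actQ σ (π v)) →
    HasHopfOrder p act → HasHopfOrder p actQ

/-- **P-23 (variant B).** For a prime `q ∤ N` with `q + 1 = l ^ a`: if every finite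
Galois-stable subgroup of `J₀(N q)` is finite flat at `l`, then so is `J₀(N)[lᵏ]` for every `k`
(the body of the frozen S19 at level `N`). -/
theorem flatTorsion_of_flatSubgroups_mul (hQ : QuotientClosure) (N q l a : ℕ) [NeZero N]
    (hq : q.Prime) (hqN : ¬ q ∣ N) [Fact l.Prime] (hql : q + 1 = l ^ a) :
    FlatSubgroups l (N * q) → FlatTorsion N l := by
  intro hF k
  have : NeZero (N * q) := ⟨Nat.mul_ne_zero (NeZero.ne N) hq.ne_zero⟩
  obtain ⟨V, hV, φ, hVfin, h1, h2, h3⟩ := Level23.exists_quotient_data N q l a hq hqN hql k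
  have := hVfin
  -- the target module and its action
  have hmem : ∀ x : JZero N, x ∈ Submodule.torsionBy ℤ (JZero N) ((l : ℤ) ^ k) ↔ l ^ k • x = 0 := by
    intro x
    rw [Submodule.mem_torsionBy_iff, ← Nat.cast_pow, natCast_zsmul]
  have hstab : ∀ (σ : GQ) (x : JZero N), x ∈ Submodule.torsionBy ℤ (JZero N) ((l : ℤ) ^ k) →
      σ • x ∈ Submodule.torsionBy ℤ (JZero N) ((l : ℤ) ^ k) := by
    intro σ x hx
    rw [hmem] at hx ⊢
    rw [← Level23.galois_smul_nsmul, hx]
    exact Level23.galois_smul_zero N σ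
  let actW : GQ → ↥(Submodule.torsionBy ℤ (JZero N) ((l : ℤ) ^ k)) →
      ↥(Submodule.torsionBy ℤ (JZero N) ((l : ℤ) ^ k)) :=
    fun σ w => ⟨σ • (w : JZero N), hstab σ w w.2⟩
  let φ' : V →+ ↥(Submodule.torsionBy ℤ (JZero N) ((l : ℤ) ^ k)) :=
    { toFun := fun v => ⟨φ v, (hmem _).mpr (h1 v)⟩
      map_zero' := Subtype.ext (map_zero φ)
      map_add' := fun v w => Subtype.ext (map_add φ v w) }
  have hφ'surj : Function.Surjective φ' := by
    intro w
    obtain ⟨v, hv⟩ := h2 w ((hmem _).mp w.2)
    exact ⟨v, Subtype.ext hv⟩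
  have hφ'eq : ∀ (σ : GQ) (v : V), φ' (subAct V hV σ v) = actW σ (φ' v) :=
    fun σ v => Subtype.ext (h3 σ v)
  have : Finite ↥(Submodule.torsionBy ℤ (JZero N) ((l : ℤ) ^ k)) :=
    Finite.of_surjective φ' hφ'surj
  have hHV : HasHopfOrder l (subAct V hV) := hasHopfOrder_of_hopfAlgebra (hF V hVfin hV)
  have hHW : HasHopfOrder l actW :=
    hQ l inferInstance V _ inferInstance inferInstance hVfin (subAct V hV) actW φ' hφ'surj
      hφ'eq hHV
  obtain ⟨H, i1, i2, hfin, hflat, hcc, e, hadd, hgal⟩ := hHW.exists_hopfAlgebra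
  exact ⟨H, i1, i2, hfin, hflat, hcc, e, hadd,
    fun σ f g hfg => congrArg Subtype.val (hgal σ f g hfg)⟩

/-- **(L23)** from the quotient closure of Hopf orders. -/
theorem l23_of_quotientClosure (hQ : QuotientClosure) : L23 := by
  intro N q l a _ hq hqN hl hql
  have : Fact l.Prime := ⟨hl⟩
  exact flatTorsion_of_flatSubgroups_mul hQ N q l a hq hqN hql

/-- The quotient closure of Hopf orders holds (`Lib.FinFlat.HasHopfOrder.of_surjective`). -/
theorem quotientClosure : QuotientClosure := by
  intro p hp V Q _ _ hV act actQ π hπ hπ' h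
  exact h.of_surjective π hπ hπ'

/-- **(L23)**: the level-`N q` transfer used for S19 at `l ∈ {2, 3}`, unconditionally. -/
theorem l23 : L23 :=
  l23_of_quotientClosure quotientClosure

end Fermat.Agent.Padic
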