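/-
PADIC — (LOC) assembly, SPEC file (architect: helper20).

The local order at a place of good reduction is assembled in `Padic/Local.lean` from the five
statements below; each is a `Prop` here so that the bricks can be built in parallel against a
type-checked target:

* `Teich`   : inertia-fixed multiplicative lifts of the residue field (helper19, `Lib/TeichLift`);
* `LatFix`  : an inertia-fixed lattice basis of `L(n·∞)` (helper93, LAT3);
* `DivData` / `DivGP` : the divisors `B`, `D_v` in general position (helper19, GP);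
* `KMC`     : Khuri-Makdisi coordinate data from lattice bases (helper16 `KMCoord.ofBases` +
              instantiation);
* `Comul`   : the abstract disc-wise comultiplication from `KMAdd.exists_fam_add`.
-/
import Mathlib
import Fermat.Agent.Padic.Lattice
import Fermat.Agent.Padic.KMAdd
import Fermat.Agent.Padic.LocalGlue
import Fermat.Agent.Lib.FF.PlaceInf

set_option autoImplicit false

namespace Fermat.Agent.Padic

open AlgebraicCurve ModularCurve Module
open Fermat.Agent.Lib.LinAlg.Family Fermat.Agent.Lib.FF Fermat.Agent.Padic.KMAdd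
  Fermat.Agent.Padic.FunRing

/-- **(TEICH)** a set-theoretic section of the residue map with inertia-fixed values. -/
def Teich : Prop :=
  ∀ (A : ValuationSubring Qb) (l : ℕ), l.Prime → A.LiesOverPrime l →
    ∃ s : IsLocalRing.ResidueField A → A, (∀ x, IsLocalRing.residue A (s x) = x) ∧
      ∀ σ ∈ A.inertiaSubgroupIn ℚ, ∀ x, σ ((s x : A) : Qb) = ((s x : A) : Qb)

set_option synthInstance.maxHeartbeats 400000 in
/-- **(LATFIX)** an inertia-fixed lattice basis of `L(n·∞)`. -/
def LatFix : Prop :=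
  ∀ (A : ValuationSubring Qb) (M : ℕ) [NeZero M] (h : GoodRed A M) (n : ℤ),
    ∃ (d : ℕ) (b : Fin d → OwA A M h.level),
      IsLatBasis (IsLocalRing.ResidueField A) (redA A M h.level)
        (riemannRochSpace (Finsupp.single (PlaceInf.placeInfL Qb M) n)) b ∧
      ∀ σ ∈ A.inertiaSubgroupIn ℚ, ∀ i,
        arithmeticGalois (modularFunctionFieldFull M) σ •
            ((b i : OwA A M h.level) : ↥(modularFunctionFieldBar M)) = b i

set_option synthInstance.maxHeartbeats 400000 in
/-- **The divisor data of (LOC)**: `B` of degree `g`, and for every `v ∈ V` an effective divisor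
`D v` with `[D v - B] = v`, equivariant under inertia, whose reduction is non-special and depends
only on the reduction of `v`. -/
structure DivData (A : ValuationSubring Qb) (M : ℕ) [NeZero M] (h : GoodRed A M)
    (V : AddSubgroup (JZero M))
    (B : Divisor Qb ↥(modularFunctionFieldBar M))
    (D : V → Divisor Qb ↥(modularFunctionFieldBar M)) : Prop where
  deg_B : Divisor.degree B = genusFF Qb ↥(modularFunctionFieldBar M)
  nonneg : ∀ v, 0 ≤ D v
  cls : ∀ v : V, ∃ hd : D v - B ∈ Divisor.degZero, Pic0.mk ⟨D v - B, hd⟩ = (v : JZero M)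
  smul : ∀ σ ∈ A.inertiaSubgroupIn ℚ, ∀ v w : V, (w : JZero M) = σ • (v : JZero M) →
    D w = arithmeticGalois (modularFunctionFieldFull M) σ • D v
  nonspecial : ∀ v, finrank (IsLocalRing.ResidueField A)
    (riemannRochSpace (Finsupp.mapDomain (placeReductionModL h.inputs) (D v))) = 1
  red_eq : ∀ v w : V, reductionModL A M (v : JZero M) = reductionModL A M (w : JZero M) →
    Finsupp.mapDomain (placeReductionModL h.inputs) (D v) =
      Finsupp.mapDomain (placeReductionModL h.inputs) (D w)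

/-- **(DIV)** general position: the divisor data exist for every finite subgroup. -/
def DivGP : Prop :=
  ∀ (A : ValuationSubring Qb) (l : ℕ) (M : ℕ) [NeZero M], l.Prime → A.LiesOverPrime l →
    ∀ (h : GoodRed A M) (V : AddSubgroup (JZero M)), Finite V →
      ∃ (B : Divisor Qb ↥(modularFunctionFieldBar M))
        (D : V → Divisor Qb ↥(modularFunctionFieldBar M)), DivData A M h V B D

set_option synthInstance.maxHeartbeats 400000 in
/-- **(KMC)** Khuri-Makdisi coordinates from lattice bases: for `E` of large degree and `B` of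
degree `g`, every lattice basis `b⁰` of `L(E)` extends to coordinate data with tables over `A`,
valid on both fibres, whose `φ₁` are the linear combinations of `b⁰` resp. of its reductions. -/
def KMC : Prop :=
  ∀ (A : ValuationSubring Qb) (M : ℕ) [NeZero M] (h : GoodRed A M),
    ∃ c₁ : ℤ, ∀ (E B : Divisor Qb ↥(modularFunctionFieldBar M)),
      c₁ ≤ Divisor.degree E → Divisor.degree B = genusFF Qb ↥(modularFunctionFieldBar M) →
      ∀ (I₁ : Type) [Fintype I₁] (b₀ : I₁ → OwA A M h.level),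
        IsLatBasis (IsLocalRing.ResidueField A) (redA A M h.level) (riemannRochSpace E) b₀ →
        ∃ (I₂ J₁ J₂ J₄ : Type) (_ : Fintype I₂) (_ : Fintype J₁) (_ : Fintype J₂)
          (_ : Fintype J₄) (a : I₂ → I₁ → I₁ → A) (b : J₂ → I₁ → J₁ → A) (c : J₄ → J₂ → I₂ → A)
          (C : KMCoord Qb ↥(modularFunctionFieldBar M) E B (Fam.mapTab A.subtype a)
            (Fam.mapTab A.subtype b) (Fam.mapTab A.subtype c))
          (C' : KMCoord (IsLocalRing.ResidueField A)
            ↥(modularFunctionFieldFullC (IsLocalRing.ResidueField A) M)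
            (Finsupp.mapDomain (placeReductionModL h.inputs) E)
            (Finsupp.mapDomain (placeReductionModL h.inputs) B)
            (Fam.mapTab (IsLocalRing.residue A) a) (Fam.mapTab (IsLocalRing.residue A) b)
            (Fam.mapTab (IsLocalRing.residue A) c)),
          (∀ t : I₁ → Qb, C.φ₁ t = ∑ i, t i • ((b₀ i : OwA A M h.level) :
            ↥(modularFunctionFieldBar M))) ∧
          ∀ t : I₁ → IsLocalRing.ResidueField A, C'.φ₁ t = ∑ i, t i • redA A M h.level (b₀ i)

/-- **(COMUL)** the abstract disc-wise comultiplication.  `P` is a product of two discs, `Φ` the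
small generators of its function ring; `G₁ p`, `G₂ p`, `G₃ p` are the graph matrices of
`L(E - D₁ p)`, `L(E - D₂ p)`, `L(E - D₃ p)` in the coordinates `T₁`, `T₂`, `T₃`; if the entries
of `G₁`, `G₂` lie in the function ring and are small, the entries of `G₃` lie in it. -/
def Comul : Prop :=
  ∀ (A : ValuationSubring Qb) [Infinite (IsLocalRing.ResidueField A)]
    (P : Type) [Fintype P] [Nonempty P] (Φ : Set (P → Qb))
    (_ : ∀ φ ∈ Φ, ∀ p, A.valuation (φ p) < 1)
    (F : Type) [Field F] [Algebra Qb F] (F' : Type) [Field F']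
    [Algebra (IsLocalRing.ResidueField A) F']
    (x : F) (_ : IsFF1 Qb F x) (x' : F') (_ : IsFF1 (IsLocalRing.ResidueField A) F' x')
    (_ : genusFF (IsLocalRing.ResidueField A) F' = genusFF Qb F)
    (E B : Divisor Qb F) (E' B' : Divisor (IsLocalRing.ResidueField A) F')
    (n : ℤ) (_ : 5 * (genusFF Qb F : ℤ) + 1 ≤ n)
    (_ : Divisor.degree E = n) (_ : Divisor.degree E' = n)
    (_ : Divisor.degree B = genusFF Qb F)
    (_ : Divisor.degree B' = genusFF (IsLocalRing.ResidueField A) F')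
    (I₁ I₂ J₁ J₂ J₄ : Type) [Fintype I₁] [Fintype I₂] [Fintype J₁] [Fintype J₂] [Fintype J₄]
    (a : I₂ → I₁ → I₁ → A) (b : J₂ → I₁ → J₁ → A) (c : J₄ → J₂ → I₂ → A)
    (C : KMCoord Qb F E B (Fam.mapTab A.subtype a) (Fam.mapTab A.subtype b)
      (Fam.mapTab A.subtype c))
    (C' : KMCoord (IsLocalRing.ResidueField A) F' E' B' (Fam.mapTab (IsLocalRing.residue A) a)
      (Fam.mapTab (IsLocalRing.residue A) b) (Fam.mapTab (IsLocalRing.residue A) c))
    (ι₁ ι₂ : Type) [Fintype ι₁] [Fintype ι₂] [DecidableEq ι₁] [DecidableEq ι₂]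
    [DecidableEq I₁]
    (T₁ T₂ T₃ : Matrix I₁ (ι₁ ⊕ ι₂) A) (T₁' T₂' T₃' : Matrix (ι₁ ⊕ ι₂) I₁ A)
    (_ : T₁ * T₁' = 1) (_ : T₁' * T₁ = 1) (_ : T₂ * T₂' = 1) (_ : T₂' * T₂ = 1)
    (_ : T₃ * T₃' = 1) (_ : T₃' * T₃ = 1)
    (G₁ G₂ G₃ : P → Matrix ι₂ ι₁ Qb)
    (_ : ∀ i j, (fun p => G₁ p i j) ∈ funRing A Φ)
    (_ : ∀ i j, (fun p => G₂ p i j) ∈ funRing A Φ)
    (_ : ∀ p i j, A.valuation (G₁ p i j) < 1) (_ : ∀ p i j, A.valuation (G₂ p i j) < 1)
    (D₁ D₂ D₃ : P → Divisor Qb F) (D₁' D₂' D₃' : Divisor (IsLocalRing.ResidueField A) F')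
    (_ : ∀ p, 0 ≤ D₁ p) (_ : ∀ p, 0 ≤ D₂ p) (_ : 0 ≤ D₁') (_ : 0 ≤ D₂')
    (_ : ∀ (p : P) (t : ι₁ ⊕ ι₂ → Qb),
      C.φ₁ ((T₁.map A.subtype).mulVec t) ∈ riemannRochSpace (E - D₁ p) ↔
        t ∘ Sum.inr = (G₁ p).mulVec (t ∘ Sum.inl))
    (_ : ∀ (p : P) (t : ι₁ ⊕ ι₂ → Qb),
      C.φ₁ ((T₂.map A.subtype).mulVec t) ∈ riemannRochSpace (E - D₂ p) ↔
        t ∘ Sum.inr = (G₂ p).mulVec (t ∘ Sum.inl))
    (_ : ∀ (p : P) (t : ι₁ ⊕ ι₂ → Qb),
      C.φ₁ ((T₃.map A.subtype).mulVec t) ∈ riemannRochSpace (E - D₃ p) ↔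
        t ∘ Sum.inr = (G₃ p).mulVec (t ∘ Sum.inl))
    (_ : ∀ t : ι₁ ⊕ ι₂ → IsLocalRing.ResidueField A,
      C'.φ₁ ((T₁.map (IsLocalRing.residue A)).mulVec t) ∈ riemannRochSpace (E' - D₁') ↔
        t ∘ Sum.inr = 0)
    (_ : ∀ t : ι₁ ⊕ ι₂ → IsLocalRing.ResidueField A,
      C'.φ₁ ((T₂.map (IsLocalRing.residue A)).mulVec t) ∈ riemannRochSpace (E' - D₂') ↔
        t ∘ Sum.inr = 0)
    (_ : ∀ t : ι₁ ⊕ ι₂ → IsLocalRing.ResidueField A,
      C'.φ₁ ((T₃.map (IsLocalRing.residue A)).mulVec t) ∈ riemannRochSpace (E' - D₃') ↔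
        t ∘ Sum.inr = 0)
    (_ : ∀ p, KMTriple Qb F B (D₁ p) (D₂ p) (D₃ p))
    (_ : KMTriple (IsLocalRing.ResidueField A) F' B' D₁' D₂' D₃'),
    ∀ i j, (fun p => G₃ p i j) ∈ funRing A Φ

end Fermat.Agent.Padic
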