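/-
PADIC — (LOC-ASM) with the Khuri-Makdisi addition plugged in (helper5).

`hasLocalOrder_of_km`: the abstract assembly `LocalAsm.hasLocalOrder_of_families`, with the
addition in families supplied by `KMAdd.exists_fam_add`.  The input is stated over two function
fields (`F` over `ℚ̄`, `F'` over the residue field `κ` of `A`) and consists of

* coordinate data `C`, `C'` (`KMAdd.KMCoord`) with multiplication tables `a b c` over `A`;
* divisors `D v` on `F` (`v ∈ V`) and `D' x` on `F'` (`x` a reduction class), forming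
  `KMAdd.KMTriple`s under addition;
* (`hpt`) for each `v` a family over `A` with fibres `L(E − D v)` and `L(E' − D' (r v))`;
* (`heqv`) compatibility with inertia in coordinates, (`hsep`) separation.
-/
import Mathlib
import Fermat.Agent.Padic.LocalAsm
import Fermat.Agent.Padic.KMAdd

set_option autoImplicit false

namespace Fermat.Agent.Padic.LocalKM

open AlgebraicCurve Module
open Fermat.Agent.Lib.FF Fermat.Agent.Lib.LinAlg.Family
open Fermat.Agent.Padic Fermat.Agent.Padic.KMAdd Fermat.Agent.Padic.LocalAsm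

/-- Transport of coordinate data along equalities of the multiplication tables, keeping the
first coordinate map. -/
theorem exists_kmCoord_cast {K F : Type*} [Field K] [Field F] [Algebra K F] {E B : Divisor K F}
    {I₁ I₂ J₁ J₂ J₄ : Type*} [Fintype I₁] [Fintype I₂] [Fintype J₁] [Fintype J₂] [Fintype J₄]
    {a a' : I₂ → I₁ → I₁ → K} {b b' : J₂ → I₁ → J₁ → K} {c c' : J₄ → J₂ → I₂ → K}
    (ha : a' = a) (hb : b' = b) (hc : c' = c) (C : KMCoord K F E B a b c) :
    ∃ C₂ : KMCoord K F E B a' b' c', C₂.φ₁ = C.φ₁ := by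
  subst ha hb hc
  exact ⟨C, rfl⟩

/-- **(LOC-ASM) with the Khuri-Makdisi addition.** -/
theorem hasLocalOrder_of_km (A : ValuationSubring Qb) {V : Type} [AddCommGroup V] [Finite V]
    (act : GQ → V → V) {X : Type*} (r : V → X)
    (hadd : ∀ v v' w w' : V, r v = r v' → r w = r w' → r (v + w) = r (v' + w'))
    (hr : ∀ σ ∈ A.inertiaSubgroupIn ℚ, ∀ v, r (act σ v) = r v)
    [Infinite (IsLocalRing.ResidueField A)]
    {F : Type*} [Field F] [Algebra Qb F]
    {F' : Type*} [Field F'] [Algebra (IsLocalRing.ResidueField A) F']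
    {x : F} (hF : IsFF1 Qb F x) {x' : F'} (hF' : IsFF1 (IsLocalRing.ResidueField A) F' x')
    (hg : genusFF (IsLocalRing.ResidueField A) F' = genusFF Qb F)
    (E B : Divisor Qb F) (E' B' : Divisor (IsLocalRing.ResidueField A) F')
    (n : ℤ) (hn : 5 * (genusFF Qb F : ℤ) + 1 ≤ n)
    (hE : Divisor.degree E = n) (hE' : Divisor.degree E' = n)
    (hB : Divisor.degree B = genusFF Qb F)
    (hB' : Divisor.degree B' = genusFF (IsLocalRing.ResidueField A) F')
    {I₁ : Type} [Fintype I₁] [DecidableEq I₁]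
    {I₂ J₁ J₂ J₄ : Type*} [Fintype I₂] [Fintype J₁] [Fintype J₂] [Fintype J₄]
    (a : I₂ → I₁ → I₁ → A) (b : J₂ → I₁ → J₁ → A) (c : J₄ → J₂ → I₂ → A)
    (C : KMCoord Qb F E B (Fam.mapTab A.subtype a) (Fam.mapTab A.subtype b)
      (Fam.mapTab A.subtype c))
    (C' : KMCoord (IsLocalRing.ResidueField A) F' E' B' (Fam.mapTab (IsLocalRing.residue A) a)
      (Fam.mapTab (IsLocalRing.residue A) b) (Fam.mapTab (IsLocalRing.residue A) c))
    (D : V → Divisor Qb F) (D' : X → Divisor (IsLocalRing.ResidueField A) F')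
    (hDnn : ∀ v, 0 ≤ D v) (hD'nn : ∀ v, 0 ≤ D' (r v))
    (hD : ∀ v w, KMTriple Qb F B (D v) (D w) (D (v + w)))
    (hD' : ∀ v w, KMTriple (IsLocalRing.ResidueField A) F' B' (D' (r v)) (D' (r w))
      (D' (r (v + w))))
    (hpt : ∀ v, ∃ W : Fam A I₁,
      (W.fib A.subtype).map C.φ₁ = riemannRochSpace (E - D v) ∧
      (W.fib (IsLocalRing.residue A)).map C'.φ₁ = riemannRochSpace (E' - D' (r v)))
    (heqv : ∀ σ ∈ A.inertiaSubgroupIn ℚ, ∀ v, ∀ w : I₁ → Qb,
      C.φ₁ w ∈ riemannRochSpace (E - D v) →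
      C.φ₁ (fun i => σ (w i)) ∈ riemannRochSpace (E - D (act σ v)))
    (hsep : ∀ v w, r v = r w →
      riemannRochSpace (E - D v) = riemannRochSpace (E - D w) → v = w) :
    HasLocalOrder A V act := by
  -- the subspaces in coordinates
  have hle : ∀ v, riemannRochSpace (E - D v) ≤ LinearMap.range C.φ₁ := by
    intro v
    rw [C.range_φ₁]
    exact KMLemmas.L_mono (sub_le_self E (hDnn v))
  have hle' : ∀ v, riemannRochSpace (E' - D' (r v)) ≤ LinearMap.range C'.φ₁ := by
    intro v
    rw [C'.range_φ₁]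
    exact KMLemmas.L_mono (sub_le_self E' (hD'nn v))
  refine hasLocalOrder_of_families A act r hadd hr
    (fun v => (riemannRochSpace (E - D v)).comap C.φ₁)
    (fun x => (riemannRochSpace (E' - D' x)).comap C'.φ₁) ?_ ?_ ?_ ?_
  · -- hpt
    intro v
    obtain ⟨W, h1, h2⟩ := hpt v
    refine ⟨W, ?_, ?_⟩
    · rw [← h1, Submodule.comap_map_eq_of_injective C.inj_φ₁]
    · rw [← h2, Submodule.comap_map_eq_of_injective C'.inj_φ₁]
  · -- heqv
    intro σ hσ v w hw
    exact heqv σ hσ v w hw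
  · -- hsep
    intro v w hvw h
    apply hsep v w hvw
    have h1 := congrArg (Submodule.map C.φ₁) h
    rw [Submodule.map_comap_eq_of_le (hle v), Submodule.map_comap_eq_of_le (hle w)] at h1
    exact h1
  · -- hKM
    intro 𝓡 _ _ j Pt χ ρ _ hχ hχj hρj vv ww v₀ w₀ hvv hww W₁ W₂ h₁ h₂ h₁' h₂'
    have ea : ∀ q, Fam.mapTab (χ q) (Fam.mapTab j a) = Fam.mapTab A.subtype a := fun q => by
      funext k i i'
      exact hχj q _
    have eb : ∀ q, Fam.mapTab (χ q) (Fam.mapTab j b) = Fam.mapTab A.subtype b := fun q => by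
      funext k i i'
      exact hχj q _
    have ec : ∀ q, Fam.mapTab (χ q) (Fam.mapTab j c) = Fam.mapTab A.subtype c := fun q => by
      funext k i i'
      exact hχj q _
    have ea' : Fam.mapTab ρ (Fam.mapTab j a) = Fam.mapTab (IsLocalRing.residue A) a := by
      funext k i i'
      exact hρj _
    have eb' : Fam.mapTab ρ (Fam.mapTab j b) = Fam.mapTab (IsLocalRing.residue A) b := by
      funext k i i'
      exact hρj _
    have ec' : Fam.mapTab ρ (Fam.mapTab j c) = Fam.mapTab (IsLocalRing.residue A) c := by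
      funext k i i'
      exact hρj _
    choose Cq hCq using fun q => exists_kmCoord_cast (ea q) (eb q) (ec q) C
    obtain ⟨Cρ, hCρ⟩ := exists_kmCoord_cast ea' eb' ec' C'
    obtain ⟨W₃, h₃, h₃'⟩ := exists_fam_add χ hχ ρ inferInstance hF hF' hg E B E' B' n hn hE hE'
      hB hB' (Fam.mapTab j a) (Fam.mapTab j b) (Fam.mapTab j c) Cq Cρ W₁ W₂
      (fun q => D (vv q)) (fun q => D (ww q)) (fun q => D (vv q + ww q))
      (D' (r v₀)) (D' (r w₀)) (D' (r (v₀ + w₀)))
      (fun q => by rw [hCq, h₁ q, Submodule.map_comap_eq_of_le (hle _)])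
      (fun q => by rw [hCq, h₂ q, Submodule.map_comap_eq_of_le (hle _)])
      (by rw [hCρ, h₁', Submodule.map_comap_eq_of_le (hle' _)])
      (by rw [hCρ, h₂', Submodule.map_comap_eq_of_le (hle' _)])
      (fun q => hD (vv q) (ww q)) (hD' v₀ w₀)
    refine ⟨W₃, fun q => ?_, ?_⟩
    · have h4 := h₃ q
      rw [hCq] at h4
      rw [← h4, Submodule.comap_map_eq_of_injective C.inj_φ₁]
    · rw [hCρ] at h₃'
      rw [← h₃', Submodule.comap_map_eq_of_injective C'.inj_φ₁]

end Fermat.Agent.Padic.LocalKM
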