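import Mathlib
import Fermat.Agent.Padic.LocalKM
import Fermat.Agent.Padic.KMData
import Fermat.Agent.Padic.GenPosGlue
import Fermat.Agent.Padic.FamOfLattice
import Fermat.Agent.Padic.LatticeRat

/-!
# PADIC (LOC): the local order at a place of good reduction

`loc : LOC` — for a valuation subring `A` of `ℚ̄` over `l` with good reduction data at level `M`,
every finite Galois-stable subgroup `V` of `J₀(M)(ℚ̄)` has a local order at `A`.

Final instantiation of `LocalKM.hasLocalOrder_of_km` (abstract assembly + Khuri-Makdisi addition in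
families) with

* `E = n·∞`, `n = max (5g + 1) (c₀ + g)`, and a Galois-fixed lattice basis of `L(E)`
  (`GoodRed.exists_fixed_latBasis`);
* the general-position package `B`, `D_v` (`GenPos.exists_genPos_goodRed`), disc map
  `v ↦ r_* D_v`;
* the coordinate data from lattice bases (`GoodRed.exists_kmData`);
* the point families (`FamOfLattice.exists_fam_rr`) and the glue lemmas of `GenPosGlue`.
-/

set_option autoImplicit false
set_option linter.style.haveILetI false

noncomputable section

namespace Fermat.Agent.Padic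

open AlgebraicCurve ModularCurve Module
open Fermat.Agent.Lib.FF Fermat.Agent.Lib.LinAlg.Family Fermat.Agent.Padic.KMAdd

set_option synthInstance.maxHeartbeats 400000 in
set_option maxHeartbeats 4000000 in
/-- **(LOC), one level**: good reduction data at `A` give local orders on all finite
Galois-stable subgroups of `J₀(N)(ℚ̄)`. -/
theorem localOrders_of_goodRed {A : ValuationSubring Qb} {N : ℕ} [NeZero N] {l : ℕ}
    (hl : l.Prime) (hA : A.LiesOverPrime l) (hgr : GoodRed A N) : LocalOrders A N := by
  intro V hVfin hV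
  haveI := hVfin
  haveI := Fermat.Agent.Lib.FF.CharP.isAlgClosed_residueField A
  have hr : IsPlaceReductionModL A N (placeReductionModL hgr.inputs) :=
    isPlaceReductionModL_placeReductionModL hgr.inputs
  have hFL := GenPos.isFF1_bar (N := N)
  have hFk := GenPos.isFF1_res (A := A) (N := N) hgr.level
  -- general position
  obtain ⟨B, Dv, hGP⟩ := GenPos.exists_genPos_goodRed hl hA hgr V
  -- coordinate data
  obtain ⟨c₀, -, hKMD⟩ := KMAdd.GoodRed.exists_kmData hgr (placeReductionModL hgr.inputs) hr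
  -- the degree of `E`
  have hg0 : (0 : ℤ) ≤ (genusFF (AlgebraicClosure ℚ) ↥(modularFunctionFieldBar N) : ℤ) := Nat.cast_nonneg _
  obtain ⟨n, hn5, hnc⟩ : ∃ n : ℤ, 5 * (genusFF (AlgebraicClosure ℚ) ↥(modularFunctionFieldBar N) : ℤ) + 1 ≤ n ∧
      c₀ + (genusFF (AlgebraicClosure ℚ) ↥(modularFunctionFieldBar N) : ℤ) ≤ n :=
    ⟨max (5 * (genusFF (AlgebraicClosure ℚ) ↥(modularFunctionFieldBar N) : ℤ) + 1)
      (c₀ + (genusFF (AlgebraicClosure ℚ) ↥(modularFunctionFieldBar N) : ℤ)), le_max_left _ _, le_max_right _ _⟩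
  have hE : Divisor.degree (Finsupp.single (PlaceInf.placeInfL Qb N) n) = n := by
    rw [Divisor.degree_single, hFL.deg_eq_one]
    simp
  have hEfix : ∀ σ ∈ A.inertiaSubgroupIn ℚ,
      arithmeticGalois (modularFunctionFieldFull N) σ •
        (Finsupp.single (PlaceInf.placeInfL Qb N) n :
          Divisor Qb ↥(modularFunctionFieldBar N)) =
        Finsupp.single (PlaceInf.placeInfL Qb N) n := by
    intro σ _
    rw [SemilinearAut.smul_single, PlaceInf.arithmeticGalois_smul_placeInfL]
  -- a Galois-fixed lattice basis of `L(E)`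
  obtain ⟨d, b₁, hfix, hb₁⟩ := hgr.exists_fixed_latBasis n
  -- the Khuri-Makdisi coordinates
  obtain ⟨d₂, e₁, e₂, e₄, a, b, c, C, C', hφ, hφ'⟩ :=
    hKMD (Finsupp.single (PlaceInf.placeInfL Qb N) n) B
      (by rw [map_sub, hE, hGP.degree_B]; omega) (by rw [hGP.degree_B]; exact hg0)
      (by rw [hE]; omega) b₁ hb₁
  -- the assembly
  refine LocalKM.hasLocalOrder_of_km A (subAct V hV)
    (fun v => Finsupp.mapDomain (placeReductionModL hgr.inputs) (Dv v))
    (fun v v' w w' => GenPosGlue.hadd_red hgr.inputs hGP v v' w w')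
    (GenPosGlue.hr_red hGP hV) hFL hFk hgr.genus
    (Finsupp.single (PlaceInf.placeInfL Qb N) n) B
    (Finsupp.mapDomain (placeReductionModL hgr.inputs)
      (Finsupp.single (PlaceInf.placeInfL Qb N) n))
    (Finsupp.mapDomain (placeReductionModL hgr.inputs) B) n hn5 hE
    (by rw [GenPosAbs.degree_mapDomain hFL hFk, hE])
    hGP.degree_B (by rw [hGP.degree_red_B hFL hFk, hgr.genus])
    a b c C C' Dv id hGP.nonneg (fun v => hGP.red_nonneg v)
    (fun v w => GenPosGlue.kmTriple hGP v w)
    (fun v w => GenPosGlue.kmTriple_red hGP hFL hFk hgr.genus v w) ?_ ?_ ?_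
  · -- hpt
    intro v
    obtain ⟨W, hW1, hW2⟩ := FamOfLattice.exists_fam_rr hgr (placeReductionModL hgr.inputs) hr hb₁
      C.φ₁ hφ C'.φ₁ hφ' (Dv v) (hGP.nonneg v)
      (by rw [map_sub, hE, hGP.degree]; omega)
    refine ⟨W, ?_, ?_⟩
    · rw [hW1]
      exact C.map_comap_φ₁ (hGP.nonneg v)
    · rw [hW2]
      exact C'.map_comap_φ₁ (hGP.red_nonneg v)
  · -- heqv
    intro σ hσ v w hw
    exact GenPosGlue.heqv hGP hV (fun i => ((b₁ i : OwA A N hgr.level) :
      ↥(modularFunctionFieldBar N))) C.φ₁ hφ (fun σ _ i => hfix σ i) hEfix σ hσ v w hw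
  · -- hsep
    intro v w _ hL
    exact hGP.eq_of_L_sub_eq hFL _ (by rw [hE]; omega) hL

/-- **(LOC)**: the local order from good reduction. -/
theorem loc : LOC := fun _ _ _ _ hl hA hgr => localOrders_of_goodRed hl hA hgr

end Fermat.Agent.Padic
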