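/-
PADIC (INJ) (helper29): **the level pull-back `J₀(N) → J₀(N q)` is injective** for every prime
`q ∤ N`.

`α : F_N ⊆ F_{Nq}` the inclusion (`heckeAlphaBar`), degree `q + 1`.

* `PullKummer.exists_alpha_eq_of_pow` : **Kummer descent** — if `g ∈ F_{Nq}`, `h ∈ F_N`,
  `c ∈ ℚ̄` and `α h = c · g ^ (q + 1)`, then `g ∈ α(F_N)`.
  Proof: the `q + 1` conjugate embeddings `σ_∞ = (t ↦ t^q)`, `σ_b = rot(ζ^b) ∘ τ₀` of `F_{Nq}`
  over `F_N` into `ℚ̄((t))` (`ESJ/Cong/ConjAnalytic.exists_conj`) all send `g` to a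
  `(q + 1)`-th root of the same series, so `τ₀ g = e · g(t^q)` for a root of unity `e`, and then
  `σ_b g = e · g(t^q)` for every `b`; hence `Tr_{F_{Nq}/F_N}(g) = (1 + q e) · g`, `1 + q e ≠ 0`.
* `PullKummer.pic0Pull_alpha_injective` : injectivity of the pull-back of divisor classes.
* `PullKummer.levelPullback_mul_prime_one` : `ESJ.LevelPullback N (N * q) 1` (Galois- and
  Hecke-equivariant, kernel killed by `1`).
* `PullKummer.levelPullbackInj_mul_prime` : the PADIC predicate `LevelPullbackInj N (N * q)`,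
  unfolded.
-/
import Mathlib
import Fermat.Agent.ESJ.Cong.LevelPull
import Fermat.Agent.ESJ.Jac.Const

set_option autoImplicit false
set_option linter.style.haveILetI false
set_option linter.unusedSectionVars false

noncomputable section

namespace Fermat.Agent.Padic.PullKummer

open AlgebraicCurve ModularCurve IntermediateField HahnSeries
open Fermat.Agent.S24 Fermat.Agent.S28 Fermat.Agent.S28.Chain Fermat.Agent.ESJ.HeckeInputs
open Fermat.Agent.ESJ.LevelDesc
open Fermat.Agent.ESJ.Cong Fermat.Agent.ESJ.Cong.ConjAnalytic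

/-! ### Generalities -/

/-- In a domain which is an algebra over an algebraically closed field, every `n`-th root of
unity is a constant. -/
theorem exists_algebraMap_eq_of_pow_eq_one {K A : Type*} [Field K] [IsAlgClosed K] [CommRing A]
    [IsDomain A] [Algebra K A] {n : ℕ} (hn : n ≠ 0) {y : A} (hy : y ^ n = 1) :
    ∃ e : K, e ^ n = 1 ∧ y = algebraMap K A e := by
  classical
  have hmonic : (Polynomial.X ^ n - 1 : Polynomial K).Monic :=
    Polynomial.monic_X_pow_sub_C (1 : K) hn
  have hsplit : (Polynomial.X ^ n - 1 : Polynomial K).Splits := IsAlgClosed.splits _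
  have hprod := hsplit.eq_prod_roots_of_monic hmonic
  have h0 : Polynomial.aeval y (Polynomial.X ^ n - 1 : Polynomial K) = 0 := by
    rw [map_sub, map_pow, Polynomial.aeval_X, map_one, hy, sub_self]
  rw [hprod, map_multiset_prod, Multiset.prod_eq_zero_iff, Multiset.map_map] at h0
  obtain ⟨e, he, he0⟩ := Multiset.mem_map.1 h0
  refine ⟨e, ?_, ?_⟩
  · have hroot := (Polynomial.mem_roots hmonic.ne_zero).1 he
    rw [Polynomial.IsRoot, Polynomial.eval_sub, Polynomial.eval_pow, Polynomial.eval_X,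
      Polynomial.eval_one, sub_eq_zero] at hroot
    exact hroot
  · have h1 : y - algebraMap K A e = 0 := by
      simpa using he0
    exact sub_eq_zero.1 h1

/-- The trace as a sum over a complete family of embeddings (`L` need not be algebraically
closed). -/
theorem algebraMap_trace_eq_sum {k F L : Type*} [Field k] [Field F] [Field L] [Algebra k F]
    [Algebra k L] [CharZero k] [FiniteDimensional k F] {X : Type*} [Fintype X]
    (σ : X → (F →ₐ[k] L)) (hinj : Function.Injective σ)
    (hcard : Module.finrank k F = Fintype.card X) (f : F) :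
    algebraMap k L (Algebra.trace k F f) = ∑ q, σ q f := by
  classical
  let E := AlgebraicClosure L
  let τ : X → (F →ₐ[k] E) := fun q => (IsScalarTower.toAlgHom k L E).comp (σ q)
  have hτinj : Function.Injective τ := by
    intro q q' h
    apply hinj
    ext y
    have h' := congrArg (fun φ : F →ₐ[k] E => φ y) h
    exact (algebraMap L E).injective h'
  have hcardE : Fintype.card (F →ₐ[k] E) = Fintype.card X := by
    rw [AlgHom.card, hcard]
  have hτbij : Function.Bijective τ :=
    (Fintype.bijective_iff_injective_and_card τ).mpr ⟨hτinj, hcardE.symm⟩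
  have h1 := trace_eq_sum_embeddings E (K := k) (L := F) (x := f)
  have h2 : ∑ φ : F →ₐ[k] E, φ f = ∑ q, τ q f :=
    (Fintype.sum_bijective τ hτbij _ _ (fun _ => rfl)).symm
  apply (algebraMap L E).injective
  rw [map_sum, ← IsScalarTower.algebraMap_apply k L E, h1, h2]
  rfl

/-- Abstract trace formula along `α : A →ₐ[k] B`: a family of `[B : A]` distinct ring homs
`σ q : B → L` with `σ q ∘ α = ι` computes `ι (Tr f) = ∑ σ q f`. -/
theorem trace_eq_sum_along {k A B L : Type*} [Field k] [Field A] [Field B] [Field L] [CharZero A]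
    [Algebra k A] [Algebra k B] (α : A →ₐ[k] B) (ι : A →+* L) {X : Type*} [Fintype X]
    (σ : X → (B →+* L)) (hσ : ∀ q x, σ q (α x) = ι x) (hinj : Function.Injective σ)
    (hfin : letI := algebraAlong α; Module.Finite A B)
    (hcard : letI := algebraAlong α; Module.finrank A B = Fintype.card X) (f : B) :
    letI := algebraAlong α
    ι (Algebra.trace A B f) = ∑ q, σ q f := by
  letI := algebraAlong α
  letI : Algebra A L := ι.toAlgebra
  haveI : FiniteDimensional A B := hfin
  let σ' : X → (B →ₐ[A] L) := fun q => { σ q with commutes' := fun x => hσ q x }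
  have hinj' : Function.Injective σ' := by
    intro q q' h
    apply hinj
    ext y
    exact congrArg (fun φ : B →ₐ[A] L => φ y) h
  exact algebraMap_trace_eq_sum σ' hinj' hcard f

/-! ### Kummer descent along `α` -/

local notation "Qb" => AlgebraicClosure ℚ

/-- `1 + q e ≠ 0` for a root of unity `e` and `q ≥ 2`, in characteristic zero. -/
theorem one_add_mul_ne_zero {K : Type*} [Field K] [CharZero K] {q n : ℕ} (hq : 2 ≤ q)
    (hn : n ≠ 0) {e : K} (he : e ^ n = 1) : (1 : K) + (q : K) * e ≠ 0 := by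
  intro h0
  have h1 : (q : K) * e = -1 := by linear_combination h0
  have h2 : ((q : K) * e) ^ n = (-1) ^ n := by rw [h1]
  rw [mul_pow, he, mul_one] at h2
  have h3 : (((q : ℤ) ^ n : ℤ) : K) = (((-1 : ℤ) ^ n : ℤ) : K) := by
    push_cast
    exact h2
  have h4 : (q : ℤ) ^ n = (-1) ^ n := Int.cast_injective h3
  have h5 := congrArg Int.natAbs h4
  rw [Int.natAbs_pow, Int.natAbs_pow, Int.natAbs_natCast, Int.natAbs_neg, Int.natAbs_one,
    one_pow] at h5
  rcases Nat.pow_eq_one.1 h5 with h6 | h6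
  · omega
  · exact hn h6

set_option maxHeartbeats 1000000 in
/-- **Kummer descent along `α : F_N ⊆ F_{Nq}`** (`q ∤ N` prime): a function `g` of level `N q`
whose `(q + 1)`-th power is, up to a constant, a function of level `N`, is itself of level
`N`. -/
theorem exists_alpha_eq_of_pow (N q : ℕ) [NeZero N] [NeZero q] (hq : q.Prime) (hqN : ¬ q ∣ N)
    (g : modularFunctionFieldBar (N * q)) (h : modularFunctionFieldBar N) (c : KQ)
    (hg : g ≠ 0) (hc : c ≠ 0)
    (hgh : heckeAlphaBar KQ N q h =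
      algebraMap KQ (modularFunctionFieldBar (N * q)) c * g ^ (q + 1)) :
    ∃ g₀ : modularFunctionFieldBar N, heckeAlphaBar KQ N q g₀ = g := by
  classical
  haveI : NeZero (q : KQ) := ⟨Nat.cast_ne_zero.mpr hq.ne_zero⟩
  obtain ⟨ζ0, hζ0⟩ := HasEnoughRootsOfUnity.exists_primitiveRoot KQ q
  have hζ00 : ζ0 ≠ 0 := hζ0.ne_zero hq.ne_zero
  let ζ : KQˣ := Units.mk0 ζ0 hζ00
  have hζ : IsPrimitiveRoot ζ q := IsPrimitiveRoot.coe_units_iff.mp hζ0
  have hζpow : ∀ b : ℕ, (ζ ^ b) ^ q = 1 := fun b => by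
    rw [← pow_mul, mul_comm, pow_mul, hζ.pow_eq_one, one_pow]
  obtain ⟨τ₀, hτ₀α, hτ₀β⟩ := exists_conj N q hq hqN 1 (one_pow q)
  let ι : modularFunctionFieldBar N →+* LaurentSeries KQ :=
    (qExpand KQ q).comp (modularFunctionFieldBar N).val.toRingHom
  let τinf : modularFunctionFieldBar (N * q) →+* LaurentSeries KQ :=
    (qExpand KQ q).comp (modularFunctionFieldBar (N * q)).val.toRingHom
  let σ : Option (Fin q) → (modularFunctionFieldBar (N * q) →+* LaurentSeries KQ) :=
    fun o => o.elim τinf (fun b => (rot (ζ ^ b.1)).comp τ₀)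
  have hι : ∀ x : modularFunctionFieldBar N, ι x = qExpand KQ q (x : LaurentSeries KQ) :=
    fun x => rfl
  have hσnone : ∀ f : modularFunctionFieldBar (N * q),
      σ none f = qExpand KQ q (f : LaurentSeries KQ) := fun f => rfl
  have hσsome : ∀ (b : Fin q) (f : modularFunctionFieldBar (N * q)),
      σ (some b) f = rot (ζ ^ b.1) (τ₀ f) := fun b f => rfl
  have hσ : ∀ o x, σ o (heckeAlphaBar KQ N q x) = ι x := by
    intro o x
    cases o with
    | none => rw [hσnone, coe_heckeAlphaBar, hι]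
    | some b => rw [hσsome, hτ₀α, rot_qExpand_of_pow_eq_one (hζpow b.1), hι]
  -- the embeddings are pairwise distinct
  have hq2 : ¬ ((q : ℤ) ∣ -1) := by
    intro h
    have h1 : (q : ℤ) ∣ 1 := (dvd_neg.mp h)
    have h2 : q ∣ 1 := Int.natCast_dvd_natCast.mp (by exact_mod_cast h1)
    exact hq.one_lt.ne' (Nat.dvd_one.mp h2)
  have hnone : (σ none (heckeBetaBar KQ N q (jBar N))).coeff (-1) = 0 := by
    rw [hσnone]
    exact qExpand_coeff_of_not_dvd (R := KQ) (N := q) _ hq2
  have hsome : ∀ b : Fin q, (σ (some b) (heckeBetaBar KQ N q (jBar N))).coeff (-1) =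
      (((ζ ^ b.1)⁻¹ : KQˣ) : KQ) := by
    intro b
    rw [hσsome, hτ₀β, rot_one_apply, coe_jBar, rot_jqModC_coeff_neg_one]
  have hinj : Function.Injective σ := by
    intro o o' h
    have hc := congrArg (fun φ : modularFunctionFieldBar (N * q) →+* LaurentSeries KQ =>
      (φ (heckeBetaBar KQ N q (jBar N))).coeff (-1)) h
    cases o with
    | none =>
      cases o' with
      | none => rfl
      | some b' =>
        rw [hnone, hsome] at hc
        exact absurd hc.symm (Units.ne_zero _)
    | some b =>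
      cases o' with
      | none =>
        rw [hnone, hsome] at hc
        exact absurd hc (Units.ne_zero _)
      | some b' =>
        rw [hsome, hsome] at hc
        have h1 : (ζ ^ b.1)⁻¹ = (ζ ^ b'.1)⁻¹ := Units.ext hc
        have h2 : ζ ^ b.1 = ζ ^ b'.1 := inv_injective h1
        have h3 : b.1 = b'.1 := hζ.pow_inj b.2 b'.2 h2
        rw [Fin.ext h3]
  have hfr := finite_and_finrank_alpha N q hq hqN
  have hcard : Fintype.card (Option (Fin q)) = q + 1 := by
    rw [Fintype.card_option, Fintype.card_fin]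
  have key := trace_eq_sum_along (heckeAlphaBar KQ N q) ι σ hσ hinj hfr.1
    (hfr.2.trans hcard.symm) g
  -- the values of the embeddings at `g`
  set G : LaurentSeries KQ := qExpand KQ q (g : LaurentSeries KQ) with hG
  have hG0 : G ≠ 0 := by
    intro h0
    apply hg
    apply Subtype.ext
    exact qExpand_injective (R := KQ) (N := q) (h0.trans (map_zero _).symm)
  have hcα : algebraMap KQ (modularFunctionFieldBar (N * q)) c =
      heckeAlphaBar KQ N q (algebraMap KQ (modularFunctionFieldBar N) c) :=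
    (AlgHom.commutes _ c).symm
  have e1 : ι h = ι (algebraMap KQ (modularFunctionFieldBar N) c) * G ^ (q + 1) := by
    have h1 := congrArg (σ none) hgh
    rw [hσ, hcα, map_mul, hσ, map_pow, hσnone] at h1
    exact h1
  have e2 : ι h = ι (algebraMap KQ (modularFunctionFieldBar N) c) * (τ₀ g) ^ (q + 1) := by
    have h1 := congrArg τ₀ hgh
    rw [hτ₀α, hcα, map_mul, hτ₀α, map_pow] at h1
    exact h1
  have hιc : ι (algebraMap KQ (modularFunctionFieldBar N) c) ≠ 0 := by
    rw [Ne, map_eq_zero_iff ι ι.injective,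
      map_eq_zero_iff _ (algebraMap KQ (modularFunctionFieldBar N)).injective]
    exact hc
  have e3 : (τ₀ g) ^ (q + 1) = G ^ (q + 1) := mul_left_cancel₀ hιc (e2.symm.trans e1)
  have e4 : (τ₀ g / G) ^ (q + 1) = 1 := by
    rw [div_pow, e3, div_self (pow_ne_zero _ hG0)]
  obtain ⟨e, he, hey⟩ := exists_algebraMap_eq_of_pow_eq_one (K := KQ) (Nat.succ_ne_zero q) e4
  have e5 : τ₀ g = algebraMap KQ (LaurentSeries KQ) e * G := by
    rw [← hey, div_mul_cancel₀ _ hG0]
  have hrotC : ∀ b : ℕ, rot (ζ ^ b) (algebraMap KQ (LaurentSeries KQ) e) =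
      algebraMap KQ (LaurentSeries KQ) e := by
    intro b
    rw [algebraMap_laurentSeries_eq_single, ← HahnSeries.C_apply, rot_C]
  have e6 : ∀ b : Fin q, σ (some b) g = algebraMap KQ (LaurentSeries KQ) e * G := by
    intro b
    rw [hσsome, e5, map_mul, hrotC, hG, rot_qExpand_of_pow_eq_one (hζpow b.1)]
  rw [Fintype.sum_option, hσnone, Finset.sum_congr rfl (fun b _ => e6 b), Finset.sum_const,
    Finset.card_univ, Fintype.card_fin] at key
  have hu : (1 : KQ) + (q : KQ) * e ≠ 0 :=
    one_add_mul_ne_zero hq.two_le (Nat.succ_ne_zero q) he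
  letI := algebraAlong (heckeAlphaBar KQ N q)
  refine ⟨algebraMap KQ (modularFunctionFieldBar N) ((1 + (q : KQ) * e)⁻¹) *
    Algebra.trace (modularFunctionFieldBar N) (modularFunctionFieldBar (N * q)) g, ?_⟩
  apply Subtype.ext
  rw [coe_heckeAlphaBar]
  apply qExpand_injective (R := KQ) (N := q)
  rw [← hι, map_mul, key, ← hG]
  have hιa : ∀ a : KQ, ι (algebraMap KQ (modularFunctionFieldBar N) a) =
      algebraMap KQ (LaurentSeries KQ) a := by
    intro a
    rw [hι]
    show qExpand KQ q (algebraMap KQ (LaurentSeries KQ) a) = _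
    rw [algebraMap_laurentSeries_eq_single, qExpand_single, mul_zero]
  rw [hιa, nsmul_eq_mul]
  have h1 : G + (q : LaurentSeries KQ) * (algebraMap KQ (LaurentSeries KQ) e * G) =
      algebraMap KQ (LaurentSeries KQ) (1 + (q : KQ) * e) * G := by
    rw [map_add, map_mul, map_one, map_natCast]
    ring
  rw [h1, ← mul_assoc, ← map_mul, inv_mul_cancel₀ hu, map_one, one_mul]

/-! ### Injectivity of the pull-back of divisor classes -/

/-- Abstract form: the pull-back of divisor classes along `φ : F → F'` of degree `d` is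
injective as soon as (`hconst`) `div f = d · div g` forces `f = c · g ^ d`, and (`hdesc`)
`φ h = c · g ^ d` forces `g ∈ φ(F)`. -/
theorem pic0Pull_injective_of_descent {K F F' : Type*} [Field K] [Field F] [Field F']
    [Algebra K F] [Algebra K F'] [HasPrincipalDivisors K F'] [HasPrincipalDivisors K F]
    (φ : F →ₐ[K] F') (hφ : φ.toRingHom.IsIntegral) (hFI : FundamentalIdentityAlong K φ hφ)
    (hfin : FiniteAlong K φ) (hN : NormFormulaAlong K φ hfin) (hS : SumRamInertiaAlong φ hφ)
    (hpos : finrankAlong K φ ≠ 0)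
    (hconst : ∀ f g : F', f ≠ 0 → g ≠ 0 →
      (∀ w : Place K F', w.ord f = (finrankAlong K φ : ℕ) * w.ord g) →
      ∃ c : K, c ≠ 0 ∧ f = algebraMap K F' c * g ^ finrankAlong K φ)
    (hdesc : ∀ (g : F') (h : F) (c : K), g ≠ 0 → c ≠ 0 →
      φ h = algebraMap K F' c * g ^ finrankAlong K φ → ∃ g₀ : F, φ g₀ = g) :
    Function.Injective (pic0Pull φ hφ hFI) := by
  rw [injective_iff_map_eq_zero]
  intro x hx
  have h1 := nsmul_eq_zero_of_pic0Pull_eq_zero φ hφ hFI hfin hN hS x hx
  obtain ⟨D, rfl⟩ := Pic0.mk_surjective x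
  rw [pic0Pull_mk, pic0_mk_eq_zero_iff, coe_pullDegZero] at hx
  obtain ⟨g, hg0, hgD⟩ := hx
  have h2 : finrankAlong K φ • Pic0.mk D = Pic0.mk (finrankAlong K φ • D) := rfl
  rw [h2, pic0_mk_eq_zero_iff] at h1
  obtain ⟨h, hh0, hhD⟩ := h1
  -- `div (φ h) = d · div g`
  have hord : ∀ w : Place K F', w.ord (φ h) = (finrankAlong K φ : ℕ) * w.ord g := by
    intro w
    rw [Place.ord_restrictAlong φ hφ, ← hhD, ← hgD w, Divisor.pullbackAlong_apply,
      AddSubgroup.coe_nsmul, Finsupp.smul_apply, nsmul_eq_mul]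
    ring
  have hφh0 : φ h ≠ 0 := fun h0 =>
    hh0 (φ.toRingHom.injective (h0.trans (map_zero φ.toRingHom).symm))
  obtain ⟨c, hc, hcg⟩ := hconst (φ h) g hφh0 hg0 hord
  obtain ⟨g₀, hg₀⟩ := hdesc g h c hg0 hc hcg
  have hg₀0 : g₀ ≠ 0 := by
    rintro rfl
    rw [map_zero] at hg₀
    exact hg0 hg₀.symm
  obtain ⟨D₀, hD₀, -⟩ := HasPrincipalDivisors.exists_divisor (K := K) g₀ hg₀0
  -- the pull-back of `D - div g₀` vanishes
  have hpull : Divisor.pullbackAlong φ hφ ((D : Divisor K F) - D₀) = 0 := by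
    ext w
    rw [map_sub, Finsupp.sub_apply, hgD w, Divisor.pullbackAlong_apply, hD₀,
      ← Place.ord_restrictAlong φ hφ, hg₀, sub_self]
    rfl
  have hpp := pushforwardAlong_pullbackAlong φ hφ hS ((D : Divisor K F) - D₀)
  rw [hpull, map_zero] at hpp
  have hDD₀ : (D : Divisor K F) - D₀ = 0 := by
    rcases smul_eq_zero.1 hpp.symm with h | h
    · exfalso
      exact hpos (by exact_mod_cast h)
    · exact h
  rw [pic0_mk_eq_zero_iff]
  refine ⟨g₀, hg₀0, fun v => ?_⟩
  rw [sub_eq_zero.1 hDD₀]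
  exact hD₀ v

set_option synthInstance.maxHeartbeats 400000 in
set_option maxHeartbeats 1000000 in
/-- **(INJ)**: for a prime `q ∤ N`, the pull-back of divisor classes `J₀(N) → J₀(N q)` along
`F_N ⊆ F_{Nq}` is injective. -/
theorem pic0Pull_alpha_injective (N q : ℕ) [NeZero N] [NeZero q] (hq : q.Prime)
    (hqN : ¬ q ∣ N) :
    haveI := hasPrincipalDivisors_bar (N * q)
    Function.Injective (pic0Pull (heckeAlphaBar Qb N q) (heckeAlphaBarIntegral N q)
      (fundamentalIdentityAlong_heckeAlphaBar N q)) := by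
  haveI hPq := hasPrincipalDivisors_bar (N * q)
  haveI hPN := hasPrincipalDivisors_bar N
  have hFIa : FundamentalIdentityAlong Qb (heckeAlphaBar Qb N q) (heckeAlphaBarIntegral N q) :=
    fundamentalIdentityAlong_heckeAlphaBar N q
  have hS : SumRamInertiaAlong (heckeAlphaBar Qb N q) (heckeAlphaBarIntegral N q) := by
    letI := algebraAlong (heckeAlphaBar Qb N q)
    haveI := isScalarTower_along (heckeAlphaBar Qb N q)
    haveI := isIntegral_along (heckeAlphaBar Qb N q) (heckeAlphaBarIntegral N q)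
    haveI : FiniteDimensional (FN N) (FN (N * q)) := finiteAlong_heckeAlphaBar N q
    haveI := isAlgebraic_bar N
    haveI := isAlgebraic_bar (N * q)
    exact Fermat.Agent.Lib.FF.ExtNorm.sumRamificationInertia (jBar N) (jBar (N * q))
  have hN : NormFormulaAlong Qb (heckeAlphaBar Qb N q) (finiteAlong_heckeAlphaBar N q) := by
    haveI := isAlgebraic_bar N
    haveI := isAlgebraic_bar (N * q)
    exact normFormulaAlong _ _ (jBar N) (jBar (N * q))
  have hfr : finrankAlong Qb (heckeAlphaBar Qb N q) = q + 1 :=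
    ConjAnalytic.finrank_alpha N q hq hqN
  haveI := finiteDimensional_jBar (N * q)
  refine pic0Pull_injective_of_descent (heckeAlphaBar Qb N q) (heckeAlphaBarIntegral N q) hFIa
    (finiteAlong_heckeAlphaBar N q) hN hS (by rw [hfr]; exact Nat.succ_ne_zero q) ?_ ?_
  · intro f g hf hg hord
    exact Fermat.Agent.ESJ.Jac.Const.exists_eq_const_mul_pow (jBar (N * q)) hf hg hord
  · intro g h c hg hc hgh
    rw [hfr] at hgh
    exact exists_alpha_eq_of_pow N q hq hqN g h c hg hc hgh

/-! ### The packaged forms -/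

set_option synthInstance.maxHeartbeats 400000 in
set_option maxHeartbeats 1000000 in
/-- **(INJ), PADIC form** (`LevelPullbackInj N (N * q)` unfolded): a Galois-equivariant injective
additive map `J₀(N) → J₀(N q)`, for every prime `q ∤ N`. -/
theorem levelPullbackInj_mul_prime (N q : ℕ) [NeZero N] (hq : q.Prime) (hqN : ¬ q ∣ N) :
    haveI : NeZero (N * q) := ⟨Nat.mul_ne_zero (NeZero.ne N) hq.ne_zero⟩
    ∃ π : JZero N →+ JZero (N * q),
      (∀ (σ : AlgebraicClosure ℚ ≃ₐ[ℚ] AlgebraicClosure ℚ) (x : JZero N), π (σ • x) = σ • π x) ∧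
        Function.Injective π := by
  haveI : NeZero q := ⟨hq.ne_zero⟩
  haveI : NeZero (N * q) := ⟨Nat.mul_ne_zero (NeZero.ne N) hq.ne_zero⟩
  haveI hPq := hasPrincipalDivisors_bar (N * q)
  have hFIa : FundamentalIdentityAlong Qb (heckeAlphaBar Qb N q) (heckeAlphaBarIntegral N q) :=
    fundamentalIdentityAlong_heckeAlphaBar N q
  refine ⟨pic0Pull (heckeAlphaBar Qb N q) (heckeAlphaBarIntegral N q) hFIa, ?_,
    pic0Pull_alpha_injective N q hq hqN⟩
  intro σ x
  rw [galois_smul_pic0_def, galois_smul_pic0_def]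
  exact pic0Pull_smul (heckeAlphaBar Qb N q) (heckeAlphaBarIntegral N q) hFIa
    (comm_intertwines_alpha N q σ) x

set_option synthInstance.maxHeartbeats 400000 in
set_option maxHeartbeats 1000000 in
/-- **(INJ), ESJ form**: helper39's level pull-back package (`ESJ.LevelPullback`, task 266) with
kernel killed by `1`: Galois- and Hecke-equivariant and injective. -/
theorem levelPullback_mul_prime_one (N q : ℕ) [NeZero N] (hq : q.Prime) (hqN : ¬ q ∣ N) :
    haveI : NeZero (N * q) := ⟨Nat.mul_ne_zero (NeZero.ne N) hq.ne_zero⟩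
    Fermat.Agent.ESJ.LevelPullback N (N * q) 1 := by
  haveI : NeZero q := ⟨hq.ne_zero⟩
  haveI : NeZero (N * q) := ⟨Nat.mul_ne_zero (NeZero.ne N) hq.ne_zero⟩
  haveI hPq := hasPrincipalDivisors_bar (N * q)
  have hFIa : FundamentalIdentityAlong Qb (heckeAlphaBar Qb N q) (heckeAlphaBarIntegral N q) :=
    fundamentalIdentityAlong_heckeAlphaBar N q
  refine ⟨pic0Pull (heckeAlphaBar Qb N q) (heckeAlphaBarIntegral N q) hFIa, ?_, ?_, ?_⟩
  · intro σ x
    rw [galois_smul_pic0_def, galois_smul_pic0_def]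
    exact pic0Pull_smul (heckeAlphaBar Qb N q) (heckeAlphaBarIntegral N q) hFIa
      (comm_intertwines_alpha N q σ) x
  · intro ℓ hℓ x
    haveI : NeZero (ℓ : ℕ) := ⟨ℓ.2.ne_zero⟩
    have hℓN : ¬ (ℓ : ℕ) ∣ N := fun h => hℓ (Dvd.dvd.mul_right h q)
    rw [heckeOperatorBar_apply, heckeOperatorBar_apply]
    obtain ⟨hα, hβ, hP, hfin, hFI, hN⟩ := heckeInputsAlong_bar N ℓ
    obtain ⟨hα', hβ', hP', hfin', hFI', hN'⟩ := heckeInputsAlong_bar (N * q) ℓ
    haveI := hP
    haveI := hP'
    have e1 := heckeOperatorAlong_eq hα hβ hFI hfin hN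
    have e2 := heckeOperatorAlong_eq hα' hβ' hFI' hfin' hN'
    rw [e1, e2]
    exact pic0Pull_correspondence (heckeAlphaBar Qb N q) (heckeAlphaBar Qb N ℓ)
      (heckeBetaBar Qb N ℓ) (heckeAlphaBar Qb (N * q) ℓ) (heckeBetaBar Qb (N * q) ℓ)
      (LevelPull.incl N q ℓ) (heckeAlphaBarIntegral N q) hα hβ hα' hβ'
      (LevelPull.isIntegral_incl N q ℓ)
      hFIa hFI hfin hN hFI' hfin' hN' (LevelPull.alpha_comp_alpha N q ℓ)
      (LevelPull.beta_comp_alpha N q ℓ)
      (LevelPull.norm_incl N q ℓ ℓ.2 hℓ) (LevelPull.exists_ord_eq_one (N * ℓ)) x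
  · intro x hx
    rw [one_smul]
    exact pic0Pull_alpha_injective N q hq hqN (hx.trans (map_zero _).symm)

end Fermat.Agent.Padic.PullKummer

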