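/-
PADIC — the frozen statement S19 from the four layer statements `DL`, `LOC`, `GR`, `L23`
of `Padic/Defs.lean` (architect: helper20).
-/
import Mathlib
import Fermat.Agent.Padic.Defs
import Fermat.Agent.ESJ.Jac.Main

set_option autoImplicit false

namespace Fermat.Agent.Padic

open ModularCurve AlgebraicCurve

set_option synthInstance.maxHeartbeats 400000

/-- A finite subgroup of `J₀(M)(ℚ̄)` has finite level. -/
theorem exists_level_of_finite {M : ℕ} [NeZero M] (V : AddSubgroup (JZero M)) [Finite V]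
    (hV : ∀ (σ : GQ) (x : JZero M), x ∈ V → σ • x ∈ V) :
    ∃ L : IntermediateField ℚ Qb, FiniteDimensional ℚ L ∧
      ∀ σ : GQ, (∀ x ∈ L, σ x = x) → ∀ v : V, subAct V hV σ v = v := by
  have hn : 0 < Nat.card V := Nat.card_pos
  obtain ⟨L, hL, hfix⟩ := Fermat.Agent.ESJ.torsionFiniteLevel M (Nat.card V) hn
  refine ⟨L, hL, fun σ hσ v => Subtype.ext ?_⟩
  rw [coe_subAct]
  refine hfix σ hσ (v : JZero M) ?_
  rw [Pic0.mem_torsion, natCast_zsmul]
  have h0 : Nat.card V • v = 0 := card_nsmul_eq_zero'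
  have h1 : ((Nat.card V • v : V) : JZero M) = ((0 : V) : JZero M) := by rw [h0]
  rw [AddSubgroup.coe_nsmul, AddSubgroup.coe_zero] at h1
  exact h1

/-- `DL` + `LOC` + good reduction data at one valuation subring give `FlatSubgroups`. -/
theorem flatSubgroups_of (hDL : DL) (hLOC : LOC) (l M : ℕ) [NeZero M] (hl : l.Prime)
    (A : ValuationSubring Qb) (hA : A.LiesOverPrime l) (hG : GoodRed A M) :
    FlatSubgroups l M := by
  intro V hfin hV
  refine hDL l ⟨hl⟩ A hA V inferInstance hfin (subAct V hV) ?_ ?_ ?_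
    (exists_level_of_finite V hV) (hLOC l A M inferInstance hl hA hG V hfin hV)
  · intro v
    exact Subtype.ext (one_smul GQ (v : JZero M))
  · intro σ τ v
    exact Subtype.ext (mul_smul σ τ (v : JZero M))
  · intro σ v w
    exact Subtype.ext (smul_add σ (v : JZero M) (w : JZero M))

/-- The `l^k`-torsion subgroup is Galois-stable. -/
theorem smul_mem_torsionBy {N : ℕ} (a : ℤ) (σ : GQ) (x : JZero N)
    (hx : x ∈ (Submodule.torsionBy ℤ (JZero N) a).toAddSubgroup) :
    σ • x ∈ (Submodule.torsionBy ℤ (JZero N) a).toAddSubgroup := by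
  have hx' : a • x = 0 := (Submodule.mem_torsionBy_iff _ _).mp hx
  refine (Submodule.mem_torsionBy_iff _ _).mpr ?_
  have h := map_zsmul (DistribSMul.toAddMonoidHom (JZero N) σ) a x
  rw [DistribSMul.toAddMonoidHom_apply, DistribSMul.toAddMonoidHom_apply] at h
  rw [← h, hx', smul_zero]

/-- `FlatSubgroups` at level `N` gives the body of S19 at level `N`. -/
theorem flatTorsion_of_flatSubgroups (N l : ℕ) [NeZero N] (hl : l.Prime)
    (h : FlatSubgroups l N) : FlatTorsion N l := by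
  intro k
  have hfin : Finite ((Submodule.torsionBy ℤ (JZero N) ((l : ℤ) ^ k)).toAddSubgroup) := by
    have h1 := Fermat.Agent.ESJ.torsionFinite N (l ^ k) (pow_pos hl.pos k)
    have h2 : (Pic0.torsion (AlgebraicClosure ℚ) (modularFunctionFieldBar N) (l ^ k)) =
        (Submodule.torsionBy ℤ (JZero N) ((l : ℤ) ^ k)).toAddSubgroup := by
      unfold Pic0.torsion
      rw [Nat.cast_pow]
    rw [← h2]
    exact h1.to_subtype
  obtain ⟨H, i1, i2, hf, hflat, hcc, e, hadd, heq⟩ :=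
    h ((Submodule.torsionBy ℤ (JZero N) ((l : ℤ) ^ k)).toAddSubgroup) hfin
      (smul_mem_torsionBy ((l : ℤ) ^ k))
  refine ⟨H, i1, i2, hf, hflat, hcc, e.trans (Equiv.subtypeEquivRight fun _ => Iff.rfl), ?_, ?_⟩
  · intro f g
    apply Subtype.ext
    show ((e (f * g) : ↥((Submodule.torsionBy ℤ (JZero N) ((l : ℤ) ^ k)).toAddSubgroup)) :
      JZero N) = _
    rw [hadd f g]
    rfl
  · intro σ f g hfg
    show ((e g : ↥((Submodule.torsionBy ℤ (JZero N) ((l : ℤ) ^ k)).toAddSubgroup)) :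
      JZero N) = _
    rw [heq σ f g hfg]
    rfl

/-- **S19 from the four layers.** -/
theorem S19_of (hDL : DL) (hLOC : LOC) (hGR : GR) (hL23 : L23)
    (p : ℕ) [NeZero p] (ℓ : ℕ) [Fact ℓ.Prime] (hℓp : ¬ ℓ ∣ p) : FlatTorsion p ℓ := by
  have hℓ : ℓ.Prime := Fact.out
  -- the case where good reduction data exist at level `p`
  have good : ∀ (M : ℕ) [NeZero M], ¬ ℓ ∣ M → (5 ≤ ℓ ∨ (ℓ = 3 ∧ 2 ∣ M) ∨ (ℓ = 2 ∧ 3 ∣ M)) →
      FlatSubgroups ℓ M := by
    intro M _ hM hcase
    obtain ⟨A, hA, hG⟩ := hGR M ℓ inferInstance hℓ hM hcase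
    exact flatSubgroups_of hDL hLOC ℓ M hℓ A hA hG
  by_cases h5 : 5 ≤ ℓ
  · exact flatTorsion_of_flatSubgroups p ℓ hℓ (good p hℓp (Or.inl h5))
  have hlt : ℓ < 5 := Nat.lt_of_not_ge h5
  have h23 : ℓ = 2 ∨ ℓ = 3 := by
    have h2 := hℓ.two_le
    interval_cases ℓ
    · exact Or.inl rfl
    · exact Or.inr rfl
    · exact absurd hℓ (by norm_num)
  rcases h23 with rfl | rfl
  · -- ℓ = 2
    by_cases h3 : 3 ∣ p
    · exact flatTorsion_of_flatSubgroups p 2 hℓ (good p hℓp (Or.inr (Or.inr ⟨rfl, h3⟩)))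
    · have hne : NeZero (p * 3) := ⟨Nat.mul_ne_zero (NeZero.ne p) (by norm_num)⟩
      refine hL23 p 3 2 2 inferInstance Nat.prime_three h3 hℓ (by norm_num) ?_
      refine good (p * 3) ?_ (Or.inr (Or.inr ⟨rfl, dvd_mul_left 3 p⟩))
      intro hdvd
      rcases (Nat.Prime.dvd_mul hℓ).mp hdvd with h | h
      · exact hℓp h
      · exact absurd h (by norm_num)
  · -- ℓ = 3
    by_cases h2 : 2 ∣ p
    · exact flatTorsion_of_flatSubgroups p 3 hℓ (good p hℓp (Or.inr (Or.inl ⟨rfl, h2⟩)))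
    · have hne : NeZero (p * 2) := ⟨Nat.mul_ne_zero (NeZero.ne p) (by norm_num)⟩
      refine hL23 p 2 3 1 inferInstance Nat.prime_two h2 hℓ (by norm_num) ?_
      refine good (p * 2) ?_ (Or.inr (Or.inl ⟨rfl, dvd_mul_left 2 p⟩))
      intro hdvd
      rcases (Nat.Prime.dvd_mul hℓ).mp hdvd with h | h
      · exact hℓp h
      · exact absurd h (by norm_num)

end Fermat.Agent.Padic
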